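/-
Item 77 (S14), piece C1 (helper8): the class group algebra step.
Blueprint: NOTES/S14_blueprint.md (architect helper26).  No sorry in this file.

`exists_unit_or_classFun`: if `α ≠ 0` lies in the `ω²`-eigenspace of `K^×/K^{×p}` and `(α) = 𝔞^p`,
then either `α` is a unit times a `p`-th power, or there is an `ω²`-equivariant class function
`φ` with `φ(I) ≠ 0` for some nonzero ideal `I`.

Proof: WLOG `α ∈ 𝓞 K`, `𝔞` integral.  If `𝔞` is principal we are in the first case.  Otherwise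
`x = [𝔞]` has order `p` and `[σ𝔞] = x^{n_σ}`, `n_σ ≡ ω(σ)²` (torsion-freeness of the ideals).  Let `j`
be maximal with `x = z^{p^j}`, `z = [I_z]`, and `y = ∏_δ [δ I_z]^{m_δ}`, `m_δ ≡ -ω(δ)⁻²`.  Then
`y^{p^j} = x`, so `y` is not a `p`-th power, and some additive `f₀ : Cl → 𝔽_p` has `f₀ y ≠ 0`.
`φ(I) := ∑_δ ω(δ)⁻² f₀[δ I]` is `ω²`-equivariant with `φ(I_z) = -f₀ y ≠ 0`.
Helper lemmas are prefixed `ca_`.
-/
import Mathlib
import Fermat.Agent.S14lib.Defs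

set_option autoImplicit false

namespace Fermat.Agent.S14lib

open NumberField
open scoped Pointwise nonZeroDivisors

noncomputable section

section group

variable {G : Type*} [CommGroup G] [Finite G] (p : ℕ) [hp : Fact p.Prime]

/-- an element of order `p` of a finite commutative group is a `p^j`-th power but not a
`p^(j+1)`-th power, for a suitable `j` -/
lemma ca_exists_max_pow {x : G} (hx1 : x ≠ 1) (hxp : x ^ p = 1) :
    ∃ (j : ℕ) (z : G), z ^ (p ^ j) = x ∧ ∀ w : G, w ^ (p ^ (j + 1)) ≠ x := by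
  by_contra hcon
  have hstep : ∀ j : ℕ, (∃ z : G, z ^ (p ^ j) = x) → ∃ w : G, w ^ (p ^ (j + 1)) = x := by
    intro j ⟨z, hz⟩
    by_contra h
    exact hcon ⟨j, z, hz, fun w hw => h ⟨w, hw⟩⟩
  have hall : ∀ j : ℕ, ∃ z : G, z ^ (p ^ j) = x := by
    intro j
    induction j with
    | zero => exact ⟨x, by simp⟩
    | succ j ih => exact hstep j ih
  obtain ⟨z, hz⟩ := hall (Nat.card G)
  have h1 : z ^ (p ^ (Nat.card G + 1)) = 1 := by
    rw [pow_succ, pow_mul, hz, hxp]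
  have h2 : orderOf z ∣ p ^ (Nat.card G + 1) := orderOf_dvd_of_pow_eq_one h1
  obtain ⟨i, hi, hio⟩ := (Nat.dvd_prime_pow hp.out).mp h2
  rcases Nat.lt_or_ge i (Nat.card G + 1) with hlt | hge
  · apply hx1
    rw [← hz]
    apply orderOf_dvd_iff_pow_eq_one.mp
    rw [hio]
    exact pow_dvd_pow p (Nat.lt_succ_iff.mp hlt)
  · have hi' : i = Nat.card G + 1 := le_antisymm hi hge
    have h3 : orderOf z ≤ Nat.card G := orderOf_le_card
    rw [hio, hi'] at h3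
    have h4 : Nat.card G + 1 < p ^ (Nat.card G + 1) := Nat.lt_pow_self hp.out.one_lt
    omega

omit [Finite G] in
/-- a nonzero vector of an `𝔽_p`-vector space is detected by an additive function -/
lemma ca_exists_add_fun {V : Type*} [AddCommGroup V] [Module (ZMod p) V] {y : V} (hy : y ≠ 0) :
    ∃ f : V → ZMod p, (∀ a b : V, f (a + b) = f a + f b) ∧ f y ≠ 0 := by
  obtain ⟨φ, hφ⟩ : ∃ φ : V →ₗ[ZMod p] ZMod p, φ y ≠ 0 := by
    by_contra hcon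
    push Not at hcon
    exact hy ((Module.forall_dual_apply_eq_zero_iff (ZMod p) _).mp hcon)
  exact ⟨fun v => φ v, fun a b => map_add φ a b, hφ⟩

omit [Finite G] in
/-- a non-`p`-th power of a commutative group is detected by an additive function to
`ZMod p` -/
lemma ca_exists_hom {y : G} (hy : ∀ w : G, w ^ p ≠ y) :
    ∃ f : G → ZMod p, (∀ a b : G, f (a * b) = f a + f b) ∧ f y ≠ 0 := by
  classical
  set H : Subgroup G := (powMonoidHom p : G →* G).range with hH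
  have hkill : ∀ q : Additive (G ⧸ H), p • q = 0 := by
    intro q
    obtain ⟨g, rfl⟩ := QuotientGroup.mk_surjective (Additive.toMul q)
    show Additive.ofMul ((QuotientGroup.mk g : G ⧸ H) ^ p) = 0
    rw [← QuotientGroup.mk_pow]
    have : (QuotientGroup.mk (g ^ p) : G ⧸ H) = 1 := by
      rw [QuotientGroup.eq_one_iff]
      exact ⟨g, rfl⟩
    rw [this]
    rfl
  letI inst : Module (ZMod p) (Additive (G ⧸ H)) := AddCommGroup.zmodModule hkill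
  have hne : (Additive.ofMul (QuotientGroup.mk y : G ⧸ H)) ≠ 0 := by
    intro h
    have h' : (QuotientGroup.mk y : G ⧸ H) = 1 := h
    rw [QuotientGroup.eq_one_iff] at h'
    obtain ⟨w, hw⟩ := h'
    exact hy w hw
  obtain ⟨f, hf, hfy⟩ := ca_exists_add_fun p hne
  refine ⟨fun g => f (Additive.ofMul (QuotientGroup.mk g : G ⧸ H)), ?_, hfy⟩
  intro a b
  show f (Additive.ofMul (QuotientGroup.mk (a * b) : G ⧸ H)) = _
  rw [QuotientGroup.mk_mul, ofMul_mul, hf]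

end group


section ideals

variable {K : Type*} [Field K] [NumberField K]

lemma ca_coe_smul (σ : K ≃ₐ[ℚ] K) (y : 𝓞 K) : ((σ • y : 𝓞 K) : K) = σ (y : K) := rfl

lemma ca_smul_span (σ : K ≃ₐ[ℚ] K) (x : 𝓞 K) :
    σ • Ideal.span {x} = Ideal.span {σ • x} := by
  rw [Ideal.pointwise_smul_def, Ideal.map_span, Set.image_singleton]
  rfl

lemma ca_smul_mul (σ : K ≃ₐ[ℚ] K) (I J : Ideal (𝓞 K)) : σ • (I * J) = σ • I * σ • J := by
  rw [Ideal.pointwise_smul_def, Ideal.pointwise_smul_def, Ideal.pointwise_smul_def, Ideal.map_mul]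

lemma ca_smul_pow (σ : K ≃ₐ[ℚ] K) (I : Ideal (𝓞 K)) (n : ℕ) : σ • (I ^ n) = (σ • I) ^ n := by
  rw [Ideal.pointwise_smul_def, Ideal.pointwise_smul_def, Ideal.map_pow]

lemma ca_smul_bot (σ : K ≃ₐ[ℚ] K) : σ • (⊥ : Ideal (𝓞 K)) = ⊥ := by
  rw [Ideal.pointwise_smul_def, Ideal.map_bot]

lemma ca_smul_ne_bot (σ : K ≃ₐ[ℚ] K) {I : Ideal (𝓞 K)} (hI : I ≠ ⊥) : σ • I ≠ ⊥ := by
  intro h
  apply hI
  have := congrArg (fun J => σ⁻¹ • J) h
  simpa [ca_smul_bot] using this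

/-- the class of an ideal (`1` for the zero ideal) -/
def ca_cl (I : Ideal (𝓞 K)) : ClassGroup (𝓞 K) :=
  letI := Classical.propDecidable
  if h : I = ⊥ then 1 else ClassGroup.mk0 ⟨I, mem_nonZeroDivisors_of_ne_zero h⟩

lemma ca_cl_of_ne {I : Ideal (𝓞 K)} (hI : I ≠ ⊥) :
    ca_cl I = ClassGroup.mk0 ⟨I, mem_nonZeroDivisors_of_ne_zero hI⟩ := by
  rw [ca_cl, dif_neg hI]

lemma ca_cl_mul {I J : Ideal (𝓞 K)} (hI : I ≠ ⊥) (hJ : J ≠ ⊥) :
    ca_cl (I * J) = ca_cl I * ca_cl J := by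
  rw [ca_cl_of_ne hI, ca_cl_of_ne hJ, ca_cl_of_ne (mul_ne_zero hI hJ), ← map_mul]
  rfl

lemma ca_cl_pow {I : Ideal (𝓞 K)} (hI : I ≠ ⊥) (n : ℕ) : ca_cl (I ^ n) = ca_cl I ^ n := by
  rw [ca_cl_of_ne hI, ca_cl_of_ne (pow_ne_zero n hI), ← map_pow]
  rfl

lemma ca_cl_eq_one_iff {I : Ideal (𝓞 K)} (hI : I ≠ ⊥) :
    ca_cl I = 1 ↔ Submodule.IsPrincipal I := by
  rw [ca_cl_of_ne hI]
  exact ClassGroup.mk0_eq_one_iff _

lemma ca_cl_span {x : 𝓞 K} (hx : x ≠ 0) : ca_cl (Ideal.span {x}) = 1 := by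
  have h : Ideal.span {x} ≠ ⊥ := by
    rw [Ne, Ideal.span_singleton_eq_bot]
    exact hx
  rw [ca_cl_eq_one_iff h]
  exact ⟨⟨x, rfl⟩⟩

lemma ca_cl_eq_iff {I J : Ideal (𝓞 K)} (hI : I ≠ ⊥) (hJ : J ≠ ⊥) :
    ca_cl I = ca_cl J ↔
      ∃ x y : 𝓞 K, x ≠ 0 ∧ y ≠ 0 ∧ Ideal.span {x} * I = Ideal.span {y} * J := by
  rw [ca_cl_of_ne hI, ca_cl_of_ne hJ, ClassGroup.mk0_eq_mk0_iff]
  constructor
  · rintro ⟨x, y, hx, hy, h⟩
    exact ⟨x, y, hx, hy, h⟩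
  · rintro ⟨x, y, hx, hy, h⟩
    exact ⟨x, y, hx, hy, h⟩

lemma ca_cl_exists (c : ClassGroup (𝓞 K)) : ∃ I : Ideal (𝓞 K), I ≠ ⊥ ∧ ca_cl I = c := by
  obtain ⟨⟨I, hI⟩, rfl⟩ := ClassGroup.mk0_surjective c
  have hI' : I ≠ ⊥ := nonZeroDivisors.ne_zero hI
  exact ⟨I, hI', ca_cl_of_ne hI'⟩

lemma ca_smul_ne_zero (σ : K ≃ₐ[ℚ] K) {x : 𝓞 K} (hx : x ≠ 0) : σ • x ≠ 0 := by
  intro h
  apply hx
  have := congrArg (fun y => σ⁻¹ • y) h
  simpa using this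

lemma ca_cl_smul_congr (σ : K ≃ₐ[ℚ] K) {I J : Ideal (𝓞 K)} (hI : I ≠ ⊥) (hJ : J ≠ ⊥)
    (h : ca_cl I = ca_cl J) : ca_cl (σ • I) = ca_cl (σ • J) := by
  obtain ⟨x, y, hx, hy, hxy⟩ := (ca_cl_eq_iff hI hJ).mp h
  rw [ca_cl_eq_iff (ca_smul_ne_bot σ hI) (ca_smul_ne_bot σ hJ)]
  refine ⟨σ • x, σ • y, ca_smul_ne_zero σ hx, ca_smul_ne_zero σ hy, ?_⟩
  rw [← ca_smul_span, ← ca_smul_span, ← ca_smul_mul, ← ca_smul_mul, hxy]

/-- torsion-freeness of the monoid of ideals -/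
lemma ca_ideal_pow_inj {I J : Ideal (𝓞 K)} {n : ℕ} (hn : n ≠ 0) (h : I ^ n = J ^ n) : I = J := by
  have h1 : I ∣ J := (UniqueFactorizationMonoid.pow_dvd_pow_iff_dvd hn).mp (h ▸ dvd_refl _)
  have h2 : J ∣ I := (UniqueFactorizationMonoid.pow_dvd_pow_iff_dvd hn).mp (h ▸ dvd_refl _)
  exact dvd_antisymm h1 h2

end ideals


section integral

variable {K : Type*} [Field K] [NumberField K]

/-- integral form of `IsPthPowerIdeal` -/
lemma ca_integral (p : ℕ) (hp : p ≠ 0) {α : K} (hα : α ≠ 0) (h2 : IsPthPowerIdeal p α) :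
    ∃ (a α' : 𝓞 K) (𝔞 : Ideal (𝓞 K)), a ≠ 0 ∧ α' ≠ 0 ∧ 𝔞 ≠ ⊥ ∧
      (α' : K) = (a : K) ^ p * α ∧ Ideal.span {α'} = 𝔞 ^ p := by
  obtain ⟨I, hI⟩ := h2
  obtain ⟨a, 𝔞, ha, hIeq⟩ := FractionalIdeal.exists_eq_spanSingleton_mul I
  have ha' : (algebraMap (𝓞 K) K a) ≠ 0 := by
    rw [Ne, map_eq_zero_iff _ (IsFractionRing.injective (𝓞 K) K)]
    exact ha
  have h1 : FractionalIdeal.spanSingleton (𝓞 K)⁰ ((algebraMap (𝓞 K) K a) ^ p * α)
      = ((𝔞 ^ p : Ideal (𝓞 K)) : FractionalIdeal (𝓞 K)⁰ K) := by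
    rw [← FractionalIdeal.spanSingleton_mul_spanSingleton, hI, hIeq, mul_pow,
      FractionalIdeal.spanSingleton_pow, FractionalIdeal.coeIdeal_pow, ← mul_assoc,
      FractionalIdeal.spanSingleton_mul_spanSingleton, ← mul_pow, mul_inv_cancel₀ ha', one_pow,
      FractionalIdeal.spanSingleton_one, one_mul]
  have h2 : (algebraMap (𝓞 K) K a) ^ p * α ∈
      ((𝔞 ^ p : Ideal (𝓞 K)) : FractionalIdeal (𝓞 K)⁰ K) := by
    rw [← h1]
    exact FractionalIdeal.mem_spanSingleton_self _ _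
  obtain ⟨α', hα'mem, hα'⟩ := (FractionalIdeal.mem_coeIdeal _).mp h2
  have hα'0 : α' ≠ 0 := by
    rintro rfl
    rw [map_zero] at hα'
    exact mul_ne_zero (pow_ne_zero p ha') hα hα'.symm
  have h3 : Ideal.span {α'} = 𝔞 ^ p := by
    apply FractionalIdeal.coeIdeal_injective (K := K)
    show ((Ideal.span {α'} : Ideal (𝓞 K)) : FractionalIdeal (𝓞 K)⁰ K) = _
    rw [FractionalIdeal.coeIdeal_span_singleton, hα', h1]
  refine ⟨a, α', 𝔞, ha, hα'0, ?_, hα', h3⟩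
  rintro rfl
  rw [← Ideal.zero_eq_bot, zero_pow hp, Ideal.zero_eq_bot, Ideal.span_singleton_eq_bot] at h3
  exact hα'0 h3

end integral


section cyc

variable {p : ℕ} [hp : Fact p.Prime]
variable {K : Type*} [Field K] [NumberField K]
variable {ζ : K} (hζ : IsPrimitiveRoot ζ p)

lemma ca_omg_ne_zero (σ : K ≃ₐ[ℚ] K) : omg hζ σ ≠ 0 := by
  haveI : NeZero p := ⟨hp.out.ne_zero⟩
  unfold omg
  exact Units.ne_zero _

lemma ca_omg_mul (σ τ : K ≃ₐ[ℚ] K) : omg hζ (σ * τ) = omg hζ σ * omg hζ τ := by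
  haveI : NeZero p := ⟨hp.out.ne_zero⟩
  unfold omg
  rw [map_mul, Units.val_mul]

lemma ca_cast_omgSq (σ : K ≃ₐ[ℚ] K) : ((omgSq hζ σ : ℕ) : ZMod p) = omg hζ σ ^ 2 := by
  haveI : NeZero p := ⟨hp.out.ne_zero⟩
  unfold omgSq
  rw [Nat.cast_pow, ZMod.natCast_zmod_val]

/-- the weight `m_δ ≡ -ω(δ)⁻²` -/
def ca_m (δ : K ≃ₐ[ℚ] K) : ℕ := (-((omg hζ δ)⁻¹ ^ 2)).val

lemma ca_cast_m (δ : K ≃ₐ[ℚ] K) : ((ca_m hζ δ : ℕ) : ZMod p) = -((omg hζ δ)⁻¹ ^ 2) := by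
  haveI : NeZero p := ⟨hp.out.ne_zero⟩
  unfold ca_m
  rw [ZMod.natCast_zmod_val]

variable [IsCyclotomicExtension {p} ℚ K]

variable (p K) in
lemma ca_card_aut : Fintype.card (K ≃ₐ[ℚ] K) = p - 1 := by
  haveI : NeZero p := ⟨hp.out.ne_zero⟩
  have e := IsCyclotomicExtension.autEquivPow K (Polynomial.cyclotomic.irreducible_rat hp.out.pos)
  rw [Fintype.card_congr e.toEquiv, ZMod.card_units_eq_totient, Nat.totient_prime hp.out]

lemma ca_sum_weights :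
    ((∑ δ : K ≃ₐ[ℚ] K, omgSq hζ δ * ca_m hζ δ : ℕ) : ZMod p) = 1 := by
  haveI : NeZero p := ⟨hp.out.ne_zero⟩
  rw [Nat.cast_sum]
  have h : ∀ δ : K ≃ₐ[ℚ] K, ((omgSq hζ δ * ca_m hζ δ : ℕ) : ZMod p) = -1 := by
    intro δ
    rw [Nat.cast_mul, ca_cast_omgSq, ca_cast_m, mul_neg, ← mul_pow,
      mul_inv_cancel₀ (ca_omg_ne_zero hζ δ), one_pow]
  rw [Finset.sum_congr rfl (fun δ _ => h δ), Finset.sum_const, Finset.card_univ, ca_card_aut p K,
    nsmul_eq_mul, Nat.cast_sub hp.out.one_le, Nat.cast_one, ZMod.natCast_self]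
  ring

end cyc


section main

variable {K : Type*} [Field K] [NumberField K]

omit [NumberField K] in
/-- the principal case -/
lemma ca_principal_case (p : ℕ) {α : K} {a α' g : 𝓞 K} (ha : a ≠ 0)
    (hα' : (α' : K) = (a : K) ^ p * α) (h : Ideal.span {α'} = Ideal.span {g} ^ p) :
    ∃ (u : (𝓞 K)ˣ) (γ : K), α = (u : K) * γ ^ p := by
  rw [Ideal.span_singleton_pow, Ideal.span_singleton_eq_span_singleton] at h
  obtain ⟨u, hu⟩ := h
  have ha' : (a : K) ≠ 0 := by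
    rw [Ne, RingOfIntegers.coe_eq_zero_iff]
    exact ha
  have hu' : (α' : K) * ((u : 𝓞 K) : K) = (g : K) ^ p := by
    rw [← map_mul (algebraMap (𝓞 K) K) α' (u : 𝓞 K), hu, map_pow]
  have hu0 : ((u : 𝓞 K) : K) ≠ 0 := by
    rw [Ne, RingOfIntegers.coe_eq_zero_iff]
    exact u.ne_zero
  have huinv : (((u⁻¹ : (𝓞 K)ˣ) : 𝓞 K) : K) = (((u : 𝓞 K) : K))⁻¹ := by
    apply eq_inv_of_mul_eq_one_left
    rw [← map_mul (algebraMap (𝓞 K) K), Units.inv_mul, map_one]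
  refine ⟨u⁻¹, (g : K) / (a : K), ?_⟩
  show α = (((u⁻¹ : (𝓞 K)ˣ) : 𝓞 K) : K) * ((g : K) / (a : K)) ^ p
  rw [huinv, div_pow, ← hu', hα']
  field_simp

/-- the eigen-relation for the class of `𝔞` -/
lemma ca_eigen (p : ℕ) (hp : p ≠ 0) {α : K} {a α' : 𝓞 K} {𝔞 : Ideal (𝓞 K)}
    (ha : a ≠ 0) (h𝔞 : 𝔞 ≠ ⊥)
    (hα' : (α' : K) = (a : K) ^ p * α) (hspan : Ideal.span {α'} = 𝔞 ^ p)
    (σ : K ≃ₐ[ℚ] K) (n : ℕ) (γ : K) (hγ : γ ≠ 0) (hσ : σ α = α ^ n * γ ^ p) :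
    ca_cl (σ • 𝔞) = ca_cl 𝔞 ^ n := by
  obtain ⟨c, d, hd, rfl⟩ := IsFractionRing.div_surjective (A := 𝓞 K) γ
  have hd0 : d ≠ 0 := nonZeroDivisors.ne_zero hd
  have hd' : (algebraMap (𝓞 K) K d) ≠ 0 := by
    rw [Ne, map_eq_zero_iff _ (IsFractionRing.injective (𝓞 K) K)]
    exact hd0
  have hc0 : c ≠ 0 := by
    rintro rfl
    rw [map_zero, zero_div] at hγ
    exact hγ rfl
  have ha' : (a : K) ≠ 0 := by
    rw [Ne, RingOfIntegers.coe_eq_zero_iff]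
    exact ha
  have key : (σ • α') * (a ^ n * d) ^ p = α' ^ n * ((σ • a) * c) ^ p := by
    apply RingOfIntegers.coe_injective
    show (algebraMap (𝓞 K) K) ((σ • α') * (a ^ n * d) ^ p)
      = (algebraMap (𝓞 K) K) (α' ^ n * ((σ • a) * c) ^ p)
    rw [map_mul, map_mul, map_pow, map_pow, map_pow, map_mul, map_mul, map_pow]
    have e1 : (algebraMap (𝓞 K) K) (σ • α') = σ ((a : K) ^ p * α) := by
      rw [← hα']
      rfl
    have e2 : (algebraMap (𝓞 K) K) (σ • a) = σ (a : K) := rfl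
    rw [e1, e2, map_mul, map_pow, hσ]
    have e3 : (algebraMap (𝓞 K) K) α' = (a : K) ^ p * α := hα'
    rw [e3]
    show σ (a : K) ^ p * ((α ^ n) * (algebraMap (𝓞 K) K c / algebraMap (𝓞 K) K d) ^ p)
      * ((a : K) ^ n * algebraMap (𝓞 K) K d) ^ p
      = ((a : K) ^ p * α) ^ n * (σ (a : K) * algebraMap (𝓞 K) K c) ^ p
    rw [div_pow, mul_pow, mul_pow, mul_pow]
    have hdp : (algebraMap (𝓞 K) K d) ^ p ≠ 0 := pow_ne_zero p hd'
    field_simp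
    ring
  have h1 : ((σ • 𝔞) * Ideal.span {a ^ n * d}) ^ p
      = (𝔞 ^ n * Ideal.span {(σ • a) * c}) ^ p := by
    rw [mul_pow, mul_pow, ← ca_smul_pow, ← hspan, ca_smul_span, Ideal.span_singleton_pow,
      Ideal.span_singleton_mul_span_singleton, key, ← pow_mul, mul_comm n p, pow_mul, ← hspan,
      Ideal.span_singleton_pow, Ideal.span_singleton_pow,
      Ideal.span_singleton_mul_span_singleton]
  have h2 := ca_ideal_pow_inj hp h1
  have h3 := congrArg ca_cl h2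
  have hs1 : Ideal.span {a ^ n * d} ≠ (⊥ : Ideal (𝓞 K)) := by
    rw [Ne, Ideal.span_singleton_eq_bot]
    exact mul_ne_zero (pow_ne_zero n ha) hd0
  have hs2 : Ideal.span {(σ • a) * c} ≠ (⊥ : Ideal (𝓞 K)) := by
    rw [Ne, Ideal.span_singleton_eq_bot]
    exact mul_ne_zero (ca_smul_ne_zero σ ha) hc0
  rw [ca_cl_mul (ca_smul_ne_bot σ h𝔞) hs1, ca_cl_mul (pow_ne_zero n h𝔞) hs2,
    ca_cl_span (mul_ne_zero (pow_ne_zero n ha) hd0),
    ca_cl_span (mul_ne_zero (ca_smul_ne_zero σ ha) hc0), mul_one, mul_one, ca_cl_pow h𝔞] at h3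
  exact h3

end main

section addfun

variable {p : ℕ} {G : Type*} [CommGroup G] {f : G → ZMod p}

lemma ca_add_fun_one (hf : ∀ a b : G, f (a * b) = f a + f b) : f 1 = 0 := by
  have h := hf 1 1
  rw [mul_one] at h
  exact left_eq_add.mp h

lemma ca_add_fun_pow (hf : ∀ a b : G, f (a * b) = f a + f b) (g : G) (n : ℕ) :
    f (g ^ n) = (n : ZMod p) * f g := by
  induction n with
  | zero => rw [pow_zero, ca_add_fun_one hf, Nat.cast_zero, zero_mul]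
  | succ n ih => rw [pow_succ, hf, ih, Nat.cast_succ, add_mul, one_mul]

lemma ca_add_fun_prod (hf : ∀ a b : G, f (a * b) = f a + f b) {ι : Type*} (s : Finset ι)
    (g : ι → G) : f (∏ i ∈ s, g i) = ∑ i ∈ s, f (g i) := by
  classical
  induction s using Finset.induction_on with
  | empty => rw [Finset.prod_empty, Finset.sum_empty, ca_add_fun_one hf]
  | insert i s hi ih => rw [Finset.prod_insert hi, Finset.sum_insert hi, hf, ih]

end addfun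

section final

variable {p : ℕ} [hp : Fact p.Prime]
variable {K : Type*} [Field K] [NumberField K]
variable {ζ : K} (hζ : IsPrimitiveRoot ζ p)

/-- the `ω²`-projection of an additive function on the class group, as a function on ideals -/
def ca_phi (f₀ : ClassGroup (𝓞 K) → ZMod p) (I : Ideal (𝓞 K)) : ZMod p :=
  ∑ δ : K ≃ₐ[ℚ] K, ((omg hζ δ)⁻¹) ^ 2 * f₀ (ca_cl (δ • I))

/-- the class function attached to an additive function on the class group -/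
def ca_classFun (f₀ : ClassGroup (𝓞 K) → ZMod p)
    (hf₀ : ∀ a b : ClassGroup (𝓞 K), f₀ (a * b) = f₀ a + f₀ b) : ClassFun hζ where
  toFun := ca_phi hζ f₀
  map_mul := by
    intro I J hI hJ
    unfold ca_phi
    rw [← Finset.sum_add_distrib]
    refine Finset.sum_congr rfl fun δ _ => ?_
    rw [ca_smul_mul, ca_cl_mul (ca_smul_ne_bot δ hI) (ca_smul_ne_bot δ hJ), hf₀, mul_add]
  map_span := by
    intro x hx
    unfold ca_phi
    refine Finset.sum_eq_zero fun δ _ => ?_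
    rw [ca_smul_span, ca_cl_span (ca_smul_ne_zero δ hx), ca_add_fun_one hf₀, mul_zero]
  map_smul := by
    intro σ I _
    unfold ca_phi
    rw [Finset.mul_sum]
    refine Fintype.sum_equiv (Equiv.mulRight σ) _ _ fun δ => ?_
    show (omg hζ δ)⁻¹ ^ 2 * f₀ (ca_cl (δ • σ • I))
      = omg hζ σ ^ 2 * ((omg hζ (δ * σ))⁻¹ ^ 2 * f₀ (ca_cl ((δ * σ) • I)))
    rw [mul_smul, ca_omg_mul, mul_inv, mul_pow, ← mul_assoc, ← mul_assoc,
      mul_comm (omg hζ σ ^ 2), mul_assoc ((omg hζ δ)⁻¹ ^ 2), ← mul_pow,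
      mul_inv_cancel₀ (ca_omg_ne_zero hζ σ), one_pow, mul_one]

variable [IsCyclotomicExtension {p} ℚ K]

/-- **C1.** Either `α` is a unit times a `p`-th power, or there is a nonzero `ω²`-equivariant
class function. -/
theorem exists_unit_or_classFun (hp5 : 5 ≤ p) (α : K) (hα : α ≠ 0) (h1 : IsOmegaSq hζ α)
    (h2 : IsPthPowerIdeal p α) :
    (∃ (u : (𝓞 K)ˣ) (γ : K), α = (u : K) * γ ^ p) ∨
      ∃ (φ : ClassFun hζ) (I : Ideal (𝓞 K)), I ≠ ⊥ ∧ φ.toFun I ≠ 0 := by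
  have hp0 : p ≠ 0 := hp.out.ne_zero
  obtain ⟨a, α', 𝔞, ha, hα'0, h𝔞, hα', hspan⟩ := ca_integral p hp0 hα h2
  by_cases hprin : Submodule.IsPrincipal 𝔞
  · left
    obtain ⟨g, hg⟩ := hprin.principal
    refine ca_principal_case p (g := g) ha hα' ?_
    rw [hspan, hg]
  · right
    have hx1 : ca_cl 𝔞 ≠ 1 := fun h => hprin ((ca_cl_eq_one_iff h𝔞).mp h)
    have hxp : ca_cl 𝔞 ^ p = 1 := by
      rw [← ca_cl_pow h𝔞, ← hspan, ca_cl_span hα'0]
    have heig : ∀ σ : K ≃ₐ[ℚ] K, ca_cl (σ • 𝔞) = ca_cl 𝔞 ^ omgSq hζ σ := by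
      intro σ
      obtain ⟨γ, hγ, hσ⟩ := h1 σ
      exact ca_eigen p hp0 ha h𝔞 hα' hspan σ _ γ hγ hσ
    obtain ⟨j, z, hz, hmax⟩ := ca_exists_max_pow p hx1 hxp
    obtain ⟨Iz, hIz, hIzz⟩ := ca_cl_exists z
    have hterm : ∀ δ : K ≃ₐ[ℚ] K, (ca_cl (δ • Iz) ^ ca_m hζ δ) ^ (p ^ j)
        = ca_cl 𝔞 ^ (omgSq hζ δ * ca_m hζ δ) := by
      intro δ
      have hc : ca_cl (Iz ^ (p ^ j)) = ca_cl 𝔞 := by
        rw [ca_cl_pow hIz, hIzz, hz]
      rw [← pow_mul, mul_comm, pow_mul, ← ca_cl_pow (ca_smul_ne_bot δ hIz), ← ca_smul_pow,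
        ca_cl_smul_congr δ (pow_ne_zero _ hIz) h𝔞 hc, heig δ, ← pow_mul]
    have hypow : (∏ δ : K ≃ₐ[ℚ] K, ca_cl (δ • Iz) ^ ca_m hζ δ) ^ (p ^ j) = ca_cl 𝔞 := by
      rw [← Finset.prod_pow, Finset.prod_congr rfl (fun δ _ => hterm δ),
        Finset.prod_pow_eq_pow_sum, pow_eq_pow_mod _ hxp]
      have h := ca_sum_weights hζ
      rw [← Nat.cast_one (R := ZMod p), ZMod.natCast_eq_natCast_iff'] at h
      rw [h, Nat.mod_eq_of_lt hp.out.one_lt, pow_one]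
    have hynot : ∀ w : ClassGroup (𝓞 K),
        w ^ p ≠ ∏ δ : K ≃ₐ[ℚ] K, ca_cl (δ • Iz) ^ ca_m hζ δ := by
      intro w hw
      apply hmax w
      rw [pow_succ', pow_mul, hw, hypow]
    obtain ⟨f₀, hf₀, hf₀y⟩ := ca_exists_hom p hynot
    refine ⟨ca_classFun hζ f₀ hf₀, Iz, hIz, ?_⟩
    show ca_phi hζ f₀ Iz ≠ 0
    have hrel : f₀ (∏ δ : K ≃ₐ[ℚ] K, ca_cl (δ • Iz) ^ ca_m hζ δ) = - ca_phi hζ f₀ Iz := by
      rw [ca_add_fun_prod hf₀]
      unfold ca_phi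
      rw [← Finset.sum_neg_distrib]
      refine Finset.sum_congr rfl fun δ _ => ?_
      rw [ca_add_fun_pow hf₀, ca_cast_m, neg_mul]
    intro h0
    apply hf₀y
    rw [hrel, h0, neg_zero]

end final

end

end Fermat.Agent.S14lib
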