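import Mathlib
import Fermat.Agent.Kummer.KummerIndep

/-!
# S14 (item 77): common definitions for the route without class field theory

`NOTES/S14_blueprint.md` (architect helper26).  `K = ℚ(ζ_p)`, `Δ = Gal(K/ℚ)`, `ω : Δ → 𝔽_p^×` the
cyclotomic character (`hζ.autToPow ℚ`).

* `omg hζ σ : ZMod p` — the cyclotomic character as an element of `ZMod p`;
* `omgSq hζ σ : ℕ` — a natural number lifting `ω(σ)²`;
* `IsOmegaSq hζ α` — `α` lies in the `ω²`-eigenspace of `K^× / K^{×p}`;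
* `IsPthPowerIdeal α` — the principal fractional ideal `(α)` is a `p`-th power;
* `IsLocalPthPower hζ α` — up to a `p`-th power of `K^×`, `α` is a `π`-unit congruent to a `p`-th
  power modulo `π³`, `π = ζ - 1` (v2: with the conjunct `¬ π ∣ a`);
* `ClassFun hζ` — an `ω²`-equivariant additive function on the nonzero ideals of `𝓞 K` with values
  in `ZMod p` which kills the principal ideals (a homomorphism `Cl(K) → 𝔽_p` in the
  `ω²`-eigenspace);
* `eta hζ : (𝓞 K)ˣ` — the cyclotomic unit `∏_b ((1 - ζ^b)/(1 - ζ))^{m_b}`, `m_b ≡ b⁻² mod p`, which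
  lies in the `ω²`-eigenspace of `E / E^p`.
-/

set_option autoImplicit false

namespace Fermat.Agent.S14lib

open NumberField Fermat.Agent.Kummer.KL
open scoped Pointwise

variable {p : ℕ} [hp : Fact p.Prime]
variable {K : Type*} [Field K] [NumberField K] [IsCyclotomicExtension {p} ℚ K]
variable {ζ : K} (hζ : IsPrimitiveRoot ζ p)

/-- The mod-`p` cyclotomic character of `Gal(K/ℚ)`, as an element of `ZMod p`: `σ ζ = ζ ^ ω(σ)`. -/
noncomputable def omg (σ : K ≃ₐ[ℚ] K) : ZMod p :=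
  haveI : NeZero p := ⟨hp.out.ne_zero⟩
  ((hζ.autToPow ℚ σ : (ZMod p)ˣ) : ZMod p)

/-- A natural number lifting `ω(σ)²`. -/
noncomputable def omgSq (σ : K ≃ₐ[ℚ] K) : ℕ := (omg hζ σ).val ^ 2

/-- `α` lies in the `ω²`-eigenspace of `K^× / K^{×p}`: `σ α = α ^ (ω(σ)²) · γ ^ p`. -/
def IsOmegaSq (α : K) : Prop :=
  ∀ σ : K ≃ₐ[ℚ] K, ∃ γ : K, γ ≠ 0 ∧ σ α = α ^ omgSq hζ σ * γ ^ p

/-- The principal fractional ideal `(α)` is the `p`-th power of a fractional ideal. -/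
def IsPthPowerIdeal (p : ℕ) (α : K) : Prop :=
  ∃ I : FractionalIdeal (nonZeroDivisors (𝓞 K)) K, FractionalIdeal.spanSingleton _ α = I ^ p

/-- Up to a `p`-th power of `K^×`, `α` is a `π`-unit which is congruent to a `p`-th power modulo
`π³` (`π = ζ - 1`): `α = x^p · a / b` with `π ∤ a`, `π ∤ b` and `a ≡ b · y^p mod π³`.
(The conjunct `π ∤ a` is essential: without it the condition is empty — helper27.) -/
def IsLocalPthPower (α : K) : Prop :=
  ∃ (x : K) (a b y : 𝓞 K), x ≠ 0 ∧ ¬ (hζ.toInteger - 1) ∣ a ∧ ¬ (hζ.toInteger - 1) ∣ b ∧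
    α * (b : K) = x ^ p * (a : K) ∧ (hζ.toInteger - 1) ^ 3 ∣ a - b * y ^ p

/-- An `ω²`-equivariant additive function on the nonzero ideals of `𝓞 K` with values in `ZMod p`
killing the principal ideals. -/
structure ClassFun where
  /-- the function -/
  toFun : Ideal (𝓞 K) → ZMod p
  map_mul : ∀ I J : Ideal (𝓞 K), I ≠ ⊥ → J ≠ ⊥ → toFun (I * J) = toFun I + toFun J
  map_span : ∀ x : 𝓞 K, x ≠ 0 → toFun (Ideal.span {x}) = 0
  map_smul : ∀ (σ : K ≃ₐ[ℚ] K) (I : Ideal (𝓞 K)), I ≠ ⊥ →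
    toFun (σ • I) = omg hζ σ ^ 2 * toFun I

/-- The exponent `m_b ≡ b⁻² mod p`. -/
noncomputable def etaExp (p : ℕ) (b : ℕ) : ℕ := (((b : ZMod p))⁻¹ ^ 2).val

/-- The cyclotomic unit `η = ∏_{b=1}^{p-1} ((1 - ζ^b)/(1 - ζ))^{m_b}`, `m_b ≡ b⁻² mod p`. -/
noncomputable def eta : (𝓞 K)ˣ :=
  ∏ b ∈ Finset.Ico 1 p, cycUnit hζ b ^ etaExp p b

end Fermat.Agent.S14lib
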