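import Mathlib
import Fermat.Agent.S14lib.Defs

/-!
# S14 (item 77), piece C6: assembly of the arithmetic core, from the statements of the pieces

`core_of` proves `∃ β, α = β ^ p` from the properties of `α` produced by the wiring (W) and the
statements of the pieces C1 (class group algebra), C2 (Thaine), C3a, C3b (local computation),
C4 (units) and D (density), all taken as hypotheses for the fixed primitive root `ζ`.
-/

set_option autoImplicit false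

namespace Fermat.Agent.S14lib

open NumberField Fermat.Agent.Kummer.KL
open scoped Pointwise

variable {p : ℕ} [hp : Fact p.Prime]
variable {K : Type*} [Field K] [NumberField K] [IsCyclotomicExtension {p} ℚ K]
variable {ζ : K} (hζ : IsPrimitiveRoot ζ p)

/-- `p • x = 0` in the truncated polynomial ring over `𝔽_p`. -/
theorem core_nsmul_truncRing (x : TruncRing p) : p • x = 0 := by
  rw [nsmul_eq_mul, natCast_self_eq_zero_of_algebra p (TruncRing p), zero_mul]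

/-- The logarithmic derivative kills `p`-th powers. -/
theorem core_dlog_pow_p (hp3 : 3 ≤ p) (e : (𝓞 K)ˣ) :
    dlog hζ hp3 (Additive.ofMul (e ^ p)) = 0 := by
  rw [ofMul_pow, map_nsmul]
  exact core_nsmul_truncRing _

omit [NumberField K] [IsCyclotomicExtension {p} ℚ K] in
/-- If a unit is a `p`-th power in `K`, it is a `p`-th power of a unit. -/
theorem core_unit_pow_of_field_pow (u : (𝓞 K)ˣ) (y : K) (hy : ((u : 𝓞 K) : K) = y ^ p) :
    ∃ e : (𝓞 K)ˣ, u = e ^ p := by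
  have hp0 : 0 < p := hp.out.pos
  have hyint : IsIntegral ℤ y := by
    have h1 : IsIntegral ℤ (y ^ p) := by
      rw [← hy]; exact (u : 𝓞 K).2
    exact IsIntegral.of_pow hp0 h1
  set y' : 𝓞 K := ⟨y, hyint⟩ with hy'
  have h2 : (u : 𝓞 K) = y' ^ p := by
    apply RingOfIntegers.ext
    rw [hy]
    rfl
  have hunit : IsUnit y' := by
    have : IsUnit (y' ^ p) := by rw [← h2]; exact u.isUnit
    exact (isUnit_pow_iff hp.out.ne_zero).mp this
  refine ⟨hunit.unit, ?_⟩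
  apply Units.ext
  rw [h2, Units.val_pow_eq_pow_val, IsUnit.unit_spec]

/-- **C6, conditional form.**  The arithmetic core of S14 from the statements of the pieces. -/
theorem core_of (hp5 : 5 ≤ p)
    (hC1 : ∀ α : K, α ≠ 0 → IsOmegaSq hζ α → IsPthPowerIdeal p α →
      (∃ (u : (𝓞 K)ˣ) (γ : K), α = ((u : 𝓞 K) : K) * γ ^ p) ∨
        ∃ (φ : ClassFun hζ) (I : Ideal (𝓞 K)), I ≠ ⊥ ∧ φ.toFun I ≠ 0)
    (hC2 : ∀ (φ : ClassFun hζ) (ℓ : ℕ), ℓ.Prime → ℓ % p = 1 →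
      ∀ (lam : Ideal (𝓞 K)), lam.IsPrime → (ℓ : 𝓞 K) ∈ lam → φ.toFun lam ≠ 0 →
        ∃ y : 𝓞 K, ((eta hζ : (𝓞 K)ˣ) : 𝓞 K) - y ^ p ∈ lam)
    (hC3a : ∀ k : ℕ, ¬ p ∣ k →
      ¬ (tt p) ^ 2 ∣ dlog hζ (by omega : 3 ≤ p) (Additive.ofMul (eta hζ ^ k)))
    (hC3b : ∀ (u : (𝓞 K)ˣ) (γ α : K), α = ((u : 𝓞 K) : K) * γ ^ p → IsLocalPthPower hζ α →
      (tt p) ^ 2 ∣ dlog hζ (by omega : 3 ≤ p) (Additive.ofMul u))
    (hC4 : ∀ u : (𝓞 K)ˣ, IsOmegaSq hζ ((u : 𝓞 K) : K) →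
      ∃ (k : ℕ) (e : (𝓞 K)ˣ), u = eta hζ ^ k * e ^ p)
    (hD : ∀ (φ : ClassFun hζ), (∃ I : Ideal (𝓞 K), I ≠ ⊥ ∧ φ.toFun I ≠ 0) →
      ∀ u : 𝓞 K, (¬ ∃ y : K, (u : K) = y ^ p) →
        ∃ (ℓ : ℕ) (lam : Ideal (𝓞 K)), ℓ.Prime ∧ ℓ % p = 1 ∧ lam.IsPrime ∧ (ℓ : 𝓞 K) ∈ lam ∧
          φ.toFun lam ≠ 0 ∧ ¬ ∃ y : 𝓞 K, u - y ^ p ∈ lam)
    (α : K) (hα : α ≠ 0) (h1 : IsOmegaSq hζ α) (h2 : IsPthPowerIdeal p α)
    (h3 : IsLocalPthPower hζ α) : ∃ β : K, α = β ^ p := by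
  have hp3 : 3 ≤ p := by omega
  have hp0 : p ≠ 0 := hp.out.ne_zero
  -- `η` is not a `p`-th power in `K`
  have hη : ¬ ∃ y : K, (((eta hζ : (𝓞 K)ˣ) : 𝓞 K) : K) = y ^ p := by
    rintro ⟨y, hy⟩
    obtain ⟨e, he⟩ := core_unit_pow_of_field_pow (eta hζ) y hy
    have h := hC3a 1 (by
      intro h
      have := Nat.le_of_dvd one_pos h
      omega)
    apply h
    rw [pow_one, he, core_dlog_pow_p hζ hp3 e]
    exact dvd_zero _
  rcases hC1 α hα h1 h2 with ⟨u, γ, hαu⟩ | ⟨φ, I, hI, hφI⟩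
  · -- unit case
    have hγ : γ ≠ 0 := by
      rintro rfl
      rw [zero_pow hp0, mul_zero] at hαu
      exact hα hαu
    have hu0 : ((u : 𝓞 K) : K) ≠ 0 := by
      intro h
      rw [h, zero_mul] at hαu
      exact hα hαu
    -- `u` is in the `ω²`-eigenspace
    have hu1 : IsOmegaSq hζ ((u : 𝓞 K) : K) := by
      intro σ
      obtain ⟨g, hg0, hg⟩ := h1 σ
      have hσγ : σ γ ≠ 0 := by simpa using hγ
      refine ⟨γ ^ omgSq hζ σ * g / σ γ,
        div_ne_zero (mul_ne_zero (pow_ne_zero _ hγ) hg0) hσγ, ?_⟩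
      rw [hαu, map_mul, map_pow] at hg
      have h4 : σ ((u : 𝓞 K) : K) * σ γ ^ p =
          ((u : 𝓞 K) : K) ^ omgSq hζ σ * (γ ^ omgSq hζ σ * g) ^ p := by
        rw [hg]; ring
      rw [div_pow, mul_div_assoc', eq_div_iff (pow_ne_zero _ hσγ), h4]
    obtain ⟨k, e, hke⟩ := hC4 u hu1
    have hdvd := hC3b u γ α hαu h3
    have hk : p ∣ k := by
      by_contra hk
      apply hC3a k hk
      have h5 : dlog hζ hp3 (Additive.ofMul u) =
          dlog hζ hp3 (Additive.ofMul (eta hζ ^ k)) := by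
        rw [hke, ofMul_mul, map_add, core_dlog_pow_p hζ hp3 e, add_zero]
      rw [← h5]
      exact hdvd
    obtain ⟨k', rfl⟩ := hk
    refine ⟨(((eta hζ ^ k' * e : (𝓞 K)ˣ) : 𝓞 K) : K) * γ, ?_⟩
    have h6 : eta hζ ^ (p * k') * e ^ p = (eta hζ ^ k' * e) ^ p := by
      rw [mul_pow, ← pow_mul, mul_comm k' p]
    rw [hαu, hke, mul_pow, h6]
    push_cast
    rfl
  · -- class case: impossible
    exfalso
    obtain ⟨ℓ, lam, hℓ, hℓp, hlam, hmem, hφ, hnot⟩ :=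
      hD φ ⟨I, hI, hφI⟩ ((eta hζ : (𝓞 K)ˣ) : 𝓞 K) hη
    exact hnot (hC2 φ ℓ hℓ hℓp lam hlam hmem hφ)

end Fermat.Agent.S14lib
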