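import Mathlib

/-!
# S14 (item 77), piece D1, algebraic part

`K` a number field, `u ∈ 𝓞 K` not a `p`-th power in `K`, `L := K(u^{1/p}) = AdjoinRoot (X^p - u)`.
For a maximal ideal `𝔭` of `𝓞 K` and `c ∈ 𝓞 K` with `c ^ p ≡ u mod 𝔭` there is a maximal ideal `Q` of
`𝓞 L` over `𝔭` containing `θ - c` (`θ = u^{1/p}`): `d1_exists_over`.  If `c₁, …, c_p` are pairwise
incongruent modulo `𝔭`, the `p` primes obtained are pairwise distinct and therefore have residue
degree one: `d1_absNorm_eq`.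
-/

set_option autoImplicit false
set_option linter.style.haveILetI false

open NumberField Polynomial

namespace Fermat.Agent.S14lib

variable {p : ℕ} [hp : Fact p.Prime]
variable {K : Type*} [Field K] [NumberField K]

/-- The Kummer extension `K(a^{1/p})`. -/
abbrev D1Ext (p : ℕ) (a : K) : Type _ := AdjoinRoot (X ^ p - C a : K[X])

section

variable (a : K) [hirr : Fact (Irreducible (X ^ p - C a : K[X]))]

noncomputable instance d1_numberField : NumberField (D1Ext p a) := by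
  haveI : Module.Finite K (D1Ext p a) :=
    (AdjoinRoot.powerBasis (X_pow_sub_C_ne_zero hp.out.pos a)).finite
  exact NumberField.of_module_finite K _

theorem d1_finrank : Module.finrank K (D1Ext p a) = p := by
  rw [(AdjoinRoot.powerBasis (X_pow_sub_C_ne_zero hp.out.pos a)).finrank,
    AdjoinRoot.powerBasis_dim, natDegree_X_pow_sub_C]

theorem d1_root_pow : (AdjoinRoot.root (X ^ p - C a : K[X])) ^ p = algebraMap K (D1Ext p a) a := by
  have h := AdjoinRoot.eval₂_root (X ^ p - C a : K[X])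
  rw [eval₂_sub, eval₂_pow, eval₂_X, eval₂_C, sub_eq_zero] at h
  exact h

end

section

variable (u : 𝓞 K) [hirr : Fact (Irreducible (X ^ p - C (u : K) : K[X]))]

theorem d1_root_isIntegral :
    IsIntegral ℤ (AdjoinRoot.root (X ^ p - C (u : K) : K[X])) := by
  have h1 : IsIntegral ℤ ((AdjoinRoot.root (X ^ p - C (u : K) : K[X])) ^ p) := by
    rw [d1_root_pow]
    exact (RingOfIntegers.isIntegral_coe u).map (IsScalarTower.toAlgHom ℤ K (D1Ext p (u : K)))
  exact IsIntegral.of_pow hp.out.pos h1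

/-- `θ = u^{1/p}` as an element of `𝓞 L`. -/
noncomputable def d1Theta (p : ℕ) [hp : Fact p.Prime] (u : 𝓞 K)
    [hirr : Fact (Irreducible (X ^ p - C (u : K) : K[X]))] : 𝓞 (D1Ext p (u : K)) :=
  ⟨AdjoinRoot.root (X ^ p - C (u : K) : K[X]), d1_root_isIntegral u⟩

theorem d1Theta_pow : (d1Theta p u) ^ p = algebraMap (𝓞 K) (𝓞 (D1Ext p (u : K))) u := by
  apply RingOfIntegers.ext
  show ((d1Theta p u) ^ p : 𝓞 (D1Ext p (u : K))).1 = _
  rw [show ((d1Theta p u) ^ p : 𝓞 (D1Ext p (u : K))).1 =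
    (AdjoinRoot.root (X ^ p - C (u : K) : K[X])) ^ p from rfl, d1_root_pow]
  rfl

theorem d1_aeval_kummer :
    aeval (d1Theta p u) (X ^ p - C u : (𝓞 K)[X]) = 0 := by
  rw [map_sub, map_pow, aeval_X, aeval_C, d1Theta_pow, sub_self]

/-- A polynomial over `𝓞 K` vanishing at `θ` is divisible by `X^p - u`. -/
theorem d1_dvd_of_aeval_eq_zero (g : (𝓞 K)[X]) (hg : aeval (d1Theta p u) g = 0) :
    (X ^ p - C u : (𝓞 K)[X]) ∣ g := by
  have hmonic : (X ^ p - C u : (𝓞 K)[X]).Monic := monic_X_pow_sub_C u hp.out.ne_zero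
  rw [← modByMonic_eq_zero_iff_dvd hmonic]
  set r := g %ₘ (X ^ p - C u : (𝓞 K)[X]) with hr
  have hdeg : r.natDegree < p := by
    have := natDegree_modByMonic_lt g hmonic (by
      intro h1
      have := congrArg natDegree h1
      rw [natDegree_X_pow_sub_C, natDegree_one] at this
      exact hp.out.ne_zero this)
    rwa [natDegree_X_pow_sub_C] at this
  have hr0 : aeval (d1Theta p u) r = 0 := by
    have h1 : g %ₘ (X ^ p - C u : (𝓞 K)[X]) + (X ^ p - C u) * (g /ₘ (X ^ p - C u)) = g :=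
      modByMonic_add_div g (X ^ p - C u : (𝓞 K)[X])
    have h2 : aeval (d1Theta p u) g = aeval (d1Theta p u) r +
        aeval (d1Theta p u) (X ^ p - C u : (𝓞 K)[X]) * aeval (d1Theta p u) (g /ₘ (X ^ p - C u)) := by
      rw [← map_mul, ← map_add, hr, h1]
    rw [hg, d1_aeval_kummer, zero_mul, add_zero] at h2
    exact h2.symm
  -- pass to `K[X]`
  have hrK : aeval (AdjoinRoot.root (X ^ p - C (u : K) : K[X])) (r.map (algebraMap (𝓞 K) K)) = 0 := by
    have h1 : ((aeval (d1Theta p u) r : 𝓞 (D1Ext p (u : K))) : D1Ext p (u : K)) = 0 := by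
      rw [hr0]; rfl
    rw [aeval_map_algebraMap]
    rw [← h1]
    have h2 : ((aeval (d1Theta p u) r : 𝓞 (D1Ext p (u : K))) : D1Ext p (u : K)) =
        algebraMap (𝓞 (D1Ext p (u : K))) (D1Ext p (u : K)) (aeval (d1Theta p u) r) := rfl
    rw [h2, ← aeval_algebraMap_apply]
    rfl
  have hne : (X ^ p - C (u : K) : K[X]) ≠ 0 := X_pow_sub_C_ne_zero hp.out.pos _
  have hmin : minpoly K (AdjoinRoot.root (X ^ p - C (u : K) : K[X])) = X ^ p - C (u : K) := by
    rw [AdjoinRoot.minpoly_root hne]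
    have : (X ^ p - C (u : K) : K[X]).leadingCoeff = 1 := monic_X_pow_sub_C _ hp.out.ne_zero
    rw [this, inv_one, map_one, mul_one]
  have hdvd := minpoly.dvd K _ hrK
  rw [hmin] at hdvd
  have hmap0 : r.map (algebraMap (𝓞 K) K) = 0 := by
    by_contra hne0
    have h1 := natDegree_le_of_dvd hdvd hne0
    rw [natDegree_X_pow_sub_C] at h1
    have h2 : (r.map (algebraMap (𝓞 K) K)).natDegree ≤ r.natDegree := natDegree_map_le
    omega
  exact (Polynomial.map_eq_zero_iff (FaithfulSMul.algebraMap_injective (𝓞 K) K)).mp hmap0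

/-- **Lying over with a prescribed root.**  For a maximal ideal `𝔭` of `𝓞 K` and `c` with
`c ^ p ≡ u mod 𝔭` there is a maximal ideal of `𝓞 L` over `𝔭` containing `θ - c`. -/
theorem d1_exists_over (𝔭 : Ideal (𝓞 K)) [h𝔭 : 𝔭.IsMaximal] (c : 𝓞 K) (hc : c ^ p - u ∈ 𝔭) :
    ∃ Q : Ideal (𝓞 (D1Ext p (u : K))), Q.IsMaximal ∧
      Q.comap (algebraMap (𝓞 K) (𝓞 (D1Ext p (u : K)))) = 𝔭 ∧
      d1Theta p u - algebraMap (𝓞 K) (𝓞 (D1Ext p (u : K))) c ∈ Q := by
  classical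
  let φ : (𝓞 K)[X] →+* (𝓞 K) ⧸ 𝔭 := eval₂RingHom (Ideal.Quotient.mk 𝔭) (Ideal.Quotient.mk 𝔭 c)
  have hφC : ∀ r : 𝓞 K, φ (C r) = Ideal.Quotient.mk 𝔭 r := fun r => by
    simp [φ]
  have hφX : φ X = Ideal.Quotient.mk 𝔭 c := by simp [φ]
  have hφsurj : Function.Surjective φ := fun x => by
    obtain ⟨r, rfl⟩ := Ideal.Quotient.mk_surjective x
    exact ⟨C r, hφC r⟩
  letI : Field ((𝓞 K) ⧸ 𝔭) := Ideal.Quotient.field 𝔭
  haveI hPmax : (RingHom.ker φ).IsMaximal := RingHom.ker_isMaximal_of_surjective φ hφsurj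
  let ev : (𝓞 K)[X] →ₐ[𝓞 K] 𝓞 (D1Ext p (u : K)) := aeval (d1Theta p u)
  letI alg : Algebra (𝓞 K)[X] (𝓞 (D1Ext p (u : K))) := ev.toRingHom.toAlgebra
  haveI tower : IsScalarTower (𝓞 K) (𝓞 K)[X] (𝓞 (D1Ext p (u : K))) :=
    IsScalarTower.of_algebraMap_eq fun r => by
      show algebraMap (𝓞 K) (𝓞 (D1Ext p (u : K))) r = ev (algebraMap (𝓞 K) (𝓞 K)[X] r)
      rw [AlgHom.commutes]
  haveI hint : Algebra.IsIntegral (𝓞 K)[X] (𝓞 (D1Ext p (u : K))) :=
    ⟨fun s => IsIntegral.tower_top (R := 𝓞 K) (Algebra.IsIntegral.isIntegral s)⟩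
  have hker : RingHom.ker (algebraMap (𝓞 K)[X] (𝓞 (D1Ext p (u : K)))) ≤ RingHom.ker φ := by
    intro g hg
    have hg' : aeval (d1Theta p u) g = 0 := hg
    obtain ⟨q, rfl⟩ := d1_dvd_of_aeval_eq_zero u g hg'
    rw [RingHom.mem_ker, map_mul, map_sub, map_pow, hφX, hφC, ← map_pow, ← map_sub,
      Ideal.Quotient.eq_zero_iff_mem.mpr hc, zero_mul]
  obtain ⟨Q, hQmax, hQ⟩ := Ideal.exists_ideal_over_maximal_of_isIntegral (RingHom.ker φ) hker
  refine ⟨Q, hQmax, ?_, ?_⟩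
  · ext r
    rw [Ideal.mem_comap]
    have h1 : algebraMap (𝓞 K) (𝓞 (D1Ext p (u : K))) r =
        algebraMap (𝓞 K)[X] (𝓞 (D1Ext p (u : K))) (C r) := by
      show _ = ev (C r)
      exact (AlgHom.commutes ev r).symm
    rw [h1, ← Ideal.mem_comap, hQ, RingHom.mem_ker, hφC, Ideal.Quotient.eq_zero_iff_mem]
  · have h1 : d1Theta p u - algebraMap (𝓞 K) (𝓞 (D1Ext p (u : K))) c =
        algebraMap (𝓞 K)[X] (𝓞 (D1Ext p (u : K))) (X - C c) := by
      show _ = ev (X - C c)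
      simp [ev]
    rw [h1, ← Ideal.mem_comap, hQ, RingHom.mem_ker, map_sub, hφX, hφC, sub_self]

end

end Fermat.Agent.S14lib

namespace Fermat.Agent.S14lib

variable {p : ℕ} [hp : Fact p.Prime]
variable {K : Type*} [Field K] [NumberField K]

section count

variable (u : 𝓞 K) [hirr : Fact (Irreducible (X ^ p - C (u : K) : K[X]))]

/-- **Complete splitting.**  If `c₁, …, c_p` are `p`-th roots of `u` modulo the maximal ideal `𝔭`,
pairwise incongruent modulo `𝔭`, there are `p` distinct primes of `𝓞 L` over `𝔭`, all of the same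
absolute norm as `𝔭`. -/
theorem d1_exists_primes (𝔭 : Ideal (𝓞 K)) [h𝔭 : 𝔭.IsMaximal] (h0 : 𝔭 ≠ ⊥) (c : Fin p → 𝓞 K)
    (hc : ∀ i, c i ^ p - u ∈ 𝔭) (hdist : ∀ i j, i ≠ j → c i - c j ∉ 𝔭) :
    ∃ Q : Fin p → Ideal (𝓞 (D1Ext p (u : K))), Function.Injective Q ∧
      ∀ i, (Q i).IsMaximal ∧ (Q i).comap (algebraMap (𝓞 K) (𝓞 (D1Ext p (u : K)))) = 𝔭 ∧
        Ideal.absNorm (Q i) = Ideal.absNorm 𝔭 := by
  classical
  choose Q hQmax hQcomap hQmem using fun i => d1_exists_over u 𝔭 (c i) (hc i)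
  have hinj : Function.Injective Q := by
    intro i j hij
    by_contra hne
    apply hdist i j hne
    rw [← hQcomap j, Ideal.mem_comap, map_sub]
    have h1 := hQmem i
    rw [hij] at h1
    have h2 := (Q j).sub_mem (hQmem j) h1
    convert h2 using 1
    ring
  have hlies : ∀ i, (Q i).LiesOver 𝔭 := fun i => ⟨(hQcomap i).symm⟩
  have hprime : ∀ i, (Q i).IsPrime := fun i => (hQmax i).isPrime
  have hmem : ∀ i, Q i ∈ IsDedekindDomain.primesOverFinset 𝔭 (𝓞 (D1Ext p (u : K))) := fun i => by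
    rw [IsDedekindDomain.mem_primesOverFinset_iff h0]
    exact ⟨hprime i, hlies i⟩
  have hsum := Ideal.sum_ramification_inertia (𝓞 (D1Ext p (u : K))) K (D1Ext p (u : K)) h0
  rw [d1_finrank] at hsum
  have hpos : ∀ P ∈ IsDedekindDomain.primesOverFinset 𝔭 (𝓞 (D1Ext p (u : K))),
      1 ≤ Ideal.ramificationIdx' 𝔭 P * Ideal.inertiaDeg' 𝔭 P := by
    intro P hP
    rw [IsDedekindDomain.mem_primesOverFinset_iff h0] at hP
    obtain ⟨hP1, hP2⟩ := hP
    have he : Ideal.ramificationIdx' 𝔭 P ≠ 0 :=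
      Ideal.IsDedekindDomain.ramificationIdx'_ne_zero_of_liesOver P h0
    have hf : 0 < Ideal.inertiaDeg' 𝔭 P := Ideal.inertiaDeg'_pos 𝔭 P
    exact Nat.one_le_iff_ne_zero.mpr (Nat.mul_ne_zero he hf.ne')
  -- the image of `Q`
  set I : Finset (Ideal (𝓞 (D1Ext p (u : K)))) := Finset.univ.image Q with hI
  have hIsub : I ⊆ IsDedekindDomain.primesOverFinset 𝔭 (𝓞 (D1Ext p (u : K))) := by
    intro P hP
    rw [hI, Finset.mem_image] at hP
    obtain ⟨i, -, rfl⟩ := hP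
    exact hmem i
  have hIcard : I.card = p := by
    rw [hI, Finset.card_image_of_injective _ hinj, Finset.card_univ, Fintype.card_fin]
  have hf1 : ∀ i, Ideal.inertiaDeg' 𝔭 (Q i) = 1 := by
    intro i
    by_contra hne
    have hQi : Q i ∈ I := Finset.mem_image.mpr ⟨i, Finset.mem_univ _, rfl⟩
    have h2 : 2 ≤ Ideal.ramificationIdx' 𝔭 (Q i) * Ideal.inertiaDeg' 𝔭 (Q i) := by
      have he : Ideal.ramificationIdx' 𝔭 (Q i) ≠ 0 :=
        Ideal.IsDedekindDomain.ramificationIdx'_ne_zero_of_liesOver (Q i) h0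
      have hf : 0 < Ideal.inertiaDeg' 𝔭 (Q i) := Ideal.inertiaDeg'_pos 𝔭 (Q i)
      have hf2 : 2 ≤ Ideal.inertiaDeg' 𝔭 (Q i) := by omega
      calc 2 ≤ Ideal.inertiaDeg' 𝔭 (Q i) := hf2
        _ = 1 * Ideal.inertiaDeg' 𝔭 (Q i) := (one_mul _).symm
        _ ≤ _ := Nat.mul_le_mul_right _ (Nat.one_le_iff_ne_zero.mpr he)
    have h3 : I.card + 1 ≤ ∑ P ∈ I, Ideal.ramificationIdx' 𝔭 P * Ideal.inertiaDeg' 𝔭 P := by
      rw [← Finset.add_sum_erase I _ hQi]
      have h4 : (I.erase (Q i)).card ≤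
          ∑ P ∈ I.erase (Q i), Ideal.ramificationIdx' 𝔭 P * Ideal.inertiaDeg' 𝔭 P := by
        rw [Finset.card_eq_sum_ones]
        exact Finset.sum_le_sum fun P hP => hpos P (hIsub (Finset.mem_of_mem_erase hP))
      have h5 : (I.erase (Q i)).card + 1 = I.card := Finset.card_erase_add_one hQi
      omega
    have h6 : ∑ P ∈ I, Ideal.ramificationIdx' 𝔭 P * Ideal.inertiaDeg' 𝔭 P ≤ p :=
      (Finset.sum_le_sum_of_subset hIsub).trans hsum.le
    omega
  refine ⟨Q, hinj, fun i => ⟨hQmax i, hQcomap i, ?_⟩⟩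
  haveI := hlies i
  rw [Ideal.absNorm_eq_pow_inertiaDeg'_of_liesOver (Q i) 𝔭 h𝔭.isPrime h0, hf1 i, pow_one]

end count

end Fermat.Agent.S14lib
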