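import Mathlib
import Fermat.Agent.Cheb.EulerLog
import Fermat.Agent.S14lib.DensD1Alg

/-!
# S14 (item 77), piece D1: primes modulo which `u` is a `p`-th power have density `≤ 1/p`

`sum_pthPower_primes_le` (exact signature of `NOTES/S14_signatures.lean.txt`).  Such primes split
completely in `L = K(u^{1/p})` (`DensD1Alg.lean`), and `∑_Q N(Q)^{-s} ≤ log ζ_L(s) + O(1)`
(`Cheb`).
-/

set_option autoImplicit false
set_option linter.style.haveILetI false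

open NumberField Polynomial IsDedekindDomain

namespace Fermat.Agent.S14lib

variable {p : ℕ} [hp : Fact p.Prime]
variable {K : Type*} [Field K] [NumberField K] [IsCyclotomicExtension {p} ℚ K]

/-- Differences of distinct powers of a primitive `p`-th root of unity divide `p` up to a unit:
they do not lie in a prime ideal not containing `p`. -/
theorem d1_zeta_pow_sub_not_mem {ζ : K} (hζ : IsPrimitiveRoot ζ p) (𝔭 : Ideal (𝓞 K)) [𝔭.IsPrime]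
    (hp𝔭 : (p : 𝓞 K) ∉ 𝔭) (i j : Fin p) (hij : i ≠ j) :
    hζ.toInteger ^ (i : ℕ) - hζ.toInteger ^ (j : ℕ) ∉ 𝔭 := by
  haveI : NeZero p := ⟨hp.out.ne_zero⟩
  -- reduce to `j < i`
  have key : ∀ a b : ℕ, b < a → a < p → hζ.toInteger ^ a - hζ.toInteger ^ b ∉ 𝔭 := by
    intro a b hba hap hmem
    have hk0 : 0 < a - b := by omega
    have hkp : a - b < p := by omega
    have hcop : (a - b).Coprime p :=
      Nat.Coprime.symm ((Nat.Prime.coprime_iff_not_dvd hp.out).mpr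
        (Nat.not_dvd_of_pos_of_lt hk0 hkp))
    have hζk : IsPrimitiveRoot (ζ ^ (a - b)) p := hζ.pow_of_coprime _ hcop
    have hdvd := hζk.toInteger_sub_one_dvd_prime'
    have heq : hζk.toInteger = hζ.toInteger ^ (a - b) := by
      ext; rfl
    rw [heq] at hdvd
    have h1 : hζ.toInteger ^ a - hζ.toInteger ^ b =
        hζ.toInteger ^ b * (hζ.toInteger ^ (a - b) - 1) := by
      rw [mul_sub, mul_one, ← pow_add, Nat.add_sub_cancel' hba.le]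
    rw [h1] at hmem
    have hunit : IsUnit (hζ.toInteger ^ b) :=
      (hζ.toInteger_isPrimitiveRoot.isUnit hp.out.ne_zero).pow b
    have h2 : hζ.toInteger ^ (a - b) - 1 ∈ 𝔭 := by
      rcases Ideal.IsPrime.mem_or_mem inferInstance hmem with h | h
      · exact absurd (𝔭.eq_top_of_isUnit_mem h hunit) (Ideal.IsPrime.ne_top inferInstance)
      · exact h
    exact hp𝔭 (Ideal.mem_of_dvd 𝔭 hdvd h2)
  rcases lt_or_gt_of_ne (fun h => hij (Fin.ext h) : (i : ℕ) ≠ j) with h | h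
  · intro hmem
    apply key j i h j.2
    have := 𝔭.neg_mem hmem
    rwa [neg_sub] at this
  · exact key i j h i.2

/-- For a prime `𝔭 ∤ p·u` modulo which `u` is a `p`-th power there are `p` distinct primes of
`L = K(u^{1/p})` over `𝔭` with the same norm. -/
theorem d1_exists_split (u : 𝓞 K) [hirr : Fact (Irreducible (X ^ p - C (u : K) : K[X]))]
    (𝔭 : HeightOneSpectrum (𝓞 K)) (hbad : (p : 𝓞 K) * u ∉ 𝔭.asIdeal)
    (hy : ∃ y : 𝓞 K, u - y ^ p ∈ 𝔭.asIdeal) :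
    ∃ Q : Fin p → HeightOneSpectrum (𝓞 (D1Ext p (u : K))), Function.Injective Q ∧
      ∀ i, (Q i).asIdeal.comap (algebraMap (𝓞 K) (𝓞 (D1Ext p (u : K)))) = 𝔭.asIdeal ∧
        Ideal.absNorm (Q i).asIdeal = Ideal.absNorm 𝔭.asIdeal := by
  classical
  haveI : NeZero p := ⟨hp.out.ne_zero⟩
  obtain ⟨ζ, hζ⟩ := IsCyclotomicExtension.exists_isPrimitiveRoot ℚ (B := K)
    (Set.mem_singleton p) hp.out.ne_zero
  obtain ⟨y, hy⟩ := hy
  haveI h𝔭max : 𝔭.asIdeal.IsMaximal := 𝔭.isMaximal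
  have hp𝔭 : (p : 𝓞 K) ∉ 𝔭.asIdeal := fun h => hbad (𝔭.asIdeal.mul_mem_right _ h)
  have hu𝔭 : u ∉ 𝔭.asIdeal := fun h => hbad (𝔭.asIdeal.mul_mem_left _ h)
  have hy𝔭 : y ∉ 𝔭.asIdeal := by
    intro h
    apply hu𝔭
    have h1 : y ^ p ∈ 𝔭.asIdeal := 𝔭.asIdeal.pow_mem_of_mem h p hp.out.pos
    have h2 := 𝔭.asIdeal.add_mem hy h1
    rwa [sub_add_cancel] at h2
  have hzp : hζ.toInteger ^ p = 1 := hζ.toInteger_isPrimitiveRoot.pow_eq_one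
  obtain ⟨Q, hQinj, hQ⟩ := d1_exists_primes u 𝔭.asIdeal 𝔭.ne_bot
    (fun i : Fin p => hζ.toInteger ^ (i : ℕ) * y)
    (fun i => by
      have h1 : (hζ.toInteger ^ (i : ℕ) * y) ^ p - u = -(u - y ^ p) := by
        rw [mul_pow, ← pow_mul, mul_comm (i : ℕ) p, pow_mul, hzp, one_pow, one_mul]; ring
      rw [h1]
      exact 𝔭.asIdeal.neg_mem hy)
    (fun i j hij hmem => by
      have h1 : hζ.toInteger ^ (i : ℕ) * y - hζ.toInteger ^ (j : ℕ) * y =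
          (hζ.toInteger ^ (i : ℕ) - hζ.toInteger ^ (j : ℕ)) * y := by ring
      rw [h1] at hmem
      rcases Ideal.IsPrime.mem_or_mem 𝔭.isPrime hmem with h | h
      · exact d1_zeta_pow_sub_not_mem hζ 𝔭.asIdeal hp𝔭 i j hij h
      · exact hy𝔭 h)
  have hne : ∀ i, Q i ≠ ⊥ := by
    intro i h
    have h1 := (hQ i).2.1
    rw [h, Ideal.comap_bot_of_injective _
      (FaithfulSMul.algebraMap_injective (𝓞 K) (𝓞 (D1Ext p (u : K))))] at h1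
    exact 𝔭.ne_bot h1.symm
  refine ⟨fun i => ⟨Q i, (hQ i).1.isPrime, hne i⟩, ?_, fun i => ⟨(hQ i).2.1, (hQ i).2.2⟩⟩
  intro i j hij
  apply hQinj
  exact congrArg HeightOneSpectrum.asIdeal hij

/-- **D1.** Primes modulo which `u` is a `p`-th power have density at most `1/p` (they split
completely in `K(u^{1/p})`, of degree `p`; `Cheb` gives `∑_Q N(Q)^{-s} ≤ log 1/(s-1) + B`). -/
theorem sum_pthPower_primes_le (u : 𝓞 K) (hu : ¬ ∃ y : K, (u : K) = y ^ p) :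
    ∃ B : ℝ, ∀ s : ℝ, 1 < s → s ≤ 2 → ∀ T : Finset (HeightOneSpectrum (𝓞 K)),
      (∀ 𝔭 ∈ T, ∃ y : 𝓞 K, u - y ^ p ∈ 𝔭.asIdeal) →
      (p : ℝ) * ∑ 𝔭 ∈ T, ((Ideal.absNorm 𝔭.asIdeal : ℕ) : ℝ) ^ (-s) ≤
        Real.log (1 / (s - 1)) + B := by
  classical
  haveI hirr : Fact (Irreducible (X ^ p - C (u : K) : K[X])) :=
    ⟨X_pow_sub_C_irreducible_of_prime hp.out (fun b hb => hu ⟨b, hb.symm⟩)⟩
  obtain ⟨C1, hC1⟩ := Cheb.log_zetaR_bound (D1Ext p (u : K))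
  -- the bad primes
  have hu0 : u ≠ 0 := by
    rintro rfl
    exact hu ⟨0, by simp [zero_pow hp.out.ne_zero]⟩
  have hpu : (p : 𝓞 K) * u ≠ 0 :=
    mul_ne_zero (Nat.cast_ne_zero.mpr hp.out.ne_zero) hu0
  have hfin : {v : HeightOneSpectrum (𝓞 K) | (p : 𝓞 K) * u ∈ v.asIdeal}.Finite := by
    have h1 := Ideal.finite_factors (R := 𝓞 K) (I := Ideal.span {(p : 𝓞 K) * u})
      (by simpa using hpu)
    refine h1.subset fun v hv => ?_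
    simp only [Set.mem_setOf_eq] at hv ⊢
    rw [Ideal.dvd_span_singleton]
    exact hv
  set bad : Finset (HeightOneSpectrum (𝓞 K)) := hfin.toFinset with hbad
  set C2 : ℝ := ∑' Q : HeightOneSpectrum (𝓞 (D1Ext p (u : K))), Cheb.xP (D1Ext p (u : K)) 2 Q
    with hC2
  refine ⟨C1 + C2 + p * bad.card, fun s hs hs2 T hT => ?_⟩
  -- choose the primes above the good primes
  choose Q hQinj hQ using fun (𝔭 : HeightOneSpectrum (𝓞 K))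
    (h1 : (p : 𝓞 K) * u ∉ 𝔭.asIdeal) (h2 : ∃ y : 𝓞 K, u - y ^ p ∈ 𝔭.asIdeal) =>
      d1_exists_split u 𝔭 h1 h2
  set Tg : Finset (HeightOneSpectrum (𝓞 K)) := T.filter (fun 𝔭 => (p : 𝓞 K) * u ∉ 𝔭.asIdeal)
    with hTg
  have hTg1 : ∀ 𝔭 ∈ Tg, (p : 𝓞 K) * u ∉ 𝔭.asIdeal := fun 𝔭 h => (Finset.mem_filter.mp h).2
  have hTg2 : ∀ 𝔭 ∈ Tg, ∃ y : 𝓞 K, u - y ^ p ∈ 𝔭.asIdeal :=
    fun 𝔭 h => hT 𝔭 (Finset.mem_filter.mp h).1
  let F : {𝔭 // 𝔭 ∈ Tg} × Fin p → HeightOneSpectrum (𝓞 (D1Ext p (u : K))) :=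
    fun x => Q x.1.1 (hTg1 _ x.1.2) (hTg2 _ x.1.2) x.2
  have hFinj : Function.Injective F := by
    rintro ⟨⟨𝔭, h𝔭⟩, i⟩ ⟨⟨𝔮, h𝔮⟩, j⟩ h
    have h1 : 𝔭 = 𝔮 := by
      apply HeightOneSpectrum.ext
      rw [← (hQ 𝔭 (hTg1 _ h𝔭) (hTg2 _ h𝔭) i).1, ← (hQ 𝔮 (hTg1 _ h𝔮) (hTg2 _ h𝔮) j).1]
      exact congrArg (fun P : HeightOneSpectrum (𝓞 (D1Ext p (u : K))) =>
        P.asIdeal.comap (algebraMap (𝓞 K) (𝓞 (D1Ext p (u : K))))) h
    subst h1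
    have h2 : i = j := hQinj 𝔭 (hTg1 _ h𝔭) (hTg2 _ h𝔭) h
    rw [h2]
  have hFnorm : ∀ x, Cheb.xP (D1Ext p (u : K)) s (F x) = Cheb.xP K s x.1.1 := by
    rintro ⟨⟨𝔭, h𝔭⟩, i⟩
    show ((Ideal.absNorm (F ⟨⟨𝔭, h𝔭⟩, i⟩).asIdeal : ℕ) : ℝ) ^ (-s) = _
    rw [(hQ 𝔭 (hTg1 _ h𝔭) (hTg2 _ h𝔭) i).2]
    rfl
  set T' : Finset (HeightOneSpectrum (𝓞 (D1Ext p (u : K)))) := Finset.univ.image F with hT'
  have hsumT' : ∑ P ∈ T', Cheb.xP (D1Ext p (u : K)) s P = (p : ℝ) * ∑ 𝔭 ∈ Tg, Cheb.xP K s 𝔭 := by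
    rw [hT', Finset.sum_image (fun x _ y _ h => hFinj h)]
    simp only [hFnorm]
    rw [← Finset.univ_product_univ, Finset.sum_product]
    simp only [Finset.sum_const, Finset.card_univ, Fintype.card_fin, nsmul_eq_mul]
    rw [← Finset.mul_sum, Finset.sum_coe_sort Tg (fun 𝔭 => Cheb.xP K s 𝔭)]
  -- the Chebyshev-type bound for `L`
  have hcheb := Cheb.sum_xP_le (M := D1Ext p (u : K)) hs T'
  have hsq : ∑ P ∈ T', (Cheb.xP (D1Ext p (u : K)) s P) ^ 2 ≤ C2 := by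
    have h1 : ∀ P : HeightOneSpectrum (𝓞 (D1Ext p (u : K))),
        (Cheb.xP (D1Ext p (u : K)) s P) ^ 2 ≤ Cheb.xP (D1Ext p (u : K)) 2 P := by
      intro P
      have hN : (1 : ℝ) ≤ (Ideal.absNorm P.asIdeal : ℝ) := by
        have := Cheb.two_le_absNorm P
        exact_mod_cast (by omega : 1 ≤ Ideal.absNorm P.asIdeal)
      show (((Ideal.absNorm P.asIdeal : ℕ) : ℝ) ^ (-s)) ^ 2 ≤
        ((Ideal.absNorm P.asIdeal : ℕ) : ℝ) ^ (-(2 : ℝ))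
      rw [← Real.rpow_natCast, ← Real.rpow_mul (by linarith)]
      apply Real.rpow_le_rpow_of_exponent_le hN
      push_cast
      linarith
    calc ∑ P ∈ T', (Cheb.xP (D1Ext p (u : K)) s P) ^ 2
        ≤ ∑ P ∈ T', Cheb.xP (D1Ext p (u : K)) 2 P := Finset.sum_le_sum fun P _ => h1 P
      _ ≤ C2 := (Cheb.summable_xP (M := D1Ext p (u : K)) (by norm_num : (1 : ℝ) < 2)).sum_le_tsum T'
          (fun P _ => Cheb.xP_nonneg 2 P)
  have hlog := (abs_le.mp (hC1 s hs hs2)).2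
  -- the bad primes
  have hTsplit : ∑ 𝔭 ∈ T, Cheb.xP K s 𝔭 =
      ∑ 𝔭 ∈ Tg, Cheb.xP K s 𝔭 +
        ∑ 𝔭 ∈ T.filter (fun 𝔭 => ¬ (p : 𝓞 K) * u ∉ 𝔭.asIdeal), Cheb.xP K s 𝔭 :=
    (Finset.sum_filter_add_sum_filter_not T _ _).symm
  have hbadsum : ∑ 𝔭 ∈ T.filter (fun 𝔭 => ¬ (p : 𝓞 K) * u ∉ 𝔭.asIdeal), Cheb.xP K s 𝔭 ≤
      bad.card := by
    have hsub : T.filter (fun 𝔭 => ¬ (p : 𝓞 K) * u ∉ 𝔭.asIdeal) ⊆ bad := by
      intro 𝔭 h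
      rw [hbad, Set.Finite.mem_toFinset]
      exact not_not.mp (Finset.mem_filter.mp h).2
    calc ∑ 𝔭 ∈ T.filter (fun 𝔭 => ¬ (p : 𝓞 K) * u ∉ 𝔭.asIdeal), Cheb.xP K s 𝔭
        ≤ ∑ 𝔭 ∈ T.filter (fun 𝔭 => ¬ (p : 𝓞 K) * u ∉ 𝔭.asIdeal), (1 : ℝ) :=
          Finset.sum_le_sum fun 𝔭 _ => Cheb.xP_le_one hs.le 𝔭
      _ = ((T.filter (fun 𝔭 => ¬ (p : 𝓞 K) * u ∉ 𝔭.asIdeal)).card : ℝ) := by simp
      _ ≤ bad.card := by exact_mod_cast Finset.card_le_card hsub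
  have hp0 : (0 : ℝ) ≤ p := Nat.cast_nonneg p
  show (p : ℝ) * ∑ 𝔭 ∈ T, Cheb.xP K s 𝔭 ≤ _
  rw [hTsplit, mul_add, ← hsumT']
  have h3 : (p : ℝ) * ∑ 𝔭 ∈ T.filter (fun 𝔭 => ¬ (p : 𝓞 K) * u ∉ 𝔭.asIdeal), Cheb.xP K s 𝔭 ≤
      p * bad.card := mul_le_mul_of_nonneg_left hbadsum hp0
  linarith

end Fermat.Agent.S14lib
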