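import Mathlib

/-!
# S14 (item 77), piece D2b: comparison of a sum over a group with the sum over a subgroup of
finite index (abstract form of "lattice sums over cosets")

`d2b_coset_compare`: if `F` is bounded by `1`, summable, and satisfies the Lipschitz-type bound
`|F (a + c) - F a| ≤ C * w c * w a ^ (-d)` for `a ∈ A'`, `κ * w c ≤ w a`, and `∑_{a ∈ A'} w a ^ (-d)`
converges, then `|∑_A F - [A : A'] ∑_{A'} F| ≤ B` with `B` independent of `F`.
-/

set_option autoImplicit false

namespace Fermat.Agent.S14lib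

open scoped Topology

section D2b

variable {A : Type*} [AddCommGroup A] (A' : AddSubgroup A)

/-- coset representatives -/
noncomputable def d2bRep (q : A ⧸ A') : A := Quotient.out q

theorem d2bRep_mk (q : A ⧸ A') : ((d2bRep A' q : A) : A ⧸ A') = q :=
  QuotientAddGroup.out_eq' q

/-- the bijection `(A ⧸ A') × A' ≃ A`, `(q, y) ↦ y + r q` -/
noncomputable def d2bEquiv : (A ⧸ A') × A' ≃ A where
  toFun p := (p.2 : A) + d2bRep A' p.1
  invFun a := ((a : A ⧸ A'), ⟨a - d2bRep A' (a : A ⧸ A'), by
    rw [← QuotientAddGroup.eq_zero_iff, QuotientAddGroup.mk_sub, d2bRep_mk, sub_self]⟩)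
  left_inv p := by
    have h : (((p.2 : A) + d2bRep A' p.1 : A) : A ⧸ A') = p.1 := by
      rw [QuotientAddGroup.mk_add, d2bRep_mk, (QuotientAddGroup.eq_zero_iff _).2 p.2.2, zero_add]
    refine Prod.ext h (Subtype.ext ?_)
    simp only [h, add_sub_cancel_right]
  right_inv a := by simp

theorem d2bEquiv_apply (q : A ⧸ A') (y : A') : d2bEquiv A' (q, y) = (y : A) + d2bRep A' q := rfl

/-- a summable nonnegative family has finitely many terms `≥ ε` -/
theorem d2b_finite_ge {ι : Type*} {f : ι → ℝ} (hf : Summable f) {ε : ℝ} (hε : 0 < ε) :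
    {i | ε ≤ f i}.Finite := by
  have h := hf.tendsto_cofinite_zero.eventually (gt_mem_nhds hε)
  rw [Filter.eventually_cofinite] at h
  refine h.subset fun i hi => ?_
  simpa using hi

theorem d2b_coset_compare [Finite (A ⧸ A')]
    (w : A → ℝ) (hw : ∀ a, a ≠ 0 → 0 < w a)
    (C κ d : ℝ) (hC : 0 ≤ C) (hκ : 0 < κ) (hd : 0 < d)
    (hsum : Summable fun a : A' => w (a : A) ^ (-d)) :
    ∃ B : ℝ, ∀ F : A → ℝ, (∀ a, |F a| ≤ 1) →
      (∀ (a : A') (c : A), (a : A) ≠ 0 → (a : A) + c ≠ 0 → κ * w c ≤ w a →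
        |F ((a : A) + c) - F a| ≤ C * w c * w (a : A) ^ (-d)) →
      Summable F →
      |∑' a : A, F a - (Nat.card (A ⧸ A') : ℝ) * ∑' a : A', F (a : A)| ≤ B := by
  classical
  let _ : Fintype (A ⧸ A') := Fintype.ofFinite _
  -- the exceptional finite sets
  have hfin : ∀ q : A ⧸ A', {y : A' | (y : A) = 0 ∨ (y : A) + d2bRep A' q = 0 ∨
      w (y : A) < κ * w (d2bRep A' q)}.Finite := by
    intro q
    set R := κ * w (d2bRep A' q) with hR
    have h1 : {y : A' | (y : A) = 0}.Finite := by
      refine (Set.finite_singleton (0 : A')).subset fun y hy => ?_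
      exact Subtype.ext hy
    have h2 : {y : A' | (y : A) + d2bRep A' q = 0}.Finite := by
      refine Set.Subsingleton.finite fun y hy z hz => ?_
      apply Subtype.ext
      have : (y : A) + d2bRep A' q = (z : A) + d2bRep A' q := hy.trans hz.symm
      exact add_right_cancel this
    have h3 : {y : A' | (y : A) ≠ 0 ∧ w (y : A) < R}.Finite := by
      by_cases hRpos : 0 < R
      · refine (d2b_finite_ge hsum (Real.rpow_pos_of_pos hRpos (-d))).subset fun y hy => ?_
        obtain ⟨hy0, hyR⟩ := hy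
        have hwy := hw _ hy0
        show R ^ (-d) ≤ w (y : A) ^ (-d)
        exact Real.rpow_le_rpow_of_nonpos hwy hyR.le (by linarith)
      · refine Set.finite_empty.subset fun y hy => ?_
        exact absurd ((hw _ hy.1).trans hy.2) hRpos
    refine ((h1.union h2).union h3).subset fun y hy => ?_
    rcases hy with h | h | h
    · exact Or.inl (Or.inl h)
    · exact Or.inl (Or.inr h)
    · by_cases h0 : (y : A) = 0
      · exact Or.inl (Or.inl h0)
      · exact Or.inr ⟨h0, h⟩
  set S : (A ⧸ A') → Finset A' := fun q => (hfin q).toFinset with hS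
  set h : (A ⧸ A') → A' → ℝ := fun q y => C * w (d2bRep A' q) * w (y : A) ^ (-d) with hh
  refine ⟨∑ q : A ⧸ A', (2 * ((S q).card : ℝ) +
    ∑' y : A', (↑(S q) : Set A')ᶜ.indicator (h q) y), fun F hF1 hFL hFs => ?_⟩
  -- decomposition over cosets
  have hcomp : Summable (F ∘ d2bEquiv A') := (d2bEquiv A').summable_iff.mpr hFs
  have hfib : ∀ q : A ⧸ A', Summable fun y : A' => F ((y : A) + d2bRep A' q) := by
    intro q
    have hinj : Function.Injective (fun y : A' => (y : A) + d2bRep A' q) := fun y z h =>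
      Subtype.ext (add_right_cancel h)
    exact hFs.comp_injective hinj
  have hsub : Summable fun y : A' => F (y : A) := hFs.comp_injective Subtype.val_injective
  have e1 : ∑' a : A, F a = ∑ q : A ⧸ A', ∑' y : A', F ((y : A) + d2bRep A' q) := by
    rw [← (d2bEquiv A').tsum_eq]
    refine (Summable.tsum_prod' hcomp fun q => hfib q).trans ?_
    rw [tsum_fintype]
    rfl
  have e2 : (Nat.card (A ⧸ A') : ℝ) * ∑' a : A', F (a : A) =
      ∑ _q : A ⧸ A', ∑' y : A', F (y : A) := by
    rw [Finset.sum_const, Finset.card_univ, Nat.card_eq_fintype_card, nsmul_eq_mul]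
  rw [e1, e2, ← Finset.sum_sub_distrib]
  refine (Finset.abs_sum_le_sum_abs _ _).trans (Finset.sum_le_sum fun q _ => ?_)
  rw [← (hfib q).tsum_sub hsub]
  -- the bound for one coset
  set g : A' → ℝ := fun y => (↑(S q) : Set A').indicator (fun _ => (2 : ℝ)) y +
    (↑(S q) : Set A')ᶜ.indicator (h q) y with hg
  have hgsum : HasSum g (2 * ((S q).card : ℝ) +
      ∑' y : A', (↑(S q) : Set A')ᶜ.indicator (h q) y) := by
    refine HasSum.add ?_ (((hsum.mul_left _).indicator _).hasSum)
    have h1 : HasSum ((↑(S q) : Set A').indicator (fun _ => (2 : ℝ)))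
        (∑ y ∈ S q, (↑(S q) : Set A').indicator (fun _ => (2 : ℝ)) y) :=
      hasSum_sum_of_ne_finset_zero (fun y hy => Set.indicator_of_notMem (by simpa using hy) _)
    have h2 : ∑ y ∈ S q, (↑(S q) : Set A').indicator (fun _ => (2 : ℝ)) y =
        2 * ((S q).card : ℝ) := by
      rw [Finset.sum_congr rfl fun y hy => Set.indicator_of_mem (by simpa using hy) _,
        Finset.sum_const, nsmul_eq_mul, mul_comm]
    rwa [h2] at h1
  have hbound : ∀ y : A', ‖F ((y : A) + d2bRep A' q) - F (y : A)‖ ≤ g y := by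
    intro y
    rw [Real.norm_eq_abs, hg]
    by_cases hy : y ∈ S q
    · have hy' : y ∈ (↑(S q) : Set A') := by simpa using hy
      have hy'' : y ∉ (↑(S q) : Set A')ᶜ := fun hc => hc hy'
      simp only [Set.indicator_of_mem hy', Set.indicator_of_notMem hy'', add_zero]
      have h1 := hF1 ((y : A) + d2bRep A' q)
      have h2 := hF1 (y : A)
      have := abs_sub (F ((y : A) + d2bRep A' q)) (F (y : A))
      linarith
    · have hy' : y ∉ (↑(S q) : Set A') := by simpa using hy
      have hy'' : y ∈ (↑(S q) : Set A')ᶜ := hy'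
      simp only [Set.indicator_of_notMem hy', Set.indicator_of_mem hy'', zero_add]
      have hy3 : ¬ ((y : A) = 0 ∨ (y : A) + d2bRep A' q = 0 ∨
          w (y : A) < κ * w (d2bRep A' q)) := by
        intro hc
        exact hy ((hfin q).mem_toFinset.mpr hc)
      have h1 : (y : A) ≠ 0 := fun hc => hy3 (Or.inl hc)
      have h2 : (y : A) + d2bRep A' q ≠ 0 := fun hc => hy3 (Or.inr (Or.inl hc))
      have h3 : κ * w (d2bRep A' q) ≤ w (y : A) :=
        not_lt.mp fun hc => hy3 (Or.inr (Or.inr hc))
      exact hFL y (d2bRep A' q) h1 h2 h3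
  have := tsum_of_norm_bounded hgsum hbound
  rwa [Real.norm_eq_abs] at this

end D2b


end Fermat.Agent.S14lib
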