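import Mathlib

/-!
# S14 (item 77), piece D2b, complement: the lattice sum `∑_{a ∈ 𝔟} ‖a‖^{-(n+1)}` converges
-/

set_option autoImplicit false

namespace Fermat.Agent.S14lib

open NumberField

open scoped Classical

theorem d2b_rank (K : Type*) [Field K] [NumberField K] :
    Module.finrank ℤ (mixedEmbedding.integerLattice K) = Module.finrank ℚ K := by
  rw [ZLattice.rank ℝ (mixedEmbedding.integerLattice K), mixedEmbedding.finrank]

theorem d2b_summable_lattice (K : Type*) [Field K] [NumberField K] :
    Summable fun z : mixedEmbedding.integerLattice K =>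
      ‖z‖ ^ (-(Module.finrank ℚ K + 1 : ℝ)) := by
  refine ZLattice.summable_norm_rpow (L := mixedEmbedding.integerLattice K)
    (-(Module.finrank ℚ K + 1 : ℝ)) ?_
  rw [d2b_rank K]
  linarith

/-- the map `𝓞 K → integerLattice K` -/
noncomputable def d2bToLattice (K : Type*) [Field K] [NumberField K] (a : 𝓞 K) :
    mixedEmbedding.integerLattice K :=
  ⟨mixedEmbedding K (a : K), LinearMap.mem_range.mpr ⟨a, rfl⟩⟩

theorem d2bToLattice_coe (K : Type*) [Field K] [NumberField K] (a : 𝓞 K) :
    ((d2bToLattice K a : mixedEmbedding.integerLattice K) : mixedEmbedding.mixedSpace K) =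
      mixedEmbedding K (a : K) := rfl

theorem d2bToLattice_injective (K : Type*) [Field K] [NumberField K] :
    Function.Injective (d2bToLattice K) := by
  intro a b hab
  have h1 : mixedEmbedding K (a : K) = mixedEmbedding K (b : K) := by
    rw [← d2bToLattice_coe, ← d2bToLattice_coe, hab]
  exact RingOfIntegers.ext (mixedEmbedding_injective K h1)

theorem d2b_summable_int (K : Type*) [Field K] [NumberField K] :
    Summable fun a : 𝓞 K => ‖mixedEmbedding K (a : K)‖ ^ (-(Module.finrank ℚ K + 1 : ℝ)) := by
  have h := (d2b_summable_lattice K).comp_injective (d2bToLattice_injective K)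
  refine h.congr fun a => ?_
  rw [Function.comp_apply, ← d2bToLattice_coe, Submodule.coe_norm]

/-- the lattice sum `∑_{a ∈ 𝔟} ‖a‖^{-(n+1)}` converges (`n = [K : ℚ]`; the term at `0` is `0`) -/
theorem d2b_summable_ideal (K : Type*) [Field K] [NumberField K] (𝔟 : Ideal (𝓞 K)) :
    Summable fun a : 𝔟.toAddSubgroup =>
      ‖mixedEmbedding K (((a : 𝓞 K)) : K)‖ ^ (-(Module.finrank ℚ K + 1 : ℝ)) :=
  (d2b_summable_int K).comp_injective Subtype.val_injective

end Fermat.Agent.S14lib
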