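import Mathlib

/-!
# S14 (item 77), density part: the partial zeta function of an ideal class

`zetaClass K C s = ∑_{I integral, [I] = C} N(I)^{-s}` for real `s`.
-/

set_option autoImplicit false

namespace Fermat.Agent.S14lib

open NumberField

/-- The partial Dedekind zeta function of the ideal class `C`, at a real argument. -/
noncomputable def zetaClass (K : Type*) [Field K] [NumberField K] (C : ClassGroup (𝓞 K))
    (s : ℝ) : ℝ :=
  ∑' I : {I : nonZeroDivisors (Ideal (𝓞 K)) // ClassGroup.mk0 I = C},
    ((Ideal.absNorm (I.1 : Ideal (𝓞 K)) : ℕ) : ℝ) ^ (-s)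

end Fermat.Agent.S14lib
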