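import Mathlib
import Fermat.Agent.S14lib.DensDefs
import Fermat.Agent.S14lib.DensD2b
import Fermat.Agent.S14lib.DensD2bIdeal
import Fermat.Agent.Cheb.ZetaBounds

/-!
# S14 (item 77), piece D2d: partial zeta functions of two ideal classes differ by `O(1)`

`zetaClass_sub_bounded_of`: D2 (`zetaClass_sub_bounded`) from the orbit decomposition D2c (as
hypotheses on a kernel `F s : 𝓞 K → ℝ`) and the abstract coset comparison D2b.
-/

set_option autoImplicit false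

namespace Fermat.Agent.S14lib

open NumberField Fermat.Agent.Cheb

open scoped Classical nonZeroDivisors

variable (K : Type*) [Field K] [NumberField K]

/-- `zetaClass ≤ zetaR` -/
theorem d2d_zetaClass_le (C : ClassGroup (𝓞 K)) {s : ℝ} (hs : 1 < s) :
    zetaClass K C s ≤ zetaR K s := by
  have hinj : Function.Injective
      (fun I : {I : (Ideal (𝓞 K))⁰ // ClassGroup.mk0 I = C} => ((I.1 : (Ideal (𝓞 K))⁰) : Ideal (𝓞 K))) :=
    fun I J h => Subtype.ext (Subtype.ext h)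
  have hsum := summable_norm_rpow K hs
  exact (hsum.comp_injective hinj).tsum_le_tsum_of_inj _ hinj
    (fun _ _ => Real.rpow_nonneg (Nat.cast_nonneg _) _) (fun _ => le_rfl) hsum

theorem d2d_zetaClass_nonneg (C : ClassGroup (𝓞 K)) (s : ℝ) : 0 ≤ zetaClass K C s :=
  tsum_nonneg fun _ => Real.rpow_nonneg (Nat.cast_nonneg _) _

/-- the comparison with the trivial class -/
theorem zetaClass_sub_one_bounded_of
    (F : ℝ → 𝓞 K → ℝ)
    (h1 : ∀ s : ℝ, 0 ≤ s → ∀ a, |F s a| ≤ 1)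
    (hsum : ∀ (C : ClassGroup (𝓞 K)) (𝔟 : (Ideal (𝓞 K))⁰), ClassGroup.mk0 𝔟 = C⁻¹ →
      ∀ s : ℝ, 1 < s →
      HasSum (fun a : (𝔟 : Ideal (𝓞 K)).toAddSubgroup => F s (a : 𝓞 K))
        ((Ideal.absNorm (𝔟 : Ideal (𝓞 K)) : ℝ) ^ (-s) * zetaClass K C s))
    (htop : ∀ s : ℝ, 1 < s → HasSum (F s) (zetaClass K 1 s))
    (hlip : ∃ C κ : ℝ, 0 < C ∧ 0 < κ ∧ ∀ s : ℝ, 1 ≤ s → s ≤ 2 → ∀ a c : 𝓞 K, a ≠ 0 →
      a + c ≠ 0 → κ * ‖mixedEmbedding K (c : K)‖ ≤ ‖mixedEmbedding K (a : K)‖ →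
      |F s (a + c) - F s a| ≤ C * ‖mixedEmbedding K (c : K)‖ *
        ‖mixedEmbedding K (a : K)‖ ^ (-(Module.finrank ℚ K + 1 : ℝ)))
    (C : ClassGroup (𝓞 K)) :
    ∃ B : ℝ, ∀ s : ℝ, 1 < s → s ≤ 2 → |zetaClass K 1 s - zetaClass K C s| ≤ B := by
  obtain ⟨𝔟, h𝔟⟩ := ClassGroup.mk0_surjective C⁻¹
  have h𝔟0 : (𝔟 : Ideal (𝓞 K)) ≠ ⊥ := mem_nonZeroDivisors_iff_ne_zero.mp 𝔟.2
  set m : ℕ := Ideal.absNorm (𝔟 : Ideal (𝓞 K)) with hm
  have hm0 : m ≠ 0 := by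
    rw [hm, Ne, Ideal.absNorm_eq_zero_iff]
    exact h𝔟0
  have hm1 : (1 : ℝ) ≤ m := by exact_mod_cast Nat.one_le_iff_ne_zero.mpr hm0
  have hcard : Nat.card (𝓞 K ⧸ (𝔟 : Ideal (𝓞 K)).toAddSubgroup) = m := rfl
  have : Finite (𝓞 K ⧸ (𝔟 : Ideal (𝓞 K)).toAddSubgroup) :=
    Nat.finite_of_card_ne_zero (hcard ▸ hm0)
  obtain ⟨Cl, κ, hCl, hκ, hL⟩ := hlip
  have hw : ∀ a : 𝓞 K, a ≠ 0 → 0 < ‖mixedEmbedding K (a : K)‖ := by
    intro a ha
    rw [norm_pos_iff]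
    intro h0
    have h2 : mixedEmbedding K (a : K) = mixedEmbedding K ((0 : 𝓞 K) : K) := by
      rw [h0]
      simp
    exact ha (RingOfIntegers.ext (mixedEmbedding_injective K h2))
  obtain ⟨B₁, hB₁⟩ := d2b_coset_compare ((𝔟 : Ideal (𝓞 K)).toAddSubgroup)
    (fun a : 𝓞 K => ‖mixedEmbedding K (a : K)‖) hw Cl κ (Module.finrank ℚ K + 1 : ℝ) hCl.le hκ
    (by positivity) (d2b_summable_ideal K 𝔟)
  obtain ⟨c₁, c₂, hc₁, hz⟩ := zetaR_bounds K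
  refine ⟨B₁ + c₂ * Real.log m, fun s hs hs2 => ?_⟩
  have hs0 : (0 : ℝ) ≤ s := by linarith
  have hcmp := hB₁ (F s) (h1 s hs0)
    (fun a c ha hac hk => hL s hs.le hs2 (a : 𝓞 K) c ha hac hk) (htop s hs).summable
  rw [(htop s hs).tsum_eq, (hsum C 𝔟 h𝔟 s hs).tsum_eq, hcard] at hcmp
  -- `m * m^{-s} = m^{1-s}`
  have hmpos : (0 : ℝ) < m := by linarith
  have e1 : (m : ℝ) * ((m : ℝ) ^ (-s) * zetaClass K C s) = (m : ℝ) ^ (1 - s) * zetaClass K C s := by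
    rw [← mul_assoc, sub_eq_add_neg, Real.rpow_add hmpos, Real.rpow_one]
  rw [e1] at hcmp
  -- `(1 - m^{1-s}) ζ_C ≤ c₂ log m`
  have hZ0 := d2d_zetaClass_nonneg K C s
  have hZle := d2d_zetaClass_le K C hs
  have hzR := (hz s hs hs2).2
  have hlog0 : 0 ≤ Real.log m := Real.log_nonneg hm1
  have e2 : (m : ℝ) ^ (1 - s) = Real.exp ((1 - s) * Real.log m) := by
    rw [Real.rpow_def_of_pos hmpos, mul_comm]
  have h3 : 1 - (m : ℝ) ^ (1 - s) ≤ (s - 1) * Real.log m := by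
    rw [e2]
    have := Real.add_one_le_exp ((1 - s) * Real.log m)
    linarith
  have h4 : (m : ℝ) ^ (1 - s) ≤ 1 := by
    rw [e2]
    refine Real.exp_le_one_iff.mpr ?_
    exact mul_nonpos_of_nonpos_of_nonneg (by linarith) hlog0
  have h5 : |(m : ℝ) ^ (1 - s) * zetaClass K C s - zetaClass K C s| ≤ c₂ * Real.log m := by
    have e3 : (m : ℝ) ^ (1 - s) * zetaClass K C s - zetaClass K C s =
        -((1 - (m : ℝ) ^ (1 - s)) * zetaClass K C s) := by ring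
    rw [e3, abs_neg, abs_of_nonneg (mul_nonneg (by linarith) hZ0)]
    have hs1 : 0 ≤ s - 1 := by linarith
    calc (1 - (m : ℝ) ^ (1 - s)) * zetaClass K C s
        ≤ ((s - 1) * Real.log m) * zetaR K s :=
          mul_le_mul h3 hZle hZ0 (mul_nonneg hs1 hlog0)
      _ = ((s - 1) * zetaR K s) * Real.log m := by ring
      _ ≤ c₂ * Real.log m := mul_le_mul_of_nonneg_right hzR hlog0
  have e4 : zetaClass K 1 s - zetaClass K C s =
      (zetaClass K 1 s - (m : ℝ) ^ (1 - s) * zetaClass K C s) +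
        ((m : ℝ) ^ (1 - s) * zetaClass K C s - zetaClass K C s) := by ring
  rw [e4]
  exact (abs_add_le _ _).trans (add_le_add hcmp h5)

/-- **D2**, from the orbit decomposition D2c. -/
theorem zetaClass_sub_bounded_of
    (F : ℝ → 𝓞 K → ℝ)
    (h1 : ∀ s : ℝ, 0 ≤ s → ∀ a, |F s a| ≤ 1)
    (hsum : ∀ (C : ClassGroup (𝓞 K)) (𝔟 : (Ideal (𝓞 K))⁰), ClassGroup.mk0 𝔟 = C⁻¹ →
      ∀ s : ℝ, 1 < s →
      HasSum (fun a : (𝔟 : Ideal (𝓞 K)).toAddSubgroup => F s (a : 𝓞 K))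
        ((Ideal.absNorm (𝔟 : Ideal (𝓞 K)) : ℝ) ^ (-s) * zetaClass K C s))
    (htop : ∀ s : ℝ, 1 < s → HasSum (F s) (zetaClass K 1 s))
    (hlip : ∃ C κ : ℝ, 0 < C ∧ 0 < κ ∧ ∀ s : ℝ, 1 ≤ s → s ≤ 2 → ∀ a c : 𝓞 K, a ≠ 0 →
      a + c ≠ 0 → κ * ‖mixedEmbedding K (c : K)‖ ≤ ‖mixedEmbedding K (a : K)‖ →
      |F s (a + c) - F s a| ≤ C * ‖mixedEmbedding K (c : K)‖ *
        ‖mixedEmbedding K (a : K)‖ ^ (-(Module.finrank ℚ K + 1 : ℝ)))
    (C C' : ClassGroup (𝓞 K)) :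
    ∃ B : ℝ, ∀ s : ℝ, 1 < s → s ≤ 2 → |zetaClass K C s - zetaClass K C' s| ≤ B := by
  obtain ⟨B, hB⟩ := zetaClass_sub_one_bounded_of K F h1 hsum htop hlip C
  obtain ⟨B', hB'⟩ := zetaClass_sub_one_bounded_of K F h1 hsum htop hlip C'
  refine ⟨B + B', fun s hs hs2 => ?_⟩
  have e : zetaClass K C s - zetaClass K C' s =
      -(zetaClass K 1 s - zetaClass K C s) + (zetaClass K 1 s - zetaClass K C' s) := by ring
  rw [e]
  refine (abs_add_le _ _).trans (add_le_add ?_ (hB' s hs hs2))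
  rw [abs_neg]
  exact hB s hs hs2

end Fermat.Agent.S14lib
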