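import Mathlib
import Fermat.Agent.Cheb.Zeta

/-!
# S14 (item 77), piece D3, part 1: the sieve identity

For a completely multiplicative `g` on the ideals of `𝓞 M` with `∑ ‖g I‖ < ∞` and a finite set `T`
of primes:  `∑_{J coprime to T} g J = (∏_{𝔭 ∈ T} (1 - g 𝔭)) * ∑_J g J`.
-/

set_option autoImplicit false

namespace Fermat.Agent.S14lib

open NumberField Ideal IsDedekindDomain Fermat.Agent.Cheb

variable {M : Type*} [Field M] [NumberField M]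

/-- the ideals which are coprime to all primes of `T` -/
def d3Cop (T : Finset (HeightOneSpectrum (𝓞 M))) : Set (Ideal (𝓞 M)) :=
  {J | ∀ 𝔭 ∈ T, ¬ 𝔭.asIdeal ∣ J}

/-- the sieved sum -/
noncomputable def d3Sieve (g : Ideal (𝓞 M) → ℂ) (T : Finset (HeightOneSpectrum (𝓞 M))) : ℂ :=
  ∑' J : Ideal (𝓞 M), (d3Cop T).indicator g J

theorem d3Cop_empty : d3Cop (∅ : Finset (HeightOneSpectrum (𝓞 M))) = Set.univ := by
  ext J
  simp [d3Cop]

theorem d3Sieve_empty (g : Ideal (𝓞 M) → ℂ) : d3Sieve g ∅ = ∑' J : Ideal (𝓞 M), g J := by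
  rw [d3Sieve, d3Cop_empty, Set.indicator_univ]

theorem d3_dvd_asIdeal {𝔭 𝔮 : HeightOneSpectrum (𝓞 M)} (h : 𝔮.asIdeal ∣ 𝔭.asIdeal) : 𝔮 = 𝔭 := by
  have hle : 𝔭.asIdeal ≤ 𝔮.asIdeal := Ideal.le_of_dvd h
  have : 𝔭.asIdeal = 𝔮.asIdeal := 𝔭.isMaximal.eq_of_le 𝔮.isPrime.ne_top hle
  exact (HeightOneSpectrum.ext this).symm

theorem d3Cop_mul_iff {T : Finset (HeightOneSpectrum (𝓞 M))} {𝔭 : HeightOneSpectrum (𝓞 M)}
    (h𝔭 : 𝔭 ∉ T) (J : Ideal (𝓞 M)) : 𝔭.asIdeal * J ∈ d3Cop T ↔ J ∈ d3Cop T := by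
  constructor
  · intro h 𝔮 h𝔮 hd
    exact h 𝔮 h𝔮 (Dvd.dvd.mul_left hd _)
  · intro h 𝔮 h𝔮 hd
    rcases 𝔮.prime.dvd_or_dvd hd with h1 | h1
    · exact h𝔭 (d3_dvd_asIdeal h1 ▸ h𝔮)
    · exact h 𝔮 h𝔮 h1

theorem d3_summable_indicator {g : Ideal (𝓞 M) → ℂ} (hg : Summable fun J => ‖g J‖)
    (A : Set (Ideal (𝓞 M))) : Summable (A.indicator g) :=
  (hg.of_norm).indicator A

theorem d3Sieve_insert {g : Ideal (𝓞 M) → ℂ} (hmul : ∀ I J, g (I * J) = g I * g J)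
    (hg : Summable fun J => ‖g J‖) {T : Finset (HeightOneSpectrum (𝓞 M))}
    {𝔭 : HeightOneSpectrum (𝓞 M)} (h𝔭 : 𝔭 ∉ T) [DecidableEq (HeightOneSpectrum (𝓞 M))] :
    d3Sieve g (insert 𝔭 T) = (1 - g 𝔭.asIdeal) * d3Sieve g T := by
  classical
  have hpt : ∀ J, (d3Cop (insert 𝔭 T)).indicator g J =
      (d3Cop T).indicator g J - (d3Cop T ∩ {J | 𝔭.asIdeal ∣ J}).indicator g J := by
    intro J
    by_cases h1 : J ∈ d3Cop T
    · by_cases h2 : 𝔭.asIdeal ∣ J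
      · have h3 : J ∉ d3Cop (insert 𝔭 T) := fun h => h 𝔭 (Finset.mem_insert_self _ _) h2
        have h4 : J ∈ d3Cop T ∩ {J | 𝔭.asIdeal ∣ J} := ⟨h1, h2⟩
        rw [Set.indicator_of_notMem h3, Set.indicator_of_mem h1, Set.indicator_of_mem h4, sub_self]
      · have h3 : J ∈ d3Cop (insert 𝔭 T) := by
          intro 𝔮 h𝔮
          rcases Finset.mem_insert.mp h𝔮 with rfl | h
          · exact h2
          · exact h1 𝔮 h
        have h4 : J ∉ d3Cop T ∩ {J | 𝔭.asIdeal ∣ J} := fun h => h2 h.2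
        rw [Set.indicator_of_mem h3, Set.indicator_of_mem h1, Set.indicator_of_notMem h4, sub_zero]
    · have h3 : J ∉ d3Cop (insert 𝔭 T) := fun h => h1 fun 𝔮 h𝔮 => h 𝔮 (Finset.mem_insert_of_mem h𝔮)
      have h4 : J ∉ d3Cop T ∩ {J | 𝔭.asIdeal ∣ J} := fun h => h1 h.1
      rw [Set.indicator_of_notMem h3, Set.indicator_of_notMem h1, Set.indicator_of_notMem h4,
        sub_zero]
  have hinj : Function.Injective (fun J : Ideal (𝓞 M) => 𝔭.asIdeal * J) := fun J₁ J₂ h =>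
    mul_left_cancel₀ 𝔭.ne_bot h
  have hsupp : Function.support ((d3Cop T ∩ {J | 𝔭.asIdeal ∣ J}).indicator g) ⊆
      Set.range (fun J : Ideal (𝓞 M) => 𝔭.asIdeal * J) := by
    intro J hJ
    have hmem : J ∈ d3Cop T ∩ {J | 𝔭.asIdeal ∣ J} := by
      by_contra h
      exact hJ (Set.indicator_of_notMem h _)
    obtain ⟨J', rfl⟩ := hmem.2
    exact ⟨J', rfl⟩
  have hcomp : ∀ J, (d3Cop T ∩ {J | 𝔭.asIdeal ∣ J}).indicator g (𝔭.asIdeal * J) =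
      g 𝔭.asIdeal * (d3Cop T).indicator g J := by
    intro J
    by_cases h1 : J ∈ d3Cop T
    · have h2 : 𝔭.asIdeal * J ∈ d3Cop T ∩ {J | 𝔭.asIdeal ∣ J} :=
        ⟨(d3Cop_mul_iff h𝔭 J).2 h1, Dvd.intro _ rfl⟩
      rw [Set.indicator_of_mem h2, Set.indicator_of_mem h1, hmul]
    · have h2 : 𝔭.asIdeal * J ∉ d3Cop T ∩ {J | 𝔭.asIdeal ∣ J} :=
        fun h => h1 ((d3Cop_mul_iff h𝔭 J).1 h.1)
      rw [Set.indicator_of_notMem h2, Set.indicator_of_notMem h1, mul_zero]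
  have e2 : ∑' J : Ideal (𝓞 M), (d3Cop T ∩ {J | 𝔭.asIdeal ∣ J}).indicator g J =
      g 𝔭.asIdeal * d3Sieve g T := by
    rw [← hinj.tsum_eq hsupp, d3Sieve, ← tsum_mul_left]
    exact tsum_congr hcomp
  rw [d3Sieve, tsum_congr hpt,
    (d3_summable_indicator hg _).tsum_sub (d3_summable_indicator hg _), e2, d3Sieve]
  ring

/-- **The sieve identity.** -/
theorem d3Sieve_eq {g : Ideal (𝓞 M) → ℂ} (hmul : ∀ I J, g (I * J) = g I * g J)
    (hg : Summable fun J => ‖g J‖) (T : Finset (HeightOneSpectrum (𝓞 M))) :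
    d3Sieve g T = (∏ 𝔭 ∈ T, (1 - g 𝔭.asIdeal)) * ∑' J : Ideal (𝓞 M), g J := by
  classical
  induction T using Finset.induction_on with
  | empty => rw [d3Sieve_empty, Finset.prod_empty, one_mul]
  | insert 𝔭 T h𝔭 ih =>
    rw [d3Sieve_insert hmul hg h𝔭, ih, Finset.prod_insert h𝔭, mul_assoc]

end Fermat.Agent.S14lib
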