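import Mathlib
import Fermat.Agent.S14lib.DensDefs
import Fermat.Agent.S14lib.DensD3Sieve

/-!
# S14 (item 77), piece D3, part 3: the `L`-series of a class character is bounded (from D2)
-/

set_option autoImplicit false

namespace Fermat.Agent.S14lib

open NumberField Ideal IsDedekindDomain Fermat.Agent.Cheb
open scoped nonZeroDivisors

variable {M : Type*} [Field M] [NumberField M] {q : ℕ} [Fact q.Prime]

/-- hypotheses on `f` (an additive function on nonzero ideals, killing principal ideals) -/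
structure D3Fun (f : Ideal (𝓞 M) → ZMod q) : Prop where
  map_mul : ∀ I J : Ideal (𝓞 M), I ≠ ⊥ → J ≠ ⊥ → f (I * J) = f I + f J
  map_span : ∀ x : 𝓞 M, x ≠ 0 → f (Ideal.span {x}) = 0

theorem D3Fun.map_top {f : Ideal (𝓞 M) → ZMod q} (hf : D3Fun f) : f ⊤ = 0 := by
  have := hf.map_span 1 one_ne_zero
  rwa [Ideal.span_singleton_one] at this

theorem d3_ne_bot (I : (Ideal (𝓞 M))⁰) : (I : Ideal (𝓞 M)) ≠ ⊥ :=
  mem_nonZeroDivisors_iff_ne_zero.mp I.2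

theorem D3Fun.eq_of_mk0_eq {f : Ideal (𝓞 M) → ZMod q} (hf : D3Fun f) {I J : (Ideal (𝓞 M))⁰}
    (h : ClassGroup.mk0 I = ClassGroup.mk0 J) : f I = f J := by
  obtain ⟨x, y, hx, hy, hxy⟩ := ClassGroup.mk0_eq_mk0_iff.mp h
  have hsx : Ideal.span {x} ≠ (⊥ : Ideal (𝓞 M)) := by
    rwa [Ne, Ideal.span_singleton_eq_bot]
  have hsy : Ideal.span {y} ≠ (⊥ : Ideal (𝓞 M)) := by
    rwa [Ne, Ideal.span_singleton_eq_bot]
  have := congrArg f hxy
  rwa [hf.map_mul _ _ hsx (d3_ne_bot I), hf.map_mul _ _ hsy (d3_ne_bot J), hf.map_span x hx,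
    hf.map_span y hy, zero_add, zero_add] at this

/-- `f` on the class group -/
noncomputable def d3Cl (f : Ideal (𝓞 M) → ZMod q) (C : ClassGroup (𝓞 M)) : ZMod q :=
  f ((ClassGroup.mk0_surjective C).choose : Ideal (𝓞 M))

theorem d3Cl_mk0 {f : Ideal (𝓞 M) → ZMod q} (hf : D3Fun f) (I : (Ideal (𝓞 M))⁰) :
    d3Cl f (ClassGroup.mk0 I) = f I :=
  hf.eq_of_mk0_eq (ClassGroup.mk0_surjective (ClassGroup.mk0 I)).choose_spec

theorem d3Cl_mul {f : Ideal (𝓞 M) → ZMod q} (hf : D3Fun f) (C C' : ClassGroup (𝓞 M)) :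
    d3Cl f (C * C') = d3Cl f C + d3Cl f C' := by
  obtain ⟨I, rfl⟩ := ClassGroup.mk0_surjective C
  obtain ⟨J, rfl⟩ := ClassGroup.mk0_surjective C'
  rw [← map_mul, d3Cl_mk0 hf, d3Cl_mk0 hf, d3Cl_mk0 hf]
  exact hf.map_mul _ _ (d3_ne_bot I) (d3_ne_bot J)

/-- the class character -/
noncomputable def d3Psi (f : Ideal (𝓞 M) → ZMod q) (C : ClassGroup (𝓞 M)) : ℂ :=
  haveI : NeZero q := ⟨(Fact.out : q.Prime).ne_zero⟩
  ZMod.stdAddChar (d3Cl f C)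

theorem d3Psi_mul {f : Ideal (𝓞 M) → ZMod q} (hf : D3Fun f) (C C' : ClassGroup (𝓞 M)) :
    d3Psi f (C * C') = d3Psi f C * d3Psi f C' := by
  have : NeZero q := ⟨(Fact.out : q.Prime).ne_zero⟩
  rw [d3Psi, d3Psi, d3Psi, d3Cl_mul hf, AddChar.map_add_eq_mul]

theorem d3_norm_stdAddChar (a : ZMod q) :
    haveI : NeZero q := ⟨(Fact.out : q.Prime).ne_zero⟩
    ‖(ZMod.stdAddChar a : ℂ)‖ = 1 := by
  have : NeZero q := ⟨(Fact.out : q.Prime).ne_zero⟩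
  rw [ZMod.stdAddChar_apply]
  exact Circle.norm_coe _

theorem d3Psi_norm (f : Ideal (𝓞 M) → ZMod q) (C : ClassGroup (𝓞 M)) : ‖d3Psi f C‖ = 1 :=
  d3_norm_stdAddChar _

theorem d3Psi_sum {f : Ideal (𝓞 M) → ZMod q} (hf : D3Fun f)
    (hne : ∃ I : Ideal (𝓞 M), I ≠ ⊥ ∧ f I ≠ 0) :
    ∑ C : ClassGroup (𝓞 M), d3Psi f C = 0 := by
  have : NeZero q := ⟨(Fact.out : q.Prime).ne_zero⟩
  obtain ⟨I, hI, hfI⟩ := hne
  set C₀ : ClassGroup (𝓞 M) := ClassGroup.mk0 ⟨I, mem_nonZeroDivisors_iff_ne_zero.mpr hI⟩ with hC₀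
  have h1 : d3Psi f C₀ ≠ 1 := by
    intro h
    rw [d3Psi, hC₀, d3Cl_mk0 hf] at h
    have h0 : (ZMod.stdAddChar (0 : ZMod q) : ℂ) = 1 := AddChar.map_zero_eq_one _
    exact hfI (ZMod.injective_stdAddChar (h.trans h0.symm))
  have h2 : ∑ C : ClassGroup (𝓞 M), d3Psi f C = d3Psi f C₀ * ∑ C : ClassGroup (𝓞 M), d3Psi f C := by
    rw [Finset.mul_sum, ← Equiv.sum_comp (Equiv.mulLeft C₀)]
    exact Finset.sum_congr rfl fun C _ => d3Psi_mul hf C₀ C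
  have h3 : (1 - d3Psi f C₀) * ∑ C : ClassGroup (𝓞 M), d3Psi f C = 0 := by
    rw [sub_mul, one_mul, ← h2, sub_self]
  rcases mul_eq_zero.mp h3 with h | h
  · exact absurd (sub_eq_zero.mp h).symm h1
  · exact h

/-- the multiplicative function `g_s(J) = χ(J) N(J)^{-s}` -/
noncomputable def d3G (f : Ideal (𝓞 M) → ZMod q) (s : ℝ) (J : Ideal (𝓞 M)) : ℂ :=
  haveI : NeZero q := ⟨(Fact.out : q.Prime).ne_zero⟩
  ZMod.stdAddChar (f J) * ((((absNorm J : ℕ) : ℝ) ^ (-s) : ℝ) : ℂ)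

theorem d3G_norm (f : Ideal (𝓞 M) → ZMod q) (s : ℝ) (J : Ideal (𝓞 M)) :
    ‖d3G f s J‖ = ((absNorm J : ℕ) : ℝ) ^ (-s) := by
  rw [d3G, norm_mul, d3_norm_stdAddChar, one_mul, Complex.norm_real,
    Real.norm_of_nonneg (Real.rpow_nonneg (Nat.cast_nonneg _) _)]

theorem d3G_bot (f : Ideal (𝓞 M) → ZMod q) {s : ℝ} (hs : 1 < s) : d3G f s ⊥ = 0 := by
  rw [← norm_eq_zero, d3G_norm, absNorm_bot, Nat.cast_zero, Real.zero_rpow (by linarith)]

theorem d3G_top {f : Ideal (𝓞 M) → ZMod q} (hf : D3Fun f) (s : ℝ) : d3G f s ⊤ = 1 := by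
  have : NeZero q := ⟨(Fact.out : q.Prime).ne_zero⟩
  rw [d3G, hf.map_top, AddChar.map_zero_eq_one, absNorm_top, Nat.cast_one, Real.one_rpow,
    Complex.ofReal_one, mul_one]

theorem d3G_mul {f : Ideal (𝓞 M) → ZMod q} (hf : D3Fun f) {s : ℝ} (hs : 1 < s)
    (I J : Ideal (𝓞 M)) : d3G f s (I * J) = d3G f s I * d3G f s J := by
  have : NeZero q := ⟨(Fact.out : q.Prime).ne_zero⟩
  by_cases hI : I = ⊥
  · subst hI
    rw [show (⊥ : Ideal (𝓞 M)) * J = ⊥ from bot_mul J, d3G_bot f hs, zero_mul]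
  by_cases hJ : J = ⊥
  · subst hJ
    rw [show I * (⊥ : Ideal (𝓞 M)) = ⊥ from mul_bot I, d3G_bot f hs, mul_zero]
  rw [d3G, d3G, d3G, hf.map_mul I J hI hJ, AddChar.map_add_eq_mul, map_mul, Nat.cast_mul,
    Real.mul_rpow (Nat.cast_nonneg _) (Nat.cast_nonneg _), Complex.ofReal_mul]
  ring

theorem d3G_summable (f : Ideal (𝓞 M) → ZMod q) {s : ℝ} (hs : 1 < s) :
    Summable fun J => ‖d3G f s J‖ := by
  simp_rw [d3G_norm]
  exact summable_norm_rpow M hs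

theorem d3G_of_eq_zero (f : Ideal (𝓞 M) → ZMod q) (s : ℝ) {J : Ideal (𝓞 M)} (h : f J = 0) :
    d3G f s J = ((((absNorm J : ℕ) : ℝ) ^ (-s) : ℝ) : ℂ) := by
  have : NeZero q := ⟨(Fact.out : q.Prime).ne_zero⟩
  rw [d3G, h, AddChar.map_zero_eq_one, one_mul]

end Fermat.Agent.S14lib
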