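import Mathlib
import Fermat.Agent.S14lib.DensD3Char

/-!
# S14 (item 77), piece D3, part 4: the `L`-series of a nontrivial class character is bounded on
`(1, 2]`, given D2 (partial zeta functions of two classes differ by `O(1)`).
-/

set_option autoImplicit false

namespace Fermat.Agent.S14lib

open NumberField Ideal IsDedekindDomain Fermat.Agent.Cheb
open scoped nonZeroDivisors

variable {M : Type*} [Field M] [NumberField M] {q : ℕ} [Fact q.Prime]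

theorem d3_L_eq {f : Ideal (𝓞 M) → ZMod q} (hf : D3Fun f) {s : ℝ} (hs : 1 < s) :
    ∑' J : Ideal (𝓞 M), d3G f s J =
      ∑ C : ClassGroup (𝓞 M), d3Psi f C * ((zetaClass M C s : ℝ) : ℂ) := by
  classical
  have hsum : Summable (d3G f s) := (d3G_summable f hs).of_norm
  have hsupp : Function.support (d3G f s) ⊆ ((Ideal (𝓞 M))⁰ : Set (Ideal (𝓞 M))) := by
    intro J hJ
    rw [SetLike.mem_coe, mem_nonZeroDivisors_iff_ne_zero]
    rintro rfl
    exact hJ (d3G_bot f hs)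
  have h1 : ∑' J : Ideal (𝓞 M), d3G f s J =
      ∑' I : (Ideal (𝓞 M))⁰, d3G f s (I : Ideal (𝓞 M)) :=
    (tsum_subtype_eq_of_support_subset hsupp).symm
  have hsum' : Summable (fun I : (Ideal (𝓞 M))⁰ => d3G f s (I : Ideal (𝓞 M))) :=
    hsum.subtype _
  rw [h1, ← (Equiv.sigmaFiberEquiv (fun I : (Ideal (𝓞 M))⁰ => ClassGroup.mk0 I)).tsum_eq]
  have hsig := (Equiv.sigmaFiberEquiv
    (fun I : (Ideal (𝓞 M))⁰ => ClassGroup.mk0 I)).summable_iff.mpr hsum'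
  refine (Summable.tsum_sigma hsig).trans ?_
  rw [tsum_fintype]
  refine Finset.sum_congr rfl fun C _ => ?_
  rw [zetaClass, Complex.ofReal_tsum, ← tsum_mul_left]
  refine tsum_congr fun y => ?_
  show d3G f s ((y.1 : (Ideal (𝓞 M))⁰) : Ideal (𝓞 M)) = _
  have hy : d3Cl f C = f ((y.1 : (Ideal (𝓞 M))⁰) : Ideal (𝓞 M)) := by
    have := d3Cl_mk0 hf y.1
    rwa [y.2] at this
  rw [d3G, d3Psi, hy]

theorem d3_L_bound {f : Ideal (𝓞 M) → ZMod q} (hf : D3Fun f)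
    (hne : ∃ I : Ideal (𝓞 M), I ≠ ⊥ ∧ f I ≠ 0)
    (hD2 : ∀ C C' : ClassGroup (𝓞 M), ∃ B : ℝ, ∀ s : ℝ, 1 < s → s ≤ 2 →
      |zetaClass M C s - zetaClass M C' s| ≤ B) :
    ∃ B₀ : ℝ, 1 ≤ B₀ ∧ ∀ s : ℝ, 1 < s → s ≤ 2 → ‖∑' J : Ideal (𝓞 M), d3G f s J‖ ≤ B₀ := by
  classical
  choose B hB using fun C => hD2 C 1
  refine ⟨max 1 (∑ C : ClassGroup (𝓞 M), B C), le_max_left _ _, fun s hs hs2 => ?_⟩
  refine le_trans ?_ (le_max_right _ _)
  rw [d3_L_eq hf hs]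
  have e : ∑ C : ClassGroup (𝓞 M), d3Psi f C * ((zetaClass M C s : ℝ) : ℂ) =
      ∑ C : ClassGroup (𝓞 M), d3Psi f C * (((zetaClass M C s - zetaClass M 1 s : ℝ)) : ℂ) := by
    have h0 : ∑ C : ClassGroup (𝓞 M), d3Psi f C * ((zetaClass M 1 s : ℝ) : ℂ) = 0 := by
      rw [← Finset.sum_mul, d3Psi_sum hf hne, zero_mul]
    rw [← sub_zero (∑ C : ClassGroup (𝓞 M), d3Psi f C * ((zetaClass M C s : ℝ) : ℂ)), ← h0,
      ← Finset.sum_sub_distrib]
    refine Finset.sum_congr rfl fun C _ => ?_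
    rw [Complex.ofReal_sub]
    ring
  rw [e]
  refine (norm_sum_le _ _).trans (Finset.sum_le_sum fun C _ => ?_)
  rw [norm_mul, d3Psi_norm, one_mul, Complex.norm_real, Real.norm_eq_abs]
  exact hB C s hs hs2

end Fermat.Agent.S14lib
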