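import Mathlib
import Fermat.Agent.S14lib.DensD3Sieve

/-!
# S14 (item 77), piece D3, part 2: the sieved sum is close to `1`, and the Euler factor bound
-/

set_option autoImplicit false

namespace Fermat.Agent.S14lib

open NumberField Ideal IsDedekindDomain Fermat.Agent.Cheb

variable {M : Type*} [Field M] [NumberField M]

/-- every ideal `≠ ⊥, ⊤` is divisible by a prime -/
theorem d3_exists_prime_dvd {J : Ideal (𝓞 M)} (h0 : J ≠ ⊥) (h1 : J ≠ ⊤) :
    ∃ 𝔭 : HeightOneSpectrum (𝓞 M), 𝔭.asIdeal ∣ J := by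
  obtain ⟨𝔪, h𝔪, hle⟩ := Ideal.exists_le_maximal J h1
  have hne : 𝔪 ≠ ⊥ := fun h => h0 (le_bot_iff.mp (h ▸ hle))
  exact ⟨⟨𝔪, h𝔪.isPrime, hne⟩, Ideal.dvd_iff_le.mpr hle⟩

/-- a finite set of primes hitting every ideal `≠ ⊥, ⊤` of a given finite set -/
theorem d3_exists_primes (F : Finset (Ideal (𝓞 M))) :
    ∃ T : Finset (HeightOneSpectrum (𝓞 M)),
      ∀ J ∈ F, J ≠ ⊥ → J ≠ ⊤ → ∃ 𝔭 ∈ T, 𝔭.asIdeal ∣ J := by
  classical
  induction F using Finset.induction_on with
  | empty => exact ⟨∅, fun J hJ => absurd hJ (Finset.notMem_empty J)⟩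
  | insert I F _ ih =>
    obtain ⟨T, hT⟩ := ih
    by_cases hI : I ≠ ⊥ ∧ I ≠ ⊤
    · obtain ⟨𝔭, h𝔭⟩ := d3_exists_prime_dvd hI.1 hI.2
      refine ⟨insert 𝔭 T, fun J hJ h0 h1 => ?_⟩
      rcases Finset.mem_insert.mp hJ with rfl | hJ
      · exact ⟨𝔭, Finset.mem_insert_self _ _, h𝔭⟩
      · obtain ⟨𝔮, h𝔮, hd⟩ := hT J hJ h0 h1
        exact ⟨𝔮, Finset.mem_insert_of_mem h𝔮, hd⟩
    · refine ⟨T, fun J hJ h0 h1 => ?_⟩
      rcases Finset.mem_insert.mp hJ with rfl | hJ
      · exact absurd ⟨h0, h1⟩ hI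
      · exact hT J hJ h0 h1

/-- For every `s > 1` there is a finite set `T₀` of primes such that for all `T ⊇ T₀` and all `g`
with `g ⊤ = 1`, `‖g J‖ ≤ N(J)^{-s}`:  `‖∑_{J coprime to T} g J - 1‖ ≤ 1/2`. -/
theorem d3_exists_sieve_close {s : ℝ} (hs : 1 < s) :
    ∃ T₀ : Finset (HeightOneSpectrum (𝓞 M)), ∀ T : Finset (HeightOneSpectrum (𝓞 M)), T₀ ⊆ T →
      ∀ g : Ideal (𝓞 M) → ℂ, g ⊤ = 1 → (∀ J, ‖g J‖ ≤ ((absNorm J : ℕ) : ℝ) ^ (-s)) →
        ‖d3Sieve g T - 1‖ ≤ 1 / 2 := by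
  classical
  set h : Ideal (𝓞 M) → ℝ := fun J => ((absNorm J : ℕ) : ℝ) ^ (-s) with hh
  have hsum : Summable h := summable_norm_rpow M hs
  have hh0 : ∀ J, 0 ≤ h J := fun J => Real.rpow_nonneg (Nat.cast_nonneg _) _
  -- a finite set `F` with small tail
  obtain ⟨F, hF⟩ : ∃ F : Finset (Ideal (𝓞 M)), ∑' J, h J - 1 / 2 < ∑ J ∈ F, h J := by
    have := hsum.hasSum.eventually (lt_mem_nhds (show ∑' J, h J - 1 / 2 < ∑' J, h J by linarith))
    obtain ⟨F, hF⟩ := this.exists
    exact ⟨F, hF⟩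
  obtain ⟨T₀, hT₀⟩ := d3_exists_primes F
  refine ⟨T₀, fun T hT g hg1 hgh => ?_⟩
  have hbot : g ⊥ = 0 := by
    have := hgh ⊥
    rw [absNorm_bot, Nat.cast_zero, Real.zero_rpow (by linarith : -s ≠ 0)] at this
    exact norm_le_zero_iff.mp this
  have hgs : Summable fun J => ‖g J‖ := hsum.of_nonneg_of_le (fun _ => norm_nonneg _) hgh
  -- the summand
  set k : Ideal (𝓞 M) → ℂ := fun J => (d3Cop T).indicator g J - ({⊤} : Set (Ideal (𝓞 M))).indicator g J
    with hk
  have hk1 : d3Sieve g T - 1 = ∑' J, k J := by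
    rw [hk, (d3_summable_indicator hgs _).tsum_sub (d3_summable_indicator hgs _), d3Sieve]
    congr 1
    rw [tsum_eq_single ⊤]
    · rw [Set.indicator_of_mem (Set.mem_singleton _), hg1]
    · intro J hJ
      exact Set.indicator_of_notMem (by simpa using hJ) _
  -- the bound
  have hkb : ∀ J, ‖k J‖ ≤ (↑F : Set (Ideal (𝓞 M)))ᶜ.indicator h J := by
    intro J
    by_cases hJF : J ∈ F
    · have e : (↑F : Set (Ideal (𝓞 M)))ᶜ.indicator h J = 0 :=
        Set.indicator_of_notMem (by simpa using hJF) _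
      rw [e]
      have : k J = 0 := by
        rw [hk]
        by_cases h0 : J = ⊥
        · subst h0
          simp only [Set.indicator_apply, hbot, ite_self, sub_self]
        by_cases h1 : J = ⊤
        · subst h1
          have hc : (⊤ : Ideal (𝓞 M)) ∈ d3Cop T := by
            intro 𝔭 _ hd
            exact 𝔭.isPrime.ne_top (top_le_iff.mp (Ideal.le_of_dvd hd))
          simp only [Set.indicator_of_mem hc, Set.indicator_of_mem (Set.mem_singleton _), sub_self]
        · obtain ⟨𝔭, h𝔭, hd⟩ := hT₀ J hJF h0 h1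
          have hc : J ∉ d3Cop T := fun hc => hc 𝔭 (hT h𝔭) hd
          simp only [Set.indicator_of_notMem hc,
            Set.indicator_of_notMem (show J ∉ ({⊤} : Set (Ideal (𝓞 M))) from h1), sub_self]
      rw [this, norm_zero]
    · have e : (↑F : Set (Ideal (𝓞 M)))ᶜ.indicator h J = h J :=
        Set.indicator_of_mem (by simpa using hJF) _
      rw [e]
      refine le_trans ?_ (hgh J)
      rw [hk]
      by_cases h1 : J = ⊤
      · subst h1
        have hc : (⊤ : Ideal (𝓞 M)) ∈ d3Cop T := by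
          intro 𝔭 _ hd
          exact 𝔭.isPrime.ne_top (top_le_iff.mp (Ideal.le_of_dvd hd))
        simp only [Set.indicator_of_mem hc, Set.indicator_of_mem (Set.mem_singleton _), sub_self,
          norm_zero, norm_nonneg]
      · simp only [Set.indicator_of_notMem (show J ∉ ({⊤} : Set (Ideal (𝓞 M))) from h1), sub_zero]
        by_cases hc : J ∈ d3Cop T
        · rw [Set.indicator_of_mem hc]
        · rw [Set.indicator_of_notMem hc, norm_zero]
          exact norm_nonneg _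
  have hcs : HasSum ((↑F : Set (Ideal (𝓞 M)))ᶜ.indicator h) (∑' J, h J - ∑ J ∈ F, h J) := by
    have h1 : HasSum ((↑F : Set (Ideal (𝓞 M))).indicator h) (∑ J ∈ F, h J) := by
      have h2 : ∑ J ∈ F, (↑F : Set (Ideal (𝓞 M))).indicator h J = ∑ J ∈ F, h J :=
        Finset.sum_congr rfl fun J hJ => Set.indicator_of_mem (by simpa using hJ) _
      rw [← h2]
      exact hasSum_sum_of_ne_finset_zero
        (fun J hJ => Set.indicator_of_notMem (by simpa using hJ) _)
    have h3 := hsum.hasSum.sub h1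
    rw [Set.indicator_compl]
    exact h3
  rw [hk1]
  refine (tsum_of_norm_bounded hcs hkb).trans ?_
  linarith

end Fermat.Agent.S14lib
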