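import Mathlib
import Fermat.Agent.S14lib.DensD3Tail
import Fermat.Agent.S14lib.DensD3L

/-!
# S14 (item 77), piece D3: primes with `f ≠ 0` have lower density at least `1/2`

`sum_primes_ne_zero_ge_of`: the statement D3 of `NOTES/S14_signatures.lean.txt`, with the input D2
(`zetaClass_sub_bounded`) as a hypothesis.

Proof: `χ = e^{2πi f/q}`, `L(s) = ∑_I χ(I) N(I)^{-s}` is bounded on `(1, 2]` by D2 (`d3_L_bound`);
sieve identity `L · ∏_{𝔭 ∈ T} (1 - χ(𝔭) x_𝔭) = ∑_{J coprime to T} χ(J) N(J)^{-s}` (`d3Sieve_eq`),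
which is `1 + small` for `T` large (`d3_exists_sieve_close`); `|1 - χ(𝔭) x_𝔭| ≤ exp (± x_𝔭)`.
-/

set_option autoImplicit false

namespace Fermat.Agent.S14lib

open NumberField Ideal IsDedekindDomain Fermat.Agent.Cheb
open scoped nonZeroDivisors

variable {M : Type*} [Field M] [NumberField M] {q : ℕ} [Fact q.Prime]

/-- the Euler factor bound -/
theorem d3_factor_le (f : Ideal (𝓞 M) → ZMod q) {s : ℝ} (hs : 1 < s)
    (𝔭 : HeightOneSpectrum (𝓞 M)) :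
    ‖1 - d3G f s 𝔭.asIdeal‖ ≤
      Real.exp (if f 𝔭.asIdeal = 0 then - xP M s 𝔭 else xP M s 𝔭) := by
  by_cases h : f 𝔭.asIdeal = 0
  · rw [if_pos h, d3G_of_eq_zero f s h]
    have h1 : (1 : ℂ) - ((((absNorm 𝔭.asIdeal : ℕ) : ℝ) ^ (-s) : ℝ) : ℂ) =
        ((1 - xP M s 𝔭 : ℝ) : ℂ) := by
      rw [Complex.ofReal_sub, Complex.ofReal_one]
      rfl
    rw [h1, Complex.norm_real, Real.norm_of_nonneg (by linarith [xP_le_one hs.le 𝔭])]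
    exact Real.one_sub_le_exp_neg _
  · rw [if_neg h]
    refine (norm_sub_le _ _).trans ?_
    rw [norm_one, d3G_norm]
    have := Real.add_one_le_exp (xP M s 𝔭)
    rw [add_comm] at this
    exact this

/-- **D3**, with D2 as a hypothesis. -/
theorem sum_primes_ne_zero_ge_of
    (hD2 : ∀ C C' : ClassGroup (𝓞 M), ∃ B : ℝ, ∀ s : ℝ, 1 < s → s ≤ 2 →
      |zetaClass M C s - zetaClass M C' s| ≤ B)
    (f : Ideal (𝓞 M) → ZMod q)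
    (hmul : ∀ I J : Ideal (𝓞 M), I ≠ ⊥ → J ≠ ⊥ → f (I * J) = f I + f J)
    (hspan : ∀ x : 𝓞 M, x ≠ 0 → f (Ideal.span {x}) = 0)
    (hf : ∃ I : Ideal (𝓞 M), I ≠ ⊥ ∧ f I ≠ 0) :
    ∃ B : ℝ, ∀ s : ℝ, 1 < s → s ≤ 2 → ∃ T : Finset (HeightOneSpectrum (𝓞 M)),
      (∀ 𝔭 ∈ T, f 𝔭.asIdeal ≠ 0 ∧ (Ideal.absNorm 𝔭.asIdeal).Prime) ∧
      (1 / 2 : ℝ) * Real.log (1 / (s - 1)) - B ≤
        ∑ 𝔭 ∈ T, ((Ideal.absNorm 𝔭.asIdeal : ℕ) : ℝ) ^ (-s) := by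
  classical
  have hF : D3Fun f := ⟨hmul, hspan⟩
  obtain ⟨B₀, hB₀1, hB₀⟩ := d3_L_bound hF hf hD2
  obtain ⟨C, hC⟩ := primeSum_asymp M
  refine ⟨(C + 1 + Real.log (2 * B₀)) / 2 + errConst M, fun s hs hs2 => ?_⟩
  -- the big finite set of primes
  obtain ⟨T₀, hT₀⟩ := d3_exists_sieve_close (M := M) hs
  obtain ⟨T₁, hT₁⟩ : ∃ T₁ : Finset (HeightOneSpectrum (𝓞 M)),
      ∀ T, T₁ ⊆ T → ∑' 𝔭, xP M s 𝔭 - 1 < ∑ 𝔭 ∈ T, xP M s 𝔭 := by
    have := (summable_xP (M := M) hs).hasSum.eventually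
      (lt_mem_nhds (show ∑' 𝔭, xP M s 𝔭 - 1 < ∑' 𝔭, xP M s 𝔭 by linarith))
    obtain ⟨T₁, hT₁⟩ := Filter.eventually_atTop.mp this
    exact ⟨T₁, fun T hT => hT₁ T hT⟩
  set T := T₀ ∪ T₁ with hT
  -- sieve
  have hclose := hT₀ T Finset.subset_union_left (d3G f s) (d3G_top hF s)
    (fun J => (d3G_norm f s J).le)
  have hsieve := d3Sieve_eq (fun I J => d3G_mul hF hs I J) (d3G_summable f hs) T
  have hhalf : 1 / 2 ≤ ‖d3Sieve (d3G f s) T‖ := by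
    have h1 : ‖(1 : ℂ)‖ ≤ ‖d3Sieve (d3G f s) T‖ + ‖d3Sieve (d3G f s) T - 1‖ := by
      have := norm_sub_le (d3Sieve (d3G f s) T) (d3Sieve (d3G f s) T - 1)
      rwa [sub_sub_cancel] at this
    rw [norm_one] at h1
    linarith
  -- the product
  have hprod : ‖∏ 𝔭 ∈ T, (1 - d3G f s 𝔭.asIdeal)‖ ≤
      Real.exp (∑ 𝔭 ∈ T, (if f 𝔭.asIdeal = 0 then - xP M s 𝔭 else xP M s 𝔭)) := by
    rw [norm_prod, Real.exp_sum]
    exact Finset.prod_le_prod (fun _ _ => norm_nonneg _) fun 𝔭 _ => d3_factor_le f hs 𝔭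
  set E := ∑ 𝔭 ∈ T, (if f 𝔭.asIdeal = 0 then - xP M s 𝔭 else xP M s 𝔭) with hE
  have hLb := hB₀ s hs hs2
  have h2 : 1 / 2 ≤ Real.exp E * B₀ := by
    rw [hsieve, norm_mul] at hhalf
    refine hhalf.trans ?_
    exact mul_le_mul hprod hLb (norm_nonneg _) (Real.exp_pos _).le
  have hB₀pos : 0 < B₀ := by linarith
  have h3 : - E ≤ Real.log (2 * B₀) := by
    have h4 : Real.exp (-E) ≤ 2 * B₀ := by
      rw [Real.exp_neg]
      rw [inv_le_iff_one_le_mul₀ (Real.exp_pos _)]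
      nlinarith [Real.exp_pos E]
    have := Real.log_le_log (Real.exp_pos _) h4
    rwa [Real.log_exp] at this
  -- the sum over all of `T`
  have h5 : Real.log (1 / (s - 1)) - C - 1 < ∑ 𝔭 ∈ T, xP M s 𝔭 := by
    have h6 := hT₁ T Finset.subset_union_right
    have h7 := (abs_le.mp (hC s hs hs2)).1
    have h8 : primeSum M s ≤ ∑' 𝔭, xP M s 𝔭 := by
      rw [primeSum_eq_tsum_xP_sub M hs]
      have : 0 ≤ ∑' 𝔭 : HeightOneSpectrum (𝓞 M),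
          (xP M s 𝔭 - primeCut s (absNorm 𝔭.asIdeal)) :=
        tsum_nonneg fun 𝔭 => xP_sub_primeCut_nonneg M s 𝔭
      linarith
    linarith
  -- split `T`
  have h9 : ∑ 𝔭 ∈ T, xP M s 𝔭 + E = 2 * ∑ 𝔭 ∈ T with f 𝔭.asIdeal ≠ 0, xP M s 𝔭 := by
    rw [hE, ← Finset.sum_add_distrib, Finset.sum_filter, Finset.mul_sum]
    refine Finset.sum_congr rfl fun 𝔭 _ => ?_
    by_cases h : f 𝔭.asIdeal = 0
    · simp [h]
    · simp [h]
      ring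
  have h10 : ∑ 𝔭 ∈ T with f 𝔭.asIdeal ≠ 0, xP M s 𝔭 ≤
      ∑ 𝔭 ∈ T with (f 𝔭.asIdeal ≠ 0 ∧ (absNorm 𝔭.asIdeal).Prime), xP M s 𝔭 + errConst M := by
    have e1 : ∑ 𝔭 ∈ T with f 𝔭.asIdeal ≠ 0, xP M s 𝔭 =
        ∑ 𝔭 ∈ T with f 𝔭.asIdeal ≠ 0,
          ((if (absNorm 𝔭.asIdeal).Prime then xP M s 𝔭 else 0) +
            (if (absNorm 𝔭.asIdeal).Prime then 0 else xP M s 𝔭)) := by
      refine Finset.sum_congr rfl fun 𝔭 _ => ?_
      by_cases h : (absNorm 𝔭.asIdeal).Prime <;> simp [h]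
    rw [e1, Finset.sum_add_distrib]
    refine add_le_add (le_of_eq ?_) ?_
    · rw [← Finset.sum_filter, Finset.filter_filter]
    · exact sum_le_errConst (fun 𝔭 => if (absNorm 𝔭.asIdeal).Prime then 0 else xP M s 𝔭)
        (fun 𝔭 => by
          by_cases h : (absNorm 𝔭.asIdeal).Prime
          · simp only [h, if_true]
            exact Real.rpow_nonneg (Nat.cast_nonneg _) _
          · simp only [h, if_false]
            exact xP_le_primeOf_of_not_prime hs.le 𝔭 h) _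
  refine ⟨T.filter (fun 𝔭 => f 𝔭.asIdeal ≠ 0 ∧ (absNorm 𝔭.asIdeal).Prime),
    fun 𝔭 h𝔭 => (Finset.mem_filter.mp h𝔭).2, ?_⟩
  have h11 : ∑ 𝔭 ∈ T with (f 𝔭.asIdeal ≠ 0 ∧ (absNorm 𝔭.asIdeal).Prime), xP M s 𝔭 =
      ∑ 𝔭 ∈ T with (f 𝔭.asIdeal ≠ 0 ∧ (absNorm 𝔭.asIdeal).Prime),
        ((Ideal.absNorm 𝔭.asIdeal : ℕ) : ℝ) ^ (-s) := rfl
  rw [← h11]
  linarith

end Fermat.Agent.S14lib
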