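import Mathlib

/-!
# S14 (item 77), density part D2a: a partition of unity for the unit group

For a number field `K` we define a weight `unitWeight K : mixedSpace K → ℝ` with values in `[0, 1]`
such that `∑_{u ∈ (𝓞 K)ˣ} unitWeight K (u • x) = 1` for every `x` of nonzero norm
(`unitWeight_hasSum`).  It is `(1/|torsion|) ∏_i θ(t_i (logMap x))` where `θ(t) = max (1 - |t|) 0`
is the tent function (whose integer translates sum to `1` exactly) and the `t_i` are the
coordinates of `logMap x` in the basis of the log space given by a fundamental system of units.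
-/

set_option autoImplicit false

namespace Fermat.Agent.S14lib

open NumberField NumberField.mixedEmbedding NumberField.InfinitePlace NumberField.Units
  NumberField.Units.dirichletUnitTheorem Module

/-! ## The tent function -/

/-- The tent function `max 0 (1 - |t|)`: its integer translates are a partition of unity. -/
noncomputable def dwTent (t : ℝ) : ℝ := max (1 - |t|) 0

theorem dwTent_nonneg (t : ℝ) : 0 ≤ dwTent t := le_max_right _ _

theorem dwTent_le_one (t : ℝ) : dwTent t ≤ 1 :=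
  max_le (by linarith [abs_nonneg t]) zero_le_one

theorem dwTent_eq_zero {t : ℝ} (h : 1 ≤ |t|) : dwTent t = 0 :=
  max_eq_right (by linarith)

theorem dwTent_abs_lt_one {t : ℝ} (h : dwTent t ≠ 0) : |t| < 1 := by
  by_contra hc
  exact h (dwTent_eq_zero (not_lt.mp hc))

theorem dwTent_lipschitz (t t' : ℝ) : |dwTent t - dwTent t'| ≤ |t - t'| := by
  unfold dwTent
  refine (abs_max_sub_max_le_abs _ _ _).trans ?_
  have : (1 - |t|) - (1 - |t'|) = |t'| - |t| := by ring
  rw [this, abs_sub_comm t t']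
  exact abs_abs_sub_abs_le_abs_sub _ _

theorem dwTent_of_nonneg {t : ℝ} (h0 : 0 ≤ t) (h1 : t ≤ 1) : dwTent t = 1 - t := by
  unfold dwTent
  rw [abs_of_nonneg h0, max_eq_left (by linarith)]

theorem dwTent_of_nonpos {t : ℝ} (h0 : t ≤ 0) (h1 : -1 ≤ t) : dwTent t = 1 + t := by
  unfold dwTent
  rw [abs_of_nonpos h0, max_eq_left (by linarith)]
  ring

/-- The two integers `k` with `|t + k| < 1` possible. -/
noncomputable def dwSupp (t : ℝ) : Finset ℤ := {-⌊t⌋ - 1, -⌊t⌋}

theorem dwTent_eq_zero_of_notMem {t : ℝ} {k : ℤ} (hk : k ∉ dwSupp t) : dwTent (t + k) = 0 := by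
  apply dwTent_eq_zero
  simp only [dwSupp, Finset.mem_insert, Finset.mem_singleton, not_or] at hk
  obtain ⟨h1, h2⟩ := hk
  have hf0 := Int.floor_le t
  have hf1 := Int.lt_floor_add_one t
  rcases lt_trichotomy (k + ⌊t⌋) (-1) with h | h | h
  · have : k + ⌊t⌋ ≤ -2 := by omega
    have h' : ((k : ℝ) + (⌊t⌋ : ℝ)) ≤ -2 := by exact_mod_cast this
    rw [le_abs]
    right
    linarith
  · exact absurd (by omega) h1
  · have : 1 ≤ k + ⌊t⌋ := by
      rcases eq_or_ne (k + ⌊t⌋) 0 with h0 | h0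
      · exact absurd (by omega) h2
      · omega
    have h' : (1 : ℝ) ≤ ((k : ℝ) + (⌊t⌋ : ℝ)) := by exact_mod_cast this
    rw [le_abs]
    left
    linarith

theorem dwTent_sum_supp (t : ℝ) : ∑ k ∈ dwSupp t, dwTent (t + k) = 1 := by
  have hf0 := Int.floor_le t
  have hf1 := Int.lt_floor_add_one t
  unfold dwSupp
  rw [Finset.sum_pair (by omega)]
  push_cast
  rw [dwTent_of_nonpos (by linarith) (by linarith), dwTent_of_nonneg (by linarith) (by linarith)]
  ring

theorem dwTent_hasSum (t : ℝ) : HasSum (fun k : ℤ ↦ dwTent (t + k)) 1 := by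
  have : HasSum (fun k : ℤ ↦ dwTent (t + k)) (∑ k ∈ dwSupp t, dwTent (t + k)) :=
    hasSum_sum_of_ne_finset_zero (fun k hk ↦ dwTent_eq_zero_of_notMem hk)
  rwa [dwTent_sum_supp] at this

/-! ## Products of tents -/

theorem dwProd_eq_zero_of_notMem {r : ℕ} (t : Fin r → ℝ) {k : Fin r → ℤ}
    (hk : k ∉ Fintype.piFinset (fun i ↦ dwSupp (t i))) :
    ∏ i, dwTent (t i + k i) = 0 := by
  rw [Fintype.mem_piFinset] at hk
  push Not at hk
  obtain ⟨i, hi⟩ := hk
  exact Finset.prod_eq_zero (Finset.mem_univ i) (dwTent_eq_zero_of_notMem hi)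

theorem dwProd_sum_supp {r : ℕ} (t : Fin r → ℝ) :
    ∑ k ∈ Fintype.piFinset (fun i ↦ dwSupp (t i)), ∏ i, dwTent (t i + k i) = 1 := by
  rw [← Finset.prod_univ_sum (fun i ↦ dwSupp (t i)) (fun i (j : ℤ) ↦ dwTent (t i + j))]
  simp [dwTent_sum_supp]

theorem dwProd_hasSum {r : ℕ} (t : Fin r → ℝ) :
    HasSum (fun k : Fin r → ℤ ↦ ∏ i, dwTent (t i + k i)) 1 := by
  have : HasSum (fun k : Fin r → ℤ ↦ ∏ i, dwTent (t i + k i))
      (∑ k ∈ Fintype.piFinset (fun i ↦ dwSupp (t i)), ∏ i, dwTent (t i + k i)) :=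
    hasSum_sum_of_ne_finset_zero (fun k hk ↦ dwProd_eq_zero_of_notMem t hk)
  rwa [dwProd_sum_supp] at this

theorem dwProd_nonneg {r : ℕ} (t : Fin r → ℝ) : 0 ≤ ∏ i, dwTent (t i) :=
  Finset.prod_nonneg fun i _ ↦ dwTent_nonneg _

theorem dwProd_le_one {r : ℕ} (t : Fin r → ℝ) : ∏ i, dwTent (t i) ≤ 1 :=
  Finset.prod_le_one (fun i _ ↦ dwTent_nonneg _) (fun i _ ↦ dwTent_le_one _)

/-- Lipschitz bound for the product of tents. -/
theorem dwProd_lipschitz {r : ℕ} (t t' : Fin r → ℝ) :
    |∏ i, dwTent (t i) - ∏ i, dwTent (t' i)| ≤ ∑ i, |t i - t' i| := by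
  have key : ∀ (s : Finset (Fin r)),
      |∏ i ∈ s, dwTent (t i) - ∏ i ∈ s, dwTent (t' i)| ≤ ∑ i ∈ s, |t i - t' i| := by
    intro s
    induction s using Finset.induction_on with
    | empty => simp
    | insert a s ha ih =>
      rw [Finset.prod_insert ha, Finset.prod_insert ha, Finset.sum_insert ha]
      have e : dwTent (t a) * ∏ i ∈ s, dwTent (t i) - dwTent (t' a) * ∏ i ∈ s, dwTent (t' i)
          = (dwTent (t a) - dwTent (t' a)) * ∏ i ∈ s, dwTent (t i)
            + dwTent (t' a) * (∏ i ∈ s, dwTent (t i) - ∏ i ∈ s, dwTent (t' i)) := by ring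
      rw [e]
      refine (abs_add_le _ _).trans ?_
      rw [abs_mul, abs_mul]
      have h1 : |∏ i ∈ s, dwTent (t i)| ≤ 1 := by
        rw [abs_of_nonneg (Finset.prod_nonneg fun i _ ↦ dwTent_nonneg _)]
        exact Finset.prod_le_one (fun i _ ↦ dwTent_nonneg _) (fun i _ ↦ dwTent_le_one _)
      have h2 : |dwTent (t' a)| ≤ 1 := by
        rw [abs_of_nonneg (dwTent_nonneg _)]; exact dwTent_le_one _
      have h3 := dwTent_lipschitz (t a) (t' a)
      have h4 := abs_nonneg (dwTent (t a) - dwTent (t' a))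
      have h5 := abs_nonneg (∏ i ∈ s, dwTent (t i) - ∏ i ∈ s, dwTent (t' i))
      have h6 : |dwTent (t a) - dwTent (t' a)| * |∏ i ∈ s, dwTent (t i)| ≤ |t a - t' a| := by
        calc _ ≤ |dwTent (t a) - dwTent (t' a)| * 1 := by gcongr
          _ ≤ _ := by rw [mul_one]; exact h3
      have h7 : |dwTent (t' a)| * |∏ i ∈ s, dwTent (t i) - ∏ i ∈ s, dwTent (t' i)|
          ≤ ∑ i ∈ s, |t i - t' i| := by
        calc _ ≤ 1 * |∏ i ∈ s, dwTent (t i) - ∏ i ∈ s, dwTent (t' i)| := by gcongr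
          _ ≤ _ := by rw [one_mul]; exact ih
      linarith
  exact key Finset.univ


/-! ## The weight on the log space and on the mixed space -/

section Weight

variable (K : Type*) [Field K] [NumberField K]

open scoped Classical in
/-- The real basis of the log space given by the fundamental units. -/
noncomputable def dwBasis : Basis (Fin (rank K)) ℝ (logSpace K) :=
  Module.Basis.ofZLatticeBasis ℝ (unitLattice K) (basisUnitLattice K)

theorem dwBasis_apply (i : Fin (rank K)) :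
    dwBasis K i = logEmbedding K (Additive.ofMul (fundSystem K i)) := by
  rw [dwBasis, Basis.ofZLatticeBasis_apply, logEmbedding_fundSystem]

/-- The partition-of-unity weight on the log space. -/
noncomputable def dwLogWeight (y : logSpace K) : ℝ := ∏ i, dwTent ((dwBasis K).repr y i)

theorem dwLogWeight_nonneg (y : logSpace K) : 0 ≤ dwLogWeight K y :=
  dwProd_nonneg _

theorem dwLogWeight_le_one (y : logSpace K) : dwLogWeight K y ≤ 1 :=
  dwProd_le_one _

/-- **The weight**: a partition of unity for the action of the units on the mixed space. -/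
noncomputable def unitWeight (x : mixedSpace K) : ℝ :=
  (torsionOrder K : ℝ)⁻¹ * dwLogWeight K (logMap x)

theorem dw_torsionOrder_pos : (0 : ℝ) < (torsionOrder K : ℝ) := by
  have : 0 < torsionOrder K := torsionOrder_pos K
  exact_mod_cast this

theorem dw_one_le_torsionOrder : (1 : ℝ) ≤ (torsionOrder K : ℝ) := by
  have : 0 < torsionOrder K := torsionOrder_pos K
  exact_mod_cast this

theorem unitWeight_nonneg (x : mixedSpace K) : 0 ≤ unitWeight K x :=
  mul_nonneg (inv_nonneg.mpr (dw_torsionOrder_pos K).le) (dwLogWeight_nonneg K _)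

theorem unitWeight_le_one (x : mixedSpace K) : unitWeight K x ≤ 1 := by
  unfold unitWeight
  have h1 : (torsionOrder K : ℝ)⁻¹ ≤ 1 := inv_le_one_of_one_le₀ (dw_one_le_torsionOrder K)
  calc (torsionOrder K : ℝ)⁻¹ * dwLogWeight K (logMap x)
      ≤ 1 * 1 := mul_le_mul h1 (dwLogWeight_le_one K _) (dwLogWeight_nonneg K _) zero_le_one
    _ = 1 := one_mul 1

/-- The parametrisation of the units by `torsion × ℤ^rank`. -/
noncomputable def dwUnitOf (ζf : torsion K × (Fin (rank K) → ℤ)) : (𝓞 K)ˣ :=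
  (ζf.1 : (𝓞 K)ˣ) * ∏ i, fundSystem K i ^ ζf.2 i

theorem dwUnitOf_bijective : Function.Bijective (dwUnitOf K) := by
  rw [Function.bijective_iff_existsUnique]
  intro u
  obtain ⟨ζf, h1, h2⟩ := exist_unique_eq_mul_prod K u
  exact ⟨ζf, h1.symm, fun y hy ↦ h2 y hy.symm⟩

theorem dw_logEmbedding_unitOf (ζf : torsion K × (Fin (rank K) → ℤ)) :
    logEmbedding K (Additive.ofMul (dwUnitOf K ζf)) = ∑ i, (ζf.2 i : ℝ) • dwBasis K i := by
  unfold dwUnitOf
  rw [ofMul_mul, map_add, (logEmbedding_eq_zero_iff (K := K)).mpr ζf.1.2, zero_add, ofMul_prod,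
    map_sum]
  refine Finset.sum_congr rfl fun i _ ↦ ?_
  rw [ofMul_zpow, map_zsmul, dwBasis_apply, Int.cast_smul_eq_zsmul]

theorem dw_repr_unitOf_add (ζf : torsion K × (Fin (rank K) → ℤ)) (y : logSpace K)
    (i : Fin (rank K)) :
    (dwBasis K).repr (logEmbedding K (Additive.ofMul (dwUnitOf K ζf)) + y) i
      = (dwBasis K).repr y i + (ζf.2 i : ℝ) := by
  rw [map_add, Finsupp.add_apply, dw_logEmbedding_unitOf, Basis.repr_sum_self, add_comm]

theorem unitWeight_unitOf_smul (ζf : torsion K × (Fin (rank K) → ℤ)) {x : mixedSpace K}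
    (hx : mixedEmbedding.norm x ≠ 0) :
    unitWeight K (dwUnitOf K ζf • x)
      = (torsionOrder K : ℝ)⁻¹ * ∏ i, dwTent ((dwBasis K).repr (logMap x) i + (ζf.2 i : ℝ)) := by
  unfold unitWeight dwLogWeight
  rw [logMap_unit_smul _ hx]
  simp_rw [dw_repr_unitOf_add]

/-- **Partition of unity**: the weights of the unit translates of `x` sum to `1`. -/
theorem unitWeight_hasSum (x : mixedSpace K) (hx : mixedEmbedding.norm x ≠ 0) :
    HasSum (fun u : (𝓞 K)ˣ ↦ unitWeight K (u • x)) 1 := by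
  classical
  letI : Fintype (torsion K) := Fintype.ofFinite _
  rw [← (Equiv.ofBijective _ (dwUnitOf_bijective K)).hasSum_iff]
  set t : Fin (rank K) → ℝ := fun i ↦ (dwBasis K).repr (logMap x) i with ht
  set S : Finset (Fin (rank K) → ℤ) := Fintype.piFinset (fun i ↦ dwSupp (t i)) with hS
  have hfun : ((fun u : (𝓞 K)ˣ ↦ unitWeight K (u • x)) ∘ (Equiv.ofBijective _ (dwUnitOf_bijective K)))
      = fun ζf : torsion K × (Fin (rank K) → ℤ) ↦
          (torsionOrder K : ℝ)⁻¹ * ∏ i, dwTent (t i + (ζf.2 i : ℝ)) := by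
    funext ζf
    simp only [Function.comp_apply, Equiv.ofBijective_apply]
    exact unitWeight_unitOf_smul K ζf hx
  rw [hfun]
  have h0 : ∀ ζf : torsion K × (Fin (rank K) → ℤ), ζf ∉ (Finset.univ : Finset (torsion K)) ×ˢ S →
      (torsionOrder K : ℝ)⁻¹ * ∏ i, dwTent (t i + (ζf.2 i : ℝ)) = 0 := by
    intro ζf h
    have : ζf.2 ∉ S := fun h' ↦ h (Finset.mem_product.mpr ⟨Finset.mem_univ _, h'⟩)
    rw [dwProd_eq_zero_of_notMem t this, mul_zero]
  have hs : HasSum (fun ζf : torsion K × (Fin (rank K) → ℤ) ↦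
      (torsionOrder K : ℝ)⁻¹ * ∏ i, dwTent (t i + (ζf.2 i : ℝ)))
      (∑ ζf ∈ (Finset.univ : Finset (torsion K)) ×ˢ S,
        (torsionOrder K : ℝ)⁻¹ * ∏ i, dwTent (t i + (ζf.2 i : ℝ))) :=
    hasSum_sum_of_ne_finset_zero h0
  have hval : (∑ ζf ∈ (Finset.univ : Finset (torsion K)) ×ˢ S,
        (torsionOrder K : ℝ)⁻¹ * ∏ i, dwTent (t i + (ζf.2 i : ℝ))) = 1 := by
    rw [Finset.sum_product]
    simp only [← Finset.mul_sum]
    rw [hS, dwProd_sum_supp t, Finset.sum_const, Finset.card_univ, nsmul_eq_mul, mul_one]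
    have : (Fintype.card (torsion K) : ℝ) = (torsionOrder K : ℝ) := by
      rw [torsionOrder, Nat.card_eq_fintype_card]
    rw [this]
    exact inv_mul_cancel₀ (dw_torsionOrder_pos K).ne'
  rwa [hval] at hs

end Weight

end Fermat.Agent.S14lib
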