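import Mathlib
import Fermat.Agent.S14lib.DensWeight

/-!
# S14 (item 77), density part D2a (2): decay and Lipschitz bounds for `F_s = W · |N|^{-s}`
-/

set_option autoImplicit false

namespace Fermat.Agent.S14lib

open NumberField NumberField.mixedEmbedding NumberField.InfinitePlace NumberField.Units
  NumberField.Units.dirichletUnitTheorem Module

/-! ## Two real inequalities -/

theorem dk_abs_log_sub_le {a b m : ℝ} (hm : 0 < m) (ha : m ≤ a) (hb : m ≤ b) :
    |Real.log a - Real.log b| ≤ |a - b| / m := by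
  have key : ∀ {a b : ℝ}, m ≤ a → m ≤ b → b ≤ a → |Real.log a - Real.log b| ≤ |a - b| / m := by
    intro a b ha hb hab
    have ha0 : 0 < a := hm.trans_le ha
    have hb0 : 0 < b := hm.trans_le hb
    have h1 : 0 ≤ Real.log a - Real.log b := sub_nonneg.mpr (Real.log_le_log hb0 hab)
    rw [abs_of_nonneg h1, abs_of_nonneg (sub_nonneg.mpr hab)]
    have h2 : Real.log a - Real.log b = Real.log (a / b) := (Real.log_div ha0.ne' hb0.ne').symm
    rw [h2]
    have h3 : Real.log (a / b) ≤ a / b - 1 := Real.log_le_sub_one_of_pos (div_pos ha0 hb0)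
    have h4 : a / b - 1 = (a - b) / b := by field_simp
    rw [h4] at h3
    refine h3.trans ?_
    exact div_le_div_of_nonneg_left (sub_nonneg.mpr hab) hm hb
  rcases le_total b a with h | h
  · exact key ha hb h
  · rw [abs_sub_comm (Real.log a), abs_sub_comm a]
    exact key hb ha h

theorem dk_rpow_neg_sub_le {a b s M : ℝ} (ha : 1 ≤ a) (hb : 1 ≤ b) (hs1 : 1 ≤ s) (hs2 : s ≤ 2)
    (hM : 0 < M) (haM : M ≤ a) (hbM : M ≤ b) :
    |a ^ (-s) - b ^ (-s)| ≤ 2 * M⁻¹ * |Real.log a - Real.log b| := by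
  have key : ∀ {a b : ℝ}, 1 ≤ a → 1 ≤ b → M ≤ a → a ≤ b →
      |a ^ (-s) - b ^ (-s)| ≤ 2 * M⁻¹ * |Real.log a - Real.log b| := by
    intro a b ha hb haM hab
    have ha0 : 0 < a := zero_lt_one.trans_le ha
    have hb0 : 0 < b := zero_lt_one.trans_le hb
    have hlog : Real.log a ≤ Real.log b := Real.log_le_log ha0 hab
    have h1 : b ^ (-s) ≤ a ^ (-s) :=
      Real.rpow_le_rpow_of_nonpos ha0 hab (by linarith)
    rw [abs_of_nonneg (sub_nonneg.mpr h1), abs_sub_comm, abs_of_nonneg (sub_nonneg.mpr hlog)]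
    have e1 : b ^ (-s) = a ^ (-s) * Real.exp (-(s * (Real.log b - Real.log a))) := by
      rw [Real.rpow_def_of_pos hb0, Real.rpow_def_of_pos ha0, ← Real.exp_add]
      congr 1
      ring
    have h2 : 1 - s * (Real.log b - Real.log a) ≤ Real.exp (-(s * (Real.log b - Real.log a))) := by
      have := Real.add_one_le_exp (-(s * (Real.log b - Real.log a)))
      linarith
    have h3 : 0 ≤ a ^ (-s) := Real.rpow_nonneg ha0.le _
    have h4 : a ^ (-s) ≤ M⁻¹ := by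
      calc a ^ (-s) ≤ a ^ (-1 : ℝ) := Real.rpow_le_rpow_of_exponent_le ha (by linarith)
        _ = a⁻¹ := Real.rpow_neg_one a
        _ ≤ M⁻¹ := inv_anti₀ hM haM
    have h5 : 0 ≤ Real.log b - Real.log a := sub_nonneg.mpr hlog
    calc a ^ (-s) - b ^ (-s)
        = a ^ (-s) * (1 - Real.exp (-(s * (Real.log b - Real.log a)))) := by rw [e1]; ring
      _ ≤ a ^ (-s) * (s * (Real.log b - Real.log a)) :=
          mul_le_mul_of_nonneg_left (by linarith) h3
      _ ≤ M⁻¹ * (2 * (Real.log b - Real.log a)) := by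
          apply mul_le_mul h4 _ (mul_nonneg (by linarith) h5) (inv_nonneg.mpr hM.le)
          exact mul_le_mul_of_nonneg_right hs2 h5
      _ = 2 * M⁻¹ * (Real.log b - Real.log a) := by ring
  rcases le_total a b with h | h
  · exact key ha hb haM h
  · rw [abs_sub_comm (a ^ (-s)), abs_sub_comm (Real.log a)]
    exact key hb ha hbM h

section Places

open scoped Classical

variable {K : Type*} [Field K] [NumberField K]

theorem dk_normAtPlace_le_norm (w : InfinitePlace K) (x : mixedSpace K) :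
    normAtPlace w x ≤ ‖x‖ := by
  rw [norm_eq_sup'_normAtPlace]
  exact Finset.le_sup' (fun w ↦ normAtPlace w x) (Finset.mem_univ w)

theorem dk_norm_le_of_normAtPlace_le {x : mixedSpace K} {c : ℝ}
    (h : ∀ w, normAtPlace w x ≤ c) : ‖x‖ ≤ c := by
  rw [norm_eq_sup'_normAtPlace]
  exact Finset.sup'_le _ _ fun w _ ↦ h w

theorem dk_abs_normAtPlace_sub (w : InfinitePlace K) (x y : mixedSpace K) :
    |normAtPlace w x - normAtPlace w y| ≤ ‖x - y‖ := by
  rw [abs_le]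
  have h1 : normAtPlace w x ≤ normAtPlace w (x - y) + normAtPlace w y := by
    have := normAtPlace_add_le w (x - y) y
    rwa [sub_add_cancel] at this
  have h2 : normAtPlace w y ≤ normAtPlace w (y - x) + normAtPlace w x := by
    have := normAtPlace_add_le w (y - x) x
    rwa [sub_add_cancel] at this
  have h3 : normAtPlace w (y - x) = normAtPlace w (x - y) := by
    rw [← normAtPlace_neg, neg_sub]
  have h4 := dk_normAtPlace_le_norm w (x - y)
  constructor <;> linarith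

/-- If all coordinates are at least `m`, the norm is at least `m ^ n`. -/
theorem dk_pow_le_norm {x : mixedSpace K} {m : ℝ} (hm : 0 ≤ m)
    (h : ∀ w, m ≤ normAtPlace w x) : m ^ (finrank ℚ K) ≤ mixedEmbedding.norm x := by
  rw [mixedEmbedding.norm_apply, ← sum_mult_eq, ← Finset.prod_pow_eq_pow_sum]
  exact Finset.prod_le_prod (fun w _ ↦ pow_nonneg hm _)
    (fun w _ ↦ pow_le_pow_left₀ hm (h w) _)

theorem dk_log_norm {x : mixedSpace K} (hx : mixedEmbedding.norm x ≠ 0) :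
    Real.log (mixedEmbedding.norm x) = ∑ w, (mult w : ℝ) * Real.log (normAtPlace w x) := by
  rw [mixedEmbedding.norm_apply, Real.log_prod]
  · refine Finset.sum_congr rfl fun w _ ↦ ?_
    rw [Real.log_pow]
  · intro w _
    exact pow_ne_zero _ (mixedEmbedding.norm_ne_zero_iff.mp hx w)

theorem dk_sum_mult : ∑ w : InfinitePlace K, (mult w : ℝ) = (finrank ℚ K : ℝ) := by
  rw [← Nat.cast_sum, sum_mult_eq]

/-- The centred logarithms sum to zero (with multiplicities). -/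
theorem dk_sum_mult_log {x : mixedSpace K} (hx : mixedEmbedding.norm x ≠ 0) :
    ∑ w : InfinitePlace K, (mult w : ℝ) * (Real.log (normAtPlace w x) -
      Real.log (mixedEmbedding.norm x) * (finrank ℚ K : ℝ)⁻¹) = 0 := by
  have hn : (finrank ℚ K : ℝ) ≠ 0 := Nat.cast_ne_zero.mpr finrank_pos.ne'
  simp_rw [mul_sub]
  rw [Finset.sum_sub_distrib, ← dk_log_norm hx, ← Finset.sum_mul, dk_sum_mult]
  field_simp
  ring

/-! ## The support of the weight is a cone on which all coordinates are comparable -/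

variable (K) in
/-- A bound for the norm of `logMap x` on the support of the weight. -/
noncomputable def dkR : ℝ := ∑ i, ‖dwBasis K i‖

theorem dkR_nonneg : 0 ≤ dkR K := Finset.sum_nonneg fun _ _ ↦ norm_nonneg _

theorem dk_norm_le_of_logWeight_ne_zero {y : logSpace K} (h : dwLogWeight K y ≠ 0) :
    ‖y‖ ≤ dkR K := by
  have h1 : ∀ i, |(dwBasis K).repr y i| < 1 := by
    intro i
    apply dwTent_abs_lt_one
    intro h0
    exact h (Finset.prod_eq_zero (Finset.mem_univ i) h0)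
  calc ‖y‖ = ‖∑ i, (dwBasis K).repr y i • dwBasis K i‖ := by rw [Basis.sum_repr]
    _ ≤ ∑ i, ‖(dwBasis K).repr y i • dwBasis K i‖ := norm_sum_le _ _
    _ ≤ ∑ i, ‖dwBasis K i‖ := by
        refine Finset.sum_le_sum fun i _ ↦ ?_
        rw [_root_.norm_smul, Real.norm_eq_abs]
        calc |(dwBasis K).repr y i| * ‖dwBasis K i‖ ≤ 1 * ‖dwBasis K i‖ :=
              mul_le_mul_of_nonneg_right (h1 i).le (norm_nonneg _)
          _ = ‖dwBasis K i‖ := one_mul _

/-- The centred logarithm of `x` at the place `w`. -/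
noncomputable def dkL (x : mixedSpace K) (w : InfinitePlace K) : ℝ :=
  Real.log (normAtPlace w x) - Real.log (mixedEmbedding.norm x) * (finrank ℚ K : ℝ)⁻¹

theorem dk_logMap_apply (x : mixedSpace K) (w : {w : InfinitePlace K // w ≠ w₀}) :
    logMap x w = (mult w.1 : ℝ) * dkL x w.1 := rfl

omit [NumberField K] in
theorem dk_abs_le_abs_mult_mul (w : InfinitePlace K) (a : ℝ) : |a| ≤ |(mult w : ℝ) * a| := by
  rw [abs_mul]
  have h1 : (1 : ℝ) ≤ |(mult w : ℝ)| := by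
    rw [abs_of_nonneg (Nat.cast_nonneg _)]
    exact one_le_mult
  calc |a| = 1 * |a| := (one_mul _).symm
    _ ≤ |(mult w : ℝ)| * |a| := mul_le_mul_of_nonneg_right h1 (abs_nonneg _)

variable (K) in
/-- The number of infinite places, as a real number. -/
noncomputable def dkP : ℝ := (Fintype.card (InfinitePlace K) : ℝ)

theorem dkP_ge_one : 1 ≤ dkP K := by
  unfold dkP
  have : 0 < Fintype.card (InfinitePlace K) := Fintype.card_pos
  exact_mod_cast this

theorem dk_abs_dkL_le {x : mixedSpace K} (hx : mixedEmbedding.norm x ≠ 0) {R : ℝ}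
    (h : ‖logMap x‖ ≤ R) (w : InfinitePlace K) : |dkL x w| ≤ dkP K * R := by
  have hR : 0 ≤ R := (norm_nonneg _).trans h
  have hne : ∀ w' : {w : InfinitePlace K // w ≠ w₀}, |logMap x w'| ≤ R := fun w' ↦ by
    have := norm_le_pi_norm (logMap x) w'
    rw [Real.norm_eq_abs] at this
    exact this.trans h
  by_cases hw : w = w₀
  · subst hw
    have hsum := dk_sum_mult_log hx
    rw [Fintype.sum_eq_add_sum_subtype_ne _ (w₀ : InfinitePlace K)] at hsum
    have h1 : (mult (w₀ : InfinitePlace K) : ℝ) * dkL x w₀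
        = - ∑ w' : {w : InfinitePlace K // w ≠ w₀}, logMap x w' := by
      have : (mult (w₀ : InfinitePlace K) : ℝ) * dkL x w₀
          + ∑ w' : {w : InfinitePlace K // w ≠ w₀}, logMap x w' = 0 := hsum
      linarith
    have h2 : |∑ w' : {w : InfinitePlace K // w ≠ w₀}, logMap x w'|
        ≤ ∑ _w' : {w : InfinitePlace K // w ≠ w₀}, R :=
      (Finset.abs_sum_le_sum_abs _ _).trans (Finset.sum_le_sum fun w' _ ↦ hne w')
    rw [Finset.sum_const, Finset.card_univ, nsmul_eq_mul] at h2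
    have h3 : (Fintype.card {w : InfinitePlace K // w ≠ w₀} : ℝ) ≤ dkP K := by
      unfold dkP
      exact_mod_cast Fintype.card_subtype_le _
    calc |dkL x w₀| ≤ |(mult (w₀ : InfinitePlace K) : ℝ) * dkL x w₀| :=
          dk_abs_le_abs_mult_mul _ _
      _ = |∑ w' : {w : InfinitePlace K // w ≠ w₀}, logMap x w'| := by rw [h1, abs_neg]
      _ ≤ (Fintype.card {w : InfinitePlace K // w ≠ w₀} : ℝ) * R := h2
      _ ≤ dkP K * R := mul_le_mul_of_nonneg_right h3 hR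
  · calc |dkL x w| ≤ |(mult w : ℝ) * dkL x w| := dk_abs_le_abs_mult_mul _ _
      _ = |logMap x ⟨w, hw⟩| := rfl
      _ ≤ R := hne _
      _ = 1 * R := (one_mul R).symm
      _ ≤ dkP K * R := mul_le_mul_of_nonneg_right dkP_ge_one hR

variable (K) in
/-- The constant `R'` with `|dkL x w| ≤ R'` on the support of the weight. -/
noncomputable def dkR' : ℝ := dkP K * dkR K

theorem dkR'_nonneg : 0 ≤ dkR' K :=
  mul_nonneg (zero_le_one.trans dkP_ge_one) dkR_nonneg

variable (K) in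
/-- The opening of the cone: on the support of the weight every coordinate is at least
`dkδ K * ‖x‖`. -/
noncomputable def dkδ : ℝ := Real.exp (-(2 * dkR' K))

theorem dkδ_pos : 0 < dkδ K := Real.exp_pos _

theorem dkδ_le_one : dkδ K ≤ 1 := by
  unfold dkδ
  rw [Real.exp_le_one_iff]
  have := dkR'_nonneg (K := K)
  linarith

theorem dk_unitWeight_ne_zero_iff {x : mixedSpace K} :
    unitWeight K x ≠ 0 ↔ dwLogWeight K (logMap x) ≠ 0 := by
  unfold unitWeight
  rw [mul_ne_zero_iff]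
  exact ⟨fun h ↦ h.2, fun h ↦ ⟨inv_ne_zero (dw_torsionOrder_pos K).ne', h⟩⟩

/-- **The cone property.** -/
theorem dk_cone {x : mixedSpace K} (hx : mixedEmbedding.norm x ≠ 0)
    (hW : unitWeight K x ≠ 0) (w : InfinitePlace K) :
    dkδ K * ‖x‖ ≤ normAtPlace w x := by
  have hL : ∀ w, |dkL x w| ≤ dkR' K := fun w ↦
    dk_abs_dkL_le hx (dk_norm_le_of_logWeight_ne_zero (dk_unitWeight_ne_zero_iff.mp hW)) w
  have hpos : ∀ w, 0 < normAtPlace w x := fun w ↦
    lt_of_le_of_ne (normAtPlace_nonneg w x) (Ne.symm (mixedEmbedding.norm_ne_zero_iff.mp hx w))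
  set ν : ℝ := Real.exp (Real.log (mixedEmbedding.norm x) * (finrank ℚ K : ℝ)⁻¹) with hν
  have hval : ∀ w, normAtPlace w x = ν * Real.exp (dkL x w) := by
    intro w
    rw [hν, ← Real.exp_add, dkL, add_sub_cancel, Real.exp_log (hpos w)]
  have hup : ∀ w, normAtPlace w x ≤ ν * Real.exp (dkR' K) := by
    intro w
    rw [hval w]
    exact mul_le_mul_of_nonneg_left (Real.exp_le_exp.mpr (le_of_abs_le (hL w)))
      (Real.exp_pos _).le
  have hlow : ν * Real.exp (-(dkR' K)) ≤ normAtPlace w x := by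
    rw [hval w]
    exact mul_le_mul_of_nonneg_left (Real.exp_le_exp.mpr (neg_le_of_abs_le (hL w)))
      (Real.exp_pos _).le
  have hnorm : ‖x‖ ≤ ν * Real.exp (dkR' K) := dk_norm_le_of_normAtPlace_le hup
  calc dkδ K * ‖x‖ ≤ dkδ K * (ν * Real.exp (dkR' K)) :=
        mul_le_mul_of_nonneg_left hnorm dkδ_pos.le
    _ = ν * Real.exp (-(dkR' K)) := by
        unfold dkδ
        rw [mul_comm, mul_assoc, ← Real.exp_add]
        congr 2
        ring
    _ ≤ normAtPlace w x := hlow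

/-! ## Lipschitz estimates on pairs of points with coordinates bounded below -/

theorem dk_abs_log_normAtPlace_sub {x x' : mixedSpace K} {m : ℝ} (hm : 0 < m)
    (hx : ∀ w, m ≤ normAtPlace w x) (hx' : ∀ w, m ≤ normAtPlace w x') (w : InfinitePlace K) :
    |Real.log (normAtPlace w x) - Real.log (normAtPlace w x')| ≤ ‖x - x'‖ / m :=
  (dk_abs_log_sub_le hm (hx w) (hx' w)).trans
    (div_le_div_of_nonneg_right (dk_abs_normAtPlace_sub w x x') hm.le)

theorem dk_norm_ne_zero_of_le {x : mixedSpace K} {m : ℝ} (hm : 0 < m)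
    (hx : ∀ w, m ≤ normAtPlace w x) : mixedEmbedding.norm x ≠ 0 :=
  mixedEmbedding.norm_ne_zero_iff.mpr fun w ↦ (hm.trans_le (hx w)).ne'

theorem dk_abs_log_norm_sub {x x' : mixedSpace K} {m : ℝ} (hm : 0 < m)
    (hx : ∀ w, m ≤ normAtPlace w x) (hx' : ∀ w, m ≤ normAtPlace w x') :
    |Real.log (mixedEmbedding.norm x) - Real.log (mixedEmbedding.norm x')|
      ≤ (finrank ℚ K : ℝ) * (‖x - x'‖ / m) := by
  rw [dk_log_norm (dk_norm_ne_zero_of_le hm hx), dk_log_norm (dk_norm_ne_zero_of_le hm hx'),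
    ← Finset.sum_sub_distrib]
  refine (Finset.abs_sum_le_sum_abs _ _).trans ?_
  rw [← dk_sum_mult, Finset.sum_mul]
  refine Finset.sum_le_sum fun w _ ↦ ?_
  rw [← mul_sub, abs_mul, abs_of_nonneg (Nat.cast_nonneg _)]
  exact mul_le_mul_of_nonneg_left (dk_abs_log_normAtPlace_sub hm hx hx' w) (Nat.cast_nonneg _)

theorem dk_abs_dkL_sub {x x' : mixedSpace K} {m : ℝ} (hm : 0 < m)
    (hx : ∀ w, m ≤ normAtPlace w x) (hx' : ∀ w, m ≤ normAtPlace w x') (w : InfinitePlace K) :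
    |dkL x w - dkL x' w| ≤ 2 * (‖x - x'‖ / m) := by
  have hn : (0 : ℝ) < (finrank ℚ K : ℝ) := Nat.cast_pos.mpr finrank_pos
  have h1 := dk_abs_log_normAtPlace_sub hm hx hx' w
  have h2 := dk_abs_log_norm_sub hm hx hx'
  have e : dkL x w - dkL x' w = (Real.log (normAtPlace w x) - Real.log (normAtPlace w x'))
      - (Real.log (mixedEmbedding.norm x) - Real.log (mixedEmbedding.norm x'))
        * (finrank ℚ K : ℝ)⁻¹ := by
    unfold dkL; ring
  rw [e]
  refine (abs_sub _ _).trans ?_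
  rw [abs_mul, abs_of_nonneg (inv_nonneg.mpr hn.le)]
  have h3 : |Real.log (mixedEmbedding.norm x) - Real.log (mixedEmbedding.norm x')|
      * (finrank ℚ K : ℝ)⁻¹ ≤ ‖x - x'‖ / m := by
    rw [← div_eq_mul_inv, div_le_iff₀ hn]
    calc _ ≤ (finrank ℚ K : ℝ) * (‖x - x'‖ / m) := h2
      _ = ‖x - x'‖ / m * (finrank ℚ K : ℝ) := mul_comm _ _
  linarith

theorem dk_norm_logMap_sub {x x' : mixedSpace K} {m : ℝ} (hm : 0 < m)
    (hx : ∀ w, m ≤ normAtPlace w x) (hx' : ∀ w, m ≤ normAtPlace w x') :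
    ‖logMap x - logMap x'‖ ≤ 4 * (‖x - x'‖ / m) := by
  have h0 : 0 ≤ ‖x - x'‖ / m := div_nonneg (norm_nonneg _) hm.le
  rw [pi_norm_le_iff_of_nonneg (by positivity)]
  intro w
  rw [Pi.sub_apply, dk_logMap_apply, dk_logMap_apply, ← mul_sub, Real.norm_eq_abs, abs_mul,
    abs_of_nonneg (Nat.cast_nonneg _)]
  have h1 : ((mult w.1 : ℕ) : ℝ) ≤ 2 := by
    have : mult w.1 ≤ 2 := by
      unfold mult
      split_ifs <;> norm_num
    exact_mod_cast this
  calc ((mult w.1 : ℕ) : ℝ) * |dkL x w.1 - dkL x' w.1|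
      ≤ 2 * (2 * (‖x - x'‖ / m)) :=
        mul_le_mul h1 (dk_abs_dkL_sub hm hx hx' w.1) (abs_nonneg _) (by norm_num)
    _ = 4 * (‖x - x'‖ / m) := by ring

variable (K) in
/-- Lipschitz constant of the weight on the log space. -/
noncomputable def dkC : ℝ :=
  (rank K : ℝ) * ‖((dwBasis K).equivFunL : logSpace K →L[ℝ] (Fin (rank K) → ℝ))‖

theorem dkC_nonneg : 0 ≤ dkC K := mul_nonneg (Nat.cast_nonneg _) (norm_nonneg _)

theorem dk_logWeight_lipschitz (y y' : logSpace K) :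
    |dwLogWeight K y - dwLogWeight K y'| ≤ dkC K * ‖y - y'‖ := by
  unfold dwLogWeight
  refine (dwProd_lipschitz _ _).trans ?_
  have h1 : ∀ i, |(dwBasis K).repr y i - (dwBasis K).repr y' i|
      ≤ ‖((dwBasis K).equivFunL : logSpace K →L[ℝ] (Fin (rank K) → ℝ))‖ * ‖y - y'‖ := by
    intro i
    have e : (dwBasis K).repr y i - (dwBasis K).repr y' i
        = ((dwBasis K).equivFunL : logSpace K →L[ℝ] (Fin (rank K) → ℝ)) (y - y') i := by
      rw [map_sub, Pi.sub_apply]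
      rfl
    rw [e, ← Real.norm_eq_abs]
    exact (norm_le_pi_norm _ i).trans (ContinuousLinearMap.le_opNorm _ _)
  calc ∑ i, |(dwBasis K).repr y i - (dwBasis K).repr y' i|
      ≤ ∑ _i : Fin (rank K),
          ‖((dwBasis K).equivFunL : logSpace K →L[ℝ] (Fin (rank K) → ℝ))‖ * ‖y - y'‖ :=
        Finset.sum_le_sum fun i _ ↦ h1 i
    _ = dkC K * ‖y - y'‖ := by
        rw [Finset.sum_const, Finset.card_univ, Fintype.card_fin, nsmul_eq_mul, dkC, mul_assoc]

theorem dk_unitWeight_lipschitz {x x' : mixedSpace K} {m : ℝ} (hm : 0 < m)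
    (hx : ∀ w, m ≤ normAtPlace w x) (hx' : ∀ w, m ≤ normAtPlace w x') :
    |unitWeight K x - unitWeight K x'| ≤ dkC K * (4 * (‖x - x'‖ / m)) := by
  unfold unitWeight
  rw [← mul_sub, abs_mul, abs_of_nonneg (inv_nonneg.mpr (dw_torsionOrder_pos K).le)]
  have h1 : (torsionOrder K : ℝ)⁻¹ ≤ 1 := inv_le_one_of_one_le₀ (dw_one_le_torsionOrder K)
  calc (torsionOrder K : ℝ)⁻¹ * |dwLogWeight K (logMap x) - dwLogWeight K (logMap x')|
      ≤ 1 * |dwLogWeight K (logMap x) - dwLogWeight K (logMap x')| :=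
        mul_le_mul_of_nonneg_right h1 (abs_nonneg _)
    _ = |dwLogWeight K (logMap x) - dwLogWeight K (logMap x')| := one_mul _
    _ ≤ dkC K * ‖logMap x - logMap x'‖ := dk_logWeight_lipschitz _ _
    _ ≤ dkC K * (4 * (‖x - x'‖ / m)) :=
        mul_le_mul_of_nonneg_left (dk_norm_logMap_sub hm hx hx') dkC_nonneg

/-! ## The kernel `F_s = W · |N|^{-s}` -/

variable (K) in
/-- The kernel `F_s(x) = W(x) · |N x|^{-s}`. -/
noncomputable def unitKernel (s : ℝ) (x : mixedSpace K) : ℝ :=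
  unitWeight K x * mixedEmbedding.norm x ^ (-s)

theorem unitKernel_nonneg (s : ℝ) (x : mixedSpace K) : 0 ≤ unitKernel K s x :=
  mul_nonneg (unitWeight_nonneg K x) (Real.rpow_nonneg (mixedEmbedding.norm_nonneg x) _)

theorem dk_norm_pos_of_one_le {x : mixedSpace K} (hx : 1 ≤ mixedEmbedding.norm x) : 0 < ‖x‖ := by
  rw [norm_pos_iff]
  rintro rfl
  rw [map_zero] at hx
  linarith

theorem dk_rpow_neg_le_inv {N s M : ℝ} (hN : 1 ≤ N) (hs1 : 1 ≤ s) (hM : 0 < M) (hMN : M ≤ N) :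
    N ^ (-s) ≤ M⁻¹ :=
  calc N ^ (-s) ≤ N ^ (-1 : ℝ) := Real.rpow_le_rpow_of_exponent_le hN (by linarith)
    _ = N⁻¹ := Real.rpow_neg_one N
    _ ≤ M⁻¹ := inv_anti₀ hM hMN

/-- **Decay bound** for the kernel. -/
theorem dk_unitKernel_le {s : ℝ} (hs1 : 1 ≤ s) (hs2 : s ≤ 2) {x : mixedSpace K}
    (hx : 1 ≤ mixedEmbedding.norm x) :
    |unitKernel K s x| ≤ (dkδ K)⁻¹ ^ (2 * finrank ℚ K) * ‖x‖ ^ (-(finrank ℚ K : ℝ) * s) := by
  have hρ : 0 < ‖x‖ := dk_norm_pos_of_one_le hx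
  have hδ := dkδ_pos (K := K)
  have hδ1 : 1 ≤ (dkδ K)⁻¹ := (one_le_inv₀ hδ).mpr dkδ_le_one
  have hn0 : (0 : ℝ) ≤ (finrank ℚ K : ℝ) := Nat.cast_nonneg _
  have hRHS : 0 ≤ (dkδ K)⁻¹ ^ (2 * finrank ℚ K) * ‖x‖ ^ (-(finrank ℚ K : ℝ) * s) :=
    mul_nonneg (pow_nonneg (inv_nonneg.mpr hδ.le) _) (Real.rpow_nonneg hρ.le _)
  rw [abs_of_nonneg (unitKernel_nonneg s x)]
  by_cases hW : unitWeight K x = 0
  · rw [unitKernel, hW, zero_mul]
    exact hRHS
  · have hx0 : mixedEmbedding.norm x ≠ 0 := by linarith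
    have hcone := dk_cone hx0 hW
    have hm : 0 < dkδ K * ‖x‖ := mul_pos hδ hρ
    have hN : (dkδ K * ‖x‖) ^ (finrank ℚ K) ≤ mixedEmbedding.norm x :=
      dk_pow_le_norm hm.le hcone
    have h1 : mixedEmbedding.norm x ^ (-s) ≤ ((dkδ K * ‖x‖) ^ (finrank ℚ K)) ^ (-s) :=
      Real.rpow_le_rpow_of_nonpos (pow_pos hm _) hN (by linarith)
    have h2 : ((dkδ K * ‖x‖) ^ (finrank ℚ K)) ^ (-s)
        = ((dkδ K)⁻¹) ^ ((finrank ℚ K : ℝ) * s) * ‖x‖ ^ (-(finrank ℚ K : ℝ) * s) := by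
      rw [← Real.rpow_natCast, ← Real.rpow_mul hm.le, Real.mul_rpow hδ.le hρ.le,
        Real.inv_rpow hδ.le, ← Real.rpow_neg hδ.le]
      congr 2 <;> ring
    have h3 : ((dkδ K)⁻¹) ^ ((finrank ℚ K : ℝ) * s) ≤ (dkδ K)⁻¹ ^ (2 * finrank ℚ K) := by
      rw [← Real.rpow_natCast]
      apply Real.rpow_le_rpow_of_exponent_le hδ1
      push_cast
      nlinarith
    calc unitKernel K s x = unitWeight K x * mixedEmbedding.norm x ^ (-s) := rfl
      _ ≤ 1 * mixedEmbedding.norm x ^ (-s) :=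
          mul_le_mul_of_nonneg_right (unitWeight_le_one K x)
            (Real.rpow_nonneg (mixedEmbedding.norm_nonneg x) _)
      _ = mixedEmbedding.norm x ^ (-s) := one_mul _
      _ ≤ ((dkδ K * ‖x‖) ^ (finrank ℚ K)) ^ (-s) := h1
      _ = ((dkδ K)⁻¹) ^ ((finrank ℚ K : ℝ) * s) * ‖x‖ ^ (-(finrank ℚ K : ℝ) * s) := h2
      _ ≤ (dkδ K)⁻¹ ^ (2 * finrank ℚ K) * ‖x‖ ^ (-(finrank ℚ K : ℝ) * s) :=
          mul_le_mul_of_nonneg_right h3 (Real.rpow_nonneg hρ.le _)

/-- On a pair `x`, `x + c` with `c` small, if one of the weights is nonzero then both points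
have all coordinates at least `δ/4 · ‖x‖`. -/
theorem dk_good_pair {x c : mixedSpace K}
    (hx : mixedEmbedding.norm x ≠ 0) (hxc : mixedEmbedding.norm (x + c) ≠ 0)
    (hc : 4 * (dkδ K)⁻¹ * ‖c‖ ≤ ‖x‖)
    (hW : unitWeight K x ≠ 0 ∨ unitWeight K (x + c) ≠ 0) (w : InfinitePlace K) :
    dkδ K / 4 * ‖x‖ ≤ normAtPlace w x ∧ dkδ K / 4 * ‖x‖ ≤ normAtPlace w (x + c) := by
  have hδ := dkδ_pos (K := K)
  have hδ1 := dkδ_le_one (K := K)
  have hρ : 0 ≤ ‖x‖ := norm_nonneg _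
  have hc' : ‖c‖ ≤ dkδ K / 4 * ‖x‖ := by
    have : 4 * (dkδ K)⁻¹ * ‖c‖ = ‖c‖ / (dkδ K / 4) := by field_simp
    rw [this, div_le_iff₀ (by positivity)] at hc
    linarith
  have hd := dk_abs_normAtPlace_sub w (x + c) x
  rw [add_sub_cancel_left, abs_le] at hd
  have hδρ : 0 ≤ dkδ K * ‖x‖ := mul_nonneg hδ.le hρ
  rcases hW with hW | hW
  · have h1 := dk_cone hx hW w
    constructor <;> nlinarith
  · have h1 := dk_cone hxc hW w
    have h2 : ‖x‖ ≤ ‖x + c‖ + ‖c‖ := by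
      have := norm_sub_le (x + c) c
      rwa [add_sub_cancel_right] at this
    have h3 : dkδ K * ‖x‖ ≤ dkδ K * ‖x + c‖ + dkδ K * ‖c‖ := by
      rw [← mul_add]; exact mul_le_mul_of_nonneg_left h2 hδ.le
    have h4 : dkδ K * ‖c‖ ≤ ‖c‖ := by
      calc dkδ K * ‖c‖ ≤ 1 * ‖c‖ := mul_le_mul_of_nonneg_right hδ1 (norm_nonneg _)
        _ = ‖c‖ := one_mul _
    constructor <;> nlinarith

/-- **Lipschitz bound** for the kernel. -/
theorem dk_unitKernel_sub_le {s : ℝ} (hs1 : 1 ≤ s) (hs2 : s ≤ 2) {x c : mixedSpace K}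
    (hx : 1 ≤ mixedEmbedding.norm x) (hxc : 1 ≤ mixedEmbedding.norm (x + c))
    (hc : 4 * (dkδ K)⁻¹ * ‖c‖ ≤ ‖x‖) :
    |unitKernel K s (x + c) - unitKernel K s x|
      ≤ (4 * dkC K + 2 * (finrank ℚ K : ℝ)) * (4 * (dkδ K)⁻¹) ^ (finrank ℚ K + 1) * ‖c‖
          * ‖x‖ ^ (-(finrank ℚ K : ℝ) - 1) := by
  have hρ : 0 < ‖x‖ := dk_norm_pos_of_one_le hx
  have hδ := dkδ_pos (K := K)
  have hn0 : (0 : ℝ) ≤ (finrank ℚ K : ℝ) := Nat.cast_nonneg _
  have hC := dkC_nonneg (K := K)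
  have hRHS : 0 ≤ (4 * dkC K + 2 * (finrank ℚ K : ℝ)) * (4 * (dkδ K)⁻¹) ^ (finrank ℚ K + 1) * ‖c‖
          * ‖x‖ ^ (-(finrank ℚ K : ℝ) - 1) := by
    have : 0 ≤ (4 * (dkδ K)⁻¹) := by positivity
    have h2 : 0 ≤ ‖x‖ ^ (-(finrank ℚ K : ℝ) - 1) := Real.rpow_nonneg hρ.le _
    positivity
  by_cases hW : unitWeight K x ≠ 0 ∨ unitWeight K (x + c) ≠ 0
  · have hx0 : mixedEmbedding.norm x ≠ 0 := by linarith
    have hxc0 : mixedEmbedding.norm (x + c) ≠ 0 := by linarith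
    set m : ℝ := dkδ K / 4 * ‖x‖ with hm_def
    have hm : 0 < m := by positivity
    have hgx : ∀ w, m ≤ normAtPlace w x := fun w ↦ (dk_good_pair hx0 hxc0 hc hW w).1
    have hgxc : ∀ w, m ≤ normAtPlace w (x + c) := fun w ↦ (dk_good_pair hx0 hxc0 hc hW w).2
    have hNx : m ^ (finrank ℚ K) ≤ mixedEmbedding.norm x := dk_pow_le_norm hm.le hgx
    have hNxc : m ^ (finrank ℚ K) ≤ mixedEmbedding.norm (x + c) := dk_pow_le_norm hm.le hgxc
    have hmn : 0 < m ^ (finrank ℚ K) := pow_pos hm _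
    have hdiff : ‖x + c - x‖ = ‖c‖ := by rw [add_sub_cancel_left]
    have hWl : |unitWeight K (x + c) - unitWeight K x| ≤ dkC K * (4 * (‖c‖ / m)) := by
      have := dk_unitWeight_lipschitz hm hgxc hgx
      rwa [hdiff] at this
    have hlog : |Real.log (mixedEmbedding.norm (x + c)) - Real.log (mixedEmbedding.norm x)|
        ≤ (finrank ℚ K : ℝ) * (‖c‖ / m) := by
      have := dk_abs_log_norm_sub hm hgxc hgx
      rwa [hdiff] at this
    have hpow : |mixedEmbedding.norm (x + c) ^ (-s) - mixedEmbedding.norm x ^ (-s)|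
        ≤ 2 * (m ^ (finrank ℚ K))⁻¹ * ((finrank ℚ K : ℝ) * (‖c‖ / m)) :=
      (dk_rpow_neg_sub_le hxc hx hs1 hs2 hmn hNxc hNx).trans
        (mul_le_mul_of_nonneg_left hlog (by positivity))
    have hNs : mixedEmbedding.norm (x + c) ^ (-s) ≤ (m ^ (finrank ℚ K))⁻¹ :=
      dk_rpow_neg_le_inv hxc hs1 hmn hNxc
    have hNs0 : 0 ≤ mixedEmbedding.norm (x + c) ^ (-s) :=
      Real.rpow_nonneg (mixedEmbedding.norm_nonneg _) _
    have e : unitKernel K s (x + c) - unitKernel K s x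
        = (unitWeight K (x + c) - unitWeight K x) * mixedEmbedding.norm (x + c) ^ (-s)
          + unitWeight K x
            * (mixedEmbedding.norm (x + c) ^ (-s) - mixedEmbedding.norm x ^ (-s)) := by
      unfold unitKernel; ring
    have hcm : 0 ≤ ‖c‖ / m := div_nonneg (norm_nonneg _) hm.le
    have hb1 : |(unitWeight K (x + c) - unitWeight K x) * mixedEmbedding.norm (x + c) ^ (-s)|
        ≤ dkC K * (4 * (‖c‖ / m)) * (m ^ (finrank ℚ K))⁻¹ := by
      rw [abs_mul, abs_of_nonneg hNs0]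
      exact mul_le_mul hWl hNs hNs0 (by positivity)
    have hb2 : |unitWeight K x
            * (mixedEmbedding.norm (x + c) ^ (-s) - mixedEmbedding.norm x ^ (-s))|
        ≤ 2 * (m ^ (finrank ℚ K))⁻¹ * ((finrank ℚ K : ℝ) * (‖c‖ / m)) := by
      rw [abs_mul, abs_of_nonneg (unitWeight_nonneg K x)]
      calc unitWeight K x * |mixedEmbedding.norm (x + c) ^ (-s) - mixedEmbedding.norm x ^ (-s)|
          ≤ 1 * |mixedEmbedding.norm (x + c) ^ (-s) - mixedEmbedding.norm x ^ (-s)| :=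
            mul_le_mul_of_nonneg_right (unitWeight_le_one K x) (abs_nonneg _)
        _ = |mixedEmbedding.norm (x + c) ^ (-s) - mixedEmbedding.norm x ^ (-s)| := one_mul _
        _ ≤ _ := hpow
    have hfinal : dkC K * (4 * (‖c‖ / m)) * (m ^ (finrank ℚ K))⁻¹
        + 2 * (m ^ (finrank ℚ K))⁻¹ * ((finrank ℚ K : ℝ) * (‖c‖ / m))
        = (4 * dkC K + 2 * (finrank ℚ K : ℝ)) * (4 * (dkδ K)⁻¹) ^ (finrank ℚ K + 1) * ‖c‖
          * ‖x‖ ^ (-(finrank ℚ K : ℝ) - 1) := by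
      have e1 : ‖x‖ ^ (-(finrank ℚ K : ℝ) - 1) = (‖x‖ ^ (finrank ℚ K + 1))⁻¹ := by
        rw [show -(finrank ℚ K : ℝ) - 1 = -((finrank ℚ K + 1 : ℕ) : ℝ) by push_cast; ring,
          Real.rpow_neg hρ.le, Real.rpow_natCast]
      have e2 : (m ^ (finrank ℚ K + 1))⁻¹
          = (4 * (dkδ K)⁻¹) ^ (finrank ℚ K + 1) * (‖x‖ ^ (finrank ℚ K + 1))⁻¹ := by
        rw [hm_def, mul_pow, mul_inv, ← inv_pow]
        congr 2
        rw [inv_div, div_eq_mul_inv]
      have e3 : dkC K * (4 * (‖c‖ / m)) * (m ^ (finrank ℚ K))⁻¹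
          + 2 * (m ^ (finrank ℚ K))⁻¹ * ((finrank ℚ K : ℝ) * (‖c‖ / m))
          = (4 * dkC K + 2 * (finrank ℚ K : ℝ)) * ‖c‖ * (m ^ (finrank ℚ K + 1))⁻¹ := by
        rw [pow_succ, mul_inv, div_eq_mul_inv]
        ring
      rw [e3, e2, e1]
      ring
    rw [e]
    calc _ ≤ _ := abs_add_le _ _
      _ ≤ dkC K * (4 * (‖c‖ / m)) * (m ^ (finrank ℚ K))⁻¹
        + 2 * (m ^ (finrank ℚ K))⁻¹ * ((finrank ℚ K : ℝ) * (‖c‖ / m)) := add_le_add hb1 hb2
      _ = _ := hfinal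
  · push Not at hW
    rw [unitKernel, unitKernel, hW.1, hW.2, zero_mul, zero_mul, sub_zero, abs_zero]
    exact hRHS

/-- **D2a.**  The decay bound and the Lipschitz bound for `F_s = W · |N|^{-s}`, uniformly in
`s ∈ [1, 2]`, at points of norm at least one (e.g. nonzero lattice points). -/
theorem unitKernel_bounds (K : Type*) [Field K] [NumberField K] :
    ∃ C κ : ℝ, 0 < C ∧ 0 < κ ∧ ∀ s : ℝ, 1 ≤ s → s ≤ 2 → ∀ x c : mixedSpace K,
      1 ≤ mixedEmbedding.norm x → 1 ≤ mixedEmbedding.norm (x + c) →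
      |unitKernel K s x| ≤ C * ‖x‖ ^ (-(finrank ℚ K : ℝ) * s) ∧
      (κ * ‖c‖ ≤ ‖x‖ → |unitKernel K s (x + c) - unitKernel K s x|
        ≤ C * ‖c‖ * ‖x‖ ^ (-(finrank ℚ K : ℝ) - 1)) := by
  have hδ := dkδ_pos (K := K)
  have hC := dkC_nonneg (K := K)
  have hn0 : (0 : ℝ) ≤ (finrank ℚ K : ℝ) := Nat.cast_nonneg _
  set C1 : ℝ := (dkδ K)⁻¹ ^ (2 * finrank ℚ K) with hC1
  set C2 : ℝ := (4 * dkC K + 2 * (finrank ℚ K : ℝ)) * (4 * (dkδ K)⁻¹) ^ (finrank ℚ K + 1)
    with hC2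
  have hC1pos : 0 < C1 := by positivity
  have hC2nn : 0 ≤ C2 := by positivity
  refine ⟨C1 + C2, 4 * (dkδ K)⁻¹, by linarith, by positivity, ?_⟩
  intro s hs1 hs2 x c hx hxc
  have hρ : 0 < ‖x‖ := dk_norm_pos_of_one_le hx
  constructor
  · refine (dk_unitKernel_le hs1 hs2 hx).trans ?_
    apply mul_le_mul_of_nonneg_right _ (Real.rpow_nonneg hρ.le _)
    linarith
  · intro hc
    refine (dk_unitKernel_sub_le hs1 hs2 hx hxc hc).trans ?_
    have h1 : 0 ≤ ‖c‖ * ‖x‖ ^ (-(finrank ℚ K : ℝ) - 1) :=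
      mul_nonneg (norm_nonneg _) (Real.rpow_nonneg hρ.le _)
    calc C2 * ‖c‖ * ‖x‖ ^ (-(finrank ℚ K : ℝ) - 1)
        = C2 * (‖c‖ * ‖x‖ ^ (-(finrank ℚ K : ℝ) - 1)) := by ring
      _ ≤ (C1 + C2) * (‖c‖ * ‖x‖ ^ (-(finrank ℚ K : ℝ) - 1)) :=
          mul_le_mul_of_nonneg_right (by linarith) h1
      _ = (C1 + C2) * ‖c‖ * ‖x‖ ^ (-(finrank ℚ K : ℝ) - 1) := by ring

end Places

end Fermat.Agent.S14lib
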