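import Mathlib
import Fermat.Agent.S14lib.DensKernel
import Fermat.Agent.S14lib.DensDefs
import Fermat.Agent.Cheb.ZetaReal

/-!
# S14 (item 77), density part D2c: partial zeta functions as lattice sums

For an integral ideal `𝔟` in the class `C⁻¹`, the nonzero elements of `𝔟` are, via
`(I, u) ↦ u · g_I` (`g_I` a generator of `I · 𝔟`), in bijection with pairs of an integral ideal
`I` of class `C` and a unit `u`.  With the partition of unity `unitWeight` this gives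
`∑_{a ∈ 𝔟} W(a) |N a|^{-s} = N(𝔟)^{-s} ζ_C(s)`.
-/

set_option autoImplicit false

namespace Fermat.Agent.S14lib

open NumberField NumberField.mixedEmbedding Ideal Module

open scoped nonZeroDivisors

variable (K : Type*) [Field K] [NumberField K]

/-- The kernel `F_s` evaluated at an algebraic integer. -/
noncomputable def intKernel (s : ℝ) (a : 𝓞 K) : ℝ :=
  unitKernel K s (mixedEmbedding K (a : K))

variable {K}

theorem do_norm_eq_absNorm (a : 𝓞 K) :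
    mixedEmbedding.norm (mixedEmbedding K (a : K)) = (absNorm (span {a}) : ℝ) := by
  rw [mixedEmbedding.norm_eq_norm, absNorm_span_singleton, ← Algebra.coe_norm_int,
    Nat.cast_natAbs]
  push_cast
  rfl

theorem do_one_le_norm {a : 𝓞 K} (ha : a ≠ 0) :
    1 ≤ mixedEmbedding.norm (mixedEmbedding K (a : K)) := by
  rw [do_norm_eq_absNorm]
  have h : absNorm (span {a}) ≠ 0 := by
    rw [Ne, absNorm_eq_zero_iff, span_singleton_eq_bot]
    exact ha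
  exact_mod_cast Nat.one_le_iff_ne_zero.mpr h

theorem intKernel_nonneg (s : ℝ) (a : 𝓞 K) : 0 ≤ intKernel K s a := unitKernel_nonneg s _

theorem intKernel_zero {s : ℝ} (hs : s ≠ 0) : intKernel K s 0 = 0 := by
  unfold intKernel unitKernel
  rw [show ((0 : 𝓞 K) : K) = 0 from rfl, map_zero, map_zero,
    Real.zero_rpow (neg_ne_zero.mpr hs), mul_zero]

theorem intKernel_abs_le_one {s : ℝ} (hs : 0 ≤ s) (a : 𝓞 K) : |intKernel K s a| ≤ 1 := by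
  rw [abs_of_nonneg (intKernel_nonneg s a)]
  unfold intKernel unitKernel
  have hW := unitWeight_le_one K (mixedEmbedding K (a : K))
  have hW0 := unitWeight_nonneg K (mixedEmbedding K (a : K))
  have hN : mixedEmbedding.norm (mixedEmbedding K (a : K)) ^ (-s) ≤ 1 := by
    by_cases ha : a = 0
    · subst ha
      rw [show ((0 : 𝓞 K) : K) = 0 from rfl, map_zero, map_zero]
      rcases eq_or_lt_of_le hs with h | h
      · rw [← h, neg_zero, Real.rpow_zero]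
      · rw [Real.zero_rpow (by linarith)]
        exact zero_le_one
    · exact Real.rpow_le_one_of_one_le_of_nonpos (do_one_le_norm ha) (by linarith)
  calc _ ≤ 1 * 1 := mul_le_mul hW hN (Real.rpow_nonneg (mixedEmbedding.norm_nonneg _) _)
        zero_le_one
    _ = 1 := one_mul 1

theorem intKernel_unit_mul (s : ℝ) (u : (𝓞 K)ˣ) (a : 𝓞 K) :
    intKernel K s (u * a) = unitWeight K (u • mixedEmbedding K (a : K))
      * mixedEmbedding.norm (mixedEmbedding K (a : K)) ^ (-s) := by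
  unfold intKernel unitKernel
  have e : mixedEmbedding K (((u : 𝓞 K) * a : 𝓞 K) : K) = u • mixedEmbedding K (a : K) := by
    rw [unitSMul_smul, ← map_mul]
    rfl
  rw [e, norm_unit_smul]

/-! ## The parametrisation of `𝔟 ∖ 0` -/

section Param

variable (C : ClassGroup (𝓞 K)) (𝔟 : (Ideal (𝓞 K))⁰) (h𝔟 : ClassGroup.mk0 𝔟 = C⁻¹)

include h𝔟

theorem do_isPrincipal (I : {I : (Ideal (𝓞 K))⁰ // ClassGroup.mk0 I = C}) :
    (((I.1 * 𝔟 : (Ideal (𝓞 K))⁰) : Ideal (𝓞 K))).IsPrincipal := by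
  rw [← ClassGroup.mk0_eq_one_iff (SetLike.coe_mem _)]
  show ClassGroup.mk0 (I.1 * 𝔟) = 1
  rw [map_mul, I.2, h𝔟, mul_inv_cancel]

/-- A generator of `I · 𝔟`. -/
noncomputable def doGen (I : {I : (Ideal (𝓞 K))⁰ // ClassGroup.mk0 I = C}) : 𝓞 K :=
  haveI := do_isPrincipal C 𝔟 h𝔟 I
  Submodule.IsPrincipal.generator (((I.1 * 𝔟 : (Ideal (𝓞 K))⁰) : Ideal (𝓞 K)))

theorem do_span_gen (I : {I : (Ideal (𝓞 K))⁰ // ClassGroup.mk0 I = C}) :
    span {doGen C 𝔟 h𝔟 I} = (I.1 : Ideal (𝓞 K)) * (𝔟 : Ideal (𝓞 K)) := by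
  haveI := do_isPrincipal C 𝔟 h𝔟 I
  exact span_singleton_generator _

theorem do_gen_ne_zero (I : {I : (Ideal (𝓞 K))⁰ // ClassGroup.mk0 I = C}) :
    doGen C 𝔟 h𝔟 I ≠ 0 := by
  intro h
  have h1 := do_span_gen C 𝔟 h𝔟 I
  rw [h, span_singleton_eq_bot.mpr rfl] at h1
  have h2 : (I.1 : Ideal (𝓞 K)) ≠ ⊥ := nonZeroDivisors.coe_ne_zero _
  have h3 : (𝔟 : Ideal (𝓞 K)) ≠ ⊥ := nonZeroDivisors.coe_ne_zero _
  exact mul_ne_zero h2 h3 h1.symm

theorem do_gen_mem (I : {I : (Ideal (𝓞 K))⁰ // ClassGroup.mk0 I = C}) :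
    doGen C 𝔟 h𝔟 I ∈ (𝔟 : Ideal (𝓞 K)) := by
  have h1 : doGen C 𝔟 h𝔟 I ∈ span {doGen C 𝔟 h𝔟 I} := mem_span_singleton_self _
  rw [do_span_gen] at h1
  exact Ideal.mul_le_right h1

/-- The parametrisation `(I, u) ↦ u · g_I` of the nonzero elements of `𝔟`. -/
noncomputable def doParam
    (p : {I : (Ideal (𝓞 K))⁰ // ClassGroup.mk0 I = C} × (𝓞 K)ˣ) :
    (𝔟 : Ideal (𝓞 K)).toAddSubgroup :=
  ⟨(p.2 : 𝓞 K) * doGen C 𝔟 h𝔟 p.1, Ideal.mul_mem_left _ _ (do_gen_mem C 𝔟 h𝔟 p.1)⟩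

theorem doParam_injective : Function.Injective (doParam C 𝔟 h𝔟) := by
  rintro ⟨I, u⟩ ⟨I', u'⟩ h
  have h0 : (u : 𝓞 K) * doGen C 𝔟 h𝔟 I = (u' : 𝓞 K) * doGen C 𝔟 h𝔟 I' :=
    congrArg Subtype.val h
  have h1 : span {(u : 𝓞 K) * doGen C 𝔟 h𝔟 I} = span {(u' : 𝓞 K) * doGen C 𝔟 h𝔟 I'} := by
    rw [h0]
  rw [span_singleton_mul_left_unit u.isUnit, span_singleton_mul_left_unit u'.isUnit,
    do_span_gen, do_span_gen] at h1
  have h3 : (𝔟 : Ideal (𝓞 K)) ≠ 0 := nonZeroDivisors.coe_ne_zero _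
  have h4 : (I.1 : Ideal (𝓞 K)) = (I'.1 : Ideal (𝓞 K)) := mul_right_cancel₀ h3 h1
  have h5 : I = I' := Subtype.ext (Subtype.ext h4)
  subst h5
  have h6 : (u : 𝓞 K) = (u' : 𝓞 K) := mul_right_cancel₀ (do_gen_ne_zero C 𝔟 h𝔟 I) h0
  rw [Units.ext h6]

theorem doParam_surj {a : (𝔟 : Ideal (𝓞 K)).toAddSubgroup} (ha : (a : 𝓞 K) ≠ 0) :
    a ∈ Set.range (doParam C 𝔟 h𝔟) := by
  have hmem : (a : 𝓞 K) ∈ (𝔟 : Ideal (𝓞 K)) := a.2
  have hle : span {(a : 𝓞 K)} ≤ (𝔟 : Ideal (𝓞 K)) := (span_singleton_le_iff_mem _).mpr hmem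
  obtain ⟨J, hJ⟩ := Ideal.dvd_iff_le.mpr hle
  have hspan_ne : span {(a : 𝓞 K)} ≠ ⊥ := by
    rw [Ne, span_singleton_eq_bot]; exact ha
  have hJne : J ≠ 0 := by
    rintro rfl
    rw [mul_zero] at hJ
    exact hspan_ne hJ
  have hJmem : J ∈ (Ideal (𝓞 K))⁰ := mem_nonZeroDivisors_of_ne_zero hJne
  have hspanmem : span {(a : 𝓞 K)} ∈ (Ideal (𝓞 K))⁰ := mem_nonZeroDivisors_of_ne_zero hspan_ne
  have hcl : ClassGroup.mk0 (⟨J, hJmem⟩ : (Ideal (𝓞 K))⁰) = C := by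
    have h1 : ClassGroup.mk0 (⟨span {(a : 𝓞 K)}, hspanmem⟩ : (Ideal (𝓞 K))⁰) = 1 :=
      (ClassGroup.mk0_eq_one_iff hspanmem).mpr ⟨⟨(a : 𝓞 K), rfl⟩⟩
    have h2 : (⟨span {(a : 𝓞 K)}, hspanmem⟩ : (Ideal (𝓞 K))⁰) = 𝔟 * ⟨J, hJmem⟩ :=
      Subtype.ext hJ
    rw [h2, map_mul, h𝔟, inv_mul_eq_one] at h1
    exact h1.symm
  set I : {I : (Ideal (𝓞 K))⁰ // ClassGroup.mk0 I = C} := ⟨⟨J, hJmem⟩, hcl⟩ with hI
  have hsp : span {doGen C 𝔟 h𝔟 I} = span {(a : 𝓞 K)} := by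
    rw [do_span_gen, hJ, mul_comm]
  obtain ⟨u, hu⟩ := span_singleton_eq_span_singleton.mp hsp
  refine ⟨(I, u), Subtype.ext ?_⟩
  show (u : 𝓞 K) * doGen C 𝔟 h𝔟 I = a
  rw [mul_comm]
  exact hu

theorem do_norm_gen (I : {I : (Ideal (𝓞 K))⁰ // ClassGroup.mk0 I = C}) :
    mixedEmbedding.norm (mixedEmbedding K (doGen C 𝔟 h𝔟 I : K))
      = (absNorm (I.1 : Ideal (𝓞 K)) : ℝ) * (absNorm (𝔟 : Ideal (𝓞 K)) : ℝ) := by
  rw [do_norm_eq_absNorm, do_span_gen, map_mul, Nat.cast_mul]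

theorem do_norm_gen_rpow (I : {I : (Ideal (𝓞 K))⁰ // ClassGroup.mk0 I = C}) (s : ℝ) :
    mixedEmbedding.norm (mixedEmbedding K (doGen C 𝔟 h𝔟 I : K)) ^ (-s)
      = (absNorm (I.1 : Ideal (𝓞 K)) : ℝ) ^ (-s) * (absNorm (𝔟 : Ideal (𝓞 K)) : ℝ) ^ (-s) := by
  rw [do_norm_gen, Real.mul_rpow (Nat.cast_nonneg _) (Nat.cast_nonneg _)]

omit h𝔟 in
theorem do_summable_class {s : ℝ} (hs : 1 < s) :
    Summable (fun I : {I : (Ideal (𝓞 K))⁰ // ClassGroup.mk0 I = C} ↦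
      (absNorm (I.1 : Ideal (𝓞 K)) : ℝ) ^ (-s)) := by
  have hinj : Function.Injective
      (fun I : {I : (Ideal (𝓞 K))⁰ // ClassGroup.mk0 I = C} ↦ ((I.1 : (Ideal (𝓞 K))⁰) : Ideal (𝓞 K))) :=
    fun I I' h ↦ Subtype.ext (Subtype.ext h)
  exact (Fermat.Agent.Cheb.summable_norm_rpow K hs).comp_injective hinj

theorem do_hasSum_fiber (I : {I : (Ideal (𝓞 K))⁰ // ClassGroup.mk0 I = C}) (s : ℝ) :
    HasSum (fun u : (𝓞 K)ˣ ↦ intKernel K s (doParam C 𝔟 h𝔟 (I, u) : 𝓞 K))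
      ((absNorm (I.1 : Ideal (𝓞 K)) : ℝ) ^ (-s) * (absNorm (𝔟 : Ideal (𝓞 K)) : ℝ) ^ (-s)) := by
  have hx : mixedEmbedding.norm (mixedEmbedding K (doGen C 𝔟 h𝔟 I : K)) ≠ 0 := by
    have := do_one_le_norm (do_gen_ne_zero C 𝔟 h𝔟 I)
    linarith
  have h1 := (unitWeight_hasSum K _ hx).mul_right
    (mixedEmbedding.norm (mixedEmbedding K (doGen C 𝔟 h𝔟 I : K)) ^ (-s))
  rw [one_mul] at h1
  have e : (fun u : (𝓞 K)ˣ ↦ intKernel K s (doParam C 𝔟 h𝔟 (I, u) : 𝓞 K))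
      = fun u : (𝓞 K)ˣ ↦ unitWeight K (u • mixedEmbedding K (doGen C 𝔟 h𝔟 I : K))
          * mixedEmbedding.norm (mixedEmbedding K (doGen C 𝔟 h𝔟 I : K)) ^ (-s) :=
    funext fun u ↦ intKernel_unit_mul s u (doGen C 𝔟 h𝔟 I)
  rw [e, ← do_norm_gen_rpow C 𝔟 h𝔟 I s]
  exact h1

theorem do_hasSum_param {s : ℝ} (hs : 1 < s) :
    HasSum (fun p : {I : (Ideal (𝓞 K))⁰ // ClassGroup.mk0 I = C} × (𝓞 K)ˣ ↦
        intKernel K s (doParam C 𝔟 h𝔟 p : 𝓞 K))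
      ((absNorm (𝔟 : Ideal (𝓞 K)) : ℝ) ^ (-s) * zetaClass K C s) := by
  set f : {I : (Ideal (𝓞 K))⁰ // ClassGroup.mk0 I = C} × (𝓞 K)ˣ → ℝ :=
    fun p ↦ intKernel K s (doParam C 𝔟 h𝔟 p : 𝓞 K) with hf
  have hfib : ∀ I, HasSum (fun u : (𝓞 K)ˣ ↦ f (I, u))
      ((absNorm (I.1 : Ideal (𝓞 K)) : ℝ) ^ (-s) * (absNorm (𝔟 : Ideal (𝓞 K)) : ℝ) ^ (-s)) :=
    fun I ↦ do_hasSum_fiber C 𝔟 h𝔟 I s
  have hnn : 0 ≤ f := fun p ↦ intKernel_nonneg s _
  have hg : Summable (fun I : {I : (Ideal (𝓞 K))⁰ // ClassGroup.mk0 I = C} ↦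
      (absNorm (I.1 : Ideal (𝓞 K)) : ℝ) ^ (-s) * (absNorm (𝔟 : Ideal (𝓞 K)) : ℝ) ^ (-s)) :=
    (do_summable_class C hs).mul_right _
  have hsum : Summable f := by
    rw [summable_prod_of_nonneg hnn]
    refine ⟨fun I ↦ (hfib I).summable, ?_⟩
    refine hg.congr fun I ↦ ?_
    exact ((hfib I).tsum_eq).symm
  have htsum : ∑' p, f p = (absNorm (𝔟 : Ideal (𝓞 K)) : ℝ) ^ (-s) * zetaClass K C s := by
    rw [hsum.tsum_prod' (fun I ↦ (hfib I).summable)]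
    simp_rw [fun I ↦ (hfib I).tsum_eq]
    rw [tsum_mul_right, zetaClass, mul_comm]
  rw [← htsum]
  exact hsum.hasSum

/-- **D2c.**  The partial zeta function of the class `C` as a weighted sum over an integral
ideal `𝔟` in the class `C⁻¹`. -/
theorem intKernel_hasSum {s : ℝ} (hs : 1 < s) :
    HasSum (fun a : (𝔟 : Ideal (𝓞 K)).toAddSubgroup ↦ intKernel K s (a : 𝓞 K))
      ((absNorm (𝔟 : Ideal (𝓞 K)) : ℝ) ^ (-s) * zetaClass K C s) := by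
  refine (Function.Injective.hasSum_iff (doParam_injective C 𝔟 h𝔟) ?_).mp
    (do_hasSum_param C 𝔟 h𝔟 hs)
  intro a ha
  have h0 : (a : 𝓞 K) = 0 := by
    by_contra hne
    exact ha (doParam_surj C 𝔟 h𝔟 hne)
  rw [h0]
  exact intKernel_zero (by linarith)

end Param

/-- **D2c, trivial class.**  The partial zeta function of the trivial class is the sum of the
kernel over all algebraic integers. -/
theorem intKernel_hasSum_top {s : ℝ} (hs : 1 < s) :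
    HasSum (intKernel K s) (zetaClass K 1 s) := by
  have h := intKernel_hasSum (K := K) 1 1 (by rw [map_one, inv_one]) hs
  have h1 : ((absNorm (((1 : (Ideal (𝓞 K))⁰)) : Ideal (𝓞 K)) : ℕ) : ℝ) ^ (-s) = 1 := by
    rw [Submonoid.coe_one, Ideal.one_eq_top, absNorm_top, Nat.cast_one, Real.one_rpow]
  rw [h1, one_mul] at h
  refine (Function.Injective.hasSum_iff (f := intKernel K s) Subtype.val_injective ?_).mp h
  intro a ha
  have hmem : a ∈ (((1 : (Ideal (𝓞 K))⁰) : Ideal (𝓞 K))).toAddSubgroup := by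
    show a ∈ ((1 : (Ideal (𝓞 K))⁰) : Ideal (𝓞 K))
    rw [Submonoid.coe_one, Ideal.one_eq_top]
    trivial
  exact absurd ⟨⟨a, hmem⟩, rfl⟩ ha

theorem intKernel_summable {s : ℝ} (hs : 1 < s) : Summable (intKernel K s) :=
  (intKernel_hasSum_top hs).summable

open scoped Classical in
/-- The Lipschitz bound of D2a at algebraic integers (the hypothesis of D2b). -/
theorem intKernel_lipschitz (K : Type*) [Field K] [NumberField K] :
    ∃ C κ : ℝ, 0 < C ∧ 0 < κ ∧ ∀ s : ℝ, 1 ≤ s → s ≤ 2 → ∀ a c : 𝓞 K, a ≠ 0 → a + c ≠ 0 →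
      κ * ‖mixedEmbedding K (c : K)‖ ≤ ‖mixedEmbedding K (a : K)‖ →
      |intKernel K s (a + c) - intKernel K s a|
        ≤ C * ‖mixedEmbedding K (c : K)‖
          * ‖mixedEmbedding K (a : K)‖ ^ (-((finrank ℚ K : ℝ) + 1)) := by
  obtain ⟨C, κ, hC, hκ, h⟩ := unitKernel_bounds K
  refine ⟨C, κ, hC, hκ, fun s hs1 hs2 a c ha hac hc ↦ ?_⟩
  have hxc : mixedEmbedding K (a : K) + mixedEmbedding K (c : K)
      = mixedEmbedding K ((a + c : 𝓞 K) : K) := by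
    rw [← map_add]; rfl
  have h1 := (h s hs1 hs2 (mixedEmbedding K (a : K)) (mixedEmbedding K (c : K))
    (do_one_le_norm ha) (by rw [hxc]; exact do_one_le_norm hac)).2 hc
  rw [hxc, show -(finrank ℚ K : ℝ) - 1 = -((finrank ℚ K : ℝ) + 1) by ring] at h1
  exact h1

end Fermat.Agent.S14lib
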