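import Mathlib
import Fermat.Agent.S14lib.DensOrbit
import Fermat.Agent.S14lib.DensD2d
import Fermat.Agent.S14lib.DensD3

/-!
# S14 (item 77): D2 and D3, unconditional

* `zetaClass_sub_bounded` (D2): partial zeta functions of two ideal classes differ by `O(1)` on
  `(1, 2]`  — from D2a/D2c (`intKernel_*`, helper29) and D2b/D2d (`d2b_coset_compare`,
  `zetaClass_sub_bounded_of`).
* `sum_primes_ne_zero_ge` (D3): the primes of degree one with `f ≠ 0` have lower density `≥ 1/2`.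
-/

set_option autoImplicit false

namespace Fermat.Agent.S14lib

open NumberField

open scoped Classical nonZeroDivisors

/-- **D2.** Partial zeta functions of two ideal classes differ by a bounded function on
`(1, 2]`. -/
theorem zetaClass_sub_bounded (M : Type*) [Field M] [NumberField M] (C C' : ClassGroup (𝓞 M)) :
    ∃ B : ℝ, ∀ s : ℝ, 1 < s → s ≤ 2 → |zetaClass M C s - zetaClass M C' s| ≤ B :=
  zetaClass_sub_bounded_of M (intKernel M) (fun _ hs a => intKernel_abs_le_one hs a)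
    (fun C 𝔟 h𝔟 _ hs => intKernel_hasSum C 𝔟 h𝔟 hs) (fun _ hs => intKernel_hasSum_top hs)
    (intKernel_lipschitz M) C C'

/-- **D3.** For a nonzero homomorphism `f : Cl(M) → 𝔽_q` the primes of degree one with `f ≠ 0`
have (lower) density at least `1/2`. -/
theorem sum_primes_ne_zero_ge (M : Type*) [Field M] [NumberField M] (q : ℕ) [Fact q.Prime]
    (f : Ideal (𝓞 M) → ZMod q)
    (hmul : ∀ I J : Ideal (𝓞 M), I ≠ ⊥ → J ≠ ⊥ → f (I * J) = f I + f J)
    (hspan : ∀ x : 𝓞 M, x ≠ 0 → f (Ideal.span {x}) = 0)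
    (hf : ∃ I : Ideal (𝓞 M), I ≠ ⊥ ∧ f I ≠ 0) :
    ∃ B : ℝ, ∀ s : ℝ, 1 < s → s ≤ 2 →
      ∃ T : Finset (IsDedekindDomain.HeightOneSpectrum (𝓞 M)),
      (∀ 𝔭 ∈ T, f 𝔭.asIdeal ≠ 0 ∧ (Ideal.absNorm 𝔭.asIdeal).Prime) ∧
      (1 / 2 : ℝ) * Real.log (1 / (s - 1)) - B ≤
        ∑ 𝔭 ∈ T, ((Ideal.absNorm 𝔭.asIdeal : ℕ) : ℝ) ^ (-s) :=
  sum_primes_ne_zero_ge_of (zetaClass_sub_bounded M) f hmul hspan hf

end Fermat.Agent.S14lib
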