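import Mathlib
import Fermat.Agent.S14lib.Defs
import Fermat.Agent.Cheb.PrimeOf

/-!
# S14 (item 77), piece DF: the density comparison

From the statements of D1 (`sum_pthPower_primes_le`) and D3 (`sum_primes_ne_zero_ge`), taken as
hypotheses, we deduce the statement D of the blueprint: for a nonzero class function `φ` and
`u ∈ 𝓞 K` which is not a `p`-th power in `K`, there is a prime `λ` of degree one over
`ℓ ≡ 1 mod p` with `φ(λ) ≠ 0` modulo which `u` is not a `p`-th power.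
-/

set_option autoImplicit false
set_option linter.style.haveILetI false

namespace Fermat.Agent.S14lib

open NumberField IsDedekindDomain
open scoped Pointwise

variable {p : ℕ} [hp : Fact p.Prime]
variable {K : Type*} [Field K] [NumberField K] [IsCyclotomicExtension {p} ℚ K]
variable {ζ : K} (hζ : IsPrimitiveRoot ζ p)

include hζ in
/-- A prime of degree one of `ℚ(ζ_p)` which does not lie over `p` lies over a prime `ℓ ≡ 1 mod p`. -/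
theorem df_mod_eq_one (P : Ideal (𝓞 K)) [hP : P.IsPrime] {ℓ : ℕ} (hℓ : ℓ.Prime)
    (hN : Ideal.absNorm P = ℓ) (hℓp : ℓ ≠ p) : ℓ % p = 1 := by
  have hp' := hp.out
  have hP0 : P ≠ ⊥ := by
    rintro rfl
    rw [Ideal.absNorm_bot] at hN
    exact hℓ.ne_zero hN.symm
  haveI hmax : P.IsMaximal := hP.isMaximal hP0
  letI : Field (𝓞 K ⧸ P) := Ideal.Quotient.field P
  have hcard : Nat.card (𝓞 K ⧸ P) = ℓ := by
    rw [← hN]; rfl
  haveI : Finite (𝓞 K ⧸ P) := Nat.finite_of_card_ne_zero (by rw [hcard]; exact hℓ.ne_zero)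
  letI : Fintype (𝓞 K ⧸ P) := Fintype.ofFinite _
  have hℓmem : ((ℓ : ℕ) : 𝓞 K) ∈ P := by
    rw [← hN]; exact Ideal.absNorm_mem P
  set z : 𝓞 K ⧸ P := Ideal.Quotient.mk P hζ.toInteger with hz
  have hzp : z ^ p = 1 := by
    rw [hz, ← map_pow, hζ.toInteger_isPrimitiveRoot.pow_eq_one, map_one]
  have hz1 : z ≠ 1 := by
    intro h
    have h1 : hζ.toInteger - 1 ∈ P := by
      rw [← Ideal.Quotient.eq_zero_iff_mem, map_sub, map_one, ← hz, h, sub_self]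
    have h2 : ((p : ℕ) : 𝓞 K) ∈ P := by
      obtain ⟨c, hc⟩ := hζ.toInteger_sub_one_dvd_prime'
      rw [hc]
      exact P.mul_mem_right _ h1
    have hcop : Nat.Coprime ℓ p := (Nat.coprime_primes hℓ hp').mpr hℓp
    have h3 : ((1 : ℤ) : 𝓞 K) ∈ P := by
      have hb := Nat.gcd_eq_gcd_ab ℓ p
      rw [hcop.gcd_eq_one] at hb
      have : ((1 : ℤ) : 𝓞 K) = (ℓ : 𝓞 K) * ((Nat.gcdA ℓ p : ℤ) : 𝓞 K) +
          (p : 𝓞 K) * ((Nat.gcdB ℓ p : ℤ) : 𝓞 K) := by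
        have := congrArg (fun n : ℤ => (n : 𝓞 K)) hb
        simpa using this
      rw [this]
      exact P.add_mem (P.mul_mem_right _ hℓmem) (P.mul_mem_right _ h2)
    rw [Int.cast_one] at h3
    exact hP.ne_top ((Ideal.eq_top_iff_one P).mpr h3)
  have hord : orderOf z = p := orderOf_eq_prime hzp hz1
  have hz0 : z ≠ 0 := by
    intro h
    rw [h, zero_pow hp'.ne_zero] at hzp
    exact zero_ne_one hzp
  have hpow : z ^ (ℓ - 1) = 1 := by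
    have := FiniteField.pow_card_sub_one_eq_one z hz0
    rwa [← Nat.card_eq_fintype_card, hcard] at this
  have hdvd : p ∣ ℓ - 1 := by
    rw [← hord]; exact orderOf_dvd_of_pow_eq_one hpow
  obtain ⟨k, hk⟩ := hdvd
  have hℓ1 : ℓ = p * k + 1 := by
    have := hℓ.one_lt
    omega
  rw [hℓ1, Nat.mul_add_mod]
  exact Nat.mod_eq_of_lt hp'.one_lt

/-- **DF, conditional form.**  The density comparison from the statements of D1 and D3. -/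
theorem exists_prime_not_pth_power_of (hp3 : 3 ≤ p) (φ : ClassFun hζ)
    (u : 𝓞 K)
    (hD1 : ∃ B : ℝ, ∀ s : ℝ, 1 < s → s ≤ 2 → ∀ T : Finset (HeightOneSpectrum (𝓞 K)),
      (∀ 𝔭 ∈ T, ∃ y : 𝓞 K, u - y ^ p ∈ 𝔭.asIdeal) →
      (p : ℝ) * ∑ 𝔭 ∈ T, ((Ideal.absNorm 𝔭.asIdeal : ℕ) : ℝ) ^ (-s) ≤
        Real.log (1 / (s - 1)) + B)
    (hD3 : ∃ B : ℝ, ∀ s : ℝ, 1 < s → s ≤ 2 → ∃ T : Finset (HeightOneSpectrum (𝓞 K)),
      (∀ 𝔭 ∈ T, φ.toFun 𝔭.asIdeal ≠ 0 ∧ (Ideal.absNorm 𝔭.asIdeal).Prime) ∧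
      (1 / 2 : ℝ) * Real.log (1 / (s - 1)) - B ≤
        ∑ 𝔭 ∈ T, ((Ideal.absNorm 𝔭.asIdeal : ℕ) : ℝ) ^ (-s)) :
    ∃ (ℓ : ℕ) (lam : Ideal (𝓞 K)), ℓ.Prime ∧ ℓ % p = 1 ∧ lam.IsPrime ∧ (ℓ : 𝓞 K) ∈ lam ∧
      φ.toFun lam ≠ 0 ∧ ¬ ∃ y : 𝓞 K, u - y ^ p ∈ lam := by
  classical
  by_contra hcon
  push Not at hcon
  obtain ⟨B₁, hB₁⟩ := hD1
  obtain ⟨B₃, hB₃⟩ := hD3
  have hp' := hp.out
  have hp0 : (0 : ℝ) < p := by exact_mod_cast hp'.pos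
  set n : ℝ := (Module.finrank ℚ K : ℝ) with hn
  -- the constant
  set C : ℝ := B₃ + B₁ / p + n with hC
  -- choose `s` with `log (1/(s-1))` large
  set L : ℝ := 6 * (|C| + 1) with hL
  have hLpos : 0 < L := by positivity
  set s : ℝ := 1 + Real.exp (-L) with hs
  have hs1 : 1 < s := by
    rw [hs]; linarith [Real.exp_pos (-L)]
  have hs2 : s ≤ 2 := by
    have : Real.exp (-L) ≤ 1 := by
      rw [← Real.exp_zero]; exact Real.exp_le_exp.mpr (by linarith)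
    rw [hs]; linarith
  have hlog : Real.log (1 / (s - 1)) = L := by
    have : s - 1 = Real.exp (-L) := by rw [hs]; ring
    rw [this, one_div, ← Real.exp_neg, neg_neg, Real.log_exp]
  obtain ⟨T, hT, hTsum⟩ := hB₃ s hs1 hs2
  rw [hlog] at hTsum
  -- split `T`
  set T' := T.filter (fun 𝔭 => ¬ ((p : ℕ) : 𝓞 K) ∈ 𝔭.asIdeal) with hT'
  set T'' := T.filter (fun 𝔭 => ((p : ℕ) : 𝓞 K) ∈ 𝔭.asIdeal) with hT''
  have hsplit : ∑ 𝔭 ∈ T, ((Ideal.absNorm 𝔭.asIdeal : ℕ) : ℝ) ^ (-s) =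
      ∑ 𝔭 ∈ T'', ((Ideal.absNorm 𝔭.asIdeal : ℕ) : ℝ) ^ (-s) +
        ∑ 𝔭 ∈ T', ((Ideal.absNorm 𝔭.asIdeal : ℕ) : ℝ) ^ (-s) := by
    rw [hT', hT'']
    exact (Finset.sum_filter_add_sum_filter_not T _ _).symm
  have hterm : ∀ 𝔭 : HeightOneSpectrum (𝓞 K),
      ((Ideal.absNorm 𝔭.asIdeal : ℕ) : ℝ) ^ (-s) ≤ 1 := by
    intro 𝔭
    have h1 : (1 : ℝ) ≤ ((Ideal.absNorm 𝔭.asIdeal : ℕ) : ℝ) := by
      have : Ideal.absNorm 𝔭.asIdeal ≠ 0 := by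
        rw [Ne, Ideal.absNorm_eq_zero_iff]
        exact 𝔭.ne_bot
      exact_mod_cast Nat.one_le_iff_ne_zero.mpr this
    exact Real.rpow_le_one_of_one_le_of_nonpos h1 (by linarith)
  have hT''sum : ∑ 𝔭 ∈ T'', ((Ideal.absNorm 𝔭.asIdeal : ℕ) : ℝ) ^ (-s) ≤ n := by
    calc ∑ 𝔭 ∈ T'', ((Ideal.absNorm 𝔭.asIdeal : ℕ) : ℝ) ^ (-s)
        ≤ ∑ 𝔭 ∈ T'', (1 : ℝ) := Finset.sum_le_sum fun 𝔭 _ => hterm 𝔭
      _ = (T''.card : ℝ) := by simp
      _ ≤ n := by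
        rw [hn]
        exact_mod_cast Fermat.Agent.Cheb.card_le_finrank_of_mem hp' T''
          (fun 𝔭 h𝔭 => (Finset.mem_filter.mp h𝔭).2)
  have hT'cond : ∀ 𝔭 ∈ T', ∃ y : 𝓞 K, u - y ^ p ∈ 𝔭.asIdeal := by
    intro 𝔭 h𝔭
    obtain ⟨h𝔭T, hnp⟩ := Finset.mem_filter.mp h𝔭
    obtain ⟨hφ, hprime⟩ := hT 𝔭 h𝔭T
    haveI := 𝔭.isPrime
    have hℓp : Ideal.absNorm 𝔭.asIdeal ≠ p := by
      intro h
      apply hnp
      rw [← h]
      exact Ideal.absNorm_mem _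
    exact hcon _ 𝔭.asIdeal hprime (df_mod_eq_one hζ 𝔭.asIdeal hprime rfl hℓp) 𝔭.isPrime
      (Ideal.absNorm_mem _) hφ
  have h1 := hB₁ s hs1 hs2 T' hT'cond
  rw [hlog] at h1
  have h2 : ∑ 𝔭 ∈ T', ((Ideal.absNorm 𝔭.asIdeal : ℕ) : ℝ) ^ (-s) ≤ (L + B₁) / p := by
    rw [le_div_iff₀ hp0, mul_comm]; exact h1
  have h3 : (1 / 2 : ℝ) * L - B₃ ≤ n + (L + B₁) / p := by
    calc (1 / 2 : ℝ) * L - B₃ ≤ _ := hTsum
      _ = _ := hsplit
      _ ≤ n + (L + B₁) / p := add_le_add hT''sum h2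
  have hp3' : (3 : ℝ) ≤ p := by exact_mod_cast hp3
  have h4 : L / p ≤ L / 3 := by
    apply div_le_div_of_nonneg_left hLpos.le (by norm_num) hp3'
  have h5 : (L + B₁) / p = L / p + B₁ / p := by ring
  have h6 : L / 6 ≤ C := by
    rw [hC]; rw [h5] at h3; linarith
  have h7 : C ≤ |C| := le_abs_self C
  rw [hL] at h6
  linarith

end Fermat.Agent.S14lib
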