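/-
Item 77 (S14), piece C3 (helper27; architect helper26), part 1: the reduction
`rhoEps : 𝔽_p[t]/(t^(p-2)) →+* 𝔽_p[ε]/(ε²)`, `t ↦ ε` (`p ≥ 5`), whose kernel is `(t²)`,
and the basic identity `dlog u * fst (Θ u) = snd (Θ u)`.
-/
import Mathlib
import Fermat.Agent.S14lib.Defs

set_option autoImplicit false

open NumberField Polynomial

namespace Fermat.Agent.S14lib

open Fermat.Agent.Kummer.KL

section Rho

variable (p : ℕ) [hp : Fact p.Prime]

theorem lr_eps_pow (hp5 : 5 ≤ p) :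
    (Polynomial.X ^ (p - 2) : (ZMod p)[X]).eval₂
      (algebraMap (ZMod p) (DualNumber (ZMod p))) DualNumber.eps = 0 := by
  rw [Polynomial.eval₂_pow, Polynomial.eval₂_X]
  have h : p - 2 = 2 + (p - 4) := by omega
  rw [h, pow_add, pow_two, DualNumber.eps_mul_eps, zero_mul]

/-- the reduction modulo `t²` -/
noncomputable def rhoEps (hp5 : 5 ≤ p) : TruncRing p →+* DualNumber (ZMod p) :=
  AdjoinRoot.lift (algebraMap (ZMod p) (DualNumber (ZMod p))) DualNumber.eps (lr_eps_pow p hp5)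

theorem rhoEps_tt (hp5 : 5 ≤ p) : rhoEps p hp5 (tt p) = DualNumber.eps := by
  unfold rhoEps tt
  exact AdjoinRoot.lift_root _

theorem rhoEps_algebraMap (hp5 : 5 ≤ p) (c : ZMod p) :
    rhoEps p hp5 (algebraMap (ZMod p) (TruncRing p) c) = TrivSqZeroExt.inl c := by
  unfold rhoEps
  have : algebraMap (ZMod p) (TruncRing p) c = AdjoinRoot.of _ c := rfl
  rw [this, AdjoinRoot.lift_of]
  rfl

theorem rhoEps_natCast (hp5 : 5 ≤ p) (n : ℕ) :
    rhoEps p hp5 (n : TruncRing p) = TrivSqZeroExt.inl (n : ZMod p) := by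
  rw [map_natCast]
  ext
  · simp
  · simp

theorem rhoEps_eq_zero_of_dvd (hp5 : 5 ≤ p) (x : TruncRing p) (h : (tt p) ^ 2 ∣ x) :
    rhoEps p hp5 x = 0 := by
  obtain ⟨y, rfl⟩ := h
  rw [map_mul, map_pow, rhoEps_tt, pow_two, DualNumber.eps_mul_eps, zero_mul]

theorem lr_algebraMap (a : ZMod p) :
    algebraMap (ZMod p) (DualNumber (ZMod p)) a = TrivSqZeroExt.inl a := rfl

/-- evaluation of a polynomial at `ε` -/
theorem lr_eval₂_eps (f : (ZMod p)[X]) :
    f.eval₂ (algebraMap (ZMod p) (DualNumber (ZMod p))) DualNumber.eps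
      = TrivSqZeroExt.inl (f.coeff 0) + TrivSqZeroExt.inr (f.coeff 1) := by
  induction f using Polynomial.induction_on' with
  | add f g hf hg =>
    rw [Polynomial.eval₂_add, hf, hg, Polynomial.coeff_add, Polynomial.coeff_add]
    ext <;> simp
  | monomial n a =>
    rw [Polynomial.eval₂_monomial, lr_algebraMap]
    rcases n with _ | _ | n
    · rw [pow_zero, mul_one, Polynomial.coeff_monomial, Polynomial.coeff_monomial,
        if_pos rfl, if_neg (by omega)]
      ext <;> simp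
    · rw [pow_one, Polynomial.coeff_monomial, Polynomial.coeff_monomial,
        if_neg (by omega), if_pos rfl]
      have he : (DualNumber.eps : DualNumber (ZMod p)) = TrivSqZeroExt.inr 1 := rfl
      rw [he, TrivSqZeroExt.inl_mul_inr, smul_eq_mul, mul_one, TrivSqZeroExt.inl_zero, zero_add]
    · have h : (DualNumber.eps : DualNumber (ZMod p)) ^ (n + 1 + 1) = 0 := by
        rw [pow_succ, pow_succ, mul_assoc, DualNumber.eps_mul_eps, mul_zero]
      rw [h, mul_zero, Polynomial.coeff_monomial, Polynomial.coeff_monomial,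
        if_neg (by omega), if_neg (by omega)]
      ext <;> simp

theorem rhoEps_mk (hp5 : 5 ≤ p) (f : (ZMod p)[X]) :
    rhoEps p hp5 (AdjoinRoot.mk _ f)
      = TrivSqZeroExt.inl (f.coeff 0) + TrivSqZeroExt.inr (f.coeff 1) := by
  unfold rhoEps
  rw [AdjoinRoot.lift_mk]
  exact lr_eval₂_eps p f

theorem dvd_of_rhoEps_eq_zero (hp5 : 5 ≤ p) (x : TruncRing p) (h : rhoEps p hp5 x = 0) :
    (tt p) ^ 2 ∣ x := by
  obtain ⟨f, rfl⟩ := AdjoinRoot.mk_surjective x
  rw [rhoEps_mk] at h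
  have h0 : f.coeff 0 = 0 := by
    have := congrArg TrivSqZeroExt.fst h
    simpa using this
  have h1 : f.coeff 1 = 0 := by
    have := congrArg TrivSqZeroExt.snd h
    simpa using this
  have hdvd : (Polynomial.X : (ZMod p)[X]) ^ 2 ∣ f := by
    rw [Polynomial.X_pow_dvd_iff]
    intro d hd
    interval_cases d
    · exact h0
    · exact h1
  obtain ⟨g, rfl⟩ := hdvd
  refine ⟨AdjoinRoot.mk _ g, ?_⟩
  rw [map_mul, map_pow, AdjoinRoot.mk_X]
  rfl

theorem rhoEps_eq_zero_iff (hp5 : 5 ≤ p) (x : TruncRing p) :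
    rhoEps p hp5 x = 0 ↔ (tt p) ^ 2 ∣ x :=
  ⟨dvd_of_rhoEps_eq_zero p hp5 x, rhoEps_eq_zero_of_dvd p hp5 x⟩

end Rho

section Dlog

variable {p : ℕ} [hp : Fact p.Prime]
variable {K : Type*} [Field K] [NumberField K] [IsCyclotomicExtension {p} ℚ K]
variable {ζ : K} (hζ : IsPrimitiveRoot ζ p)

/-- the defining identity of `dlog` -/
theorem dlog_mul_fst (hp3 : 3 ≤ p) (u : (𝓞 K)ˣ) :
    dlog hζ hp3 (Additive.ofMul u) * (Theta hζ hp3 (u : 𝓞 K)).fst
      = (Theta hζ hp3 (u : 𝓞 K)).snd := by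
  have h := fst_mul_fst_inv (Units.map (Theta hζ hp3 : 𝓞 K →* DualNumber (TruncRing p)) u)
  rw [Units.coe_map] at h
  rw [dlog_apply, dlogDual_apply, Units.coe_map, mul_assoc, mul_comm (TrivSqZeroExt.fst _)]
  erw [h]
  rw [mul_one]
  rfl

theorem Theta_cycUnit_fst (hp3 : 3 ≤ p) {a : ℕ} (h : a.Coprime p) :
    (Theta hζ hp3 (cycUnit hζ a : 𝓞 K)).fst = ∑ i ∈ Finset.range a, (1 + tt p) ^ i := by
  rw [coe_cycUnit hζ h, map_sum]
  simp only [map_pow, Theta_toInteger]
  rw [← TrivSqZeroExt.fstHom_apply (S := ℤ), map_sum]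
  exact Finset.sum_congr rfl fun i _ => fst_zz_pow i

theorem Theta_cycUnit_snd (hp3 : 3 ≤ p) {a : ℕ} (h : a.Coprime p) :
    (Theta hζ hp3 (cycUnit hζ a : 𝓞 K)).snd
      = ∑ i ∈ Finset.range a, (i : TruncRing p) * (1 + tt p) ^ i := by
  rw [coe_cycUnit hζ h, map_sum]
  simp only [map_pow, Theta_toInteger]
  rw [← TrivSqZeroExt.sndHom_apply (R := TruncRing p), map_sum]
  exact Finset.sum_congr rfl fun i _ => snd_zz_pow i

end Dlog

end Fermat.Agent.S14lib
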