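/-
Item 77 (S14), piece C3 (helper27; architect helper26): power sums in `ZMod p`
(`∑_{0<b<p} b⁻² = 0` for `p ≥ 5`).
-/
import Mathlib

set_option autoImplicit false

namespace Fermat.Agent.S14lib

/-! ### power sums in `ZMod p` -/

section PowerSums

variable (p : ℕ) [hp : Fact p.Prime]

/-- a sum over `0 ≤ b < p` is a sum over `ZMod p` -/
theorem le_sum_range_eq {M : Type*} [AddCommMonoid M] (f : ZMod p → M) :
    ∑ b ∈ Finset.range p, f (b : ZMod p) = ∑ x : ZMod p, f x := by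
  refine Finset.sum_nbij' (fun b => (b : ZMod p)) (fun x => x.val) ?_ ?_ ?_ ?_ ?_
  · intro b _
    exact Finset.mem_univ _
  · intro x _
    exact Finset.mem_range.mpr (ZMod.val_lt x)
  · intro b hb
    exact ZMod.val_natCast_of_lt (Finset.mem_range.mp hb)
  · intro x _
    exact ZMod.natCast_zmod_val x
  · intro b _
    rfl

theorem le_sum_range_pow (i : ℕ) (hi : i < p - 1) :
    ∑ b ∈ Finset.range p, ((b : ZMod p)) ^ i = 0 := by
  rw [le_sum_range_eq p (fun x => x ^ i)]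
  exact FiniteField.sum_pow_lt_card_sub_one (ZMod p) i (by rw [ZMod.card]; exact hi)

/-- `∑_{0<b<p} b⁻² = 0` for `p ≥ 5` -/
theorem le_sum_inv_sq (h5 : 5 ≤ p) :
    ∑ b ∈ Finset.Ico 1 p, ((b : ZMod p))⁻¹ ^ 2 = 0 := by
  have hp0 : 0 < p := hp.out.pos
  -- `b⁻² = b^(p-3)` for `b ≠ 0`
  have hpow : ∀ b ∈ Finset.Ico 1 p, ((b : ZMod p))⁻¹ ^ 2 = (b : ZMod p) ^ (p - 3) := by
    intro b hb
    rw [Finset.mem_Ico] at hb
    have hb0 : (b : ZMod p) ≠ 0 := by
      intro h0
      rw [ZMod.natCast_eq_zero_iff] at h0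
      exact absurd (Nat.le_of_dvd (by omega) h0) (by omega)
    have h1 : (b : ZMod p) ^ (p - 1) = 1 := ZMod.pow_card_sub_one_eq_one hb0
    have h2 : (b : ZMod p) ^ (p - 3) * (b : ZMod p) ^ 2 = 1 := by
      rw [← pow_add]
      have : p - 3 + 2 = p - 1 := by omega
      rw [this, h1]
    rw [inv_pow]
    exact (eq_inv_of_mul_eq_one_left h2).symm
  rw [Finset.sum_congr rfl hpow]
  have h3 := le_sum_range_pow p (p - 3) (by omega)
  rw [Finset.range_eq_Ico, ← Finset.sum_Ico_consecutive _ (Nat.zero_le 1) (by omega : 1 ≤ p)] at h3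
  simpa [zero_pow (by omega : p - 3 ≠ 0)] using h3

theorem le_card_Ico_cast (h5 : 5 ≤ p) : (((Finset.Ico 1 p).card : ℕ) : ZMod p) = -1 := by
  rw [Nat.card_Ico]
  have : ((p - 1 : ℕ) : ZMod p) = (p : ZMod p) - 1 := by
    rw [Nat.cast_sub (by omega)]
    simp
  rw [this, ZMod.natCast_self, zero_sub]

end PowerSums

end Fermat.Agent.S14lib
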