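/-
Item 77 (S14), piece C3a (helper27; architect helper26): `dlog η = -t/12 + O(t²)`.

For `1 ≤ b < p` the logarithmic derivative of the cyclotomic unit `u_b = (1 - ζ^b)/(1 - ζ)` is
`(b-1)/2 + (b²-1)/12 · t` modulo `t²`; summing with the weights `m_b ≡ b⁻²` gives
`12 · [t¹] dlog η = ∑_b (1 - b⁻²) = -1`.
-/
import Mathlib
import Fermat.Agent.S14lib.LocalRho
import Fermat.Agent.S14lib.LocalSums

set_option autoImplicit false

open NumberField Polynomial

namespace Fermat.Agent.S14lib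

open Fermat.Agent.Kummer.KL

section Sums

variable {R : Type*} [CommRing R]

theorem la_sum_id (n : ℕ) : (∑ i ∈ Finset.range n, (i : R)) * 2 = n * (n - 1) := by
  induction n with
  | zero => simp
  | succ n ih =>
    rw [Finset.sum_range_succ, add_mul, ih]
    push_cast
    ring

theorem la_sum_sq (n : ℕ) :
    (∑ i ∈ Finset.range n, (i : R) * (i : R)) * 6 = (n - 1) * n * (2 * n - 1) := by
  induction n with
  | zero => simp
  | succ n ih =>
    rw [Finset.sum_range_succ, add_mul, ih]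
    push_cast
    ring

theorem la_fst_one_add_eps_pow (i : ℕ) :
    (((1 : DualNumber R) + DualNumber.eps) ^ i).fst = 1 := by
  rw [TrivSqZeroExt.fst_pow, TrivSqZeroExt.fst_add, TrivSqZeroExt.fst_one, DualNumber.fst_eps,
    add_zero, one_pow]

theorem la_snd_one_add_eps_pow (i : ℕ) :
    (((1 : DualNumber R) + DualNumber.eps) ^ i).snd = (i : R) := by
  induction i with
  | zero => simp
  | succ i ih =>
    rw [pow_succ, TrivSqZeroExt.snd_mul, ih, la_fst_one_add_eps_pow, TrivSqZeroExt.snd_add,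
      TrivSqZeroExt.snd_one, DualNumber.snd_eps, TrivSqZeroExt.fst_add, TrivSqZeroExt.fst_one,
      DualNumber.fst_eps]
    simp
    ring

end Sums

section Main

variable {p : ℕ} [hp : Fact p.Prime]
variable {K : Type*} [Field K] [NumberField K] [IsCyclotomicExtension {p} ℚ K]
variable {ζ : K} (hζ : IsPrimitiveRoot ζ p)

theorem la_rhoEps_one_add_tt (hp5 : 5 ≤ p) (i : ℕ) :
    rhoEps p hp5 ((1 + tt p) ^ i) = ((1 : DualNumber (ZMod p)) + DualNumber.eps) ^ i := by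
  rw [map_pow, map_add, map_one, rhoEps_tt]

theorem la_rhoEps_fst_Theta_cycUnit (hp5 : 5 ≤ p) {b : ℕ} (h : b.Coprime p) :
    rhoEps p hp5 (Theta hζ (by omega : 3 ≤ p) (cycUnit hζ b : 𝓞 K)).fst
      = TrivSqZeroExt.inl (b : ZMod p)
        + TrivSqZeroExt.inr (∑ i ∈ Finset.range b, (i : ZMod p)) := by
  rw [Theta_cycUnit_fst hζ _ h, map_sum]
  simp only [la_rhoEps_one_add_tt]
  ext
  · rw [← TrivSqZeroExt.fstHom_apply (S := ℤ), map_sum]
    simp
  · rw [← TrivSqZeroExt.sndHom_apply (R := ZMod p), map_sum]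
    simp

theorem la_rhoEps_snd_Theta_cycUnit (hp5 : 5 ≤ p) {b : ℕ} (h : b.Coprime p) :
    rhoEps p hp5 (Theta hζ (by omega : 3 ≤ p) (cycUnit hζ b : 𝓞 K)).snd
      = TrivSqZeroExt.inl (∑ i ∈ Finset.range b, (i : ZMod p))
        + TrivSqZeroExt.inr (∑ i ∈ Finset.range b, (i : ZMod p) * (i : ZMod p)) := by
  rw [Theta_cycUnit_snd hζ _ h, map_sum]
  simp only [map_mul, la_rhoEps_one_add_tt, rhoEps_natCast]
  ext
  · rw [← TrivSqZeroExt.fstHom_apply (S := ℤ), map_sum]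
    simp
  · rw [← TrivSqZeroExt.sndHom_apply (R := ZMod p), map_sum]
    simp

/-- `12 · [t¹] dlog u_b = b² - 1` -/
theorem la_snd_rhoEps_dlog_cycUnit (hp5 : 5 ≤ p) {b : ℕ} (hb : b ∈ Finset.Ico 1 p) :
    12 * (rhoEps p hp5 (dlog hζ (by omega : 3 ≤ p) (Additive.ofMul (cycUnit hζ b)))).snd
      = (b : ZMod p) ^ 2 - 1 := by
  rw [Finset.mem_Ico] at hb
  have hcop : b.Coprime p := by
    rw [Nat.coprime_comm, Nat.Prime.coprime_iff_not_dvd hp.out]
    intro hd
    exact absurd (Nat.le_of_dvd (by omega) hd) (by omega)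
  have hb0 : (b : ZMod p) ≠ 0 := by
    intro h0
    rw [ZMod.natCast_eq_zero_iff] at h0
    exact absurd (Nat.le_of_dvd (by omega) h0) (by omega)
  have h := congrArg (rhoEps p hp5) (dlog_mul_fst hζ (by omega : 3 ≤ p) (cycUnit hζ b))
  rw [map_mul, la_rhoEps_fst_Theta_cycUnit hζ hp5 hcop, la_rhoEps_snd_Theta_cycUnit hζ hp5 hcop] at h
  set L := rhoEps p hp5 (dlog hζ (by omega : 3 ≤ p) (Additive.ofMul (cycUnit hζ b))) with hL
  set s1 := ∑ i ∈ Finset.range b, (i : ZMod p) with hs1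
  set s2 := ∑ i ∈ Finset.range b, (i : ZMod p) * (i : ZMod p) with hs2
  have e1 : s1 * 2 = b * (b - 1) := la_sum_id (R := ZMod p) b
  have e2 : s2 * 6 = (b - 1) * b * (2 * b - 1) := la_sum_sq (R := ZMod p) b
  have hf := congrArg TrivSqZeroExt.fst h
  have hs := congrArg TrivSqZeroExt.snd h
  simp only [TrivSqZeroExt.fst_mul, TrivSqZeroExt.snd_mul, TrivSqZeroExt.fst_add,
    TrivSqZeroExt.snd_add, TrivSqZeroExt.fst_inl, TrivSqZeroExt.snd_inl, TrivSqZeroExt.fst_inr,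
    TrivSqZeroExt.snd_inr, add_zero, zero_add, smul_eq_mul, MulOpposite.smul_eq_mul_unop,
    MulOpposite.unop_op] at hf hs
  -- hf : L.fst * b = s1 ; hs : L.fst * s1 + L.snd * b = s2
  have hx : 2 * L.fst = (b : ZMod p) - 1 := by
    apply mul_left_cancel₀ hb0
    linear_combination 2 * hf + e1
  apply mul_left_cancel₀ hb0
  linear_combination 12 * hs + 2 * e2 - 6 * L.fst * e1 - 3 * (b : ZMod p) * ((b : ZMod p) - 1) * hx

theorem la_etaExp_cast (b : ℕ) : ((etaExp p b : ℕ) : ZMod p) = ((b : ZMod p))⁻¹ ^ 2 := by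
  haveI : NeZero p := ⟨hp.out.ne_zero⟩
  unfold etaExp
  exact ZMod.natCast_zmod_val _

theorem la_dlog_eta_pow_eq (hp3 : 3 ≤ p) (k : ℕ) :
    dlog hζ hp3 (Additive.ofMul (eta hζ ^ k))
      = k • ∑ b ∈ Finset.Ico 1 p, etaExp p b • dlog hζ hp3 (Additive.ofMul (cycUnit hζ b)) := by
  rw [ofMul_pow, map_nsmul]
  congr 1
  unfold eta
  rw [ofMul_prod, map_sum]
  refine Finset.sum_congr rfl fun b _ => ?_
  rw [ofMul_pow, map_nsmul]

/-- `12 · [t¹] dlog (η^k) = -k` -/
theorem la_snd_rhoEps_dlog_eta_pow (hp5 : 5 ≤ p) (k : ℕ) :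
    12 * (rhoEps p hp5 (dlog hζ (by omega : 3 ≤ p) (Additive.ofMul (eta hζ ^ k)))).snd
      = -(k : ZMod p) := by
  rw [la_dlog_eta_pow_eq, map_nsmul, map_sum, ← TrivSqZeroExt.sndHom_apply (R := ZMod p),
    map_nsmul, map_sum, nsmul_eq_mul, mul_left_comm, Finset.mul_sum]
  have key : ∀ b ∈ Finset.Ico 1 p,
      12 * (TrivSqZeroExt.sndHom (ZMod p) (ZMod p))
          (rhoEps p hp5 (etaExp p b • dlog hζ (by omega : 3 ≤ p) (Additive.ofMul (cycUnit hζ b))))
        = 1 - ((b : ZMod p))⁻¹ ^ 2 := by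
    intro b hb
    have hb' := Finset.mem_Ico.mp hb
    have hb0 : (b : ZMod p) ≠ 0 := by
      intro h0
      rw [ZMod.natCast_eq_zero_iff] at h0
      exact absurd (Nat.le_of_dvd (by omega) h0) (by omega)
    rw [map_nsmul, map_nsmul, nsmul_eq_mul, mul_left_comm, TrivSqZeroExt.sndHom_apply,
      la_snd_rhoEps_dlog_cycUnit hζ hp5 hb, la_etaExp_cast]
    field_simp
  rw [Finset.sum_congr rfl key, Finset.sum_sub_distrib, le_sum_inv_sq p hp5, sub_zero,
    Finset.sum_const, nsmul_eq_mul, mul_one, le_card_Ico_cast p hp5]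
  ring

end Main

end Fermat.Agent.S14lib
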