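/-
Item 77 (S14), piece C3b (helper27; architect helper26): the residue character
`chiPi : 𝓞 K →+* 𝔽_p` (`ζ ↦ 1`), with kernel `(π)`, and the fact that `Θ` turns `p`-th powers
into constants: `Θ(x)^p = χ(x)`.
-/
import Mathlib
import Fermat.Agent.S14lib.LocalRho

set_option autoImplicit false

open NumberField Polynomial

namespace Fermat.Agent.S14lib

open Fermat.Agent.Kummer.KL

section Res

variable (p : ℕ) [hp : Fact p.Prime]

/-- the residue map `𝔽_p[t]/(t^(p-2)) → 𝔽_p`, `t ↦ 0` -/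
noncomputable def resT (hp5 : 5 ≤ p) : TruncRing p →+* ZMod p :=
  (TrivSqZeroExt.fstHom (ZMod p) (ZMod p) (ZMod p) : DualNumber (ZMod p) →+* ZMod p).comp
    (rhoEps p hp5)

theorem resT_apply (hp5 : 5 ≤ p) (s : TruncRing p) : resT p hp5 s = (rhoEps p hp5 s).fst := rfl

theorem resT_tt (hp5 : 5 ≤ p) : resT p hp5 (tt p) = 0 := by
  rw [resT_apply, rhoEps_tt, DualNumber.fst_eps]

theorem resT_algebraMap (hp5 : 5 ≤ p) (c : ZMod p) :
    resT p hp5 (algebraMap (ZMod p) (TruncRing p) c) = c := by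
  rw [resT_apply, rhoEps_algebraMap, TrivSqZeroExt.fst_inl]

theorem tt_dvd_of_resT_eq_zero (hp5 : 5 ≤ p) (s : TruncRing p) (h : resT p hp5 s = 0) :
    tt p ∣ s := by
  obtain ⟨f, rfl⟩ := AdjoinRoot.mk_surjective s
  rw [resT_apply, rhoEps_mk] at h
  have h0 : f.coeff 0 = 0 := by simpa using h
  obtain ⟨g, rfl⟩ := Polynomial.X_dvd_iff.mpr h0
  refine ⟨AdjoinRoot.mk _ g, ?_⟩
  rw [map_mul, AdjoinRoot.mk_X]
  rfl

theorem lb_nontrivial (hp5 : 5 ≤ p) : Nontrivial (TruncRing p) :=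
  (resT p hp5).domain_nontrivial

theorem lb_charP (hp5 : 5 ≤ p) : CharP (TruncRing p) p :=
  haveI := lb_nontrivial p hp5
  charP_of_injective_algebraMap (algebraMap (ZMod p) (TruncRing p)).injective p

theorem lb_tt_pow_p : (tt p) ^ p = 0 := by
  have h : (tt p) ^ p = (tt p) ^ (p - 2) * (tt p) ^ 2 := by
    rw [← pow_add]
    congr 1
    have := hp.out.two_le
    omega
  rw [h, tt_pow, zero_mul]

/-- in `𝔽_p[t]/(t^(p-2))`, `s^p` is the constant `resT s` -/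
theorem lb_pow_p (hp5 : 5 ≤ p) (s : TruncRing p) :
    s ^ p = algebraMap (ZMod p) (TruncRing p) (resT p hp5 s) := by
  have := lb_charP p hp5
  obtain ⟨m, hm⟩ := tt_dvd_of_resT_eq_zero p hp5 (s - algebraMap (ZMod p) (TruncRing p)
    (resT p hp5 s)) (by rw [map_sub, resT_algebraMap, sub_self])
  have hs : s = algebraMap (ZMod p) (TruncRing p) (resT p hp5 s) + tt p * m := by
    rw [← hm]; ring
  conv_lhs => rw [hs]
  rw [add_pow_char, mul_pow, lb_tt_pow_p, zero_mul, add_zero, ← map_pow, ZMod.pow_card]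

theorem lb_isUnit_of_resT_ne_zero (hp5 : 5 ≤ p) (s : TruncRing p) (h : resT p hp5 s ≠ 0) :
    IsUnit s := by
  have h1 : IsUnit (s ^ p) := by
    rw [lb_pow_p p hp5]
    exact (IsUnit.mk0 _ h).map _
  exact (isUnit_pow_iff hp.out.ne_zero).mp h1

/-- in `D = 𝔽_p[t]/(t^(p-2))[ε]`, `z^p` is the constant `resT (fst z)` -/
theorem lb_pow_p_dual (hp5 : 5 ≤ p) (z : DualNumber (TruncRing p)) :
    z ^ p = TrivSqZeroExt.inl (algebraMap (ZMod p) (TruncRing p) (resT p hp5 z.fst)) := by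
  ext
  · rw [TrivSqZeroExt.fst_pow, TrivSqZeroExt.fst_inl, lb_pow_p]
  · rw [TrivSqZeroExt.snd_pow, TrivSqZeroExt.snd_inl]
    have : (p : TruncRing p) = 0 := natCast_self_eq_zero_of_algebra p (TruncRing p)
    rw [← Nat.cast_smul_eq_nsmul (TruncRing p), this, zero_smul]

end Res

section Chi

variable {p : ℕ} [hp : Fact p.Prime]
variable {K : Type*} [Field K] [NumberField K] [IsCyclotomicExtension {p} ℚ K]
variable {ζ : K} (hζ : IsPrimitiveRoot ζ p)

/-- the residue character `𝓞 K → 𝔽_p`, `ζ ↦ 1` -/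
noncomputable def chiPi (hp5 : 5 ≤ p) : 𝓞 K →+* ZMod p :=
  (resT p hp5).comp
    ((TrivSqZeroExt.fstHom (TruncRing p) (TruncRing p) (TruncRing p) :
        DualNumber (TruncRing p) →+* TruncRing p).comp
      (Theta hζ (by omega : 3 ≤ p) : 𝓞 K →+* DualNumber (TruncRing p)))

theorem chiPi_apply (hp5 : 5 ≤ p) (x : 𝓞 K) :
    chiPi hζ hp5 x = resT p hp5 (Theta hζ (by omega : 3 ≤ p) x).fst := rfl

theorem chiPi_toInteger (hp5 : 5 ≤ p) : chiPi hζ hp5 hζ.toInteger = 1 := by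
  rw [chiPi_apply, Theta_toInteger]
  have : (zz p).fst = 1 + tt p := by simp [zz]
  rw [this, map_add, map_one, resT_tt, add_zero]

theorem chiPi_pi (hp5 : 5 ≤ p) : chiPi hζ hp5 (hζ.toInteger - 1) = 0 := by
  rw [map_sub, chiPi_toInteger, map_one, sub_self]

theorem lb_isMaximal_span_pi :
    (Ideal.span {hζ.toInteger - 1} : Ideal (𝓞 K)).IsMaximal := by
  have hprime := hζ.zeta_sub_one_prime'
  have h1 : (Ideal.span {hζ.toInteger - 1} : Ideal (𝓞 K)).IsPrime :=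
    (Ideal.span_singleton_prime hprime.ne_zero).mpr hprime
  have h2 : (Ideal.span {hζ.toInteger - 1} : Ideal (𝓞 K)) ≠ ⊥ := by
    rw [Ne, Ideal.span_singleton_eq_bot]
    exact hprime.ne_zero
  exact h1.isMaximal h2

/-- the kernel of `chiPi` is `(π)` -/
theorem pi_dvd_of_chiPi_eq_zero (hp5 : 5 ≤ p) (x : 𝓞 K) (h : chiPi hζ hp5 x = 0) :
    (hζ.toInteger - 1) ∣ x := by
  have hmax := lb_isMaximal_span_pi hζ
  have hle : (Ideal.span {hζ.toInteger - 1} : Ideal (𝓞 K)) ≤ RingHom.ker (chiPi hζ hp5) := by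
    rw [Ideal.span_singleton_le_iff_mem, RingHom.mem_ker]
    exact chiPi_pi hζ hp5
  have hne : RingHom.ker (chiPi hζ hp5) ≠ ⊤ := RingHom.ker_ne_top _
  have heq := hmax.eq_of_le hne hle
  have hx : x ∈ RingHom.ker (chiPi hζ hp5) := (RingHom.mem_ker).mpr h
  rw [← heq, Ideal.mem_span_singleton] at hx
  exact hx

theorem chiPi_ne_zero_of_not_dvd (hp5 : 5 ≤ p) (x : 𝓞 K) (h : ¬ (hζ.toInteger - 1) ∣ x) :
    chiPi hζ hp5 x ≠ 0 := fun h0 => h (pi_dvd_of_chiPi_eq_zero hζ hp5 x h0)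

/-- `Θ(x)^p` is the constant `χ(x)` -/
theorem Theta_pow_p (hp5 : 5 ≤ p) (x : 𝓞 K) :
    (Theta hζ (by omega : 3 ≤ p) x) ^ p
      = TrivSqZeroExt.inl (algebraMap (ZMod p) (TruncRing p) (chiPi hζ hp5 x)) := by
  rw [lb_pow_p_dual p hp5, chiPi_apply]

/-- `Θ(x)` has invertible first component when `π ∤ x` -/
theorem isUnit_fst_Theta (hp5 : 5 ≤ p) (x : 𝓞 K) (h : ¬ (hζ.toInteger - 1) ∣ x) :
    IsUnit (Theta hζ (by omega : 3 ≤ p) x).fst :=
  lb_isUnit_of_resT_ne_zero p hp5 _ (chiPi_ne_zero_of_not_dvd hζ hp5 x h)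

/-- both components of `Θ(π)³` are divisible by `t²` -/
theorem Theta_pi_cube_fst (hp3 : 3 ≤ p) :
    (tt p) ^ 2 ∣ ((Theta hζ hp3 (hζ.toInteger - 1)) ^ 3).fst := by
  rw [map_sub, map_one, Theta_toInteger, TrivSqZeroExt.fst_pow]
  have : (zz p - 1).fst = tt p := by simp [zz]
  rw [this]
  exact pow_dvd_pow _ (by norm_num)

theorem Theta_pi_cube_snd (hp3 : 3 ≤ p) :
    (tt p) ^ 2 ∣ ((Theta hζ hp3 (hζ.toInteger - 1)) ^ 3).snd := by
  rw [map_sub, map_one, Theta_toInteger, TrivSqZeroExt.snd_pow]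
  have : (zz p - 1).fst = tt p := by simp [zz]
  rw [this]
  have h2 : Nat.pred 3 = 2 := rfl
  rw [h2, smul_eq_mul, nsmul_eq_mul]
  exact Dvd.dvd.mul_left (Dvd.intro _ rfl) _

end Chi

end Fermat.Agent.S14lib
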