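/-
Item 77 (S14), piece C3b (helper27; architect helper26): normalisation of fractions at a prime
element, the ideal `J = (t²) + (t²)ε` of the dual numbers, and the local-to-`dlog` statement.
-/
import Mathlib
import Fermat.Agent.S14lib.LocalB

set_option autoImplicit false

open NumberField Polynomial

namespace Fermat.Agent.S14lib

open Fermat.Agent.Kummer.KL

section Normalize

variable {R K : Type*} [CommRing R] [IsDomain R] [WfDvdMonoid R] [Field K] [Algebra R K]
  [IsFractionRing R K]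

/-- if `e · g^p = a` with `e`, `a` prime to `π`, then `g = c/d` with `c`, `d` prime to `π` -/
theorem lc_normalize (π : R) (hπ : Prime π) (p : ℕ) (hp : 0 < p) (e a : R)
    (he : ¬ π ∣ e) (ha : ¬ π ∣ a) (g : K)
    (h : algebraMap R K e * g ^ p = algebraMap R K a) :
    ∃ c d : R, ¬ π ∣ c ∧ ¬ π ∣ d ∧ e * c ^ p = a * d ^ p := by
  have hinj : Function.Injective (algebraMap R K) := IsFractionRing.injective R K
  obtain ⟨c0, d0, hd0, rfl⟩ := IsFractionRing.div_surjective (A := R) g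
  have hd0' : d0 ≠ 0 := nonZeroDivisors.ne_zero hd0
  have hd0K : algebraMap R K d0 ≠ 0 := fun h0 => hd0' (hinj (by rw [h0, map_zero]))
  have ha0 : a ≠ 0 := fun h0 => ha (h0 ▸ dvd_zero _)
  have he0 : e ≠ 0 := fun h0 => he (h0 ▸ dvd_zero _)
  have hE : e * c0 ^ p = a * d0 ^ p := by
    apply hinj
    rw [map_mul, map_mul, map_pow, map_pow, ← h, div_pow]
    field_simp
  have hc0 : c0 ≠ 0 := by
    rintro rfl
    rw [zero_pow hp.ne', mul_zero] at hE
    exact mul_ne_zero ha0 (pow_ne_zero _ hd0') hE.symm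
  obtain ⟨m, c, hc, rfl⟩ := WfDvdMonoid.max_power_factor hc0 hπ.irreducible
  obtain ⟨n, d, hd, rfl⟩ := WfDvdMonoid.max_power_factor hd0' hπ.irreducible
  have hπ0 : π ≠ 0 := hπ.ne_zero
  refine ⟨c, d, hc, hd, ?_⟩
  rcases lt_trichotomy m n with hmn | hmn | hmn
  · exfalso
    obtain ⟨k, rfl⟩ := Nat.exists_eq_add_of_lt hmn
    have h1 : π ^ (m * p) * (e * c ^ p) = π ^ (m * p) * (a * d ^ p * π ^ ((k + 1) * p)) := by
      have e1 : π ^ (m * p) * (e * c ^ p) = e * (π ^ m * c) ^ p := by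
        rw [mul_pow, ← pow_mul]; ring
      have e2 : π ^ (m * p) * (a * d ^ p * π ^ ((k + 1) * p)) = a * (π ^ (m + k + 1) * d) ^ p := by
        rw [mul_pow, ← pow_mul]
        have : (m + k + 1) * p = m * p + (k + 1) * p := by ring
        rw [this, pow_add]; ring
      rw [e1, e2, hE]
    have h2 := mul_left_cancel₀ (pow_ne_zero _ hπ0) h1
    have h3 : π ∣ e * c ^ p := by
      rw [h2]
      exact Dvd.dvd.mul_left (dvd_pow_self π (Nat.mul_ne_zero (Nat.succ_ne_zero k) hp.ne')) _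
    rcases hπ.dvd_or_dvd h3 with h4 | h4
    · exact he h4
    · exact hc (hπ.dvd_of_dvd_pow h4)
  · subst hmn
    have h1 : π ^ (m * p) * (e * c ^ p) = π ^ (m * p) * (a * d ^ p) := by
      have e1 : π ^ (m * p) * (e * c ^ p) = e * (π ^ m * c) ^ p := by
        rw [mul_pow, ← pow_mul]; ring
      have e2 : π ^ (m * p) * (a * d ^ p) = a * (π ^ m * d) ^ p := by
        rw [mul_pow, ← pow_mul]; ring
      rw [e1, e2, hE]
    exact mul_left_cancel₀ (pow_ne_zero _ hπ0) h1
  · exfalso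
    obtain ⟨k, rfl⟩ := Nat.exists_eq_add_of_lt hmn
    have h1 : π ^ (n * p) * (e * c ^ p * π ^ ((k + 1) * p)) = π ^ (n * p) * (a * d ^ p) := by
      have e1 : π ^ (n * p) * (a * d ^ p) = a * (π ^ n * d) ^ p := by
        rw [mul_pow, ← pow_mul]; ring
      have e2 : π ^ (n * p) * (e * c ^ p * π ^ ((k + 1) * p)) = e * (π ^ (n + k + 1) * c) ^ p := by
        rw [mul_pow, ← pow_mul]
        have : (n + k + 1) * p = n * p + (k + 1) * p := by ring
        rw [this, pow_add]; ring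
      rw [e1, e2, hE]
    have h2 := mul_left_cancel₀ (pow_ne_zero _ hπ0) h1
    have h3 : π ∣ a * d ^ p := by
      rw [← h2]
      exact Dvd.dvd.mul_left (dvd_pow_self π (Nat.mul_ne_zero (Nat.succ_ne_zero k) hp.ne')) _
    rcases hπ.dvd_or_dvd h3 with h4 | h4
    · exact ha h4
    · exact hd (hπ.dvd_of_dvd_pow h4)

end Normalize

section JIdeal

variable (p : ℕ) [hp : Fact p.Prime]

/-- the ideal `(t²) + (t²)ε` of the dual numbers -/
def JtIdeal : Ideal (DualNumber (TruncRing p)) where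
  carrier := {z | (tt p) ^ 2 ∣ z.fst ∧ (tt p) ^ 2 ∣ z.snd}
  add_mem' := fun ha hb => ⟨by
    rw [TrivSqZeroExt.fst_add]; exact dvd_add ha.1 hb.1, by
    rw [TrivSqZeroExt.snd_add]; exact dvd_add ha.2 hb.2⟩
  zero_mem' := ⟨dvd_zero _, dvd_zero _⟩
  smul_mem' := fun c x hx => ⟨by
    rw [smul_eq_mul, TrivSqZeroExt.fst_mul]; exact Dvd.dvd.mul_left hx.1 _, by
    rw [smul_eq_mul, TrivSqZeroExt.snd_mul]
    exact dvd_add (by rw [smul_eq_mul]; exact Dvd.dvd.mul_left hx.2 _)
      (by rw [MulOpposite.smul_eq_mul_unop, MulOpposite.unop_op]; exact Dvd.dvd.mul_left hx.1 _)⟩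

theorem mem_JtIdeal (z : DualNumber (TruncRing p)) :
    z ∈ JtIdeal p ↔ (tt p) ^ 2 ∣ z.fst ∧ (tt p) ^ 2 ∣ z.snd := Iff.rfl

end JIdeal

end Fermat.Agent.S14lib
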