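/-
Item 77 (S14), piece C3 (helper27; architect helper26): the local computation at `π = ζ - 1`.

* `dlog_eta_pow` (C3a): `t² ∤ dlog (η^k)` for `p ∤ k` (`dlog η = -t/12 + O(t²)`);
* `dlog_of_isLocalPthPower` (C3b): if `α = u · γ^p` is locally a `p`-th power at `π`, then
  `t² ∣ dlog u`.
-/
import Mathlib
import Fermat.Agent.S14lib.LocalA
import Fermat.Agent.S14lib.LocalC

set_option autoImplicit false

open NumberField Polynomial

namespace Fermat.Agent.S14lib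

open Fermat.Agent.Kummer.KL

variable {p : ℕ} [hp : Fact p.Prime]
variable {K : Type*} [Field K] [NumberField K] [IsCyclotomicExtension {p} ℚ K]
variable {ζ : K} (hζ : IsPrimitiveRoot ζ p)

/-- **C3a.** `dlog η = -t/12 + O(t²)`: the logarithmic derivative of `η^k` is not divisible by `t²`
when `p ∤ k`. -/
theorem dlog_eta_pow (hp5 : 5 ≤ p) (k : ℕ) (hk : ¬ p ∣ k) :
    ¬ (tt p) ^ 2 ∣ dlog hζ (by omega : 3 ≤ p) (Additive.ofMul (eta hζ ^ k)) := by
  intro h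
  have h0 := rhoEps_eq_zero_of_dvd p hp5 _ h
  have h1 := la_snd_rhoEps_dlog_eta_pow hζ hp5 k
  rw [h0, TrivSqZeroExt.snd_zero, mul_zero] at h1
  have h2 : (k : ZMod p) = 0 := by
    rw [← neg_eq_zero]; exact h1.symm
  exact hk ((ZMod.natCast_eq_zero_iff k p).mp h2)

/-- the core of C3b, inside `𝓞 K` -/
theorem lc_dlog_of_eq (hp5 : 5 ≤ p) (u : (𝓞 K)ˣ) (a b c d y w : 𝓞 K)
    (hb : ¬ (hζ.toInteger - 1) ∣ b) (hc : ¬ (hζ.toInteger - 1) ∣ c)
    (hE : (u : 𝓞 K) * b * c ^ p = a * d ^ p)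
    (hw : a = b * y ^ p + (hζ.toInteger - 1) ^ 3 * w) :
    (tt p) ^ 2 ∣ dlog hζ (by omega : 3 ≤ p) (Additive.ofMul u) := by
  have hp3 : 3 ≤ p := by omega
  have E1 := congrArg (Theta hζ hp3) hE
  rw [map_mul, map_mul, map_mul, map_pow, map_pow, Theta_pow_p hζ hp5, Theta_pow_p hζ hp5] at E1
  have E2 := congrArg (Theta hζ hp3) hw
  rw [map_add, map_mul, map_mul, map_pow, map_pow, Theta_pow_p hζ hp5] at E2
  set κc : DualNumber (TruncRing p) :=
    TrivSqZeroExt.inl (algebraMap (ZMod p) (TruncRing p) (chiPi hζ hp5 c)) with hκc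
  set κd : DualNumber (TruncRing p) :=
    TrivSqZeroExt.inl (algebraMap (ZMod p) (TruncRing p) (chiPi hζ hp5 d)) with hκd
  set κy : DualNumber (TruncRing p) :=
    TrivSqZeroExt.inl (algebraMap (ZMod p) (TruncRing p) (chiPi hζ hp5 y)) with hκy
  have hZ : Theta hζ hp3 b * (Theta hζ hp3 (u : 𝓞 K) * κc - κy * κd)
      = (Theta hζ hp3 (hζ.toInteger - 1)) ^ 3 * (Theta hζ hp3 w * κd) := by
    rw [E2] at E1
    linear_combination E1
  have hP : (Theta hζ hp3 (hζ.toInteger - 1)) ^ 3 ∈ JtIdeal p :=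
    ⟨Theta_pi_cube_fst hζ hp3, Theta_pi_cube_snd hζ hp3⟩
  have hJ : Theta hζ hp3 b * (Theta hζ hp3 (u : 𝓞 K) * κc - κy * κd) ∈ JtIdeal p := by
    rw [hZ]
    exact Ideal.mul_mem_right _ _ hP
  have hbu : IsUnit (Theta hζ hp3 b) :=
    (TrivSqZeroExt.isUnit_iff_isUnit_fst).mpr (isUnit_fst_Theta hζ hp5 b hb)
  have hZJ := (Ideal.unit_mul_mem_iff_mem _ hbu).mp hJ
  have h2 := hZJ.2
  have hsnd : (Theta hζ hp3 (u : 𝓞 K) * κc - κy * κd).snd
      = algebraMap (ZMod p) (TruncRing p) (chiPi hζ hp5 c) * (Theta hζ hp3 (u : 𝓞 K)).snd := by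
    rw [hκc, hκd, hκy]
    simp
    exact mul_comm _ _
  rw [hsnd] at h2
  have hcu : IsUnit (algebraMap (ZMod p) (TruncRing p) (chiPi hζ hp5 c)) :=
    (IsUnit.mk0 _ (chiPi_ne_zero_of_not_dvd hζ hp5 c hc)).map _
  have h3 : (tt p) ^ 2 ∣ (Theta hζ hp3 (u : 𝓞 K)).snd := (hcu.dvd_mul_left).mp h2
  rw [dlog_apply, dlogDual_apply, Units.coe_map]
  exact Dvd.dvd.mul_right h3 _

/-- **C3b.** If `α = u · γ^p` is locally a `p`-th power at `π`, then `t² ∣ dlog u`. -/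
theorem dlog_of_isLocalPthPower (hp5 : 5 ≤ p) (u : (𝓞 K)ˣ) (γ α : K)
    (hα : α = ((u : 𝓞 K) : K) * γ ^ p)
    (h : IsLocalPthPower hζ α) :
    (tt p) ^ 2 ∣ dlog hζ (by omega : 3 ≤ p) (Additive.ofMul u) := by
  obtain ⟨x, a, b, y, hx, ha, hb, hab, w, hw⟩ := h
  have hπ := hζ.zeta_sub_one_prime'
  have he : ¬ (hζ.toInteger - 1) ∣ (u : 𝓞 K) * b := by
    intro hd
    rcases hπ.dvd_or_dvd hd with h1 | h1
    · exact hπ.not_isUnit (isUnit_of_dvd_unit h1 u.isUnit)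
    · exact hb h1
  have hg : algebraMap (𝓞 K) K ((u : 𝓞 K) * b) * (γ / x) ^ p = algebraMap (𝓞 K) K a := by
    rw [map_mul, div_pow]
    have hxp : x ^ p ≠ 0 := pow_ne_zero _ hx
    rw [hα] at hab
    change ((u : 𝓞 K) : K) * (b : K) * (γ ^ p / x ^ p) = (a : K)
    field_simp
    linear_combination hab
  obtain ⟨c, d, hc, hd, hE⟩ := lc_normalize (hζ.toInteger - 1) hπ p hp.out.pos _ a he ha (γ / x) hg
  exact lc_dlog_of_eq hζ hp5 u a b c d y w hb hc hE (by rw [← hw]; ring)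

end Fermat.Agent.S14lib
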