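/-
Item 77 (S14), piece C2/T3a + T3b + T3c (helper8): class function bookkeeping for Thaine's
relation.  Sub-blueprint: NOTES/S14_C2_blueprint.md (helper15).  No sorry in this file.
Helper lemmas are prefixed `tc_`.
-/
import Mathlib
import Fermat.Agent.S14lib.Defs

set_option autoImplicit false
set_option synthInstance.maxHeartbeats 400000

namespace Fermat.Agent.S14lib

open NumberField Fermat.Agent.Kummer.KL UniqueFactorizationMonoid
open scoped Pointwise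

variable {p : ℕ} [hp : Fact p.Prime]
variable {K : Type*} [Field K] [NumberField K] [IsCyclotomicExtension {p} ℚ K]
variable {ζ : K} (hζ : IsPrimitiveRoot ζ p)

omit [IsCyclotomicExtension {p} ℚ K] hp [NumberField K] in
lemma tc_liesOver (ℓ : ℕ) (hℓ : ℓ.Prime) (lam : Ideal (𝓞 K)) [lam.IsPrime]
    (hlam : (ℓ : 𝓞 K) ∈ lam) : lam.LiesOver (Ideal.span {(ℓ : ℤ)}) := by
  constructor
  haveI : Fact ℓ.Prime := ⟨hℓ⟩
  have hmax : (Ideal.span {(ℓ : ℤ)}).IsMaximal := Int.ideal_span_isMaximal_of_prime ℓ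
  apply hmax.eq_of_le
  · intro h
    have h1 : (1 : ℤ) ∈ lam.under ℤ := by rw [h]; trivial
    rw [Ideal.under, Ideal.mem_comap, map_one] at h1
    exact (Ideal.IsPrime.ne_top inferInstance) ((Ideal.eq_top_iff_one lam).mpr h1)
  · rw [Ideal.span_singleton_le_iff_mem, Ideal.under, Ideal.mem_comap]
    simpa using hlam

omit [IsCyclotomicExtension {p} ℚ K] in
lemma tc_apply_prod (φ : ClassFun hζ) (s : Multiset (Ideal (𝓞 K))) (hs : ∀ q ∈ s, q ≠ ⊥) :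
    φ.toFun s.prod = (s.map φ.toFun).sum := by
  induction s using Multiset.induction_on with
  | empty =>
    rw [Multiset.prod_zero, Multiset.map_zero, Multiset.sum_zero]
    have h := φ.map_span 1 one_ne_zero
    rwa [Ideal.span_singleton_one, ← Ideal.one_eq_top] at h
  | cons a s ih =>
    have ha : a ≠ ⊥ := hs a (Multiset.mem_cons_self a s)
    have hs' : ∀ q ∈ s, q ≠ ⊥ := fun q hq => hs q (Multiset.mem_cons_of_mem hq)
    have hprod : s.prod ≠ ⊥ := by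
      rw [← Ideal.zero_eq_bot]
      apply Multiset.prod_ne_zero
      intro h0
      exact hs' 0 h0 rfl
    rw [Multiset.prod_cons, Multiset.map_cons, Multiset.sum_cons, φ.map_mul a s.prod ha hprod,
      ih hs']

/-- T3a: a class function is additive on the prime factorisation. -/
theorem ClassFun.apply_eq_sum (φ : ClassFun hζ) (I : Ideal (𝓞 K)) (hI : I ≠ ⊥) :
    φ.toFun I = ((normalizedFactors I).map φ.toFun).sum := by
  have h := tc_apply_prod hζ φ (normalizedFactors I)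
    (fun q hq => (prime_of_normalized_factor q hq).ne_zero)
  rwa [Ideal.prod_normalizedFactors_eq_self hI] at h

/-- T3b: `ℓ ≡ 1 mod p` splits completely in `K`: the primes over `ℓ` are the `σ • lam`, `σ ∈ Gal(K/ℚ)`,
without repetition. -/
theorem smul_prime_bijective (ℓ : ℕ) (hℓ : ℓ.Prime) (hℓp : ℓ % p = 1)
    (lam : Ideal (𝓞 K)) [lam.IsPrime] (hlam : (ℓ : 𝓞 K) ∈ lam) :
    Function.Injective (fun σ : K ≃ₐ[ℚ] K => σ • lam) ∧
      ∀ 𝔮 : Ideal (𝓞 K), 𝔮.IsPrime → (ℓ : 𝓞 K) ∈ 𝔮 → ∃ σ : K ≃ₐ[ℚ] K, σ • lam = 𝔮 := by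
  haveI : Fact ℓ.Prime := ⟨hℓ⟩
  haveI : NeZero p := ⟨hp.out.ne_zero⟩
  haveI : IsGalois ℚ K := IsCyclotomicExtension.isGalois {p} ℚ K
  haveI hL : lam.LiesOver (Ideal.span {(ℓ : ℤ)}) := tc_liesOver ℓ hℓ lam hlam
  haveI hmax : (Ideal.span {(ℓ : ℤ)}).IsMaximal := Int.ideal_span_isMaximal_of_prime ℓ
  have hℓp' : ¬ ℓ ∣ p := by
    intro h
    rcases (Nat.dvd_prime hp.out).mp h with h1 | h1
    · exact hℓ.one_lt.ne' h1
    · rw [h1, Nat.mod_self] at hℓp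
      exact zero_ne_one hℓp
  constructor
  · -- trivial stabiliser
    have hcard : Nat.card (MulAction.stabilizer (K ≃ₐ[ℚ] K) lam) = 1 := by
      rw [Ideal.card_stabilizer_eq (Ideal.span {(ℓ : ℤ)}) lam,
        IsCyclotomicExtension.Rat.ramificationIdxIn_eq_of_not_dvd ℓ K hℓp',
        IsCyclotomicExtension.Rat.inertiaDegIn_eq_of_not_dvd ℓ K hℓp', one_mul]
      have h1 : ((ℓ : ℕ) : ZMod p) = 1 := by
        rw [← Nat.cast_one, ZMod.natCast_eq_natCast_iff', hℓp, Nat.mod_eq_of_lt hp.out.one_lt]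
      rw [h1, orderOf_one]
    intro σ τ h
    have hmem : τ⁻¹ * σ ∈ MulAction.stabilizer (K ≃ₐ[ℚ] K) lam := by
      rw [MulAction.mem_stabilizer_iff, mul_smul]
      show τ⁻¹ • (σ • lam) = lam
      have h' : σ • lam = τ • lam := h
      rw [h', inv_smul_smul]
    have hsub : Subsingleton (MulAction.stabilizer (K ≃ₐ[ℚ] K) lam) :=
      (Nat.card_eq_one_iff_unique.mp hcard).1
    have h1 : (⟨τ⁻¹ * σ, hmem⟩ : MulAction.stabilizer (K ≃ₐ[ℚ] K) lam) = 1 :=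
      Subsingleton.elim _ _
    have h2 : τ⁻¹ * σ = 1 := congrArg Subtype.val h1
    exact (inv_mul_eq_one.mp h2).symm
  · intro 𝔮 h𝔮 hmem
    haveI := h𝔮
    haveI : 𝔮.LiesOver (Ideal.span {(ℓ : ℤ)}) := tc_liesOver ℓ hℓ 𝔮 hmem
    exact Ideal.exists_smul_eq_of_isGaloisGroup (Ideal.span {(ℓ : ℤ)}) lam 𝔮 (K ≃ₐ[ℚ] K)

/-- T3c: the relation `φ(λ) · ∑_σ ω(σ)² v_{σλ}(b) = 0`. -/
theorem ClassFun.thaine_relation (φ : ClassFun hζ) (ℓ : ℕ) (hℓ : ℓ.Prime) (hℓp : ℓ % p = 1)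
    (lam : Ideal (𝓞 K)) [lam.IsPrime] (hlam : (ℓ : 𝓞 K) ∈ lam) (b : 𝓞 K) (hb : b ≠ 0)
    (hb1 : ∀ 𝔮 : Ideal (𝓞 K), 𝔮.IsPrime → (ℓ : 𝓞 K) ∉ 𝔮 →
        p ∣ Multiset.count 𝔮 (normalizedFactors (Ideal.span {b}))) :
    φ.toFun lam * ∑ σ : K ≃ₐ[ℚ] K, omg hζ σ ^ 2 *
      (Multiset.count (σ • lam) (normalizedFactors (Ideal.span {b})) : ZMod p) = 0 := by
  classical
  obtain ⟨hinj, hsurj⟩ := smul_prime_bijective ℓ hℓ hℓp lam hlam
  have hlam0 : lam ≠ ⊥ := by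
    intro h
    rw [h, Ideal.mem_bot] at hlam
    have : (ℓ : 𝓞 K) ≠ 0 := by
      rw [Ne, Nat.cast_eq_zero]
      exact hℓ.ne_zero
    exact this hlam
  have hspan : Ideal.span {b} ≠ (⊥ : Ideal (𝓞 K)) := by
    rw [Ne, Ideal.span_singleton_eq_bot]
    exact hb
  set s : Multiset (Ideal (𝓞 K)) := normalizedFactors (Ideal.span {b}) with hs
  set T : Finset (Ideal (𝓞 K)) := Finset.univ.image (fun σ : K ≃ₐ[ℚ] K => σ • lam) with hT
  set g : Ideal (𝓞 K) → ZMod p := fun 𝔮 => (s.count 𝔮 : ZMod p) * φ.toFun 𝔮 with hg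
  have h0 : (s.map φ.toFun).sum = 0 := by
    rw [hs, ← φ.apply_eq_sum hζ _ hspan]
    exact φ.map_span b hb
  have h1 : (s.map φ.toFun).sum = ∑ 𝔮 ∈ s.toFinset, g 𝔮 := by
    rw [Finset.sum_multiset_map_count]
    refine Finset.sum_congr rfl fun 𝔮 _ => ?_
    rw [nsmul_eq_mul]
  have hmemT : ∀ 𝔮 ∈ T, (ℓ : 𝓞 K) ∈ 𝔮 := by
    intro 𝔮 h𝔮
    obtain ⟨σ, -, rfl⟩ := Finset.mem_image.mp h𝔮
    have h1 : σ • (ℓ : 𝓞 K) ∈ σ • lam := Ideal.smul_mem_pointwise_smul σ _ _ hlam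
    have h2 : σ • (ℓ : 𝓞 K) = (ℓ : 𝓞 K) := RingOfIntegers.ext (map_natCast σ ℓ)
    rwa [h2] at h1
  have h2 : ∑ 𝔮 ∈ s.toFinset, g 𝔮 = ∑ 𝔮 ∈ s.toFinset ∪ T, g 𝔮 := by
    apply Finset.sum_subset Finset.subset_union_left
    intro 𝔮 _ hn
    have : s.count 𝔮 = 0 := Multiset.count_eq_zero.mpr (fun h => hn (Multiset.mem_toFinset.mpr h))
    rw [hg]
    show (s.count 𝔮 : ZMod p) * φ.toFun 𝔮 = 0
    rw [this, Nat.cast_zero, zero_mul]
  have h3 : ∑ 𝔮 ∈ T, g 𝔮 = ∑ 𝔮 ∈ s.toFinset ∪ T, g 𝔮 := by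
    apply Finset.sum_subset Finset.subset_union_right
    intro 𝔮 h𝔮 hn
    have h𝔮s : 𝔮 ∈ s := by
      rcases Finset.mem_union.mp h𝔮 with h | h
      · exact Multiset.mem_toFinset.mp h
      · exact absurd h hn
    have hprime : 𝔮.IsPrime := Ideal.isPrime_of_prime (prime_of_normalized_factor 𝔮 h𝔮s)
    have hℓ𝔮 : (ℓ : 𝓞 K) ∉ 𝔮 := by
      intro hmem
      obtain ⟨σ, hσ⟩ := hsurj 𝔮 hprime hmem
      exact hn (Finset.mem_image.mpr ⟨σ, Finset.mem_univ σ, hσ⟩)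
    have hdvd := hb1 𝔮 hprime hℓ𝔮
    rw [hg]
    show (s.count 𝔮 : ZMod p) * φ.toFun 𝔮 = 0
    rw [(ZMod.natCast_eq_zero_iff _ _).mpr hdvd, zero_mul]
  have h4 : ∑ 𝔮 ∈ T, g 𝔮 = ∑ σ : K ≃ₐ[ℚ] K, g (σ • lam) := by
    rw [hT, Finset.sum_image]
    intro σ _ τ _ h
    exact hinj h
  have h5 : ∑ σ : K ≃ₐ[ℚ] K, g (σ • lam) = 0 := by
    rw [← h4, h3, ← h2, ← h1, h0]
  rw [Finset.mul_sum, ← h5]
  refine Finset.sum_congr rfl fun σ _ => ?_
  rw [hg]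
  show φ.toFun lam * (omg hζ σ ^ 2 * (s.count (σ • lam) : ZMod p))
    = (s.count (σ • lam) : ZMod p) * φ.toFun (σ • lam)
  rw [φ.map_smul σ lam hlam0]
  ring

end Fermat.Agent.S14lib
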