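/-
Item 77 (S14), piece C2/T2-loc (helper8): the ABSTRACT local congruence of Thaine's relation.
`thaine_local`: `B` a Dedekind domain, `Q` a nonzero prime, `g` a ring automorphism acting
trivially modulo `Q`, `v_Q(π) = 1`, `g π = π u`, `u ≡ s mod Q`, `ξ · g ε = ε`, `ε ≠ 0`.  Then
`ξ · s^{v_Q(ε)} ≡ 1 mod Q`.   No sorry in this file.  Helper lemmas are prefixed `tl_`.
-/
import Mathlib

set_option autoImplicit false

namespace Fermat.Agent.S14lib

open UniqueFactorizationMonoid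

section T2loc

variable {B : Type*} [CommRing B] [IsDedekindDomain B]

lemma tl_pow_dvd_iff (Q : Ideal B) [hQ : Q.IsPrime] (hQ0 : Q ≠ ⊥) {I : Ideal B} (hI : I ≠ ⊥)
    (k : ℕ) : Q ^ k ∣ I ↔ k ≤ Multiset.count Q (normalizedFactors I) := by
  have hirr : Irreducible Q := (Ideal.prime_of_isPrime hQ0 hQ).irreducible
  rw [pow_dvd_iff_le_emultiplicity, emultiplicity_eq_count_normalizedFactors hirr hI,
    normalize_eq]
  exact Nat.cast_le

/-- `ε c = π^r a` with `a, c ∉ Q`, `r = v_Q(ε)`, if `v_Q(π) = 1` -/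
lemma tl_exists_unit_form (Q : Ideal B) [hQ : Q.IsPrime] (hQ0 : Q ≠ ⊥) {π ε : B} (hε : ε ≠ 0)
    (hπ : Multiset.count Q (normalizedFactors (Ideal.span {π})) = 1) :
    ∃ a c : B, a ∉ Q ∧ c ∉ Q ∧
      ε * c = π ^ (Multiset.count Q (normalizedFactors (Ideal.span {ε}))) * a := by
  have hprime : Prime Q := Ideal.prime_of_isPrime hQ0 hQ
  have hπ0 : Ideal.span {π} ≠ (⊥ : Ideal B) := by
    intro h
    rw [h, ← Ideal.zero_eq_bot, normalizedFactors_zero, Multiset.count_zero] at hπ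
    exact zero_ne_one hπ
  have hε0 : Ideal.span {ε} ≠ (⊥ : Ideal B) := by
    rw [Ne, Ideal.span_singleton_eq_bot]
    exact hε
  set r := Multiset.count Q (normalizedFactors (Ideal.span {ε})) with hr
  -- `(π) = Q J`, `J ⊄ Q`
  obtain ⟨J, hJ⟩ : Q ∣ Ideal.span {π} := by
    have := (tl_pow_dvd_iff Q hQ0 hπ0 1).mpr (le_of_eq hπ.symm)
    rwa [pow_one] at this
  have hJQ : ¬ J ≤ Q := by
    intro h
    have h2 : Q ^ 2 ∣ Ideal.span {π} := by
      rw [hJ, pow_two]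
      exact mul_dvd_mul_left Q (Ideal.dvd_iff_le.mpr h)
    have := (tl_pow_dvd_iff Q hQ0 hπ0 2).mp h2
    omega
  have hJr : ¬ J ^ r ≤ Q := fun h => hJQ (Ideal.IsPrime.le_of_pow_le h)
  obtain ⟨c, hcJ, hcQ⟩ := SetLike.not_le_iff_exists.mp hJr
  -- `(ε) = Q^r I`
  obtain ⟨I, hI⟩ : Q ^ r ∣ Ideal.span {ε} := (tl_pow_dvd_iff Q hQ0 hε0 r).mpr le_rfl
  have hnot : ¬ Q ^ (r + 1) ∣ Ideal.span {ε} := by
    intro h
    have := (tl_pow_dvd_iff Q hQ0 hε0 (r + 1)).mp h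
    omega
  have hmem : ε * c ∈ Ideal.span {π ^ r} := by
    have h1 : ε * c ∈ Ideal.span {ε} * J ^ r :=
      Ideal.mul_mem_mul (Ideal.mem_span_singleton_self ε) hcJ
    have h2 : Ideal.span {ε} * J ^ r ≤ Ideal.span {π ^ r} := by
      rw [← Ideal.span_singleton_pow, hJ, hI, mul_pow]
      calc Q ^ r * I * J ^ r = (Q ^ r * J ^ r) * I := by ring
        _ ≤ Q ^ r * J ^ r := Ideal.mul_le_left
    exact h2 h1
  obtain ⟨a, ha⟩ := Ideal.mem_span_singleton'.mp hmem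
  refine ⟨a, c, ?_, hcQ, ?_⟩
  · intro haQ
    apply hnot
    have hc : ¬ Q ∣ Ideal.span {c} := by
      rw [Ideal.dvd_iff_le, Ideal.span_singleton_le_iff_mem]
      exact hcQ
    apply hprime.pow_dvd_of_dvd_mul_right (r + 1) hc
    rw [Ideal.span_singleton_mul_span_singleton, ← ha, mul_comm a, ←
      Ideal.span_singleton_mul_span_singleton, ← Ideal.span_singleton_pow, hJ, mul_pow, pow_succ]
    have haQ' : Q ∣ Ideal.span {a} := by
      rw [Ideal.dvd_iff_le, Ideal.span_singleton_le_iff_mem]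
      exact haQ
    obtain ⟨A', hA'⟩ := haQ'
    rw [hA']
    exact ⟨J ^ r * A', by ring⟩
  · rw [← ha, mul_comm]

/-- **T2-loc.**  If `ξ · g ε = ε`, `g` acts trivially modulo `Q`, `g π = π u` with `u ≡ s mod Q` and
`v_Q(π) = 1`, then `ξ · s^{v_Q(ε)} ≡ 1 mod Q`. -/
theorem thaine_local (Q : Ideal B) [hQ : Q.IsPrime] (hQ0 : Q ≠ ⊥) (g : B ≃+* B)
    (hg : ∀ x : B, g x - x ∈ Q) (π u : B) (s : ℕ)
    (hπ : Multiset.count Q (normalizedFactors (Ideal.span {π})) = 1)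
    (hπu : g π = π * u) (hu : u - (s : B) ∈ Q) (ε ξ : B) (hε : ε ≠ 0) (hξ : ξ * g ε = ε) :
    ξ * (s : B) ^ (Multiset.count Q (normalizedFactors (Ideal.span {ε}))) - 1 ∈ Q := by
  obtain ⟨a, c, ha, hc, hac⟩ := tl_exists_unit_form Q hQ0 hε hπ
  set r := Multiset.count Q (normalizedFactors (Ideal.span {ε})) with hr
  have hπ0 : π ≠ 0 := by
    rintro rfl
    rw [Ideal.span_singleton_eq_bot.mpr rfl, ← Ideal.zero_eq_bot, normalizedFactors_zero,
      Multiset.count_zero] at hπ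
    exact zero_ne_one hπ
  have h1 : g ε * g c = π ^ r * u ^ r * g a := by
    rw [← map_mul, hac, map_mul, map_pow, hπu, mul_pow]
  have h2 : ε * g c = ξ * (π ^ r * u ^ r * g a) := by
    rw [← h1, ← mul_assoc, hξ]
  have h3 : π ^ r * (a * g c) = π ^ r * (ξ * u ^ r * g a * c) := by
    calc π ^ r * (a * g c) = (ε * c) * g c := by rw [hac]; ring
      _ = (ε * g c) * c := by ring
      _ = ξ * (π ^ r * u ^ r * g a) * c := by rw [h2]
      _ = _ := by ring
  have h4 : a * g c = ξ * u ^ r * g a * c := mul_left_cancel₀ (pow_ne_zero r hπ0) h3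
  -- reduce modulo `Q`
  have hmk : ∀ x : B, Ideal.Quotient.mk Q (g x) = Ideal.Quotient.mk Q x := fun x =>
    (Ideal.Quotient.mk_eq_mk_iff_sub_mem _ _).mpr (hg x)
  have hmku : Ideal.Quotient.mk Q u = Ideal.Quotient.mk Q (s : B) :=
    (Ideal.Quotient.mk_eq_mk_iff_sub_mem _ _).mpr hu
  have h5 := congrArg (Ideal.Quotient.mk Q) h4
  rw [map_mul, map_mul, map_mul, map_mul, map_pow, hmk, hmk, hmku] at h5
  have ha' : Ideal.Quotient.mk Q a ≠ 0 := by
    rw [Ne, Ideal.Quotient.eq_zero_iff_mem]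
    exact ha
  have hc' : Ideal.Quotient.mk Q c ≠ 0 := by
    rw [Ne, Ideal.Quotient.eq_zero_iff_mem]
    exact hc
  have h6 : (Ideal.Quotient.mk Q ξ * Ideal.Quotient.mk Q (s : B) ^ r - 1)
      * (Ideal.Quotient.mk Q a * Ideal.Quotient.mk Q c) = 0 := by
    rw [sub_mul, one_mul, sub_eq_zero]
    calc Ideal.Quotient.mk Q ξ * Ideal.Quotient.mk Q (s : B) ^ r
          * (Ideal.Quotient.mk Q a * Ideal.Quotient.mk Q c)
        = Ideal.Quotient.mk Q ξ * Ideal.Quotient.mk Q (s : B) ^ r * Ideal.Quotient.mk Q a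
          * Ideal.Quotient.mk Q c := by ring
      _ = Ideal.Quotient.mk Q a * Ideal.Quotient.mk Q c := h5.symm
  have h7 : Ideal.Quotient.mk Q ξ * Ideal.Quotient.mk Q (s : B) ^ r - 1 = 0 := by
    rcases mul_eq_zero.mp h6 with h | h
    · exact h
    · exact absurd h (mul_ne_zero ha' hc')
  rw [← Ideal.Quotient.eq_zero_iff_mem, map_sub, map_mul, map_pow, map_one]
  exact h7

end T2loc

end Fermat.Agent.S14lib
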