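/-
Item 77 (S14), piece C2/T2-loc (helper8), in the exact shape asked by helper15 (`g` a ring
homomorphism): the ABSTRACT local congruence of Thaine's relation.  No sorry in this file.
-/
import Mathlib
import Fermat.Agent.S14lib.ThaineLocal

set_option autoImplicit false

namespace Fermat.Agent.S14lib

open UniqueFactorizationMonoid

/-- **T2-loc.**  If `ξ · g ε = ε`, `g` acts trivially modulo `Q`, `g π = π u` with `u ≡ s mod Q` and
`v_Q(π) = 1`, then `ξ · s^{v_Q(ε)} ≡ 1 mod Q`. -/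
theorem th_loc_abs {B : Type*} [CommRing B] [IsDedekindDomain B] (Q : Ideal B) [Q.IsPrime]
    (hQ : Q ≠ ⊥) (g : B →+* B) (hg : ∀ x, g x - x ∈ Q) (π u : B) (s : ℕ)
    (hπ : Multiset.count Q (normalizedFactors (Ideal.span {π})) = 1)
    (hu : g π = π * u) (hus : u - (s : B) ∈ Q)
    (ε ξ : B) (hε0 : ε ≠ 0) (hε : ξ * g ε = ε) :
    ξ * (s : B) ^ Multiset.count Q (normalizedFactors (Ideal.span {ε})) - 1 ∈ Q := by
  obtain ⟨a, c, ha, hc, hac⟩ := tl_exists_unit_form Q hQ hε0 hπ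
  set r := Multiset.count Q (normalizedFactors (Ideal.span {ε})) with hr
  have hπ0 : π ≠ 0 := by
    rintro rfl
    rw [Ideal.span_singleton_eq_bot.mpr rfl, ← Ideal.zero_eq_bot, normalizedFactors_zero,
      Multiset.count_zero] at hπ
    exact zero_ne_one hπ
  have h1 : g ε * g c = π ^ r * u ^ r * g a := by
    rw [← map_mul, hac, map_mul, map_pow, hu, mul_pow]
  have h2 : ε * g c = ξ * (π ^ r * u ^ r * g a) := by
    rw [← h1, ← mul_assoc, hε]
  have h3 : π ^ r * (a * g c) = π ^ r * (ξ * u ^ r * g a * c) := by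
    calc π ^ r * (a * g c) = (ε * c) * g c := by rw [hac]; ring
      _ = (ε * g c) * c := by ring
      _ = ξ * (π ^ r * u ^ r * g a) * c := by rw [h2]
      _ = _ := by ring
  have h4 : a * g c = ξ * u ^ r * g a * c := mul_left_cancel₀ (pow_ne_zero r hπ0) h3
  have hmk : ∀ x : B, Ideal.Quotient.mk Q (g x) = Ideal.Quotient.mk Q x := fun x =>
    (Ideal.Quotient.mk_eq_mk_iff_sub_mem _ _).mpr (hg x)
  have hmku : Ideal.Quotient.mk Q u = Ideal.Quotient.mk Q (s : B) :=
    (Ideal.Quotient.mk_eq_mk_iff_sub_mem _ _).mpr hus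
  have h5 := congrArg (Ideal.Quotient.mk Q) h4
  rw [map_mul, map_mul, map_mul, map_mul, map_pow, hmk, hmk, hmku] at h5
  have ha' : Ideal.Quotient.mk Q a ≠ 0 := by
    rw [Ne, Ideal.Quotient.eq_zero_iff_mem]
    exact ha
  have hc' : Ideal.Quotient.mk Q c ≠ 0 := by
    rw [Ne, Ideal.Quotient.eq_zero_iff_mem]
    exact hc
  have h6 : (Ideal.Quotient.mk Q ξ * Ideal.Quotient.mk Q (s : B) ^ r - 1)
      * (Ideal.Quotient.mk Q a * Ideal.Quotient.mk Q c) = 0 := by
    rw [sub_mul, one_mul, sub_eq_zero]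
    calc Ideal.Quotient.mk Q ξ * Ideal.Quotient.mk Q (s : B) ^ r
          * (Ideal.Quotient.mk Q a * Ideal.Quotient.mk Q c)
        = Ideal.Quotient.mk Q ξ * Ideal.Quotient.mk Q (s : B) ^ r * Ideal.Quotient.mk Q a
          * Ideal.Quotient.mk Q c := by ring
      _ = Ideal.Quotient.mk Q a * Ideal.Quotient.mk Q c := h5.symm
  have h7 : Ideal.Quotient.mk Q ξ * Ideal.Quotient.mk Q (s : B) ^ r - 1 = 0 := by
    rcases mul_eq_zero.mp h6 with h | h
    · exact h
    · exact absurd h (mul_ne_zero ha' hc')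
  rw [← Ideal.Quotient.eq_zero_iff_mem, map_sub, map_mul, map_pow, map_one]
  exact h7

end Fermat.Agent.S14lib
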