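/-
Item 77 (S14), piece C2 = Thaine's relation (sub-architect helper15), file 1 (T1a):
the field `L = K(ζ_ℓ) = ℚ(ζ_{pℓ})`, its degree `ℓ - 1` over `K = ℚ(ζ_p)`, irreducibility of `Φ_ℓ` over `K`.
-/
import Mathlib
import Fermat.Agent.S14lib.Defs

set_option autoImplicit false
set_option synthInstance.maxHeartbeats 400000
set_option linter.style.haveILetI false
set_option linter.unusedSectionVars false
set_option linter.deprecated false

noncomputable section

namespace Fermat.Agent.S14lib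

open NumberField Polynomial IntermediateField
open scoped Pointwise

variable {p : ℕ} [hp : Fact p.Prime]
variable {K : Type*} [Field K] [NumberField K] [IsCyclotomicExtension {p} ℚ K]
variable {ζ : K} (hζ : IsPrimitiveRoot ζ p)
variable (ℓ : ℕ) [hℓ : Fact ℓ.Prime]

/-- a primitive `ℓ`-th root of unity in `K(ζ_ℓ)` -/
def thZeta (K : Type*) [Field K] [NumberField K] (ℓ : ℕ) [Fact ℓ.Prime] : CyclotomicField ℓ K :=
  IsCyclotomicExtension.zeta ℓ K (CyclotomicField ℓ K)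

theorem thZeta_spec : IsPrimitiveRoot (thZeta K ℓ) ℓ :=
  IsCyclotomicExtension.zeta_spec ℓ K (CyclotomicField ℓ K)

include hζ in
theorem th_ne (hℓp : ℓ % p = 1) : ℓ ≠ p := by
  intro h
  rw [h, Nat.mod_self] at hℓp
  exact zero_ne_one hℓp

include hζ in
/-- `ζ_p ζ_ℓ` is a primitive `pℓ`-th root of unity -/
theorem th_isPrimitiveRoot_mul (hℓp : ℓ % p = 1) :
    IsPrimitiveRoot (algebraMap K (CyclotomicField ℓ K) ζ * thZeta K ℓ) (p * ℓ) := by
  have h1 : IsPrimitiveRoot (algebraMap K (CyclotomicField ℓ K) ζ) p :=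
    hζ.map_of_injective (algebraMap K (CyclotomicField ℓ K)).injective
  have h2 := thZeta_spec (K := K) ℓ
  have hcop : Nat.Coprime p ℓ :=
    (Nat.coprime_primes hp.out hℓ.out).mpr (th_ne hζ ℓ hℓp).symm
  have h3 := (Commute.all (algebraMap K (CyclotomicField ℓ K) ζ) (thZeta K ℓ)).orderOf_mul_eq_mul_orderOf_of_coprime
    (by rw [← h1.eq_orderOf, ← h2.eq_orderOf]; exact hcop)
  rw [← h1.eq_orderOf, ← h2.eq_orderOf] at h3
  rw [← h3]
  exact IsPrimitiveRoot.orderOf _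

include hζ in
/-- `K(ζ_ℓ) = ℚ(ζ_{pℓ})` -/
theorem th_isCyclotomicExtension (hℓp : ℓ % p = 1) :
    IsCyclotomicExtension {p * ℓ} ℚ (CyclotomicField ℓ K) := by
  have h1 : IsCyclotomicExtension ({p} ∪ {ℓ}) ℚ (CyclotomicField ℓ K) :=
    IsCyclotomicExtension.trans {p} {ℓ} ℚ K (CyclotomicField ℓ K)
      (algebraMap K (CyclotomicField ℓ K)).injective
  haveI : NeZero (p * ℓ) := ⟨Nat.mul_ne_zero hp.out.ne_zero hℓ.out.ne_zero⟩
  haveI : NeZero p := ⟨hp.out.ne_zero⟩
  haveI : NeZero ℓ := ⟨hℓ.out.ne_zero⟩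
  have h2 : IsCyclotomicExtension (({p} ∪ {ℓ}) ∪ {p * ℓ}) ℚ (CyclotomicField ℓ K) :=
    IsCyclotomicExtension.union_of_isPrimitiveRoot ({p} ∪ {ℓ}) ℚ (CyclotomicField ℓ K)
      (th_isPrimitiveRoot_mul hζ ℓ hℓp)
  have e : (({p} ∪ {ℓ}) ∪ {p * ℓ} : Set ℕ) = (({p * ℓ} ∪ {p}) ∪ {ℓ} : Set ℕ) := by
    ext x; simp only [Set.mem_union, Set.mem_singleton_iff]; tauto
  rw [e] at h2
  have h3 : IsCyclotomicExtension ({p * ℓ} ∪ {p}) ℚ (CyclotomicField ℓ K) :=
    (IsCyclotomicExtension.iff_union_of_dvd ℚ (CyclotomicField ℓ K)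
      ⟨p * ℓ, by simp, Nat.mul_ne_zero hp.out.ne_zero hℓ.out.ne_zero,
        Dvd.intro_left p rfl⟩).mpr h2
  exact (IsCyclotomicExtension.iff_union_of_dvd ℚ (CyclotomicField ℓ K)
      ⟨p * ℓ, by simp, Nat.mul_ne_zero hp.out.ne_zero hℓ.out.ne_zero,
        Dvd.intro ℓ rfl⟩).mpr h3

include hζ in
theorem th_finrank (hℓp : ℓ % p = 1) : Module.finrank K (CyclotomicField ℓ K) = ℓ - 1 := by
  haveI := th_isCyclotomicExtension hζ ℓ hℓp
  haveI : NeZero (p * ℓ) := ⟨Nat.mul_ne_zero hp.out.ne_zero hℓ.out.ne_zero⟩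
  haveI : NeZero p := ⟨hp.out.ne_zero⟩
  have h1 : Module.finrank ℚ (CyclotomicField ℓ K) = (p * ℓ).totient :=
    IsCyclotomicExtension.Rat.finrank (k := p * ℓ) (K := CyclotomicField ℓ K)
  have h2 : Module.finrank ℚ K = p.totient :=
    IsCyclotomicExtension.Rat.finrank (k := p) (K := K)
  have h3 := Module.finrank_mul_finrank ℚ K (CyclotomicField ℓ K)
  have hcop : Nat.Coprime p ℓ :=
    (Nat.coprime_primes hp.out hℓ.out).mpr (th_ne hζ ℓ hℓp).symm
  rw [h1, h2, Nat.totient_mul hcop, Nat.totient_prime hℓ.out] at h3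
  have hpos : 0 < p.totient := Nat.totient_pos.mpr hp.out.pos
  exact Nat.eq_of_mul_eq_mul_left hpos h3

include hζ in
theorem th_irreducible (hℓp : ℓ % p = 1) : Irreducible (cyclotomic ℓ K) := by
  haveI : NeZero ℓ := ⟨hℓ.out.ne_zero⟩
  haveI : NeZero (ℓ : K) := ⟨by exact_mod_cast hℓ.out.ne_zero⟩
  have hz := thZeta_spec (K := K) ℓ
  have hroot : aeval (thZeta K ℓ) (cyclotomic ℓ K) = 0 := by
    rw [aeval_def, eval₂_eq_eval_map, map_cyclotomic]
    exact hz.isRoot_cyclotomic hℓ.out.pos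
  have hint : IsIntegral K (thZeta K ℓ) := (IsCyclotomicExtension.integral {ℓ} K _).isIntegral _
  have hdvd : minpoly K (thZeta K ℓ) ∣ cyclotomic ℓ K := minpoly.dvd K _ hroot
  have htop : K⟮thZeta K ℓ⟯ = ⊤ := by
    have := IsCyclotomicExtension.adjoin_primitive_root_eq_top (n := ℓ) (A := K)
      (B := CyclotomicField ℓ K) hz
    apply IntermediateField.toSubalgebra_injective
    rw [IntermediateField.adjoin_simple_toSubalgebra_of_isAlgebraic hint.isAlgebraic, this]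
    rfl
  have hdeg : (minpoly K (thZeta K ℓ)).natDegree = ℓ - 1 := by
    rw [← IntermediateField.adjoin.finrank hint, htop, IntermediateField.finrank_top',
      th_finrank hζ ℓ hℓp]
  have heq : minpoly K (thZeta K ℓ) = cyclotomic ℓ K := by
    refine Polynomial.eq_of_dvd_of_natDegree_le_of_leadingCoeff hdvd ?_ ?_
    · rw [hdeg, natDegree_cyclotomic, Nat.totient_prime hℓ.out]
    · rw [(minpoly.monic hint).leadingCoeff, (cyclotomic.monic ℓ K).leadingCoeff]
  rw [← heq]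
  exact minpoly.irreducible hint

end Fermat.Agent.S14lib

end
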