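/-
Item 77 (S14), piece C2 = Thaine's relation (sub-architect helper15), file 2 (T1b-core):
Hilbert's Theorem 90 for a cyclic extension, in ANY universe (Mathlib's
`groupCohomology.exists_div_of_norm_eq_one` lives in `Type`): Lagrange resolvent + Dedekind's lemma.
-/
import Mathlib

set_option autoImplicit false
set_option synthInstance.maxHeartbeats 400000
set_option linter.style.haveILetI false
set_option linter.unusedSectionVars false
set_option linter.deprecated false

noncomputable section

namespace Fermat.Agent.S14lib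

open NumberField Polynomial IntermediateField
open scoped Pointwise

section H90

variable {K L : Type*} [Field K] [Field L] [Algebra K L] [FiniteDimensional K L] [IsGalois K L]

/-- the partial norms `c_i = ∏_{j<i} g^j x` -/
def h90c (g : L ≃ₐ[K] L) (x : L) (i : ℕ) : L := ∏ j ∈ Finset.range i, (g ^ j) x

theorem h90c_zero (g : L ≃ₐ[K] L) (x : L) : h90c g x 0 = 1 := by
  simp [h90c]

theorem h90c_succ (g : L ≃ₐ[K] L) (x : L) (i : ℕ) : h90c g x (i + 1) = x * g (h90c g x i) := by
  rw [h90c, Finset.prod_range_succ', h90c, map_prod, pow_zero, AlgEquiv.one_apply, mul_comm]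
  congr 1
  refine Finset.prod_congr rfl fun j _ => ?_
  rw [pow_succ', AlgEquiv.mul_apply]

open Classical in
theorem h90_univ_eq (g : L ≃ₐ[K] L) (hg : ∀ x, x ∈ Subgroup.zpowers g) :
    (Finset.univ : Finset (L ≃ₐ[K] L)) = (Finset.range (orderOf g)).image (fun i => g ^ i) := by
  ext σ
  simp only [Finset.mem_univ, true_iff]
  have h1 : σ ∈ Submonoid.powers g := (mem_powers_iff_mem_zpowers).mpr (hg σ)
  exact (mem_powers_iff_mem_range_orderOf).mp h1

theorem h90c_orderOf (g : L ≃ₐ[K] L) (hg : ∀ x, x ∈ Subgroup.zpowers g) (x : L) :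
    h90c g x (orderOf g) = algebraMap K L (Algebra.norm K x) := by
  classical
  rw [Algebra.norm_eq_prod_automorphisms, h90_univ_eq g hg, Finset.prod_image]
  · rfl
  · intro i hi j hj hij
    exact pow_injOn_Iio_orderOf (by simpa using hi) (by simpa using hj) hij

/-- **Hilbert 90** for a cyclic extension (any universe): if `N(x) = 1` there is `y ≠ 0` with
`x · g(y) = y`. -/
theorem th_hilbert90 (g : L ≃ₐ[K] L) (hg : ∀ x, x ∈ Subgroup.zpowers g) {x : L}
    (hx : Algebra.norm K x = 1) : ∃ y : L, y ≠ 0 ∧ x * g y = y := by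
  classical
  set n := orderOf g with hn
  have hnpos : 0 < n := orderOf_pos g
  have hcn : h90c g x n = 1 := by rw [h90c_orderOf g hg, hx, map_one]
  -- the operator `y(θ) = ∑_{i<n} c_i g^i θ`
  have hrel : ∀ θ : L, x * g (∑ i ∈ Finset.range n, h90c g x i * (g ^ i) θ)
      = ∑ i ∈ Finset.range n, h90c g x i * (g ^ i) θ := by
    intro θ
    rw [map_sum, Finset.mul_sum]
    have h1 : ∀ i ∈ Finset.range n, x * g (h90c g x i * (g ^ i) θ)
        = h90c g x (i + 1) * (g ^ (i + 1)) θ := by
      intro i _
      rw [map_mul, ← mul_assoc, ← h90c_succ, pow_succ', AlgEquiv.mul_apply]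
    rw [Finset.sum_congr rfl h1]
    have h2 := Finset.sum_range_succ' (fun i => h90c g x i * (g ^ i) θ) n
    have h3 := Finset.sum_range_succ (fun i => h90c g x i * (g ^ i) θ) n
    rw [h3] at h2
    simp only [h90c_zero, pow_zero, AlgEquiv.one_apply, one_mul] at h2
    rw [hcn, hn, pow_orderOf_eq_one, AlgEquiv.one_apply, one_mul] at h2
    exact (add_right_cancel h2).symm
  -- non-vanishing by Dedekind's lemma
  by_contra hcon
  push Not at hcon
  have hzero : ∀ θ : L, ∑ i ∈ Finset.range n, h90c g x i * (g ^ i) θ = 0 := by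
    intro θ
    by_contra h0
    exact hcon _ h0 (hrel θ)
  have hli := linearIndependent_monoidHom L L
  have hinj : Function.Injective (fun i : Fin n => ((g ^ (i : ℕ) : L ≃ₐ[K] L) : L →* L)) := by
    intro i j hij
    apply Fin.ext
    apply pow_injOn_Iio_orderOf (x := g) (Set.mem_Iio.mpr i.2) (Set.mem_Iio.mpr j.2)
    ext θ
    exact congrArg (fun f : L →* L => f θ) hij
  have hli' := hli.comp _ hinj
  rw [Fintype.linearIndependent_iff] at hli'
  have := hli' (fun i => h90c g x i) (by
    funext θ
    have := hzero θ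
    rw [← Fin.sum_univ_eq_sum_range (fun i => h90c g x i * (g ^ i) θ)] at this
    simpa [Finset.sum_apply] using this) ⟨0, hnpos⟩
  simp only [h90c_zero] at this
  exact one_ne_zero this

end H90

end Fermat.Agent.S14lib

end
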