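/-
Item 77 (S14), piece C2 = Thaine's relation (sub-architect helper15), file 3 (T1a, cont.):
`Gal(K(ζ_ℓ)/K)` is cyclic, exponents of automorphisms on `ζ_ℓ`, and `N_{L/K}(1 - ζ_p ζ_ℓ) = 1`.
-/
import Mathlib
import Fermat.Agent.S14lib.ThaineField
import Fermat.Agent.S14lib.ThaineH90

set_option autoImplicit false
set_option synthInstance.maxHeartbeats 400000
set_option linter.style.haveILetI false
set_option linter.unusedSectionVars false
set_option linter.deprecated false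

noncomputable section

namespace Fermat.Agent.S14lib

open NumberField Polynomial IntermediateField
open scoped Pointwise

variable {p : ℕ} [hp : Fact p.Prime]
variable {K : Type*} [Field K] [NumberField K] [IsCyclotomicExtension {p} ℚ K]
variable {ζ : K} (hζ : IsPrimitiveRoot ζ p)
variable (ℓ : ℕ) [hℓ : Fact ℓ.Prime]

instance th_isGalois : IsGalois K (CyclotomicField ℓ K) :=
  IsCyclotomicExtension.isGalois {ℓ} K _

include hζ in
/-- `Gal(K(ζ_ℓ)/K)` is cyclic -/
theorem th_isCyclic (hℓp : ℓ % p = 1) :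
    IsCyclic (CyclotomicField ℓ K ≃ₐ[K] CyclotomicField ℓ K) := by
  haveI : NeZero ℓ := ⟨hℓ.out.ne_zero⟩
  exact isCyclic_of_surjective
    ((IsCyclotomicExtension.autEquivPow (CyclotomicField ℓ K)
      (th_irreducible hζ ℓ hℓp)).symm : (ZMod ℓ)ˣ →* _)
    (IsCyclotomicExtension.autEquivPow (CyclotomicField ℓ K)
      (th_irreducible hζ ℓ hℓp)).symm.surjective

/-- the exponent of an automorphism on `ζ_ℓ` -/
theorem th_exists_exp (g : CyclotomicField ℓ K ≃ₐ[K] CyclotomicField ℓ K) :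
    ∃ s : ℕ, ℓ.Coprime s ∧ g (thZeta K ℓ) = thZeta K ℓ ^ s := by
  haveI : NeZero ℓ := ⟨hℓ.out.ne_zero⟩
  have hz := thZeta_spec (K := K) ℓ
  refine ⟨((hz.autToPow K g : (ZMod ℓ)ˣ) : ZMod ℓ).val, ?_, ?_⟩
  · exact (ZMod.val_coe_unit_coprime _).symm
  · exact (hz.autToPow_spec K g).symm

include hζ in
/-- `N_{L/K}(1 - ζ_p ζ_ℓ) = 1` -/
theorem th_norm_xi (hℓp : ℓ % p = 1) :
    Algebra.norm K (1 - algebraMap K (CyclotomicField ℓ K) ζ * thZeta K ℓ) = 1 := by
  classical
  haveI : NeZero ℓ := ⟨hℓ.out.ne_zero⟩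
  have hz := thZeta_spec (K := K) ℓ
  have hirr := th_irreducible hζ ℓ hℓp
  set E := AlgebraicClosure (CyclotomicField ℓ K) with hE
  apply (algebraMap K E).injective
  rw [Algebra.norm_eq_prod_embeddings K E, map_one]
  set x : E := algebraMap K E ζ with hx
  have hxp : x ^ p = 1 := by rw [hx, ← map_pow, hζ.pow_eq_one, map_one]
  have hxℓ : x ^ ℓ = x := by
    obtain ⟨k, hk⟩ : ∃ k, ℓ = p * k + 1 := ⟨ℓ / p, by have := Nat.div_add_mod ℓ p; omega⟩
    have h0 : x ^ ℓ = x ^ (p * k + 1) := congrArg (fun n => x ^ n) hk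
    rw [h0, pow_succ, pow_mul, hxp, one_pow, one_mul]
  have hx1 : x ≠ 1 := by
    intro h
    have h2 : ζ = 1 := (algebraMap K E).injective (by rw [← hx, h, map_one])
    exact hζ.ne_one hp.out.one_lt h2
  have h1 : ∀ σ : CyclotomicField ℓ K →ₐ[K] E,
      σ (1 - algebraMap K (CyclotomicField ℓ K) ζ * thZeta K ℓ)
        = 1 - ((hz.embeddingsEquivPrimitiveRoots E hirr σ : primitiveRoots ℓ E) : E) * x := by
    intro σ
    rw [map_sub, map_one, map_mul, AlgHom.commutes, IsPrimitiveRoot.embeddingsEquivPrimitiveRoots_apply_coe,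
      mul_comm]
  rw [Finset.prod_congr rfl fun σ _ => h1 σ]
  rw [Fintype.prod_equiv (hz.embeddingsEquivPrimitiveRoots E hirr)
    (fun σ => 1 - ((hz.embeddingsEquivPrimitiveRoots E hirr σ : primitiveRoots ℓ E) : E) * x)
    (fun μ => 1 - (μ : E) * x) (fun σ => rfl)]
  -- `∏_{μ primitive} (1 - μ x) = 1`
  have hzE : IsPrimitiveRoot (algebraMap (CyclotomicField ℓ K) E (thZeta K ℓ)) ℓ :=
    hz.map_of_injective (algebraMap (CyclotomicField ℓ K) E).injective
  have h2 := hzE.pow_sub_pow_eq_prod_sub_mul (1 : E) x hℓ.out.pos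
  rw [one_pow, hxℓ, IsPrimitiveRoot.nthRoots_one_eq_biUnion_primitiveRoots,
    Nat.Prime.divisors hℓ.out] at h2
  have hdisj : Disjoint (primitiveRoots 1 E) (primitiveRoots ℓ E) :=
    IsPrimitiveRoot.disjoint (hℓ.out.one_lt.ne)
  have h3 : ({1, ℓ} : Finset ℕ).biUnion (fun i => primitiveRoots i E)
      = primitiveRoots 1 E ∪ primitiveRoots ℓ E := by
    ext μ
    simp
  rw [h3, Finset.prod_union hdisj, IsPrimitiveRoot.primitiveRoots_one, Finset.prod_singleton, one_mul] at h2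
  have h4 : (1 - x) ≠ 0 := sub_ne_zero.mpr (Ne.symm hx1)
  have h5 : (1 - x) * ∏ μ ∈ primitiveRoots ℓ E, (1 - μ * x) = (1 - x) * 1 := by
    rw [mul_one]; exact h2.symm
  have h6 := mul_left_cancel₀ h4 h5
  exact (Finset.prod_coe_sort (primitiveRoots ℓ E) (fun μ => 1 - μ * x)).trans h6

end Fermat.Agent.S14lib

end
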