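/-
Item 77 (S14), piece C2 = Thaine's relation (sub-architect helper15), file 4 (T1b):
`ξ = 1 - ζ_p ζ_ℓ ∈ 𝓞 L` is a unit of norm `1`; integral Hilbert 90: `ε ∈ 𝓞 L`, `ε ≠ 0`, `ξ · g(ε) = ε`;
all conjugates of `ε` are associated to `ε`; `N_{L/K}(ε) 𝓞_L = (ε)^{ℓ-1}`.
-/
import Mathlib
import Fermat.Agent.S14lib.ThaineNorm

set_option autoImplicit false
set_option synthInstance.maxHeartbeats 400000
set_option linter.style.haveILetI false
set_option linter.unusedSectionVars false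
set_option linter.deprecated false

noncomputable section

namespace Fermat.Agent.S14lib

open NumberField Polynomial IntermediateField
open scoped Pointwise

variable {p : ℕ} [hp : Fact p.Prime]
variable {K : Type*} [Field K] [NumberField K] [IsCyclotomicExtension {p} ℚ K]
variable {ζ : K} (hζ : IsPrimitiveRoot ζ p)
variable (ℓ : ℕ) [hℓ : Fact ℓ.Prime]

instance th_neZero : NeZero ℓ := ⟨hℓ.out.ne_zero⟩

/-- `ζ_ℓ` as an element of `𝓞 L` -/
def thZetaInt (K : Type*) [Field K] [NumberField K] (ℓ : ℕ) [Fact ℓ.Prime] :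
    𝓞 (CyclotomicField ℓ K) :=
  (thZeta_spec (K := K) ℓ).toInteger

@[simp] theorem coe_thZetaInt : ((thZetaInt K ℓ : 𝓞 (CyclotomicField ℓ K)) : CyclotomicField ℓ K)
    = thZeta K ℓ := rfl

/-- `ξ = 1 - ζ_p ζ_ℓ ∈ 𝓞 L` -/
def thXi : 𝓞 (CyclotomicField ℓ K) :=
  1 - algebraMap (𝓞 K) (𝓞 (CyclotomicField ℓ K)) hζ.toInteger * thZetaInt K ℓ

theorem coe_thXi : ((thXi hζ ℓ : 𝓞 (CyclotomicField ℓ K)) : CyclotomicField ℓ K)
    = 1 - algebraMap K (CyclotomicField ℓ K) ζ * thZeta K ℓ := by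
  rw [thXi]
  simp only [map_sub, map_one, map_mul, coe_thZetaInt]
  rfl

theorem coe_smul_int (g : CyclotomicField ℓ K ≃ₐ[K] CyclotomicField ℓ K)
    (x : 𝓞 (CyclotomicField ℓ K)) :
    ((g • x : 𝓞 (CyclotomicField ℓ K)) : CyclotomicField ℓ K) = g (x : CyclotomicField ℓ K) := rfl

theorem th_norm_thXi (hℓp : ℓ % p = 1) : RingOfIntegers.norm K (thXi hζ ℓ) = 1 := by
  apply RingOfIntegers.ext
  apply (algebraMap K (CyclotomicField ℓ K)).injective
  have h := RingOfIntegers.coe_algebraMap_norm K (thXi hζ ℓ)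
  rw [coe_thXi, th_norm_xi hζ ℓ hℓp] at h
  exact h

theorem th_isUnit_thXi (hℓp : ℓ % p = 1) : IsUnit (thXi hζ ℓ) := by
  rw [← RingOfIntegers.isUnit_norm_of_isGalois K, th_norm_thXi hζ ℓ hℓp]
  exact isUnit_one

/-- integral Hilbert 90 -/
theorem th_exists_eps (hℓp : ℓ % p = 1) (g : CyclotomicField ℓ K ≃ₐ[K] CyclotomicField ℓ K)
    (hg : ∀ x, x ∈ Subgroup.zpowers g) :
    ∃ ε : 𝓞 (CyclotomicField ℓ K), ε ≠ 0 ∧ thXi hζ ℓ * (g • ε) = ε := by
  have hN : Algebra.norm K ((thXi hζ ℓ : 𝓞 (CyclotomicField ℓ K)) : CyclotomicField ℓ K) = 1 := by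
    rw [coe_thXi]; exact th_norm_xi hζ ℓ hℓp
  obtain ⟨y, hy0, hy⟩ := th_hilbert90 g hg hN
  obtain ⟨a, b, hb, hab⟩ := IsFractionRing.div_surjective (A := 𝓞 (CyclotomicField ℓ K)) y
  have hb0 : b ≠ 0 := nonZeroDivisors.ne_zero hb
  obtain ⟨c, hc⟩ := RingOfIntegers.dvd_norm K b
  have ha0 : a ≠ 0 := by
    rintro rfl
    rw [map_zero, zero_div] at hab
    exact hy0 hab.symm
  have hc0 : c ≠ 0 := by
    rintro rfl
    rw [mul_zero] at hc
    have h1 : RingOfIntegers.norm K b = 0 :=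
      (FaithfulSMul.algebraMap_injective (𝓞 K) (𝓞 (CyclotomicField ℓ K))) (by rw [hc, map_zero])
    have h2 : Algebra.norm K (b : CyclotomicField ℓ K) = 0 := by
      have := RingOfIntegers.coe_algebraMap_norm K b
      rw [h1, map_zero] at this
      exact (algebraMap K (CyclotomicField ℓ K)).injective (by rw [map_zero]; exact this.symm)
    rw [Algebra.norm_eq_zero_iff] at h2
    exact hb0 (RingOfIntegers.ext h2)
  refine ⟨a * c, mul_ne_zero ha0 hc0, ?_⟩
  apply RingOfIntegers.ext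
  -- in `L`: `a c = y · N(b)`
  have hbL : (algebraMap (𝓞 (CyclotomicField ℓ K)) (CyclotomicField ℓ K) b) ≠ 0 := by
    intro h
    exact hb0 (RingOfIntegers.ext h)
  have hac : ((a * c : 𝓞 (CyclotomicField ℓ K)) : CyclotomicField ℓ K)
      = y * algebraMap K (CyclotomicField ℓ K) (Algebra.norm K (b : CyclotomicField ℓ K)) := by
    rw [← RingOfIntegers.coe_algebraMap_norm K b, hc, ← hab]
    simp only [map_mul]
    field_simp
  change ((thXi hζ ℓ : 𝓞 (CyclotomicField ℓ K)) : CyclotomicField ℓ K)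
    * g ((a * c : 𝓞 (CyclotomicField ℓ K)) : CyclotomicField ℓ K) = _
  rw [hac, map_mul, AlgEquiv.commutes, ← mul_assoc, hy]

/-- all conjugates of `ε` are associated to `ε` -/
theorem th_associated_smul (hℓp : ℓ % p = 1) (g : CyclotomicField ℓ K ≃ₐ[K] CyclotomicField ℓ K)
    (hg : ∀ x, x ∈ Subgroup.zpowers g) (ε : 𝓞 (CyclotomicField ℓ K))
    (hε : thXi hζ ℓ * (g • ε) = ε) (σ : CyclotomicField ℓ K ≃ₐ[K] CyclotomicField ℓ K) :
    Associated (σ • ε) ε := by
  have hbase : Associated (g • ε) ε :=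
    ⟨(th_isUnit_thXi hζ ℓ hℓp).unit, by rw [IsUnit.unit_spec, mul_comm]; exact hε⟩
  have hpow : ∀ i : ℕ, Associated ((g ^ i) • ε) ε := by
    intro i
    induction i with
    | zero => rw [pow_zero, one_smul]
    | succ i ih =>
      rw [pow_succ', mul_smul]
      have h1 : Associated (g • ((g ^ i) • ε)) (g • ε) :=
        Associated.map (MulSemiringAction.toRingHom _ (𝓞 (CyclotomicField ℓ K)) g) ih
      exact h1.trans hbase
  have h1 : σ ∈ Submonoid.powers g := (mem_powers_iff_mem_zpowers).mpr (hg σ)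
  obtain ⟨i, rfl⟩ := h1
  exact hpow i

/-- `b 𝓞_L = (ε)^{ℓ-1}` for `b = N_{L/K} ε` -/
theorem th_span_norm (hℓp : ℓ % p = 1) (g : CyclotomicField ℓ K ≃ₐ[K] CyclotomicField ℓ K)
    (hg : ∀ x, x ∈ Subgroup.zpowers g) (ε : 𝓞 (CyclotomicField ℓ K))
    (hε : thXi hζ ℓ * (g • ε) = ε) :
    Ideal.span {algebraMap (𝓞 K) (𝓞 (CyclotomicField ℓ K)) (RingOfIntegers.norm K ε)}
      = Ideal.span {ε} ^ (ℓ - 1) := by
  classical
  have h1 : algebraMap (𝓞 K) (𝓞 (CyclotomicField ℓ K)) (RingOfIntegers.norm K ε)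
      = ∏ σ : CyclotomicField ℓ K ≃ₐ[K] CyclotomicField ℓ K, σ • ε := by
    apply RingOfIntegers.ext
    rw [RingOfIntegers.coe_algebraMap_norm, Algebra.norm_eq_prod_automorphisms]
    have h0 : ((∏ σ : CyclotomicField ℓ K ≃ₐ[K] CyclotomicField ℓ K, σ • ε :
        𝓞 (CyclotomicField ℓ K)) : CyclotomicField ℓ K)
        = ∏ σ : CyclotomicField ℓ K ≃ₐ[K] CyclotomicField ℓ K,
          ((σ • ε : 𝓞 (CyclotomicField ℓ K)) : CyclotomicField ℓ K) :=
      map_prod (algebraMap (𝓞 (CyclotomicField ℓ K)) (CyclotomicField ℓ K)) _ _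
    rw [h0]
    rfl
  have h2 : Associated (∏ σ : CyclotomicField ℓ K ≃ₐ[K] CyclotomicField ℓ K, σ • ε)
      (∏ _σ : CyclotomicField ℓ K ≃ₐ[K] CyclotomicField ℓ K, ε) :=
    Associated.prod _ _ _ fun σ _ => th_associated_smul hζ ℓ hℓp g hg ε hε σ
  rw [Finset.prod_const, Finset.card_univ, ← Nat.card_eq_fintype_card,
    IsGalois.card_aut_eq_finrank, th_finrank hζ ℓ hℓp] at h2
  rw [h1, Ideal.span_singleton_pow]
  exact Ideal.span_singleton_eq_span_singleton.mpr h2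

theorem th_norm_ne_zero (ε : 𝓞 (CyclotomicField ℓ K)) (hε : ε ≠ 0) :
    RingOfIntegers.norm K ε ≠ 0 := by
  intro h1
  have h2 : Algebra.norm K (ε : CyclotomicField ℓ K) = 0 := by
    have := RingOfIntegers.coe_algebraMap_norm K ε
    rw [h1, map_zero] at this
    exact (algebraMap K (CyclotomicField ℓ K)).injective (by rw [map_zero]; exact this.symm)
  rw [Algebra.norm_eq_zero_iff] at h2
  exact hε (RingOfIntegers.ext h2)

end Fermat.Agent.S14lib

end
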