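/-
Item 77 (S14), piece C2 = Thaine's relation (sub-architect helper15), file T2a:
ramification of the primes of `L = K(ζ_ℓ) = ℚ(ζ_{pℓ})` over `K = ℚ(ζ_p)`: unramified away from `ℓ`,
totally ramified (index `ℓ - 1`) over `ℓ`, and `ζ_ℓ - 1` is a uniformizer at the primes over `ℓ`.
-/
import Mathlib
import Fermat.Agent.S14lib.ThaineEps

set_option autoImplicit false
set_option synthInstance.maxHeartbeats 400000
set_option linter.style.haveILetI false
set_option linter.unusedSectionVars false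
set_option linter.deprecated false

noncomputable section

namespace Fermat.Agent.S14lib

open NumberField Polynomial IntermediateField UniqueFactorizationMonoid
open scoped Pointwise

variable {p : ℕ} [hp : Fact p.Prime]
variable {K : Type*} [Field K] [NumberField K] [IsCyclotomicExtension {p} ℚ K]
variable {ζ : K} (hζ : IsPrimitiveRoot ζ p)
variable (ℓ : ℕ) [hℓ : Fact ℓ.Prime]

/-- the rational prime below a nonzero prime `Q` of a ring of integers -/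
theorem thr_prime_under {F : Type*} [Field F] [NumberField F] (Q : Ideal (𝓞 F)) [Q.IsPrime]
    (hQ : Q ≠ ⊥) : (Ideal.absNorm (Q.under ℤ)).Prime := by
  haveI : NeZero Q := ⟨hQ⟩
  exact Nat.absNorm_under_prime Q

theorem thr_mem_iff {F : Type*} [Field F] [NumberField F] (Q : Ideal (𝓞 F)) [Q.IsPrime]
    (hQ : Q ≠ ⊥) (q : ℕ) (hq : q.Prime) :
    (q : 𝓞 F) ∈ Q ↔ Ideal.absNorm (Q.under ℤ) = q := by
  have h1 := Int.cast_mem_ideal_iff (I := Q) (d := (q : ℤ))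
  rw [Int.cast_natCast, Int.natCast_dvd_natCast] at h1
  rw [h1]
  constructor
  · intro h
    exact (Nat.prime_dvd_prime_iff_eq (thr_prime_under Q hQ) hq).mp h
  · intro h
    rw [h]

theorem thr_ne_bot_of_mem {F : Type*} [Field F] [NumberField F] (Q : Ideal (𝓞 F))
    (q : ℕ) (hq : q.Prime) (h : (q : 𝓞 F) ∈ Q) : Q ≠ ⊥ := by
  rintro rfl
  rw [Ideal.mem_bot] at h
  exact hq.ne_zero (by exact_mod_cast h)

theorem thr_liesOver {F : Type*} [Field F] [NumberField F] (Q : Ideal (𝓞 F)) [Q.IsPrime]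
    (q : ℕ) (hq : q.Prime) (h : (q : 𝓞 F) ∈ Q) : Q.LiesOver (Ideal.span {(q : ℤ)}) := by
  have h1 := (thr_mem_iff Q (thr_ne_bot_of_mem Q q hq h) q hq).mp h
  have h2 := Int.liesOver_span_absNorm Q
  rwa [h1] at h2

/-- primes over `ℓ` are totally ramified in `L/K` -/
theorem th_ramificationIdx_of_mem (hℓp : ℓ % p = 1) (Q : Ideal (𝓞 (CyclotomicField ℓ K)))
    [Q.IsPrime] (h : (ℓ : 𝓞 (CyclotomicField ℓ K)) ∈ Q) :
    Q.ramificationIdx (𝓞 K) = ℓ - 1 := by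
  haveI : NeZero p := ⟨hp.out.ne_zero⟩
  have hζ := IsCyclotomicExtension.zeta_spec p ℚ K
  haveI := th_isCyclotomicExtension hζ ℓ hℓp
  haveI : NeZero p := ⟨hp.out.ne_zero⟩
  haveI hQℓ : Q.LiesOver (Ideal.span {(ℓ : ℤ)}) := thr_liesOver Q ℓ hℓ.out h
  haveI : (Q.under (𝓞 K)).LiesOver (Ideal.span {(ℓ : ℤ)}) := by
    constructor
    rw [Ideal.under_under]
    exact hQℓ.over
  have hnd : ¬ ℓ ∣ p := by
    intro hd
    exact th_ne hζ ℓ hℓp ((Nat.prime_dvd_prime_iff_eq hℓ.out hp.out).mp hd)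
  have e1 : Q.ramificationIdx ℤ = ℓ ^ 0 * (ℓ - 1) :=
    IsCyclotomicExtension.Rat.ramificationIdx_eq (p * ℓ) (m := p) (p := ℓ) (k := 0)
      (CyclotomicField ℓ K) Q (by ring) hnd
  have e2 : (Q.under (𝓞 K)).ramificationIdx ℤ = 1 :=
    IsCyclotomicExtension.Rat.ramificationIdx_eq_of_not_dvd (m := p) ℓ K (Q.under (𝓞 K)) hnd
  have e3 := Ideal.ramificationIdx_tower (R := ℤ) (Q.under (𝓞 K)) Q
  rw [e1, e2, pow_zero, one_mul, one_mul] at e3
  exact e3.symm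

/-- primes not over `ℓ` are unramified in `L/K` -/
theorem th_ramificationIdx_of_notMem (hℓp : ℓ % p = 1) (Q : Ideal (𝓞 (CyclotomicField ℓ K)))
    [Q.IsPrime] (hQ : Q ≠ ⊥) (h : (ℓ : 𝓞 (CyclotomicField ℓ K)) ∉ Q) :
    Q.ramificationIdx (𝓞 K) = 1 := by
  haveI : NeZero p := ⟨hp.out.ne_zero⟩
  have hζ := IsCyclotomicExtension.zeta_spec p ℚ K
  haveI := th_isCyclotomicExtension hζ ℓ hℓp
  haveI : NeZero p := ⟨hp.out.ne_zero⟩
  haveI : NeZero (p * ℓ) := ⟨Nat.mul_ne_zero hp.out.ne_zero hℓ.out.ne_zero⟩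
  set q := Ideal.absNorm (Q.under ℤ) with hq
  have hqp : q.Prime := thr_prime_under Q hQ
  haveI : Fact q.Prime := ⟨hqp⟩
  have hqℓ : q ≠ ℓ := fun h1 => h ((thr_mem_iff Q hQ ℓ hℓ.out).mpr h1)
  haveI hQq : Q.LiesOver (Ideal.span {(q : ℤ)}) := Int.liesOver_span_absNorm Q
  haveI : (Q.under (𝓞 K)).LiesOver (Ideal.span {(q : ℤ)}) := by
    constructor
    rw [Ideal.under_under]
    exact hQq.over
  have e3 := Ideal.ramificationIdx_tower (R := ℤ) (Q.under (𝓞 K)) Q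
  by_cases hqp' : q = p
  · have hnd : ¬ p ∣ ℓ := by
      intro hd
      exact th_ne hζ ℓ hℓp ((Nat.prime_dvd_prime_iff_eq hp.out hℓ.out).mp hd).symm
    haveI hQp : Q.LiesOver (Ideal.span {(p : ℤ)}) := by rw [← hqp']; exact hQq
    haveI : (Q.under (𝓞 K)).LiesOver (Ideal.span {(p : ℤ)}) := by
      constructor
      rw [Ideal.under_under]
      exact hQp.over
    have e1 : Q.ramificationIdx ℤ = p ^ 0 * (p - 1) :=
      IsCyclotomicExtension.Rat.ramificationIdx_eq (p * ℓ) (m := ℓ) (p := p) (k := 0)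
        (CyclotomicField ℓ K) Q (by ring) hnd
    have e2 : (Q.under (𝓞 K)).ramificationIdx ℤ = p - 1 :=
      IsCyclotomicExtension.Rat.ramificationIdx_eq_of_prime p K (Q.under (𝓞 K))
    rw [e1, e2, pow_zero, one_mul] at e3
    have hpos : 0 < p - 1 := by have := hp.out.two_le; omega
    exact (Nat.eq_of_mul_eq_mul_left hpos (by rw [mul_one]; exact e3)).symm
  · have hnd : ¬ q ∣ p * ℓ := by
      intro hd
      rcases (Nat.Prime.dvd_mul hqp).mp hd with h1 | h1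
      · exact hqp' ((Nat.prime_dvd_prime_iff_eq hqp hp.out).mp h1)
      · exact hqℓ ((Nat.prime_dvd_prime_iff_eq hqp hℓ.out).mp h1)
    have e1 : Q.ramificationIdx ℤ = 1 :=
      IsCyclotomicExtension.Rat.ramificationIdx_eq_of_not_dvd (m := p * ℓ) q
        (CyclotomicField ℓ K) Q hnd
    rw [e1] at e3
    exact (Nat.eq_one_of_mul_eq_one_left e3.symm)

/-- `ζ_ℓ - 1 ∈ Q` for the primes `Q` over `ℓ` -/
theorem th_zeta_sub_one_mem (Q : Ideal (𝓞 (CyclotomicField ℓ K)))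
    [Q.IsPrime] (h : (ℓ : 𝓞 (CyclotomicField ℓ K)) ∈ Q) :
    thZetaInt K ℓ - 1 ∈ Q := by
  have h1 : Associated ((thZetaInt K ℓ - 1) ^ (ℓ - 1)) (ℓ : 𝓞 (CyclotomicField ℓ K)) :=
    IsCyclotomicExtension.Rat.associated_zeta_sub_one_pow_prime ℓ (thZeta_spec (K := K) ℓ)
  have h2 : (thZetaInt K ℓ - 1) ^ (ℓ - 1) ∈ Q := by
    obtain ⟨u, hu⟩ := h1.symm
    rw [← hu]
    exact Q.mul_mem_right _ h
  exact Ideal.IsPrime.mem_of_pow_mem inferInstance _ h2

/-- `ζ_ℓ - 1` is a uniformizer at the primes over `ℓ` -/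
theorem th_count_zeta_sub_one (hℓp : ℓ % p = 1) (Q : Ideal (𝓞 (CyclotomicField ℓ K)))
    [Q.IsPrime] (h : (ℓ : 𝓞 (CyclotomicField ℓ K)) ∈ Q) :
    Multiset.count Q (normalizedFactors (Ideal.span {thZetaInt K ℓ - 1})) = 1 := by
  classical
  haveI : NeZero p := ⟨hp.out.ne_zero⟩
  have hζ := IsCyclotomicExtension.zeta_spec p ℚ K
  haveI := th_isCyclotomicExtension hζ ℓ hℓp
  haveI hQℓ : Q.LiesOver (Ideal.span {(ℓ : ℤ)}) := thr_liesOver Q ℓ hℓ.out h
  have hnd : ¬ ℓ ∣ p := by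
    intro hd
    exact th_ne hζ ℓ hℓp ((Nat.prime_dvd_prime_iff_eq hℓ.out hp.out).mp hd)
  have e1 : Q.ramificationIdx ℤ = ℓ ^ 0 * (ℓ - 1) :=
    IsCyclotomicExtension.Rat.ramificationIdx_eq (p * ℓ) (m := p) (p := ℓ) (k := 0)
      (CyclotomicField ℓ K) Q (by ring) hnd
  rw [pow_zero, one_mul] at e1
  have hmap : (Ideal.span {(ℓ : ℤ)}).map (algebraMap ℤ (𝓞 (CyclotomicField ℓ K)))
      = Ideal.span {(ℓ : 𝓞 (CyclotomicField ℓ K))} := by
    rw [Ideal.map_span, Set.image_singleton, map_natCast]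
  have hℓ0 : (ℓ : 𝓞 (CyclotomicField ℓ K)) ≠ 0 := by
    exact_mod_cast hℓ.out.ne_zero
  have hne : (Ideal.span {(ℓ : ℤ)}).map (algebraMap ℤ (𝓞 (CyclotomicField ℓ K))) ≠ ⊥ := by
    rw [hmap, Ne, Ideal.span_singleton_eq_bot]
    exact hℓ0
  have e2 := Ideal.IsDedekindDomain.ramificationIdx_eq_normalizedFactors_count
    (Ideal.span {(ℓ : ℤ)}) Q hne
  rw [hmap, e1] at e2
  have h1 : Associated ((thZetaInt K ℓ - 1) ^ (ℓ - 1)) (ℓ : 𝓞 (CyclotomicField ℓ K)) :=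
    IsCyclotomicExtension.Rat.associated_zeta_sub_one_pow_prime ℓ (thZeta_spec (K := K) ℓ)
  have h3 : Ideal.span {(ℓ : 𝓞 (CyclotomicField ℓ K))}
      = Ideal.span {thZetaInt K ℓ - 1} ^ (ℓ - 1) := by
    rw [Ideal.span_singleton_pow]
    exact (Ideal.span_singleton_eq_span_singleton.mpr h1).symm
  rw [h3, normalizedFactors_pow, Multiset.count_nsmul] at e2
  have hpos : 0 < ℓ - 1 := by have := hℓ.out.two_le; omega
  exact (Nat.eq_of_mul_eq_mul_left hpos (by rw [mul_one]; exact e2.symm))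


end Fermat.Agent.S14lib

end
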