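/-
Item 77 (S14), piece C2/T2b + T2-val (helper8): valuations in an extension of Dedekind domains.
`th_count_map`: `v_Q(b) = e(Q | A) · v_{Q ∩ A}(b)` for `b ∈ A`;
`th_val_abs`: `span {b} B = span {ε} ^ n  ⟹  e(Q | A) · v_{Q ∩ A}(b) = n · v_Q(ε)`.
Exact shapes asked by helper15 (NOTES/S14_C2_T2_signatures.lean.txt + board).  No sorry in this file.
-/
import Mathlib

set_option autoImplicit false

namespace Fermat.Agent.S14lib

open UniqueFactorizationMonoid

/-- `v_Q(b) = e(Q | A) · v_{Q ∩ A}(b)` for `b ∈ A` -/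
theorem th_count_map {A B : Type*} [CommRing A] [IsDedekindDomain A] [CommRing B]
    [IsDedekindDomain B] [Algebra A B] [Module.IsTorsionFree A B] [Module.Finite A B]
    (Q : Ideal B) [hQp : Q.IsPrime] (hQ : Q ≠ ⊥) (b : A) (hb : b ≠ 0) :
    Multiset.count Q (normalizedFactors (Ideal.span {algebraMap A B b}))
      = Q.ramificationIdx A * Multiset.count (Q.under A) (normalizedFactors (Ideal.span {b})) := by
  classical
  haveI : Algebra.IsIntegral A B := Algebra.IsIntegral.of_finite A B
  have hinj : Function.Injective (algebraMap A B) := FaithfulSMul.algebraMap_injective A B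
  have hv0 : Q.under A ≠ ⊥ := Ideal.under_ne_bot A hQ
  haveI hvp : (Q.under A).IsPrime := inferInstance
  have hvirr : Irreducible (Q.under A) := (Ideal.prime_of_isPrime hv0 hvp).irreducible
  have hwirr : Irreducible Q := (Ideal.prime_of_isPrime hQ hQp).irreducible
  have hI : Ideal.span {b} ≠ (⊥ : Ideal A) := by
    rw [Ne, Ideal.span_singleton_eq_bot]
    exact hb
  have hIB : Ideal.span {algebraMap A B b} ≠ (⊥ : Ideal B) := by
    rw [Ne, Ideal.span_singleton_eq_bot, map_eq_zero_iff _ hinj]
    exact hb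
  haveI : Q.LiesOver (Q.under A) := ⟨rfl⟩
  have h := Ideal.IsDedekindDomain.emultiplicity_map_eq_ramificationIdx'_mul
    (v := Q.under A) (w := Q) hI hvirr hwirr hQ
  rw [Ideal.map_span, Set.image_singleton, emultiplicity_eq_count_normalizedFactors hwirr hIB,
    emultiplicity_eq_count_normalizedFactors hvirr hI, normalize_eq, normalize_eq,
    Ideal.ramificationIdx'_eq_ramificationIdx (Q.under A) Q hv0] at h
  exact_mod_cast h

/-- **T2-val.** -/
theorem th_val_abs {A B : Type*} [CommRing A] [IsDedekindDomain A] [CommRing B]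
    [IsDedekindDomain B] [Algebra A B] [Module.IsTorsionFree A B] [Module.Finite A B]
    (Q : Ideal B) [Q.IsPrime] (hQ : Q ≠ ⊥) (b : A) (hb : b ≠ 0) (ε : B) (n : ℕ)
    (h : Ideal.span {algebraMap A B b} = Ideal.span {ε} ^ n) :
    Q.ramificationIdx A * Multiset.count (Q.under A) (normalizedFactors (Ideal.span {b}))
      = n * Multiset.count Q (normalizedFactors (Ideal.span {ε})) := by
  rw [← th_count_map Q hQ b hb, h, normalizedFactors_pow, Multiset.count_nsmul]

end Fermat.Agent.S14lib
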