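/-
Item 77 (S14), piece C2 = Thaine's relation (sub-architect helper15), file T2e:
`exists_thaine_elt` = Thaine's element `b = N_{L/K} ε` (interface between T1 + T2 and T3).
-/
import Mathlib
import Fermat.Agent.S14lib.ThaineRam
import Fermat.Agent.S14lib.ThaineLoc
import Fermat.Agent.S14lib.ThaineVal

set_option autoImplicit false
set_option synthInstance.maxHeartbeats 400000
set_option linter.style.haveILetI false
set_option linter.unusedSectionVars false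
set_option linter.deprecated false

noncomputable section

namespace Fermat.Agent.S14lib

open NumberField Polynomial IntermediateField UniqueFactorizationMonoid
open scoped Pointwise

variable {p : ℕ} [hp : Fact p.Prime]
variable {K : Type*} [Field K] [NumberField K] [IsCyclotomicExtension {p} ℚ K]
variable {ζ : K} (hζ : IsPrimitiveRoot ζ p)

section
variable (ℓ : ℕ) [hℓ : Fact ℓ.Prime]

/-- T2c: the Galois group acts trivially modulo the primes over `ℓ` (`𝓞 L = ℤ[ζ_p ζ_ℓ]`,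
`ζ_ℓ ≡ 1`) -/
theorem the_smul_sub_mem (hℓp : ℓ % p = 1) (Q : Ideal (𝓞 (CyclotomicField ℓ K)))
    [Q.IsPrime] (h : (ℓ : 𝓞 (CyclotomicField ℓ K)) ∈ Q)
    (σ : CyclotomicField ℓ K ≃ₐ[K] CyclotomicField ℓ K) (x : 𝓞 (CyclotomicField ℓ K)) :
    σ • x - x ∈ Q := by
  haveI : NeZero p := ⟨hp.out.ne_zero⟩
  have hζ := IsCyclotomicExtension.zeta_spec p ℚ K
  haveI := th_isCyclotomicExtension hζ ℓ hℓp
  haveI : NeZero (p * ℓ) := ⟨Nat.mul_ne_zero hp.out.ne_zero hℓ.out.ne_zero⟩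
  have hprim := th_isPrimitiveRoot_mul hζ ℓ hℓp
  have htop := IsCyclotomicExtension.Rat.adjoin_singleton_eq_top hprim
  have hx : x ∈ Algebra.adjoin ℤ {hprim.toInteger} := by rw [htop]; trivial
  obtain ⟨s, -, hs⟩ := th_exists_exp ℓ σ
  have h1 : Ideal.Quotient.mk Q (thZetaInt K ℓ) = 1 := by
    rw [← map_one (Ideal.Quotient.mk Q), Ideal.Quotient.mk_eq_mk_iff_sub_mem]
    exact th_zeta_sub_one_mem ℓ Q h
  have hσz : σ • thZetaInt K ℓ = thZetaInt K ℓ ^ s := by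
    apply RingOfIntegers.ext
    rw [coe_smul_int, coe_thZetaInt, hs]
    simp only [map_pow, coe_thZetaInt]
  induction hx using Algebra.adjoin_induction with
  | mem y hy =>
    rw [Set.mem_singleton_iff] at hy
    have hy' : y = algebraMap (𝓞 K) (𝓞 (CyclotomicField ℓ K)) hζ.toInteger * thZetaInt K ℓ := by
      rw [hy]
      apply RingOfIntegers.ext
      simp only [map_mul, coe_thZetaInt]
      rfl
    rw [hy', smul_mul', hσz]
    have hfix : σ • algebraMap (𝓞 K) (𝓞 (CyclotomicField ℓ K)) hζ.toInteger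
        = algebraMap (𝓞 K) (𝓞 (CyclotomicField ℓ K)) hζ.toInteger := by
      apply RingOfIntegers.ext
      rw [coe_smul_int]
      exact σ.commutes _
    rw [hfix, ← Ideal.Quotient.mk_eq_mk_iff_sub_mem]
    simp only [map_mul, map_pow, h1, one_pow]
  | algebraMap r =>
    have : σ • (algebraMap ℤ (𝓞 (CyclotomicField ℓ K)) r) = algebraMap ℤ (𝓞 (CyclotomicField ℓ K)) r := by
      apply RingOfIntegers.ext
      rw [coe_smul_int]
      simp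
    rw [this, sub_self]
    exact Q.zero_mem
  | add a b _ _ ha hb =>
    rw [smul_add]
    have : σ • a + σ • b - (a + b) = (σ • a - a) + (σ • b - b) := by ring
    rw [this]
    exact Q.add_mem ha hb
  | mul a b _ _ ha hb =>
    rw [smul_mul']
    have : σ • a * σ • b - a * b = σ • a * (σ • b - b) + (σ • a - a) * b := by ring
    rw [this]
    exact Q.add_mem (Q.mul_mem_left _ hb) (Q.mul_mem_right _ ha)

/-- `g • ζ_ℓ = ζ_ℓ^s` in `𝓞 L` -/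
theorem the_smul_zeta (g : CyclotomicField ℓ K ≃ₐ[K] CyclotomicField ℓ K) (s : ℕ)
    (hs : g (thZeta K ℓ) = thZeta K ℓ ^ s) :
    g • thZetaInt K ℓ = thZetaInt K ℓ ^ s := by
  apply RingOfIntegers.ext
  rw [coe_smul_int, coe_thZetaInt, hs]
  simp only [map_pow, coe_thZetaInt]

/-- `g • (ζ_ℓ - 1) = (ζ_ℓ - 1) · ∑_{i<s} ζ_ℓ^i` -/
theorem the_smul_pi (g : CyclotomicField ℓ K ≃ₐ[K] CyclotomicField ℓ K) (s : ℕ)
    (hs : g (thZeta K ℓ) = thZeta K ℓ ^ s) :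
    g • (thZetaInt K ℓ - 1) = (thZetaInt K ℓ - 1) * ∑ i ∈ Finset.range s, thZetaInt K ℓ ^ i := by
  rw [smul_sub, smul_one, the_smul_zeta ℓ g s hs, mul_geom_sum]

/-- `∑_{i<s} ζ_ℓ^i ≡ s mod Q` -/
theorem the_sum_sub_mem (Q : Ideal (𝓞 (CyclotomicField ℓ K)))
    [Q.IsPrime] (h : (ℓ : 𝓞 (CyclotomicField ℓ K)) ∈ Q) (s : ℕ) :
    (∑ i ∈ Finset.range s, thZetaInt K ℓ ^ i) - (s : 𝓞 (CyclotomicField ℓ K)) ∈ Q := by
  have h1 : Ideal.Quotient.mk Q (thZetaInt K ℓ) = 1 := by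
    rw [← map_one (Ideal.Quotient.mk Q), Ideal.Quotient.mk_eq_mk_iff_sub_mem]
    exact th_zeta_sub_one_mem ℓ Q h
  rw [← Ideal.Quotient.mk_eq_mk_iff_sub_mem, map_sum]
  simp only [map_pow, h1, one_pow, Finset.sum_const, Finset.card_range, nsmul_eq_mul, mul_one,
    map_natCast]

end

/-- **Thaine's element** -/
theorem exists_thaine_elt (_hp3 : 3 ≤ p) (ℓ : ℕ) (hℓ : ℓ.Prime) (hℓp : ℓ % p = 1) :
    ∃ (b : 𝓞 K) (s : ℕ), b ≠ 0 ∧ ℓ.Coprime s ∧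
      (∀ 𝔮 : Ideal (𝓞 K), 𝔮.IsPrime → (ℓ : 𝓞 K) ∉ 𝔮 →
        p ∣ Multiset.count 𝔮 (normalizedFactors (Ideal.span {b}))) ∧
      (∀ 𝔮 : Ideal (𝓞 K), 𝔮.IsPrime → (ℓ : 𝓞 K) ∈ 𝔮 →
        (1 - hζ.toInteger) * (s : 𝓞 K) ^ Multiset.count 𝔮 (normalizedFactors (Ideal.span {b})) - 1
          ∈ 𝔮) := by
  classical
  haveI : Fact ℓ.Prime := ⟨hℓ⟩
  haveI := th_isCyclic hζ ℓ hℓp
  obtain ⟨g, hg⟩ := IsCyclic.exists_generator (α := CyclotomicField ℓ K ≃ₐ[K] CyclotomicField ℓ K)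
  obtain ⟨s, hs, hgs⟩ := th_exists_exp ℓ g
  obtain ⟨ε, hε0, hε⟩ := th_exists_eps hζ ℓ hℓp g hg
  have hb : RingOfIntegers.norm K ε ≠ 0 := th_norm_ne_zero ℓ ε hε0
  have hspan := th_span_norm hζ ℓ hℓp g hg ε hε
  have hℓ1 : 0 < ℓ - 1 := by have := hℓ.two_le; omega
  have hpℓ : p ∣ ℓ - 1 := by
    have h1 : 1 ≤ ℓ := hℓ.one_le
    exact (Nat.modEq_iff_dvd' h1).mp (by
      rw [Nat.ModEq, hℓp, Nat.mod_eq_of_lt hp.out.one_lt])
  -- primes upstairs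
  have key : ∀ 𝔮 : Ideal (𝓞 K), 𝔮.IsPrime → 𝔮 ≠ ⊥ →
      ∃ Q : Ideal (𝓞 (CyclotomicField ℓ K)), Q.IsPrime ∧ Q ≠ ⊥ ∧ Q.under (𝓞 K) = 𝔮 := by
    intro 𝔮 h𝔮 h0
    obtain ⟨Q, hQ1, hQ2⟩ :=
      Ideal.exists_ideal_over_prime_of_isIntegral (S := 𝓞 (CyclotomicField ℓ K)) 𝔮 ⊥ (by simp)
    refine ⟨Q, hQ2.1, ?_, hQ2.2⟩
    rintro rfl
    apply h0
    rw [← hQ2.2]
    exact Ideal.comap_bot_of_injective _
      (FaithfulSMul.algebraMap_injective (𝓞 K) (𝓞 (CyclotomicField ℓ K)))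
  have hmemiff : ∀ Q : Ideal (𝓞 (CyclotomicField ℓ K)),
      (ℓ : 𝓞 (CyclotomicField ℓ K)) ∈ Q ↔ (ℓ : 𝓞 K) ∈ Q.under (𝓞 K) := by
    intro Q
    rw [Ideal.under_def, Ideal.mem_comap, map_natCast]
  refine ⟨RingOfIntegers.norm K ε, s, hb, hs, ?_, ?_⟩
  · intro 𝔮 h𝔮 hℓ𝔮
    by_cases h0 : 𝔮 = ⊥
    · have : Multiset.count 𝔮 (normalizedFactors (Ideal.span {RingOfIntegers.norm K ε})) = 0 := by
        rw [Multiset.count_eq_zero]
        intro hmem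
        have := (prime_of_normalized_factor _ hmem).ne_zero
        exact this h0
      rw [this]
      exact dvd_zero _
    · obtain ⟨Q, hQp, hQ0, hQ𝔮⟩ := key 𝔮 h𝔮 h0
      haveI := hQp
      have hv := th_val_abs Q hQ0 (RingOfIntegers.norm K ε) hb ε (ℓ - 1) hspan
      have hℓQ : (ℓ : 𝓞 (CyclotomicField ℓ K)) ∉ Q := by
        rw [hmemiff, hQ𝔮]; exact hℓ𝔮
      rw [th_ramificationIdx_of_notMem ℓ hℓp Q hQ0 hℓQ, one_mul, hQ𝔮] at hv
      rw [hv]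
      exact Dvd.dvd.mul_right hpℓ _
  · intro 𝔮 h𝔮 hℓ𝔮
    have h0 : 𝔮 ≠ ⊥ := by
      rintro rfl
      rw [Ideal.mem_bot] at hℓ𝔮
      exact hℓ.ne_zero (by exact_mod_cast hℓ𝔮)
    obtain ⟨Q, hQp, hQ0, hQ𝔮⟩ := key 𝔮 h𝔮 h0
    haveI := hQp
    have hv := th_val_abs Q hQ0 (RingOfIntegers.norm K ε) hb ε (ℓ - 1) hspan
    have hℓQ : (ℓ : 𝓞 (CyclotomicField ℓ K)) ∈ Q := by
      rw [hmemiff, hQ𝔮]; exact hℓ𝔮
    rw [th_ramificationIdx_of_mem ℓ hℓp Q hℓQ, hQ𝔮] at hv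
    have hv' := Nat.eq_of_mul_eq_mul_left hℓ1 hv
    rw [hv']
    set r := Multiset.count Q (normalizedFactors (Ideal.span {ε})) with hr
    have hloc := th_loc_abs Q hQ0
      (MulSemiringAction.toRingHom (CyclotomicField ℓ K ≃ₐ[K] CyclotomicField ℓ K)
        (𝓞 (CyclotomicField ℓ K)) g)
      (fun x => the_smul_sub_mem ℓ hℓp Q hℓQ g x)
      (thZetaInt K ℓ - 1) (∑ i ∈ Finset.range s, thZetaInt K ℓ ^ i) s
      (th_count_zeta_sub_one ℓ hℓp Q hℓQ)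
      (the_smul_pi ℓ g s hgs) (the_sum_sub_mem ℓ Q hℓQ s) ε (thXi hζ ℓ) hε0 hε
    rw [← hr] at hloc
    -- descend to `𝔮`
    rw [← hQ𝔮, Ideal.under_def, Ideal.mem_comap]
    have e : algebraMap (𝓞 K) (𝓞 (CyclotomicField ℓ K))
        ((1 - hζ.toInteger) * (s : 𝓞 K) ^ r - 1)
        = (thXi hζ ℓ * (s : 𝓞 (CyclotomicField ℓ K)) ^ r - 1)
          + algebraMap (𝓞 K) (𝓞 (CyclotomicField ℓ K)) hζ.toInteger
            * (s : 𝓞 (CyclotomicField ℓ K)) ^ r * (thZetaInt K ℓ - 1) := by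
      rw [thXi]
      simp only [map_sub, map_mul, map_one, map_pow, map_natCast]
      ring
    rw [e]
    exact Q.add_mem hloc (Q.mul_mem_left _ (th_zeta_sub_one_mem ℓ Q hℓQ))

end Fermat.Agent.S14lib

end
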