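import Mathlib
import Fermat.Agent.S14lib.Defs

/-!
# S14 (item 77), piece C2/T3d: `η` is a `p`-th power modulo `lam`

`NOTES/S14_C2_signatures.lean.txt` (sub-architect helper15).  In `𝓞 K / lam`: `u` = class of `s`
(invertible), `1 - ζ^{c(σ)} = u^{-r(σ)}` with `σ⁻¹ ζ = ζ^{c(σ)}`, `cycUnit b · (1 - ζ) = 1 - ζ^b`,
hence `η = u^{r(1) ∑ m} · u^{-∑ r m}` with both exponents divisible by `p`
(`∑_σ ω(σ)² = 0` for `p ≥ 5`).
-/

set_option autoImplicit false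
set_option linter.unusedSectionVars false

namespace Fermat.Agent.S14lib

open NumberField Fermat.Agent.Kummer.KL
open scoped Pointwise

variable {p : ℕ} [hp : Fact p.Prime]
variable {K : Type*} [Field K] [NumberField K] [IsCyclotomicExtension {p} ℚ K]
variable {ζ : K} (hζ : IsPrimitiveRoot ζ p)

/-- `σ ζ = ζ ^ ω(σ)` in `𝓞 K`. -/
lemma te_smul_toInteger (σ : K ≃ₐ[ℚ] K) :
    σ • hζ.toInteger = hζ.toInteger ^ (omg hζ σ).val := by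
  have : NeZero p := ⟨hp.out.ne_zero⟩
  apply RingOfIntegers.ext
  push_cast
  exact (hζ.autToPow_spec ℚ σ).symm

lemma te_omg_one : omg hζ (1 : K ≃ₐ[ℚ] K) = 1 := by
  simp [omg]

lemma te_omg_inv (σ : K ≃ₐ[ℚ] K) : omg hζ σ⁻¹ = (omg hζ σ)⁻¹ := by
  have : NeZero p := ⟨hp.out.ne_zero⟩
  unfold omg
  rw [map_inv, Units.val_inv_eq_inv_val]

lemma te_omg_ne_zero (σ : K ≃ₐ[ℚ] K) : omg hζ σ ≠ 0 := by
  have : NeZero p := ⟨hp.out.ne_zero⟩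
  simp [omg]

lemma te_omg_injective : Function.Injective (omg hζ : (K ≃ₐ[ℚ] K) → ZMod p) := by
  have : NeZero p := ⟨hp.out.ne_zero⟩
  intro σ τ h
  apply hζ.autToPow_injective ℚ
  exact Units.ext h

lemma te_autToPow_bijective :
    haveI : NeZero p := ⟨hp.out.ne_zero⟩
    Function.Bijective (hζ.autToPow ℚ) := by
  have : NeZero p := ⟨hp.out.ne_zero⟩
  have hinj := hζ.autToPow_injective ℚ
  have hcard : Nat.card (K ≃ₐ[ℚ] K) = Nat.card (ZMod p)ˣ := by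
    have hgal : IsGalois ℚ K := IsCyclotomicExtension.isGalois {p} ℚ K
    rw [IsGalois.card_aut_eq_finrank,
      IsCyclotomicExtension.finrank K (Polynomial.cyclotomic.irreducible_rat hp.out.pos),
      Nat.card_eq_fintype_card, ZMod.card_units_eq_totient]
  rw [Nat.bijective_iff_injective_and_card]
  exact ⟨hinj, hcard⟩

/-- Every nonzero class mod `p` is `ω(σ)` for some `σ`. -/
lemma te_omg_surjective (x : ZMod p) (hx : x ≠ 0) : ∃ σ : K ≃ₐ[ℚ] K, omg hζ σ = x := by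
  have : NeZero p := ⟨hp.out.ne_zero⟩
  obtain ⟨σ, hσ⟩ := (te_autToPow_bijective hζ).2 (Units.mk0 x hx)
  exact ⟨σ, by simp [omg, hσ]⟩

/-- `∑_σ ω(σ)² = 0` for `p ≥ 5`. -/
lemma te_sum_omg_sq (hp5 : 5 ≤ p) : ∑ σ : K ≃ₐ[ℚ] K, omg hζ σ ^ 2 = 0 := by
  classical
  have : NeZero p := ⟨hp.out.ne_zero⟩
  have h1 : ∑ σ : K ≃ₐ[ℚ] K, omg hζ σ ^ 2 = ∑ x : (ZMod p)ˣ, ((x : ZMod p) ^ 2 : ZMod p) :=
    Fintype.sum_bijective (hζ.autToPow ℚ) (te_autToPow_bijective hζ) _ _ (fun σ => rfl)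
  rw [h1, FiniteField.sum_pow_units, if_neg]
  rw [ZMod.card]
  intro h
  have := Nat.le_of_dvd (by norm_num) h
  omega

/-- The exponent `c(σ)` with `σ⁻¹ ζ = ζ ^ c(σ)`. -/
noncomputable def teC (σ : K ≃ₐ[ℚ] K) : ℕ := (omg hζ σ⁻¹).val

lemma teC_mem (σ : K ≃ₐ[ℚ] K) : teC hζ σ ∈ Finset.Ico 1 p := by
  have : NeZero p := ⟨hp.out.ne_zero⟩
  rw [Finset.mem_Ico]
  refine ⟨?_, ZMod.val_lt _⟩
  have := (ZMod.val_pos).mpr (te_omg_ne_zero hζ σ⁻¹)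
  exact this

lemma teC_cast (σ : K ≃ₐ[ℚ] K) : ((teC hζ σ : ℕ) : ZMod p) = (omg hζ σ)⁻¹ := by
  have : NeZero p := ⟨hp.out.ne_zero⟩
  rw [teC, ZMod.natCast_zmod_val, te_omg_inv]

lemma teC_coprime (σ : K ≃ₐ[ℚ] K) : (teC hζ σ).Coprime p := by
  have h := teC_mem hζ σ
  rw [Finset.mem_Ico] at h
  exact ((Nat.Prime.coprime_iff_not_dvd hp.out).mpr (Nat.not_dvd_of_pos_of_lt h.1 h.2)).symm


/-- T3d: the value of `η` modulo `lam` from the values of `1 - ζ^c`. -/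
theorem eta_pth_power_mod (hp5 : 5 ≤ p) (ℓ : ℕ) (_hℓ : ℓ.Prime)
    (lam : Ideal (𝓞 K)) [lam.IsPrime] (hlam : (ℓ : 𝓞 K) ∈ lam) (s : ℕ) (hs : ℓ.Coprime s)
    (r : (K ≃ₐ[ℚ] K) → ℕ)
    (hr : ∀ σ : K ≃ₐ[ℚ] K, (1 - hζ.toInteger) * (s : 𝓞 K) ^ r σ - 1 ∈ σ • lam)
    (hsum : ∑ σ : K ≃ₐ[ℚ] K, omg hζ σ ^ 2 * (r σ : ZMod p) = 0) :
    ∃ y : 𝓞 K, ((eta hζ : (𝓞 K)ˣ) : 𝓞 K) - y ^ p ∈ lam := by
  classical
  have hNZ : NeZero p := ⟨hp.out.ne_zero⟩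
  set q : 𝓞 K →+* 𝓞 K ⧸ lam := Ideal.Quotient.mk lam with hq
  -- `s` is invertible modulo `lam`
  obtain ⟨v, huv⟩ : ∃ v : 𝓞 K ⧸ lam, q (s : 𝓞 K) * v = 1 := by
    have hcop : IsCoprime (ℓ : ℤ) (s : ℤ) := Nat.isCoprime_iff_coprime.mpr hs
    obtain ⟨a, b, hab⟩ := hcop
    have h0 : q (ℓ : 𝓞 K) = 0 := Ideal.Quotient.eq_zero_iff_mem.mpr hlam
    refine ⟨q (b : 𝓞 K), ?_⟩
    have := congrArg (fun z : ℤ => q (z : 𝓞 K)) hab
    simp only [Int.cast_add, Int.cast_mul, Int.cast_natCast, map_add, map_mul, Int.cast_one,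
      map_one] at this
    rw [h0, mul_zero, zero_add] at this
    rw [mul_comm]; exact this
  set u : 𝓞 K ⧸ lam := q (s : 𝓞 K) with hu
  have huvn : ∀ n : ℕ, u ^ n * v ^ n = 1 := fun n => by rw [← mul_pow, huv, one_pow]
  -- Step A
  have hA : ∀ σ : K ≃ₐ[ℚ] K, q (1 - hζ.toInteger ^ teC hζ σ) * u ^ r σ = 1 := by
    intro σ
    have h1 := (Ideal.mem_pointwise_smul_iff_inv_smul_mem).mp (hr σ)
    have h2 : σ⁻¹ • ((1 - hζ.toInteger) * (s : 𝓞 K) ^ r σ - 1) =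
        (1 - hζ.toInteger ^ teC hζ σ) * (s : 𝓞 K) ^ r σ - 1 := by
      rw [smul_sub, smul_mul', smul_sub, smul_pow', smul_one, te_smul_toInteger]
      have : σ⁻¹ • (s : 𝓞 K) = (s : 𝓞 K) := RingOfIntegers.ext (map_natCast σ⁻¹ s)
      rw [this]; rfl
    rw [h2] at h1
    have h3 := Ideal.Quotient.eq_zero_iff_mem.mpr h1
    rw [map_sub, map_mul, map_pow, map_one, sub_eq_zero] at h3
    exact h3
  have hA' : ∀ σ : K ≃ₐ[ℚ] K, q (1 - hζ.toInteger ^ teC hζ σ) = v ^ r σ := by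
    intro σ
    calc q (1 - hζ.toInteger ^ teC hζ σ)
        = q (1 - hζ.toInteger ^ teC hζ σ) * (u ^ r σ * v ^ r σ) := by rw [huvn, mul_one]
      _ = (q (1 - hζ.toInteger ^ teC hζ σ) * u ^ r σ) * v ^ r σ := by ring
      _ = v ^ r σ := by rw [hA σ, one_mul]
  have hc1 : teC hζ (1 : K ≃ₐ[ℚ] K) = 1 := by
    have : Fact (1 < p) := ⟨hp.out.one_lt⟩
    rw [teC, inv_one, te_omg_one, ZMod.val_one]
  have hA1 : q (1 - hζ.toInteger) * u ^ r 1 = 1 := by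
    have := hA 1
    rwa [hc1, pow_one] at this
  -- Step C
  have hC : ∀ σ : K ≃ₐ[ℚ] K, q ((cycUnit hζ (teC hζ σ) : (𝓞 K)ˣ) : 𝓞 K) = u ^ r 1 * v ^ r σ := by
    intro σ
    have hcyc : (1 - hζ.toInteger) * ((cycUnit hζ (teC hζ σ) : (𝓞 K)ˣ) : 𝓞 K) =
        1 - hζ.toInteger ^ teC hζ σ := by
      rw [coe_cycUnit hζ (teC_coprime hζ σ), mul_neg_geom_sum]
    calc q ((cycUnit hζ (teC hζ σ) : (𝓞 K)ˣ) : 𝓞 K)
        = q ((cycUnit hζ (teC hζ σ) : (𝓞 K)ˣ) : 𝓞 K) * (q (1 - hζ.toInteger) * u ^ r 1) := by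
          rw [hA1, mul_one]
      _ = q ((1 - hζ.toInteger) * ((cycUnit hζ (teC hζ σ) : (𝓞 K)ˣ) : 𝓞 K)) * u ^ r 1 := by
          rw [map_mul]; ring
      _ = u ^ r 1 * v ^ r σ := by rw [hcyc, hA' σ, mul_comm]
  -- Step E
  have hE : q ((eta hζ : (𝓞 K)ˣ) : 𝓞 K) =
      ∏ σ : K ≃ₐ[ℚ] K, (u ^ r 1 * v ^ r σ) ^ etaExp p (teC hζ σ) := by
    rw [eta, Units.coe_prod, map_prod]
    symm
    refine Finset.prod_bij (fun σ _ => teC hζ σ) (fun σ _ => teC_mem hζ σ) ?_ ?_ ?_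
    · intro σ _ τ _ h
      have h1 : omg hζ σ⁻¹ = omg hζ τ⁻¹ := ZMod.val_injective p h
      exact inv_injective (te_omg_injective hζ h1)
    · intro b hb
      rw [Finset.mem_Ico] at hb
      have hb0 : (b : ZMod p) ≠ 0 := by
        rw [Ne, ZMod.natCast_eq_zero_iff]
        exact Nat.not_dvd_of_pos_of_lt hb.1 hb.2
      obtain ⟨τ, hτ⟩ := te_omg_surjective hζ (b : ZMod p) hb0
      refine ⟨τ⁻¹, Finset.mem_univ _, ?_⟩
      rw [teC, inv_inv, hτ, ZMod.val_natCast_of_lt hb.2]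
    · intro σ _
      rw [Units.val_pow_eq_pow_val, map_pow, hC σ]
  have hm : ∀ σ : K ≃ₐ[ℚ] K, ((etaExp p (teC hζ σ) : ℕ) : ZMod p) = omg hζ σ ^ 2 := by
    intro σ
    rw [etaExp, ZMod.natCast_zmod_val, teC_cast, inv_inv]
  -- exponent sums
  have hS1 : p ∣ ∑ σ : K ≃ₐ[ℚ] K, etaExp p (teC hζ σ) := by
    rw [← ZMod.natCast_eq_zero_iff]
    push_cast
    rw [Finset.sum_congr rfl (fun σ _ => hm σ)]
    exact te_sum_omg_sq hζ hp5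
  have hS2 : p ∣ ∑ σ : K ≃ₐ[ℚ] K, r σ * etaExp p (teC hζ σ) := by
    rw [← ZMod.natCast_eq_zero_iff]
    push_cast
    rw [← hsum]
    refine Finset.sum_congr rfl (fun σ _ => ?_)
    rw [hm σ, mul_comm]
  obtain ⟨A, hA2⟩ := hS1
  obtain ⟨B, hB2⟩ := hS2
  have hfin : q ((eta hζ : (𝓞 K)ˣ) : 𝓞 K) = ((u ^ r 1) ^ A * v ^ B) ^ p := by
    rw [hE]
    simp_rw [mul_pow, ← pow_mul]
    rw [Finset.prod_mul_distrib, Finset.prod_pow_eq_pow_sum, Finset.prod_pow_eq_pow_sum,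
      ← Finset.mul_sum, hA2, hB2]
    ring
  obtain ⟨y, hy⟩ := Ideal.Quotient.mk_surjective ((u ^ r 1) ^ A * v ^ B)
  refine ⟨y, ?_⟩
  rw [← Ideal.Quotient.eq_zero_iff_mem, map_sub, map_pow, hy]
  rw [sub_eq_zero]
  exact hfin

end Fermat.Agent.S14lib
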