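/-
Item 77 (S14), piece C2 = Thaine's relation (sub-architect helper15), final file:
`thaine`: if `φ(λ) ≠ 0` for a prime `λ` of `K = ℚ(ζ_p)` over a rational prime `ℓ ≡ 1 mod p`, then the
cyclotomic unit `η` is a `p`-th power modulo `λ`.
-/
import Mathlib
import Fermat.Agent.S14lib.ThaineElt
import Fermat.Agent.S14lib.ThaineClass
import Fermat.Agent.S14lib.ThaineEta

set_option autoImplicit false
set_option synthInstance.maxHeartbeats 400000
set_option linter.style.haveILetI false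
set_option linter.unusedSectionVars false
set_option linter.deprecated false

namespace Fermat.Agent.S14lib

open NumberField Fermat.Agent.Kummer.KL UniqueFactorizationMonoid
open scoped Pointwise

variable {p : ℕ} [hp : Fact p.Prime]
variable {K : Type*} [Field K] [NumberField K] [IsCyclotomicExtension {p} ℚ K]
variable {ζ : K} (hζ : IsPrimitiveRoot ζ p)

/-- **C2 (Thaine).** If `φ(λ) ≠ 0` for a prime `λ` of `K` over a rational prime `ℓ ≡ 1 mod p`, then
the cyclotomic unit `η` is a `p`-th power modulo `λ`. -/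
theorem thaine (hp5 : 5 ≤ p) (φ : ClassFun hζ) (ℓ : ℕ) (hℓ : ℓ.Prime) (hℓp : ℓ % p = 1)
    (lam : Ideal (𝓞 K)) [lam.IsPrime] (hlam : (ℓ : 𝓞 K) ∈ lam) (h : φ.toFun lam ≠ 0) :
    ∃ y : 𝓞 K, ((eta hζ : (𝓞 K)ˣ) : 𝓞 K) - y ^ p ∈ lam := by
  obtain ⟨b, s, hb, hs, hb1, hb2⟩ := exists_thaine_elt hζ (by omega) ℓ hℓ hℓp
  have hrel := φ.thaine_relation hζ ℓ hℓ hℓp lam hlam b hb hb1
  have hsum : ∑ σ : K ≃ₐ[ℚ] K, omg hζ σ ^ 2 *
      (Multiset.count (σ • lam) (normalizedFactors (Ideal.span {b})) : ZMod p) = 0 := by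
    rcases mul_eq_zero.mp hrel with h0 | h0
    · exact absurd h0 h
    · exact h0
  refine eta_pth_power_mod hζ hp5 ℓ hℓ lam hlam s hs
    (fun σ => Multiset.count (σ • lam) (normalizedFactors (Ideal.span {b}))) (fun σ => ?_) hsum
  have hmem : (ℓ : 𝓞 K) ∈ σ • lam := by
    have h1 : σ • (ℓ : 𝓞 K) ∈ σ • lam := Ideal.smul_mem_pointwise_smul σ _ _ hlam
    have h2 : σ • (ℓ : 𝓞 K) = (ℓ : 𝓞 K) :=
      RingOfIntegers.ext (map_natCast σ ℓ)
    rwa [h2] at h1
  exact hb2 (σ • lam) inferInstance hmem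

end Fermat.Agent.S14lib
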