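import Mathlib
import Fermat.Agent.S14lib.Defs

/-!
# S14 (item 77), piece P3: the case `p = 3`

For `p = 3` the `ω²`-eigenspace of `K^×/K^{×3}` is the trivial eigenspace (`ω² = 1`):
`σ α = α δ³` for all `σ`, so `N(α) = α² Δ³`.  If moreover `(α) = I³`, the rational number `N(α)` has
absolute value `N(I)³`, so it is a cube, and `α = α³ / α²` is a cube.
-/

set_option autoImplicit false

namespace Fermat.Agent.S14lib

open NumberField Fermat.Agent.Kummer.KL
open scoped Pointwise nonZeroDivisors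

variable {p : ℕ} [hp : Fact p.Prime]
variable {K : Type*} [Field K] [NumberField K] [IsCyclotomicExtension {p} ℚ K]
variable {ζ : K} (hζ : IsPrimitiveRoot ζ p)

omit [IsCyclotomicExtension {p} ℚ K] hp in
/-- If `(α) = I ^ 3` then the norm of `α` is a cube in `ℚ`. -/
lemma three_norm_cube (α : K) (I : FractionalIdeal (𝓞 K)⁰ K)
    (hI : FractionalIdeal.spanSingleton (𝓞 K)⁰ α = I ^ 3) :
    ∃ c : ℚ, Algebra.norm ℚ α = c ^ 3 := by
  have hN : |Algebra.norm ℚ α| = (FractionalIdeal.absNorm I) ^ 3 := by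
    rw [← FractionalIdeal.absNorm_span_singleton (𝓞 K), hI, map_pow]
  rcases abs_choice (Algebra.norm ℚ α) with h | h
  · exact ⟨FractionalIdeal.absNorm I, by rw [← hN, h]⟩
  · refine ⟨-FractionalIdeal.absNorm I, ?_⟩
    rw [h] at hN
    linear_combination (-1 : ℚ) * hN

/-- **P3.** For `p = 3` the `ω²`-eigenspace is the trivial eigenspace: `α` is rational up to cubes,
and `(α) = I³` forces `α` to be a cube. -/
theorem core_three (h3 : p = 3) (α : K) (hα : α ≠ 0) (h1 : IsOmegaSq hζ α)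
    (h2 : IsPthPowerIdeal p α) : ∃ β : K, α = β ^ p := by
  subst h3
  have : IsGalois ℚ K := IsCyclotomicExtension.isGalois {3} ℚ K
  obtain ⟨I, hI⟩ := h2
  obtain ⟨c, hc⟩ := three_norm_cube α I hI
  have hprod : algebraMap ℚ K (Algebra.norm ℚ α) = ∏ σ : K ≃ₐ[ℚ] K, σ α :=
    Algebra.norm_eq_prod_automorphisms ℚ α
  have hσ : ∀ σ : K ≃ₐ[ℚ] K, ∃ δ : K, δ ≠ 0 ∧ σ α = α * δ ^ 3 := by
    intro σ
    obtain ⟨γ, hγ, h⟩ := h1 σ
    have hlt : (omg hζ σ).val < 3 := ZMod.val_lt _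
    have hne : (omg hζ σ).val ≠ 0 := by
      rw [Ne, ZMod.val_eq_zero]
      exact Units.ne_zero _
    have hv : (omg hζ σ).val = 1 ∨ (omg hζ σ).val = 2 := by omega
    rcases hv with hv | hv
    · refine ⟨γ, hγ, ?_⟩
      rw [h, omgSq, hv]; ring
    · refine ⟨α * γ, mul_ne_zero hα hγ, ?_⟩
      rw [h, omgSq, hv]; ring
  choose δ hδ0 hδ using hσ
  have hcard : Fintype.card (K ≃ₐ[ℚ] K) = 2 := by
    rw [← Nat.card_eq_fintype_card, IsGalois.card_aut_eq_finrank,
      IsCyclotomicExtension.finrank (n := 3) K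
        (Polynomial.cyclotomic.irreducible_rat (by norm_num))]
    exact Nat.totient_prime Nat.prime_three
  have key : (algebraMap ℚ K c) ^ 3 = α ^ 2 * (∏ σ : K ≃ₐ[ℚ] K, δ σ) ^ 3 := by
    rw [← map_pow, ← hc, hprod]
    simp_rw [hδ]
    rw [Finset.prod_mul_distrib, Finset.prod_const, Finset.card_univ, hcard, Finset.prod_pow]
  have hΔ : (∏ σ : K ≃ₐ[ℚ] K, δ σ) ≠ 0 := Finset.prod_ne_zero_iff.mpr (fun σ _ => hδ0 σ)
  have hc0 : algebraMap ℚ K c ≠ 0 := by
    intro h0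
    rw [h0, zero_pow (by norm_num)] at key
    exact mul_ne_zero (pow_ne_zero 2 hα) (pow_ne_zero 3 hΔ) key.symm
  refine ⟨α * (∏ σ : K ≃ₐ[ℚ] K, δ σ) / algebraMap ℚ K c, ?_⟩
  rw [div_pow, mul_pow, eq_div_iff (pow_ne_zero 3 hc0), key]
  ring

end Fermat.Agent.S14lib
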