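import Mathlib
import Fermat.Agent.S14lib.Defs

/-!
# S14 (item 77), piece C4a: the cyclotomic unit `η` lies in the `ω²`-eigenspace

`σ η = η ^ (ω(σ)²) · γ ^ p` for every `σ ∈ Gal(K/ℚ)`.  Pure algebra on the cyclotomic units
`ε_a = 1 + ζ + ⋯ + ζ^(a-1)`:  `σ ε_b · ε_s = ε_{sb}` if `σ ζ = ζ^s`, the exponents `m_b ≡ b⁻²`
satisfy `s² m_{sb} ≡ m_b` and `∑_b m_b ≡ 0 mod p` (`p ≥ 5`).
-/

set_option autoImplicit false

namespace Fermat.Agent.S14lib

open NumberField Fermat.Agent.Kummer.KL Finset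
open scoped Pointwise

variable {p : ℕ} [hp : Fact p.Prime]
variable {K : Type*} [Field K] [NumberField K] [IsCyclotomicExtension {p} ℚ K]
variable {ζ : K} (hζ : IsPrimitiveRoot ζ p)

/-- The geometric sum `1 + ζ + ⋯ + ζ^(a-1)` in `K`. -/
noncomputable def etaGeom (ζ : K) (a : ℕ) : K := ∑ i ∈ range a, ζ ^ i

omit [NumberField K] [IsCyclotomicExtension {p} ℚ K] hp in
lemma etaGeom_mul (ζ : K) (a : ℕ) : (ζ - 1) * etaGeom ζ a = ζ ^ a - 1 := by
  rw [etaGeom, mul_comm, geom_sum_mul]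

include hζ in
omit [NumberField K] [IsCyclotomicExtension {p} ℚ K] in
lemma etaGeom_sub_one_ne_zero : ζ - 1 ≠ 0 := by
  intro h
  have h1 : ζ = 1 := sub_eq_zero.mp h
  have := hζ.unique (h1 ▸ IsPrimitiveRoot.one)
  exact hp.out.one_lt.ne' this

include hζ in
omit [NumberField K] [IsCyclotomicExtension {p} ℚ K] in
lemma etaGeom_congr {a b : ℕ} (h : a ≡ b [MOD p]) : etaGeom ζ a = etaGeom ζ b := by
  apply mul_left_cancel₀ (etaGeom_sub_one_ne_zero hζ)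
  rw [etaGeom_mul, etaGeom_mul]
  congr 1
  have ho : orderOf ζ = p := hζ.eq_orderOf.symm
  rw [← pow_mod_orderOf ζ a, ← pow_mod_orderOf ζ b, ho]
  rw [show a % p = b % p from h]

include hζ in
omit [NumberField K] [IsCyclotomicExtension {p} ℚ K] in
lemma etaGeom_ne_zero {a : ℕ} (h : a.Coprime p) : etaGeom ζ a ≠ 0 := by
  intro h0
  have h1 := etaGeom_mul ζ a
  rw [h0, mul_zero] at h1
  have h2 : ζ ^ a = 1 := (sub_eq_zero.mp h1.symm)
  have h3 : p ∣ a := (hζ.pow_eq_one_iff_dvd a).mp h2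
  have h4 : p ∣ 1 := by
    have := Nat.dvd_gcd h3 (dvd_refl p)
    rwa [Nat.Coprime.gcd_eq_one h] at this
  exact hp.out.one_lt.ne' (Nat.dvd_one.mp h4)

lemma etaGeom_coe_cycUnit {a : ℕ} (h : a.Coprime p) :
    (((cycUnit hζ a : (𝓞 K)ˣ) : 𝓞 K) : K) = etaGeom ζ a := by
  have : NeZero p := ⟨hp.out.ne_zero⟩
  rw [coe_cycUnit hζ h, etaGeom]
  push_cast
  rfl

include hζ in
omit [IsCyclotomicExtension {p} ℚ K] in
lemma etaGeom_sigma (σ : K ≃ₐ[ℚ] K) (s : ℕ) (hs : σ ζ = ζ ^ s) (b : ℕ) :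
    σ (etaGeom ζ b) * etaGeom ζ s = etaGeom ζ (s * b) := by
  apply mul_left_cancel₀ (etaGeom_sub_one_ne_zero hζ)
  rw [etaGeom_mul]
  have h1 : σ (etaGeom ζ b) * (ζ ^ s - 1) = ζ ^ (s * b) - 1 := by
    have : σ ((ζ - 1) * etaGeom ζ b) = σ (ζ ^ b - 1) := by rw [etaGeom_mul]
    rw [map_mul, map_sub, map_sub, map_pow, map_one, hs, ← pow_mul] at this
    rw [← this]; ring
  rw [← h1, ← etaGeom_mul ζ s]; ring

omit [Field K] [NumberField K] [IsCyclotomicExtension {p} ℚ K] in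
lemma etaGeom_coprime_of_mem {b : ℕ} (hb : b ∈ Ico 1 p) : b.Coprime p := by
  rw [mem_Ico] at hb
  exact (Nat.coprime_of_lt_prime (by omega) hb.2 hp.out).symm

/-- `η` as an element of `K`. -/
lemma etaGeom_coe_eta :
    (((eta hζ : (𝓞 K)ˣ) : 𝓞 K) : K) = ∏ b ∈ Ico 1 p, etaGeom ζ b ^ etaExp p b := by
  rw [eta, Units.coe_prod]
  push_cast
  refine Finset.prod_congr rfl fun b hb => ?_
  exact congrArg (· ^ etaExp p b) (etaGeom_coe_cycUnit hζ (etaGeom_coprime_of_mem hb))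

/-! ### The exponents -/

omit [Field K] [NumberField K] [IsCyclotomicExtension {p} ℚ K] in
lemma etaExp_cast (b : ℕ) : ((etaExp p b : ℕ) : ZMod p) = ((b : ZMod p))⁻¹ ^ 2 := by
  have : NeZero p := ⟨hp.out.ne_zero⟩
  rw [etaExp, ZMod.natCast_zmod_val]

omit [Field K] [NumberField K] [IsCyclotomicExtension {p} ℚ K] in
lemma etaExp_lt (b : ℕ) : etaExp p b < p := by
  have : NeZero p := ⟨hp.out.ne_zero⟩
  exact ZMod.val_lt _

omit [Field K] [NumberField K] [IsCyclotomicExtension {p} ℚ K] in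
/-- `s² · m_{sb} = m_b + p · t`. -/
lemma etaExp_mul (s : ℕ) (hs : (s : ZMod p) ≠ 0) (b : ℕ) :
    s ^ 2 * etaExp p ((s * b) % p) = etaExp p b + p * ((s ^ 2 * etaExp p ((s * b) % p)) / p) := by
  have : NeZero p := ⟨hp.out.ne_zero⟩
  have h1 : ((s ^ 2 * etaExp p ((s * b) % p) : ℕ) : ZMod p) = ((etaExp p b : ℕ) : ZMod p) := by
    push_cast
    rw [etaExp_cast, etaExp_cast, ZMod.natCast_mod]
    push_cast
    rw [mul_inv, mul_pow, ← mul_assoc, ← mul_pow, mul_inv_cancel₀ hs, one_pow, one_mul]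
  have h2 : (s ^ 2 * etaExp p ((s * b) % p)) % p = etaExp p b := by
    have := (ZMod.natCast_eq_natCast_iff' _ _ p).mp h1
    rw [this, Nat.mod_eq_of_lt (etaExp_lt b)]
  conv_lhs => rw [← Nat.mod_add_div (s ^ 2 * etaExp p ((s * b) % p)) p]
  rw [h2]

omit [Field K] [NumberField K] [IsCyclotomicExtension {p} ℚ K] in
/-- `∑_b m_b ≡ 0 mod p` for `p ≥ 5`. -/
lemma etaExp_sum (hp5 : 5 ≤ p) : p ∣ ∑ b ∈ Ico 1 p, etaExp p b := by
  have : NeZero p := ⟨hp.out.ne_zero⟩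
  rw [← ZMod.natCast_eq_zero_iff]
  push_cast
  simp_rw [etaExp_cast]
  have h0 : ∑ b ∈ range p, ((b : ZMod p))⁻¹ ^ 2 = ∑ b ∈ Ico 1 p, ((b : ZMod p))⁻¹ ^ 2 := by
    rw [Finset.range_eq_Ico, Finset.sum_eq_sum_Ico_succ_bot hp.out.pos]
    simp
  rw [← h0]
  have h1 : ∑ b ∈ range p, ((b : ZMod p))⁻¹ ^ 2 = ∑ x : ZMod p, x⁻¹ ^ 2 := by
    refine Finset.sum_nbij' (fun b => (b : ZMod p)) (fun x => x.val) ?_ ?_ ?_ ?_ ?_
    · intro b _; exact Finset.mem_univ _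
    · intro x _; exact Finset.mem_range.mpr (ZMod.val_lt x)
    · intro b hb; exact ZMod.val_cast_of_lt (Finset.mem_range.mp hb)
    · intro x _; exact ZMod.natCast_zmod_val x
    · intro b _; rfl
  rw [h1]
  have h2 : ∑ x : ZMod p, x⁻¹ ^ 2 = ∑ x : ZMod p, x ^ 2 :=
    Fintype.sum_equiv (Equiv.inv (ZMod p)) _ _ (fun x => by simp)
  rw [h2]
  apply FiniteField.sum_pow_lt_card_sub_one
  rw [ZMod.card]
  omega

/-! ### The eigenvector property -/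

/-- **C4a.** `η` lies in the `ω²`-eigenspace of `E/E^p`. -/
theorem eta_isOmegaSq (hp5 : 5 ≤ p) : IsOmegaSq hζ (((eta hζ : (𝓞 K)ˣ) : 𝓞 K) : K) := by
  intro σ
  have : NeZero p := ⟨hp.out.ne_zero⟩
  set s : ℕ := (omg hζ σ).val with hs_def
  have hσ : σ ζ = ζ ^ s := (hζ.autToPow_spec ℚ σ).symm
  have hs_cast : ((s : ℕ) : ZMod p) = omg hζ σ := ZMod.natCast_zmod_val _
  have hs_ne : ((s : ℕ) : ZMod p) ≠ 0 := by
    rw [hs_cast]; exact Units.ne_zero _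
  have hs_cop : s.Coprime p := by
    rw [Nat.coprime_comm, Nat.Prime.coprime_iff_not_dvd hp.out]
    rwa [← ZMod.natCast_eq_zero_iff]
  have hn : omgSq hζ σ = s ^ 2 := rfl
  -- abbreviations
  set F : ℕ → K := etaGeom ζ with hF
  set m : ℕ → ℕ := etaExp p with hm
  set t : ℕ → ℕ := fun b => (s ^ 2 * m ((s * b) % p)) / p with ht
  have hFne : ∀ b ∈ Ico 1 p, F (s * b) ≠ 0 := fun b hb =>
    etaGeom_ne_zero hζ (Nat.Coprime.mul_left hs_cop (etaGeom_coprime_of_mem hb))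
  obtain ⟨M, hM⟩ := etaExp_sum (p := p) hp5
  -- Step A
  have hA : σ (∏ b ∈ Ico 1 p, F b ^ m b) * F s ^ (∑ b ∈ Ico 1 p, m b) =
      ∏ b ∈ Ico 1 p, F (s * b) ^ m b := by
    rw [map_prod, ← Finset.prod_pow_eq_pow_sum, ← Finset.prod_mul_distrib]
    refine Finset.prod_congr rfl fun b _ => ?_
    rw [map_pow, ← mul_pow, etaGeom_sigma hζ σ s hσ b]
  -- Step B
  have hB : (∏ b ∈ Ico 1 p, F (s * b) ^ m b) * (∏ b ∈ Ico 1 p, F (s * b) ^ t b) ^ p =
      ∏ b ∈ Ico 1 p, F (s * b) ^ (s ^ 2 * m ((s * b) % p)) := by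
    rw [← Finset.prod_pow, ← Finset.prod_mul_distrib]
    refine Finset.prod_congr rfl fun b _ => ?_
    rw [← pow_mul, ← pow_add]
    congr 1
    rw [etaExp_mul s hs_ne b, mul_comm (t b) p]
  -- Step C
  have hC : ∏ b ∈ Ico 1 p, F (s * b) ^ (s ^ 2 * m ((s * b) % p)) =
      (∏ b ∈ Ico 1 p, F b ^ m b) ^ (s ^ 2) := by
    rw [← Finset.prod_pow]
    have hinj : Set.InjOn (fun b => (s * b) % p) (Ico 1 p : Finset ℕ) := by
      intro b hb b' hb' h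
      simp only [Finset.coe_Ico, Set.mem_Ico] at hb hb'
      have h1 : s * b ≡ s * b' [MOD p] := h
      have h2 : b ≡ b' [MOD p] := Nat.ModEq.cancel_left_of_coprime
        (Nat.coprime_comm.mp hs_cop) h1
      have := Nat.ModEq.eq_of_lt_of_lt h2 hb.2 hb'.2
      exact this
    have hmaps : ∀ b ∈ Ico 1 p, (s * b) % p ∈ Ico 1 p := by
      intro b hb
      rw [Finset.mem_Ico]
      refine ⟨?_, Nat.mod_lt _ hp.out.pos⟩
      rw [Nat.one_le_iff_ne_zero]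
      intro h0
      have h1 : p ∣ s * b := Nat.dvd_of_mod_eq_zero h0
      have h2 : (s * b).Coprime p := Nat.Coprime.mul_left hs_cop (etaGeom_coprime_of_mem hb)
      have h3 : p ∣ 1 := by
        have := Nat.dvd_gcd h1 (dvd_refl p)
        rwa [Nat.Coprime.gcd_eq_one h2] at this
      exact hp.out.one_lt.ne' (Nat.dvd_one.mp h3)
    have hsurj : Set.SurjOn (fun b => (s * b) % p) (Ico 1 p : Finset ℕ) (Ico 1 p : Finset ℕ) :=
      Finset.surjOn_of_injOn_of_card_le _ hmaps hinj le_rfl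
    refine Finset.prod_nbij (fun b => (s * b) % p) hmaps hinj hsurj ?_
    intro b _
    rw [← pow_mul, mul_comm (m ((s * b) % p)) (s ^ 2)]
    congr 1
    exact etaGeom_congr hζ (Nat.mod_modEq _ _).symm
  -- assemble
  have hγ₁ : (∏ b ∈ Ico 1 p, F (s * b) ^ t b) ≠ 0 :=
    Finset.prod_ne_zero_iff.mpr fun b hb => pow_ne_zero _ (hFne b hb)
  have hFs : F s ≠ 0 := etaGeom_ne_zero hζ hs_cop
  have hδ : F s ^ M * ∏ b ∈ Ico 1 p, F (s * b) ^ t b ≠ 0 := mul_ne_zero (pow_ne_zero _ hFs) hγ₁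
  refine ⟨(F s ^ M * ∏ b ∈ Ico 1 p, F (s * b) ^ t b)⁻¹, inv_ne_zero hδ, ?_⟩
  rw [etaGeom_coe_eta hζ, hn, ← hC, ← hB, ← hA, hM, inv_pow, mul_pow, ← pow_mul, mul_comm M p]
  field_simp
  rfl

end Fermat.Agent.S14lib
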