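/-
Item 77 (S14), piece C4 main (helper10), part 1: abstract linear algebra.

A lattice `ℤ^r` with an endomorphism `A` which embeds equivariantly (after `⊗ ℝ`) in the
sum-zero hyperplane of a permutation representation `ℝ^P` of a transitive cyclic group, with
`r + 1 = #P`: the characteristic polynomial of `A` times `X - 1` is the characteristic polynomial
of the permutation matrix, and modulo a prime `p` not dividing the order every eigenspace of `A` is
at most one-dimensional.
-/
import Mathlib

set_option autoImplicit false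

namespace Fermat.Agent.S14lib

open Polynomial Matrix Module

/-- The matrix of `f ↦ f ∘ σ` on `P → R`. -/
def ulPerm (R : Type*) [Zero R] [One R] {P : Type*} [DecidableEq P] (σ : Equiv.Perm P) :
    Matrix P P R :=
  Matrix.of fun w w' => if σ w = w' then 1 else 0

theorem ulPerm_apply (R : Type*) [Zero R] [One R] {P : Type*} [DecidableEq P]
    (σ : Equiv.Perm P) (w w' : P) : ulPerm R σ w w' = if σ w = w' then 1 else 0 := rfl

theorem ulPerm_mulVec {R : Type*} [CommRing R] {P : Type*} [Fintype P] [DecidableEq P]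
    (σ : Equiv.Perm P) (f : P → R) (w : P) : (ulPerm R σ *ᵥ f) w = f (σ w) := by
  simp [Matrix.mulVec, dotProduct, ulPerm_apply]

theorem ulPerm_map {R S : Type*} [CommRing R] [CommRing S] (φ : R →+* S) {P : Type*}
    [DecidableEq P] (σ : Equiv.Perm P) : (ulPerm R σ).map φ = ulPerm S σ := by
  ext w w'
  simp only [Matrix.map_apply, ulPerm_apply]
  split_ifs <;> simp

theorem ulPerm_mulVecLin_pow {R : Type*} [CommRing R] {P : Type*} [Fintype P] [DecidableEq P]
    (σ : Equiv.Perm P) (k : ℕ) (f : P → R) (w : P) :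
    (((ulPerm R σ).mulVecLin ^ k) f) w = f ((σ ^ k) w) := by
  induction k generalizing f w with
  | zero => simp
  | succ k ih =>
    rw [pow_succ, Module.End.mul_apply, ih, Matrix.mulVecLin_apply, ulPerm_mulVec, pow_succ',
      Equiv.Perm.mul_apply]

/-- **Lemma A.** -/
theorem ul_charpoly_eq {P : Type*} [Fintype P] [DecidableEq P] {r : ℕ}
    (A : Matrix (Fin r) (Fin r) ℤ) (σ : Equiv.Perm P) (v : Fin r → P → ℝ)
    (h1 : ∀ j w, v j (σ w) = ∑ i, (A i j : ℝ) * v i w)
    (h2 : ∀ j, ∑ w, v j w = 0)
    (h3 : LinearIndependent ℝ v)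
    (h4 : r + 1 = Fintype.card P) :
    (ulPerm ℤ σ).charpoly = A.charpoly * (X - 1) := by
  classical
  -- the family `v` together with the constant function `1`
  let fam : Fin r ⊕ Unit → P → ℝ := Sum.elim v fun _ _ => 1
  have hfam : LinearIndependent ℝ fam := by
    rw [Fintype.linearIndependent_iff]
    intro c hc
    rw [Fintype.sum_sum_type] at hc
    simp only [Sum.elim_inl, Sum.elim_inr, Finset.univ_unique, Finset.sum_singleton, fam] at hc
    -- sum over `w`
    have hw : ∀ w : P, ∑ j, c (Sum.inl j) * v j w + c (Sum.inr default) = 0 := fun w => by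
      have := congrFun hc w
      simpa using this
    have hsum : ∑ w : P, (∑ j, c (Sum.inl j) * v j w + c (Sum.inr default)) = 0 :=
      Finset.sum_eq_zero fun w _ => hw w
    have hzero : ∑ w : P, ∑ j, c (Sum.inl j) * v j w = 0 := by
      rw [Finset.sum_comm]
      refine Finset.sum_eq_zero fun j _ => ?_
      rw [← Finset.mul_sum, h2, mul_zero]
    rw [Finset.sum_add_distrib, hzero, zero_add, Finset.sum_const, Finset.card_univ,
      nsmul_eq_mul] at hsum
    have hP : (Fintype.card P : ℝ) ≠ 0 := by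
      rw [← h4]; positivity
    have hu : c (Sum.inr default) = 0 := by
      rcases mul_eq_zero.mp hsum with h | h
      · exact absurd h hP
      · exact h
    rw [hu, zero_smul, add_zero] at hc
    have hv := (Fintype.linearIndependent_iff.mp h3) (fun j => c (Sum.inl j)) hc
    rintro (j | u)
    · exact hv j
    · rw [show u = default from rfl]; exact hu
  have hcard : Fintype.card (Fin r ⊕ Unit) = finrank ℝ (P → ℝ) := by
    rw [Fintype.card_sum, Fintype.card_fin, Fintype.card_unit, Module.finrank_fintype_fun_eq_card,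
      h4]
  let B : Basis (Fin r ⊕ Unit) ℝ (P → ℝ) := basisOfLinearIndependentOfCardEqFinrank hfam hcard
  have hB : ∀ i, B i = fam i := fun i => by
    simp [B]
  let Mx : Matrix (Fin r ⊕ Unit) (Fin r ⊕ Unit) ℝ :=
    Matrix.fromBlocks (A.map (Int.castRingHom ℝ)) 0 0 1
  have hlin : (ulPerm ℝ σ).mulVecLin = Matrix.toLin B B Mx := by
    refine B.ext fun i => ?_
    rw [Matrix.toLin_self, Fintype.sum_sum_type]
    simp only [Finset.univ_unique, Finset.sum_singleton, hB]
    rcases i with j | u
    · ext w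
      simp only [Matrix.mulVecLin_apply, ulPerm_mulVec, Sum.elim_inl, Sum.elim_inr, fam, Mx,
        Matrix.fromBlocks_apply₁₁, Matrix.fromBlocks_apply₂₁, Matrix.zero_apply, zero_smul,
        add_zero, Matrix.map_apply, Int.coe_castRingHom, Finset.sum_apply, Pi.smul_apply,
        smul_eq_mul]
      exact h1 j w
    · ext w
      simp only [Matrix.mulVecLin_apply, ulPerm_mulVec, Sum.elim_inl, Sum.elim_inr, fam, Mx,
        Matrix.fromBlocks_apply₁₂, Matrix.fromBlocks_apply₂₂, Matrix.zero_apply, zero_smul,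
        Finset.sum_const_zero, zero_add, Matrix.one_apply_eq, one_smul]
  have hchar : (ulPerm ℝ σ).charpoly =
      (A.charpoly * (X - 1)).map (Int.castRingHom ℝ) := by
    rw [← Matrix.charpoly_mulVecLin, hlin, Matrix.charpoly_toLin, Matrix.charpoly_fromBlocks_zero₁₂,
      Matrix.charpoly_map, Matrix.charpoly_one, Fintype.card_unit, pow_one, Polynomial.map_mul,
      Polynomial.map_sub, Polynomial.map_X, Polynomial.map_one]
  apply Polynomial.map_injective (Int.castRingHom ℝ) Int.cast_injective
  rw [← hchar, ← Matrix.charpoly_map, ulPerm_map]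

/-- **Lemma B.** The permutation representation of a transitive cyclic group over a field in which
the order is invertible is multiplicity free. -/
theorem ul_rootMultiplicity_le {F : Type*} [Field F] {P : Type*} [Fintype P] [DecidableEq P]
    (σ : Equiv.Perm P) (htrans : ∀ w w' : P, ∃ k : ℕ, (σ ^ k) w = w') (N : ℕ) (hN : σ ^ N = 1)
    (hNF : (N : F) ≠ 0) (μ : F) : (ulPerm F σ).charpoly.rootMultiplicity μ ≤ 1 := by
  classical
  set φ : Module.End F (P → F) := (ulPerm F σ).mulVecLin with hφ
  have hpow : φ ^ N = 1 := by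
    ext f w
    rw [hφ]
    simp only [LinearMap.coe_comp, LinearMap.coe_single, Function.comp_apply]
    rw [ulPerm_mulVecLin_pow, hN]
    simp
  have hss : φ.IsSemisimple := by
    have hsq : Squarefree (X ^ N - C (1 : F)) :=
      (Polynomial.separable_X_pow_sub_C (1 : F) hNF one_ne_zero).squarefree
    refine Module.End.isSemisimple_of_squarefree_aeval_eq_zero hsq ?_
    simp [hpow]
  rw [← Matrix.charpoly_mulVecLin, ← LinearMap.finrank_maxGenEigenspace_eq,
    hss.isFinitelySemisimple.maxGenEigenspace_eq_eigenspace]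
  rcases isEmpty_or_nonempty P with hP | ⟨⟨w₀⟩⟩
  · have : Subsingleton (P → F) := inferInstance
    have h0 : finrank F (φ.eigenspace μ) = 0 := finrank_zero_of_subsingleton
    omega
  · -- evaluation at `w₀` is injective on the eigenspace
    let ev : φ.eigenspace μ →ₗ[F] F := (LinearMap.proj w₀).comp (φ.eigenspace μ).subtype
    have hinj : Function.Injective ev := by
      rw [← LinearMap.ker_eq_bot, LinearMap.ker_eq_bot']
      rintro ⟨f, hf⟩ hf0
      have hf' : φ f = μ • f := Module.End.mem_eigenspace_iff.mp hf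
      have hf0' : f w₀ = 0 := hf0
      have hk : ∀ k : ℕ, ∀ w, f ((σ ^ k) w) = μ ^ k * f w := by
        intro k
        induction k with
        | zero => intro w; simp
        | succ k ih =>
          intro w
          have := congrFun hf' ((σ ^ k) w)
          rw [hφ, Matrix.mulVecLin_apply, ulPerm_mulVec, Pi.smul_apply, smul_eq_mul, ih] at this
          rw [pow_succ', Equiv.Perm.mul_apply, this, pow_succ]
          ring
      apply Subtype.ext
      funext w
      obtain ⟨k, rfl⟩ := htrans w₀ w
      show f ((σ ^ k) w₀) = 0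
      rw [hk, hf0', mul_zero]
    have := LinearMap.finrank_le_finrank_of_injective hinj
    rwa [finrank_self] at this

/-- **Lemma C.** Modulo `p` the eigenspaces of `A` are at most one-dimensional. -/
theorem ul_eigen_unique (p : ℕ) [Fact p.Prime] {P : Type*} [Fintype P] [DecidableEq P] {r : ℕ}
    (A : Matrix (Fin r) (Fin r) ℤ) (σ : Equiv.Perm P) (v : Fin r → P → ℝ)
    (h1 : ∀ j w, v j (σ w) = ∑ i, (A i j : ℝ) * v i w)
    (h2 : ∀ j, ∑ w, v j w = 0)
    (h3 : LinearIndependent ℝ v)
    (h4 : r + 1 = Fintype.card P)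
    (htrans : ∀ w w' : P, ∃ k : ℕ, (σ ^ k) w = w') (N : ℕ) (hN : σ ^ N = 1) (hNp : ¬ p ∣ N)
    (μ : ZMod p) (x y : Fin r → ZMod p)
    (hx : (A.map (Int.castRingHom (ZMod p))) *ᵥ x = μ • x)
    (hy : (A.map (Int.castRingHom (ZMod p))) *ᵥ y = μ • y) (hx0 : x ≠ 0) :
    ∃ c : ZMod p, y = c • x := by
  classical
  set ψ : Module.End (ZMod p) (Fin r → ZMod p) :=
    (A.map (Int.castRingHom (ZMod p))).mulVecLin with hψ
  have hNF : (N : ZMod p) ≠ 0 := by
    rwa [Ne, ZMod.natCast_eq_zero_iff]
  have hchar : (ulPerm (ZMod p) σ).charpoly = ψ.charpoly * (X - 1) := by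
    rw [hψ, Matrix.charpoly_mulVecLin, Matrix.charpoly_map, ← ulPerm_map (Int.castRingHom (ZMod p)),
      Matrix.charpoly_map, ul_charpoly_eq A σ v h1 h2 h3 h4, Polynomial.map_mul,
      Polynomial.map_sub, Polynomial.map_X, Polynomial.map_one]
  have hX1 : (X - 1 : (ZMod p)[X]) ≠ 0 := by
    have := Polynomial.X_sub_C_ne_zero (1 : ZMod p)
    simpa using this
  have hne : ψ.charpoly * (X - 1 : (ZMod p)[X]) ≠ 0 :=
    mul_ne_zero ψ.charpoly_monic.ne_zero hX1
  have hmult : ψ.charpoly.rootMultiplicity μ ≤ 1 := by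
    have h := ul_rootMultiplicity_le (F := ZMod p) σ htrans N hN hNF μ
    rw [hchar, Polynomial.rootMultiplicity_mul hne] at h
    omega
  have hfin : finrank (ZMod p) (ψ.eigenspace μ) ≤ 1 :=
    (LinearMap.finrank_eigenspace_le ψ μ).trans hmult
  have hxe : x ∈ ψ.eigenspace μ := Module.End.mem_eigenspace_iff.mpr hx
  have hye : y ∈ ψ.eigenspace μ := Module.End.mem_eigenspace_iff.mpr hy
  obtain ⟨⟨z, hz⟩, hzspan⟩ := finrank_le_one_iff.mp hfin
  obtain ⟨a, ha⟩ := hzspan ⟨x, hxe⟩
  obtain ⟨b, hb⟩ := hzspan ⟨y, hye⟩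
  have ha' : a • z = x := congrArg Subtype.val ha
  have hb' : b • z = y := congrArg Subtype.val hb
  have ha0 : a ≠ 0 := by
    rintro rfl
    exact hx0 (by rw [← ha', zero_smul])
  refine ⟨b * a⁻¹, ?_⟩
  rw [← hb', ← ha', smul_smul, mul_assoc, inv_mul_cancel₀ ha0, mul_one]

end Fermat.Agent.S14lib
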