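/-
Item 77 (S14), piece C4 main (helper10), part 2: the Galois action on the units modulo torsion and
the equivariant logarithmic embedding in the permutation representation on the infinite places.
Result: `ug_eigen`: modulo `p`, the eigenspaces of a generator `g` of a cyclic Galois group of order
prime to `p` on `E / (torsion · E^p)` are at most one-dimensional.
-/
import Mathlib
import Fermat.Agent.S14lib.UnitsLin

set_option autoImplicit false
set_option maxSynthPendingDepth 3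

namespace Fermat.Agent.S14lib

open NumberField NumberField.Units NumberField.InfinitePlace Module Matrix
open NumberField.Units.dirichletUnitTheorem

noncomputable section

variable {K : Type*} [Field K] [NumberField K]

/-- the action of `g` on the units -/
def ugAct (g : K ≃ₐ[ℚ] K) : (𝓞 K)ˣ →* (𝓞 K)ˣ :=
  Units.map (MulSemiringAction.toRingHom (K ≃ₐ[ℚ] K) (𝓞 K) g : 𝓞 K →* 𝓞 K)

theorem coe_ugAct (g : K ≃ₐ[ℚ] K) (u : (𝓞 K)ˣ) :
    algebraMap (𝓞 K) K ((ugAct g u : (𝓞 K)ˣ) : 𝓞 K) = g (algebraMap (𝓞 K) K (u : 𝓞 K)) := rfl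

theorem ugAct_mem_torsion (g : K ≃ₐ[ℚ] K) {u : (𝓞 K)ˣ} (hu : u ∈ torsion K) :
    ugAct g u ∈ torsion K := by
  rw [torsion, CommGroup.mem_torsion] at hu ⊢
  exact (ugAct g).isOfFinOrder hu

/-- units modulo torsion, additively -/
abbrev UgM (K : Type*) [Field K] [NumberField K] : Type _ :=
  Additive ((𝓞 K)ˣ ⧸ (torsion K))

/-- the class of a unit -/
def ugMk (u : (𝓞 K)ˣ) : UgM K := Additive.ofMul (QuotientGroup.mk u)

theorem ugMk_mul (u v : (𝓞 K)ˣ) : ugMk (u * v) = ugMk u + ugMk v := rfl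

theorem ugMk_pow (u : (𝓞 K)ˣ) (n : ℕ) : ugMk (u ^ n) = n • ugMk u := rfl

theorem ugMk_surjective (m : UgM K) : ∃ u : (𝓞 K)ˣ, ugMk u = m := by
  obtain ⟨u, hu⟩ := QuotientGroup.mk_surjective (s := torsion K) (Additive.toMul m)
  exact ⟨u, by rw [ugMk, hu]; rfl⟩

theorem ugMk_eq_zero_iff (u : (𝓞 K)ˣ) : ugMk u = 0 ↔ u ∈ torsion K := by
  rw [ugMk, ← ofMul_one, Additive.ofMul.apply_eq_iff_eq, QuotientGroup.eq_one_iff]

/-- the action of `g` on the units modulo torsion -/
def ugLin (g : K ≃ₐ[ℚ] K) : UgM K →ₗ[ℤ] UgM K :=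
  (MonoidHom.toAdditive (QuotientGroup.map (torsion K) (torsion K) (ugAct g)
    (fun _ hu => ugAct_mem_torsion g hu))).toIntLinearMap

theorem ugLin_mk (g : K ≃ₐ[ℚ] K) (u : (𝓞 K)ˣ) : ugLin g (ugMk u) = ugMk (ugAct g u) := rfl

/-- the logarithmic map to the functions on all infinite places -/
def ugLogAdd : Additive (𝓞 K)ˣ →+ (InfinitePlace K → ℝ) where
  toFun x w := mult w * Real.log (w (x.toMul : K))
  map_zero' := by simp; rfl
  map_add' _ _ := by simp [Real.log_mul, mul_add]; rfl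

theorem ugLogAdd_apply (u : (𝓞 K)ˣ) (w : InfinitePlace K) :
    ugLogAdd (Additive.ofMul u) w = mult w * Real.log (w (u : K)) := rfl

/-- the logarithmic map on the units modulo torsion -/
def ugLog : UgM K →+ (InfinitePlace K → ℝ) :=
  MonoidHom.toAdditiveLeft <|
    QuotientGroup.lift (torsion K) (AddMonoidHom.toMultiplicativeRight ugLogAdd) (by
      intro u hu
      rw [MonoidHom.mem_ker, AddMonoidHom.toMultiplicativeRight_apply_apply, ofAdd_eq_one]
      ext w
      rw [ugLogAdd_apply, (mem_torsion K).mp hu w, Real.log_one, mul_zero]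
      rfl)

theorem ugLog_mk (u : (𝓞 K)ˣ) (w : InfinitePlace K) :
    ugLog (ugMk u) w = mult w * Real.log (w (u : K)) := rfl

theorem ug_mult_smul (g : K ≃ₐ[ℚ] K) (w : InfinitePlace K) : mult (g • w) = mult w := by
  have h : IsReal (g • w) ↔ IsReal w := isReal_smul_iff
  unfold mult
  by_cases hw : IsReal w
  · rw [if_pos hw, if_pos (h.mpr hw)]
  · rw [if_neg hw, if_neg (fun h' => hw (h.mp h'))]

/-- the permutation of the infinite places induced by `g⁻¹` -/
def ugPerm (g : K ≃ₐ[ℚ] K) : Equiv.Perm (InfinitePlace K) := MulAction.toPerm g⁻¹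

theorem ugPerm_apply (g : K ≃ₐ[ℚ] K) (w : InfinitePlace K) : ugPerm g w = g⁻¹ • w := rfl

theorem ugPerm_pow (g : K ≃ₐ[ℚ] K) (k : ℕ) : ugPerm g ^ k = MulAction.toPerm (g⁻¹ ^ k) :=
  ((MulAction.toPermHom (K ≃ₐ[ℚ] K) (InfinitePlace K)).map_pow g⁻¹ k).symm

theorem ugLog_equivariant (g : K ≃ₐ[ℚ] K) (m : UgM K) (w : InfinitePlace K) :
    ugLog (ugLin g m) w = ugLog m (ugPerm g w) := by
  obtain ⟨u, rfl⟩ := ugMk_surjective m
  rw [ugLin_mk, ugLog_mk, ugLog_mk, ugPerm_apply, ug_mult_smul, coe_ugAct,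
    InfinitePlace.smul_apply]
  rfl

theorem ugLog_sum (m : UgM K) : ∑ w, ugLog m w = 0 := by
  obtain ⟨u, rfl⟩ := ugMk_surjective m
  simp only [ugLog_mk]
  exact sum_mult_mul_log u

theorem ugLog_linearIndependent :
    LinearIndependent ℝ (fun j => ugLog (basisModTorsion K j)) := by
  classical
  let ρ : (InfinitePlace K → ℝ) →ₗ[ℝ] logSpace K := LinearMap.funLeft ℝ ℝ Subtype.val
  refine LinearIndependent.of_comp ρ ?_
  have h : (ρ ∘ fun j => ugLog (basisModTorsion K j)) =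
      ⇑((basisUnitLattice K).ofZLatticeBasis ℝ (unitLattice K)) := by
    funext j
    rw [Basis.ofZLatticeBasis_apply, ← logEmbedding_fundSystem, Function.comp_apply,
      ← fundSystem_mk]
    rfl
  rw [h]
  exact Basis.linearIndependent _

theorem ug_rank_add_one : Units.rank K + 1 = Fintype.card (InfinitePlace K) := by
  have : 0 < Fintype.card (InfinitePlace K) := Fintype.card_pos
  rw [Units.rank]
  omega

/-- the matrix of `g` on the units modulo torsion -/
def ugMat (g : K ≃ₐ[ℚ] K) : Matrix (Fin (Units.rank K)) (Fin (Units.rank K)) ℤ :=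
  LinearMap.toMatrix (basisModTorsion K) (basisModTorsion K) (ugLin g)

theorem ug_h1 (g : K ≃ₐ[ℚ] K) (j : Fin (Units.rank K)) (w : InfinitePlace K) :
    ugLog (basisModTorsion K j) (ugPerm g w) =
      ∑ i, (ugMat g i j : ℝ) * ugLog (basisModTorsion K i) w := by
  rw [← ugLog_equivariant, ← (basisModTorsion K).sum_repr (ugLin g (basisModTorsion K j)),
    map_sum, Finset.sum_apply]
  refine Finset.sum_congr rfl fun i _ => ?_
  rw [map_zsmul, Pi.smul_apply, zsmul_eq_mul, ugMat, LinearMap.toMatrix_apply]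

theorem ug_trans [IsGalois ℚ K] (g : K ≃ₐ[ℚ] K)
    (hgen : ∀ τ : K ≃ₐ[ℚ] K, τ ∈ Subgroup.zpowers g) (w w' : InfinitePlace K) :
    ∃ k : ℕ, (ugPerm g ^ k) w = w' := by
  obtain ⟨τ, hτ⟩ := exists_smul_eq_of_comap_eq (k := ℚ) (w := w) (w' := w')
    (Subsingleton.elim _ _)
  have hτ' : τ ∈ Subgroup.zpowers g⁻¹ := by
    rw [Subgroup.zpowers_inv]
    exact hgen τ
  rw [← mem_powers_iff_mem_zpowers] at hτ'
  obtain ⟨k, hk⟩ := hτ'
  have hk' : g⁻¹ ^ k = τ := hk
  refine ⟨k, ?_⟩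
  rw [ugPerm_pow, MulAction.toPerm_apply, hk', hτ]

theorem ug_pow_card (g : K ≃ₐ[ℚ] K) : ugPerm g ^ (Nat.card (K ≃ₐ[ℚ] K)) = 1 := by
  rw [ugPerm_pow, pow_card_eq_one']
  exact map_one (MulAction.toPermHom (K ≃ₐ[ℚ] K) (InfinitePlace K))

/-- coordinates of an element of `UgM K` modulo `p` -/
def ugCoord (p : ℕ) (m : UgM K) : Fin (Units.rank K) → ZMod p :=
  fun i => (((basisModTorsion K).repr m i : ℤ) : ZMod p)

theorem ugCoord_add (p : ℕ) (m m' : UgM K) : ugCoord p (m + m') = ugCoord p m + ugCoord p m' := by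
  funext i
  simp [ugCoord]

theorem ugCoord_sub (p : ℕ) (m m' : UgM K) : ugCoord p (m - m') = ugCoord p m - ugCoord p m' := by
  funext i
  simp [ugCoord]

theorem ugCoord_nsmul (p : ℕ) (n : ℕ) (m : UgM K) :
    ugCoord p (n • m) = (n : ZMod p) • ugCoord p m := by
  funext i
  simp [ugCoord]

theorem ugCoord_p_smul (p : ℕ) (m : UgM K) : ugCoord p (p • m) = 0 := by
  rw [ugCoord_nsmul, ZMod.natCast_self, zero_smul]

theorem ugCoord_eq_zero_iff (p : ℕ) (m : UgM K) : ugCoord p m = 0 ↔ ∃ z : UgM K, m = p • z := by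
  constructor
  · intro h
    have hdiv : ∀ i, (p : ℤ) ∣ (basisModTorsion K).repr m i := fun i => by
      have := congrFun h i
      simpa [ugCoord, ZMod.intCast_zmod_eq_zero_iff_dvd] using this
    choose c hc using hdiv
    refine ⟨∑ i, c i • basisModTorsion K i, ?_⟩
    conv_lhs => rw [← (basisModTorsion K).sum_repr m]
    rw [Finset.smul_sum]
    refine Finset.sum_congr rfl fun i _ => ?_
    rw [hc i, mul_smul]
    simp
  · rintro ⟨z, rfl⟩
    exact ugCoord_p_smul p z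

theorem ugCoord_ugLin (p : ℕ) (g : K ≃ₐ[ℚ] K) (m : UgM K) :
    ugCoord p (ugLin g m) = ((ugMat g).map (Int.castRingHom (ZMod p))) *ᵥ ugCoord p m := by
  have h := LinearMap.toMatrix_mulVec_repr (basisModTorsion K) (basisModTorsion K) (ugLin g) m
  funext i
  have hi := congrFun h i
  simp only [ugCoord, Matrix.mulVec, dotProduct, Matrix.map_apply, Int.coe_castRingHom]
  rw [← hi]
  simp [Matrix.mulVec, dotProduct, ugMat]

/-- **Eigenspaces modulo `p`.** -/
theorem ug_eigen (p : ℕ) [Fact p.Prime] [IsGalois ℚ K] (g : K ≃ₐ[ℚ] K)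
    (hgen : ∀ τ : K ≃ₐ[ℚ] K, τ ∈ Subgroup.zpowers g) (hp : ¬ p ∣ Nat.card (K ≃ₐ[ℚ] K))
    (n : ℕ) (x y : UgM K)
    (hx : ∃ z : UgM K, ugLin g x = n • x + p • z) (hy : ∃ z : UgM K, ugLin g y = n • y + p • z)
    (hx0 : ¬ ∃ z : UgM K, x = p • z) :
    ∃ (k : ℕ) (z : UgM K), y = k • x + p • z := by
  classical
  have hxe : ((ugMat g).map (Int.castRingHom (ZMod p))) *ᵥ ugCoord p x =
      (n : ZMod p) • ugCoord p x := by
    obtain ⟨z, hz⟩ := hx
    rw [← ugCoord_ugLin, hz, ugCoord_add, ugCoord_nsmul, ugCoord_p_smul, add_zero]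
  have hye : ((ugMat g).map (Int.castRingHom (ZMod p))) *ᵥ ugCoord p y =
      (n : ZMod p) • ugCoord p y := by
    obtain ⟨z, hz⟩ := hy
    rw [← ugCoord_ugLin, hz, ugCoord_add, ugCoord_nsmul, ugCoord_p_smul, add_zero]
  have hx0' : ugCoord p x ≠ 0 := fun h => hx0 ((ugCoord_eq_zero_iff p x).mp h)
  obtain ⟨c, hc⟩ := ul_eigen_unique p (ugMat g) (ugPerm g)
    (fun j => ugLog (basisModTorsion K j)) (ug_h1 g) (fun j => ugLog_sum _)
    ugLog_linearIndependent ug_rank_add_one (ug_trans g hgen) _ (ug_pow_card g) hp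
    (n : ZMod p) (ugCoord p x) (ugCoord p y) hxe hye hx0'
  -- `y - c.val • x` has coordinates divisible by `p`
  have hp0 : NeZero p := ⟨(Fact.out : p.Prime).ne_zero⟩
  have h0 : ugCoord p (y - c.val • x) = 0 := by
    rw [ugCoord_sub, ugCoord_nsmul, hc, ZMod.natCast_zmod_val, sub_self]
  obtain ⟨z, hz⟩ := (ugCoord_eq_zero_iff p _).mp h0
  exact ⟨c.val, z, by rw [← hz]; abel⟩

end

end Fermat.Agent.S14lib
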