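/-
Item 77 (S14), piece C4 main (helper10), part 3: the `ω²`-eigenspace of `E / E^p` is generated by
the cyclotomic unit `η` (`unit_eq_eta_pow`).

`UnitsLin.lean`: abstract linear algebra; `UnitsGal.lean`: Dirichlet's unit theorem with the Galois
action (`ug_eigen`).  Here: the cyclotomic field, the torsion step and the final statement.
Inputs: `eta_isOmegaSq` (C4a, helper22, `EtaEigen.lean`) and `dlog_eta_pow` (C3a, helper27,
`Local.lean`).
-/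
import Mathlib
import Fermat.Agent.S14lib.Defs
import Fermat.Agent.S14lib.Core
import Fermat.Agent.S14lib.UnitsGal

set_option autoImplicit false
set_option maxSynthPendingDepth 3

namespace Fermat.Agent.S14lib

open NumberField NumberField.Units Fermat.Agent.Kummer.KL

variable {p : ℕ} [hp : Fact p.Prime]
variable {K : Type*} [Field K] [NumberField K] [IsCyclotomicExtension {p} ℚ K]
variable {ζ : K} (hζ : IsPrimitiveRoot ζ p)

omit [NumberField K] [IsCyclotomicExtension {p} ℚ K] in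
/-- the coercion of `ugAct` to `K` -/
theorem un_coe_ugAct [NumberField K] (g : K ≃ₐ[ℚ] K) (u : (𝓞 K)ˣ) :
    ((ugAct g u : (𝓞 K)ˣ) : K) = g (u : K) := rfl

omit [NumberField K] [IsCyclotomicExtension {p} ℚ K] in
theorem un_ext {u v : (𝓞 K)ˣ} (h : (u : K) = (v : K)) : u = v := Units.coe_injective K h

theorem un_cg1 {G : Type*} [CommGroup G] (a b c d : G) (n k q : ℕ) :
    (a ^ n * c ^ q) * ((b ^ n * d ^ q) ^ k)⁻¹ = (a * (b ^ k)⁻¹) ^ n * (c * (d ^ k)⁻¹) ^ q := by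
  apply Additive.ofMul.injective
  simp only [ofMul_mul, ofMul_pow, ofMul_inv]
  module

theorem un_cg2 {G : Type*} [CommGroup G] (x y z e₀ e : G) (j n q : ℕ)
    (hx2 : x ^ 2 = z ^ j * (e₀ ^ 2) ^ q) (he : y = x ^ n * e ^ q) :
    y ^ 2 = z ^ (j * n) * ((e₀ ^ 2) ^ n * e ^ 2) ^ q := by
  subst he
  have h : (x ^ n * e ^ q) ^ 2 = (x ^ 2) ^ n * (e ^ 2) ^ q := by
    apply Additive.ofMul.injective
    simp only [ofMul_mul, ofMul_pow, ofMul_inv]
    module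
  rw [h, hx2]
  apply Additive.ofMul.injective
  simp only [ofMul_mul, ofMul_pow, ofMul_inv]
  module

include hζ in
/-- a unit of finite order is a `2p`-th root of unity -/
theorem un_pow_two_mul (hodd : Odd p) (τ : (𝓞 K)ˣ) (hτ : IsOfFinOrder τ) : τ ^ (2 * p) = 1 := by
  have h1 : IsOfFinOrder (τ : K) :=
    ((algebraMap (𝓞 K) K).toMonoidHom.comp (Units.coeHom (𝓞 K))).isOfFinOrder hτ
  obtain ⟨r, hr⟩ := hζ.exists_neg_pow_of_isOfFinOrder hodd h1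
  have h2 : (-ζ) ^ (2 * p) = 1 := by
    rw [pow_mul, neg_sq, ← pow_mul, mul_comm, pow_mul, hζ.pow_eq_one, one_pow]
  apply un_ext
  rw [Units.coe_pow, Units.coe_one]
  show ((algebraMap (𝓞 K) K) (τ : 𝓞 K)) ^ (2 * p) = 1
  rw [hr, ← pow_mul, mul_comm, pow_mul, h2, one_pow]

/-- the action on `ζ` -/
theorem un_ugAct_zetaUnit (g : K ≃ₐ[ℚ] K) :
    ugAct g (zetaUnit hζ) = zetaUnit hζ ^ (omg hζ g).val := by
  haveI : NeZero p := ⟨hp.out.ne_zero⟩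
  apply un_ext
  rw [un_coe_ugAct, Units.coe_pow]
  exact (hζ.autToPow_spec ℚ g).symm

theorem un_zetaUnit_isPrimitiveRoot : IsPrimitiveRoot (zetaUnit hζ) p := by
  rw [← IsPrimitiveRoot.coe_coe_iff (K := K)]
  exact hζ

/-- from `IsOmegaSq` to the units -/
theorem un_act_of_isOmegaSq (x : (𝓞 K)ˣ) (h : IsOmegaSq hζ ((x : 𝓞 K) : K)) (g : K ≃ₐ[ℚ] K) :
    ∃ e : (𝓞 K)ˣ, ugAct g x = x ^ omgSq hζ g * e ^ p := by
  obtain ⟨γ, -, hγ⟩ := h g
  have h1 : ((ugAct g x * (x ^ omgSq hζ g)⁻¹ : (𝓞 K)ˣ) : K) = γ ^ p := by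
    have h2 : ((ugAct g x * (x ^ omgSq hζ g)⁻¹ : (𝓞 K)ˣ) : K) * ((x ^ omgSq hζ g : (𝓞 K)ˣ) : K) =
        ((ugAct g x : (𝓞 K)ˣ) : K) := by
      rw [← Units.coe_mul, inv_mul_cancel_right]
    have h3 : ((x ^ omgSq hζ g : (𝓞 K)ˣ) : K) ≠ 0 := Units.coe_ne_zero _
    rw [un_coe_ugAct, Units.coe_pow] at h2
    rw [Units.coe_pow] at h3
    have h4 : g (x : K) = (x : K) ^ omgSq hζ g * γ ^ p := hγ
    rw [h4] at h2
    exact mul_right_cancel₀ h3 (by rw [h2]; ring)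
  obtain ⟨e, he⟩ := core_unit_pow_of_field_pow _ γ h1
  exact ⟨e, by rw [← he, mul_comm, inv_mul_cancel_right]⟩

include hζ in
/-- **Torsion step.** An element of `torsion · E^p` in the `ω²`-eigenspace is a `p`-th power. -/
theorem un_torsion_step (hp3 : 3 ≤ p) (g : K ≃ₐ[ℚ] K) (hg : omg hζ g ≠ 1)
    (x τ e₀ : (𝓞 K)ˣ) (hτ : τ ∈ torsion K) (hx : x = τ * e₀ ^ p)
    (hgx : ∃ e : (𝓞 K)ˣ, ugAct g x = x ^ omgSq hζ g * e ^ p) :
    ∃ e' : (𝓞 K)ˣ, x = e' ^ p := by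
  haveI : NeZero p := ⟨hp.out.ne_zero⟩
  have hodd : Odd p := hp.out.odd_of_ne_two (by omega)
  obtain ⟨e, he⟩ := hgx
  set n := omgSq hζ g with hn
  set a := omg hζ g with ha
  set z := zetaUnit hζ with hz
  have hzprim : IsPrimitiveRoot z p := un_zetaUnit_isPrimitiveRoot hζ
  have hτfin : IsOfFinOrder τ := by
    rw [torsion, CommGroup.mem_torsion] at hτ
    exact hτ
  have hτ2p : τ ^ (2 * p) = 1 := un_pow_two_mul hζ hodd τ hτfin
  -- `τ² = z ^ j`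
  have hτ2 : (τ ^ 2) ^ p = 1 := by rw [← pow_mul]; exact hτ2p
  have hτ2K : (((τ ^ 2 : (𝓞 K)ˣ) : K)) ^ p = 1 := by
    rw [← Units.coe_pow, hτ2, Units.coe_one]
  obtain ⟨j, -, hjK⟩ := hζ.eq_pow_of_pow_eq_one hτ2K
  have hj : z ^ j = τ ^ 2 := by
    apply un_ext
    rw [Units.coe_pow, ← hjK]
    rfl
  -- apply `g` to `x²`
  have hgz : ugAct g z = z ^ a.val := un_ugAct_zetaUnit hζ g
  have hx2 : x ^ 2 = z ^ j * (e₀ ^ 2) ^ p := by
    rw [hx, mul_pow, ← hj, ← pow_mul, ← pow_mul, mul_comm p 2]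
  have h1 : ugAct g (x ^ 2) = z ^ (a.val * j) * (ugAct g (e₀ ^ 2)) ^ p := by
    rw [hx2, map_mul, map_pow, map_pow, hgz, ← pow_mul]
  have h2 : ugAct g (x ^ 2) = z ^ (j * n) * ((e₀ ^ 2) ^ n * e ^ 2) ^ p := by
    rw [map_pow]
    exact un_cg2 x _ z e₀ e j n p hx2 he
  -- `ρ := z ^ (a.val * j) / z ^ (j * n)` is a `p`-th power and a `p`-th root of unity
  set δ : (𝓞 K)ˣ := ((e₀ ^ 2) ^ n * e ^ 2) * (ugAct g (e₀ ^ 2))⁻¹ with hδ
  have hρ : z ^ (a.val * j) = z ^ (j * n) * δ ^ p := by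
    have h3 := h1.symm.trans h2
    rw [hδ, mul_pow, inv_pow, ← mul_assoc, ← h3, mul_inv_cancel_right]
  have hδp : (δ ^ p) ^ p = 1 := by
    have h4 : δ ^ p = z ^ (a.val * j) * (z ^ (j * n))⁻¹ := by
      rw [hρ, mul_comm (z ^ (j * n)), mul_inv_cancel_right]
    have hA : ∀ m : ℕ, (z ^ m) ^ p = 1 := fun m => by
      rw [← pow_mul, mul_comm, pow_mul, hzprim.pow_eq_one, one_pow]
    rw [h4, mul_pow, inv_pow, hA, hA, inv_one, mul_one]
  have hδfin : IsOfFinOrder δ := by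
    rw [isOfFinOrder_iff_pow_eq_one]
    exact ⟨p * p, Nat.mul_pos hp.out.pos hp.out.pos, by rw [pow_mul]; exact hδp⟩
  have hδ2 : (δ ^ p) ^ 2 = 1 := by
    rw [← pow_mul, mul_comm]
    exact un_pow_two_mul hζ hodd δ hδfin
  have hδ1 : δ ^ p = 1 := by
    have h5 : orderOf (δ ^ p) ∣ Nat.gcd p 2 :=
      Nat.dvd_gcd (orderOf_dvd_of_pow_eq_one hδp) (orderOf_dvd_of_pow_eq_one hδ2)
    have h6 : Nat.gcd p 2 = 1 := by
      rw [Nat.gcd_comm]
      exact Nat.Coprime.gcd_eq_one ((Nat.coprime_primes Nat.prime_two hp.out).mpr (by omega))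
    rw [h6, Nat.dvd_one, orderOf_eq_one_iff] at h5
    exact h5
  rw [hδ1, mul_one] at hρ
  -- exponents modulo `p`
  have hmod : a.val * j ≡ j * n [MOD p] := by
    have := pow_eq_pow_iff_modEq.mp hρ
    rwa [← hzprim.eq_orderOf] at this
  have hcast : (a : ZMod p) * (j : ZMod p) = (j : ZMod p) * a ^ 2 := by
    have h7 := (ZMod.natCast_eq_natCast_iff _ _ _).mpr hmod
    push_cast at h7
    rw [hn, omgSq] at h7
    push_cast at h7
    rwa [ZMod.natCast_zmod_val] at h7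
  have ha0 : a ≠ 0 := by
    rw [ha, omg]
    exact Units.ne_zero _
  have hj0 : (j : ZMod p) = 0 := by
    have h8 : (j : ZMod p) * (a * (1 - a)) = 0 := by
      linear_combination hcast
    rcases mul_eq_zero.mp h8 with h | h
    · exact h
    · rcases mul_eq_zero.mp h with h | h
      · exact absurd h ha0
      · exact absurd (sub_eq_zero.mp h).symm hg
  have hzj : z ^ j = 1 := by
    rw [ZMod.natCast_eq_zero_iff] at hj0
    obtain ⟨c, rfl⟩ := hj0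
    rw [pow_mul, hzprim.pow_eq_one, one_pow]
  -- conclusion
  have hτ1 : τ ^ 2 = 1 := by rw [← hj, hzj]
  have hτp : τ ^ p = τ := by
    obtain ⟨c, hc⟩ := hodd
    rw [hc, pow_succ, pow_mul, hτ1, one_pow, one_mul]
  exact ⟨τ * e₀, by rw [mul_pow, hτp, hx]⟩

/-- the Galois group is cyclic -/
theorem un_exists_generator (hp3 : 3 ≤ p) :
    ∃ g : K ≃ₐ[ℚ] K, (∀ τ : K ≃ₐ[ℚ] K, τ ∈ Subgroup.zpowers g) ∧ omg hζ g ≠ 1 := by
  haveI : NeZero p := ⟨hp.out.ne_zero⟩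
  let φ : (K ≃ₐ[ℚ] K) ≃* (ZMod p)ˣ := IsCyclotomicExtension.Rat.galEquivZMod p K
  haveI : IsCyclic (K ≃ₐ[ℚ] K) := isCyclic_of_surjective φ.symm φ.symm.surjective
  obtain ⟨g, hg⟩ := IsCyclic.exists_generator (α := K ≃ₐ[ℚ] K)
  refine ⟨g, hg, ?_⟩
  intro h1
  -- `g = 1`, so the group is trivial
  have hg1 : g = 1 := by
    apply hζ.autToPow_injective (K := ℚ)
    rw [map_one]
    apply Units.ext
    exact h1
  have hcard : Nat.card (K ≃ₐ[ℚ] K) = p - 1 := by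
    rw [Nat.card_congr φ.toEquiv, Nat.card_eq_fintype_card, ZMod.card_units_eq_totient,
      Nat.totient_prime hp.out]
  have hsub : Subsingleton (K ≃ₐ[ℚ] K) := by
    constructor
    intro a b
    have ha := hg a
    have hb := hg b
    rw [hg1, Subgroup.zpowers_one_eq_bot, Subgroup.mem_bot] at ha hb
    rw [ha, hb]
  have : Nat.card (K ≃ₐ[ℚ] K) ≤ 1 := Finite.card_le_one_iff_subsingleton.mpr hsub
  omega

theorem un_card_gal : Nat.card (K ≃ₐ[ℚ] K) = p - 1 := by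
  haveI : NeZero p := ⟨hp.out.ne_zero⟩
  rw [Nat.card_congr (IsCyclotomicExtension.Rat.galEquivZMod p K).toEquiv,
    Nat.card_eq_fintype_card, ZMod.card_units_eq_totient, Nat.totient_prime hp.out]

/-- **C4 main, conditional form.** -/
theorem unit_eq_eta_pow_of (hp5 : 5 ≤ p)
    (heta1 : IsOmegaSq hζ (((eta hζ : (𝓞 K)ˣ) : 𝓞 K) : K))
    (heta2 : ¬ ∃ e : (𝓞 K)ˣ, eta hζ = e ^ p)
    (u : (𝓞 K)ˣ) (h1 : IsOmegaSq hζ ((u : 𝓞 K) : K)) :
    ∃ (k : ℕ) (e : (𝓞 K)ˣ), u = eta hζ ^ k * e ^ p := by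
  have hp3 : 3 ≤ p := by omega
  haveI : IsGalois ℚ K := IsCyclotomicExtension.isGalois (S := {p}) (K := ℚ) (L := K)
  obtain ⟨g, hgen, hg1⟩ := un_exists_generator hζ hp3
  have hpcard : ¬ p ∣ Nat.card (K ≃ₐ[ℚ] K) := by
    rw [un_card_gal (p := p)]
    intro h
    have := Nat.le_of_dvd (by omega) h
    omega
  set n := omgSq hζ g with hn
  obtain ⟨eη, heη⟩ := un_act_of_isOmegaSq hζ (eta hζ) heta1 g
  obtain ⟨eu, heu⟩ := un_act_of_isOmegaSq hζ u h1 g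
  have hxη : ∃ z : UgM K, ugLin g (ugMk (eta hζ)) = n • ugMk (eta hζ) + p • z :=
    ⟨ugMk eη, by rw [ugLin_mk, heη, ugMk_mul, ugMk_pow, ugMk_pow]⟩
  have hxu : ∃ z : UgM K, ugLin g (ugMk u) = n • ugMk u + p • z :=
    ⟨ugMk eu, by rw [ugLin_mk, heu, ugMk_mul, ugMk_pow, ugMk_pow]⟩
  have hη0 : ¬ ∃ z : UgM K, ugMk (eta hζ) = p • z := by
    rintro ⟨z, hz⟩
    obtain ⟨e₀, rfl⟩ := ugMk_surjective z
    have hτ : eta hζ * (e₀ ^ p)⁻¹ ∈ torsion K := by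
      rw [← ugMk_eq_zero_iff]
      have : ugMk (eta hζ * (e₀ ^ p)⁻¹) + ugMk (e₀ ^ p) = ugMk (eta hζ) := by
        rw [← ugMk_mul, inv_mul_cancel_right]
      rw [ugMk_pow, ← hz] at this
      exact add_eq_right.mp this
    exact heta2 (un_torsion_step hζ hp3 g hg1 (eta hζ) _ e₀ hτ (by rw [inv_mul_cancel_right])
      ⟨eη, heη⟩)
  obtain ⟨k, z, hkz⟩ := ug_eigen p g hgen hpcard n (ugMk (eta hζ)) (ugMk u) hxη hxu hη0
  obtain ⟨e₀, rfl⟩ := ugMk_surjective z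
  -- `x := u / η^k = τ e₀^p`
  set x : (𝓞 K)ˣ := u * (eta hζ ^ k)⁻¹ with hx
  have hτ : x * (e₀ ^ p)⁻¹ ∈ torsion K := by
    rw [← ugMk_eq_zero_iff]
    have h2 : ugMk (x * (e₀ ^ p)⁻¹) + (k • ugMk (eta hζ) + p • ugMk e₀) = ugMk u := by
      rw [← ugMk_pow, ← ugMk_pow, ← ugMk_mul, ← ugMk_mul, hx]
      congr 1
      rw [mul_comm (eta hζ ^ k) (e₀ ^ p), ← mul_assoc, inv_mul_cancel_right, inv_mul_cancel_right]
    rw [← hkz] at h2
    exact add_eq_right.mp h2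
  have hgx : ∃ e : (𝓞 K)ˣ, ugAct g x = x ^ n * e ^ p := by
    refine ⟨eu * (eη ^ k)⁻¹, ?_⟩
    rw [hx, map_mul, map_inv, map_pow, heu, heη]
    exact un_cg1 u (eta hζ) eu eη n k p
  obtain ⟨e', he'⟩ := un_torsion_step hζ hp3 g hg1 x _ e₀ hτ (by rw [inv_mul_cancel_right]) hgx
  refine ⟨k, e', ?_⟩
  rw [← he', hx, mul_comm, inv_mul_cancel_right]

end Fermat.Agent.S14lib
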