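/-
Item 77 (S14), piece C4 main (helper10): `unit_eq_eta_pow`, exact signature of
NOTES/S14_signatures.lean.txt.  (`Units.lean` + C4a `eta_isOmegaSq` + C3a `dlog_eta_pow`.)
-/
import Mathlib
import Fermat.Agent.S14lib.Units
import Fermat.Agent.S14lib.EtaEigen
import Fermat.Agent.S14lib.Local

set_option autoImplicit false

namespace Fermat.Agent.S14lib

open NumberField Fermat.Agent.Kummer.KL
open scoped Pointwise

variable {p : ℕ} [hp : Fact p.Prime]
variable {K : Type*} [Field K] [NumberField K] [IsCyclotomicExtension {p} ℚ K]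
variable {ζ : K} (hζ : IsPrimitiveRoot ζ p)

/-- **C4.** A unit in the `ω²`-eigenspace of `K^×/K^{×p}` is a power of `η` times a `p`-th power of a
unit. -/
theorem unit_eq_eta_pow (hp5 : 5 ≤ p) (u : (𝓞 K)ˣ) (h1 : IsOmegaSq hζ (u : K)) :
    ∃ (k : ℕ) (e : (𝓞 K)ˣ), u = eta hζ ^ k * e ^ p := by
  refine unit_eq_eta_pow_of hζ hp5 (eta_isOmegaSq hζ hp5) ?_ u h1
  rintro ⟨e, he⟩
  apply dlog_eta_pow hζ hp5 1 (by
    intro h
    have := Nat.le_of_dvd one_pos h
    omega)
  rw [pow_one, he, core_dlog_pow_p hζ (by omega) e]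
  exact dvd_zero _

end Fermat.Agent.S14lib
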