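import Mathlib
import Fermat.Agent.S14lib.Defs
import Fermat.Agent.S13lib.InertiaLiftPrime
import Fermat.Prelude.Def_ExtCitation_AdmissibleExtension_v2

/-!
# S14 (item 77), piece W: common definitions for the wiring `V ⟹ Kummer datum`

`NOTES/S14_W_blueprint.md` (sub-architect helper4).

* `KummerCocycle p ζ` — the cocycle `κ : G_ℚ → 𝔽_p` extracted from a non-split admissible extension
  `V` (only its restriction to `G_K = {σ | σ ζ = ζ}`, `K = ℚ(ζ)`, matters): a homomorphism on `G_K`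
  with open kernel, nonzero, on which `G_ℚ` acts by conjugation through the cyclotomic character,
  trivial on the inertia groups away from `p` and on the decomposition groups at `p`.
* `IsKummerRoot c a` — `a ∈ ℚ̄` is a Kummer generator for `κ`: `τ a = ζ ^ κ(τ) · a` for `τ ∈ G_K`.
-/

set_option autoImplicit false

namespace Fermat.Agent.S14lib

open Fermat.Agent.FrobLib

/-- The Kummer cocycle of a non-split admissible extension (see the file header). -/
structure KummerCocycle (p : ℕ) (ζ : AlgebraicClosure ℚ) where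
  /-- the cocycle; only its values on `G_K = {σ | σ ζ = ζ}` matter -/
  κ : GQ → ZMod p
  hom : ∀ σ τ : GQ, σ ζ = ζ → τ ζ = ζ → κ (σ * τ) = κ σ + κ τ
  conj : ∀ (σ τ : GQ) (n : ℕ), σ ζ = ζ ^ n → τ ζ = ζ → κ (σ⁻¹ * τ * σ) = (n : ZMod p) * κ τ
  isOpen_ker : IsOpen {σ : GQ | σ ζ = ζ ∧ κ σ = 0}
  ne_zero : ∃ τ : GQ, τ ζ = ζ ∧ κ τ ≠ 0
  unram : ∀ ℓ : ℕ, ℓ.Prime → ℓ ≠ p → ∀ A : ValuationSubring (AlgebraicClosure ℚ),
    A.LiesOverPrime ℓ → ∀ σ ∈ A.inertiaSubgroupIn ℚ, σ ζ = ζ → κ σ = 0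
  split : ∀ A : ValuationSubring (AlgebraicClosure ℚ), A.LiesOverPrime p →
    ∀ σ ∈ A.decompositionSubgroup ℚ, σ ζ = ζ → κ σ = 0

/-- `a` is a Kummer generator for the cocycle `c`: `τ a = ζ ^ κ(τ) · a` for every `τ` fixing `ζ`. -/
def IsKummerRoot {p : ℕ} {ζ : AlgebraicClosure ℚ} (c : KummerCocycle p ζ)
    (a : AlgebraicClosure ℚ) : Prop :=
  ∀ τ : GQ, τ ζ = ζ → τ a = ζ ^ (c.κ τ).val * a

/-- The generator `ζ` of `ℚ(ζ) ⊆ ℚ̄`, as an element of the subfield. -/
noncomputable def zetaK (ζ : AlgebraicClosure ℚ) : IntermediateField.adjoin ℚ {ζ} :=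
  IntermediateField.AdjoinSimple.gen ℚ ζ

@[simp] theorem coe_zetaK (ζ : AlgebraicClosure ℚ) : ((zetaK ζ : IntermediateField.adjoin ℚ {ζ}) :
    AlgebraicClosure ℚ) = ζ := rfl

theorem isPrimitiveRoot_zetaK {p : ℕ} {ζ : AlgebraicClosure ℚ} (hζ : IsPrimitiveRoot ζ p) :
    IsPrimitiveRoot (zetaK ζ) p := by
  have h : IsPrimitiveRoot ((algebraMap (IntermediateField.adjoin ℚ {ζ})
      (AlgebraicClosure ℚ)) (zetaK ζ)) p := hζ
  exact IsPrimitiveRoot.of_map_of_injective (hf := (algebraMap (IntermediateField.adjoin ℚ {ζ})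
      (AlgebraicClosure ℚ)).injective) h

/-- `ℚ(ζ) ⊆ ℚ̄` is a number field. -/
instance numberField_adjoin_simple (ζ : AlgebraicClosure ℚ) :
    NumberField (IntermediateField.adjoin ℚ {ζ}) where
  to_charZero := inferInstance
  to_finiteDimensional :=
    IntermediateField.adjoin.finiteDimensional
      ((AlgebraicClosure.isAlgebraic ℚ).isAlgebraic ζ).isIntegral

/-- `ℚ(ζ) ⊆ ℚ̄` is the `p`-th cyclotomic extension. -/
theorem isCyclotomicExtension_adjoin_simple {p : ℕ} [NeZero p] {ζ : AlgebraicClosure ℚ}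
    (hζ : IsPrimitiveRoot ζ p) :
    IsCyclotomicExtension {p} ℚ (IntermediateField.adjoin ℚ {ζ}) :=
  haveI : Algebra.IsIntegral ℚ (AlgebraicClosure ℚ) :=
    (AlgebraicClosure.isAlgebraic ℚ).isIntegral
  IsPrimitiveRoot.intermediateField_adjoin_isCyclotomicExtension ℚ hζ

/-- A primitive `p`-th root of unity of `ℚ̄`. -/
theorem exists_primitiveRoot_QBar (p : ℕ) [NeZero p] :
    ∃ ζ : AlgebraicClosure ℚ, IsPrimitiveRoot ζ p :=
  HasEnoughRootsOfUnity.exists_primitiveRoot (AlgebraicClosure ℚ) p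

end Fermat.Agent.S14lib
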