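import Mathlib
import Fermat.Agent.S14lib.WiringDefs

set_option autoImplicit false

namespace Fermat.Agent.S14lib

open NumberField Fermat.Agent.FrobLib
open scoped Pointwise

/-- The field `ℚ(ζ, a) ⊆ ℚ̄`. -/
noncomputable def Lfield (ζ a : AlgebraicClosure ℚ) : IntermediateField ℚ (AlgebraicClosure ℚ) :=
  IntermediateField.adjoin ℚ {ζ, a}

theorem adjoin_le_Lfield (ζ a : AlgebraicClosure ℚ) :
    IntermediateField.adjoin ℚ {ζ} ≤ Lfield ζ a :=
  IntermediateField.adjoin.mono ℚ _ _ (by simp)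

theorem zeta_mem_Lfield (ζ a : AlgebraicClosure ℚ) : ζ ∈ Lfield ζ a :=
  IntermediateField.subset_adjoin ℚ _ (by simp)

theorem root_mem_Lfield (ζ a : AlgebraicClosure ℚ) : a ∈ Lfield ζ a :=
  IntermediateField.subset_adjoin ℚ _ (by simp)

/-- `ℚ(ζ, a)` as an algebra over `ℚ(ζ)`. -/
noncomputable instance algebraLfield (ζ a : AlgebraicClosure ℚ) :
    Algebra (IntermediateField.adjoin ℚ {ζ}) (Lfield ζ a) :=
  (IntermediateField.inclusion (adjoin_le_Lfield ζ a)).toRingHom.toAlgebra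

theorem algebraMap_Lfield_eq (ζ a : AlgebraicClosure ℚ) :
    algebraMap (IntermediateField.adjoin ℚ {ζ}) (Lfield ζ a) =
      (IntermediateField.inclusion (adjoin_le_Lfield ζ a)).toRingHom :=
  RingHom.algebraMap_toAlgebra _

theorem coe_algebraMap_Lfield (ζ a : AlgebraicClosure ℚ) (x : IntermediateField.adjoin ℚ {ζ}) :
    ((algebraMap (IntermediateField.adjoin ℚ {ζ}) (Lfield ζ a) x : Lfield ζ a) :
      AlgebraicClosure ℚ) = x := by
  rw [algebraMap_Lfield_eq]
  exact IntermediateField.coe_inclusion (adjoin_le_Lfield ζ a) x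

instance isScalarTower_Lfield (ζ a : AlgebraicClosure ℚ) :
    IsScalarTower ℚ (IntermediateField.adjoin ℚ {ζ}) (Lfield ζ a) :=
  IsScalarTower.of_algebraMap_eq fun x => by
    apply Subtype.ext
    rw [coe_algebraMap_Lfield]
    simp

instance isScalarTower_Lfield' (ζ a : AlgebraicClosure ℚ) :
    IsScalarTower (IntermediateField.adjoin ℚ {ζ}) (Lfield ζ a) (AlgebraicClosure ℚ) :=
  IsScalarTower.of_algebraMap_eq fun x => by
    change (x : AlgebraicClosure ℚ) = ((algebraMap (IntermediateField.adjoin ℚ {ζ}) (Lfield ζ a) x :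
      Lfield ζ a) : AlgebraicClosure ℚ)
    rw [coe_algebraMap_Lfield]

instance numberField_Lfield (ζ a : AlgebraicClosure ℚ) : NumberField (Lfield ζ a) where
  to_charZero := inferInstance
  to_finiteDimensional := by
    unfold Lfield
    have h : ∀ x ∈ ({ζ, a} : Set (AlgebraicClosure ℚ)), IsIntegral ℚ x := fun x _ =>
      ((AlgebraicClosure.isAlgebraic ℚ).isAlgebraic x).isIntegral
    exact IntermediateField.finiteDimensional_adjoin h


/-- `ζ` as an element of `ℚ(ζ, a)`. -/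
noncomputable def zetaL (ζ a : AlgebraicClosure ℚ) : Lfield ζ a := ⟨ζ, zeta_mem_Lfield ζ a⟩

/-- `a` as an element of `ℚ(ζ, a)`. -/
noncomputable def rootL (ζ a : AlgebraicClosure ℚ) : Lfield ζ a := ⟨a, root_mem_Lfield ζ a⟩

@[simp] theorem coe_zetaL (ζ a : AlgebraicClosure ℚ) :
    ((zetaL ζ a : Lfield ζ a) : AlgebraicClosure ℚ) = ζ := rfl

@[simp] theorem coe_rootL (ζ a : AlgebraicClosure ℚ) :
    ((rootL ζ a : Lfield ζ a) : AlgebraicClosure ℚ) = a := rfl

theorem algebraMap_zetaK (ζ a : AlgebraicClosure ℚ) :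
    algebraMap (IntermediateField.adjoin ℚ {ζ}) (Lfield ζ a) (zetaK ζ) = zetaL ζ a := by
  apply Subtype.ext
  rw [coe_algebraMap_Lfield]
  rfl

/-- `ℚ(ζ, a)` is generated by `a` over `ℚ(ζ)`, as an algebra. -/
theorem adjoin_rootL_eq_top (ζ a : AlgebraicClosure ℚ) :
    Algebra.adjoin (IntermediateField.adjoin ℚ {ζ}) {rootL ζ a} = ⊤ := by
  rw [eq_top_iff]
  rintro ⟨x, hx⟩ -
  -- the `ℚ`-subalgebra of `ℚ̄` of the elements of `S`
  set S : Subalgebra (IntermediateField.adjoin ℚ {ζ}) (Lfield ζ a) :=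
    Algebra.adjoin (IntermediateField.adjoin ℚ {ζ}) {rootL ζ a} with hS
  let T : Subalgebra ℚ (AlgebraicClosure ℚ) :=
    (S.restrictScalars ℚ).map (Lfield ζ a).val
  have hζT : ζ ∈ T := by
    refine ⟨zetaL ζ a, ?_, rfl⟩
    change zetaL ζ a ∈ S
    rw [← algebraMap_zetaK]
    exact S.algebraMap_mem _
  have haT : a ∈ T := by
    refine ⟨rootL ζ a, ?_, rfl⟩
    change rootL ζ a ∈ S
    exact Algebra.subset_adjoin (Set.mem_singleton _)
  have hle : Algebra.adjoin ℚ ({ζ, a} : Set (AlgebraicClosure ℚ)) ≤ T := by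
    apply Algebra.adjoin_le
    intro y hy
    rcases hy with rfl | hy
    · exact hζT
    · rw [Set.mem_singleton_iff] at hy
      rw [hy]
      exact haT
  have hL : (Lfield ζ a).toSubalgebra = Algebra.adjoin ℚ ({ζ, a} : Set (AlgebraicClosure ℚ)) :=
    IntermediateField.adjoin_toSubalgebra_of_isAlgebraic fun y _ =>
      (AlgebraicClosure.isAlgebraic ℚ).isAlgebraic y
  have hxT : x ∈ T := hle (hL ▸ hx)
  obtain ⟨y, hy, hyx⟩ := hxT
  have : y = ⟨x, hx⟩ := Subtype.ext hyx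
  rw [← this]
  exact hy

/-- `ℚ(ζ, a)/ℚ(ζ)` is Galois when `a ^ p ∈ ℚ(ζ)`, `ζ` a primitive `p`-th root of unity. -/
theorem isGalois_Lfield {p : ℕ} [NeZero p] {ζ a : AlgebraicClosure ℚ} (hζ : IsPrimitiveRoot ζ p)
    (ha0 : a ≠ 0) (α : IntermediateField.adjoin ℚ {ζ}) (hα : (α : AlgebraicClosure ℚ) = a ^ p) :
    IsGalois (IntermediateField.adjoin ℚ {ζ}) (Lfield ζ a) := by
  have hζL : IsPrimitiveRoot (zetaL ζ a) p := by
    have h : IsPrimitiveRoot ((algebraMap (Lfield ζ a) (AlgebraicClosure ℚ)) (zetaL ζ a)) p := hζ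
    exact IsPrimitiveRoot.of_map_of_injective
      (hf := (algebraMap (Lfield ζ a) (AlgebraicClosure ℚ)).injective) h
  have hαL : rootL ζ a ^ p = algebraMap (IntermediateField.adjoin ℚ {ζ}) (Lfield ζ a) α := by
    apply Subtype.ext
    rw [coe_algebraMap_Lfield, hα]
    rfl
  have hα0 : α ≠ 0 := by
    intro h
    rw [h] at hα
    exact ha0 (pow_eq_zero_iff (NeZero.ne p) |>.mp hα.symm)
  have hsplit : ((Polynomial.X ^ p - Polynomial.C α : Polynomial (IntermediateField.adjoin ℚ {ζ})).map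
      (algebraMap (IntermediateField.adjoin ℚ {ζ}) (Lfield ζ a))).Splits := by
    rw [Polynomial.map_sub, Polynomial.map_pow, Polynomial.map_X, Polynomial.map_C]
    exact X_pow_sub_C_splits_of_isPrimitiveRoot hζL hαL
  have hne : (Polynomial.X ^ p - Polynomial.C α : Polynomial (IntermediateField.adjoin ℚ {ζ})) ≠ 0 :=
    Polynomial.X_pow_sub_C_ne_zero (Nat.pos_of_ne_zero (NeZero.ne p)) α
  have hroot : rootL ζ a ∈ (Polynomial.X ^ p - Polynomial.C α :
      Polynomial (IntermediateField.adjoin ℚ {ζ})).rootSet (Lfield ζ a) := by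
    rw [Polynomial.mem_rootSet]
    refine ⟨hne, ?_⟩
    simp [hαL]
  have hadj : Algebra.adjoin (IntermediateField.adjoin ℚ {ζ})
      ((Polynomial.X ^ p - Polynomial.C α : Polynomial (IntermediateField.adjoin ℚ {ζ})).rootSet
        (Lfield ζ a)) = ⊤ := by
    rw [eq_top_iff, ← adjoin_rootL_eq_top ζ a]
    exact Algebra.adjoin_mono (Set.singleton_subset_iff.mpr hroot)
  haveI : Polynomial.IsSplittingField (IntermediateField.adjoin ℚ {ζ}) (Lfield ζ a)
      (Polynomial.X ^ p - Polynomial.C α) := ⟨hsplit, hadj⟩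
  exact IsGalois.of_separable_splitting_field
    (Polynomial.separable_X_pow_sub_C α (by exact_mod_cast NeZero.ne p) hα0)

end Fermat.Agent.S14lib
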