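import Mathlib
import Fermat.Agent.S13lib.InertiaLiftPrime

/-!
# S14 (item 77), piece W: decomposition groups lift from a finite extension to `ℚ̄`

* `mem_decompositionSubgroup_of_smul_eq`: an automorphism stabilising the prime `Q` of `ℤ̄` lies in
  the decomposition group of the valuation subring `(ℤ̄)_Q`.
* `exists_decomp_lift_of_prime`: an automorphism `τ` of `K ⊆ ℚ̄` stabilising `Q ∩ K` is the
  restriction of an element of the decomposition group of `(ℤ̄)_Q`.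
-/

set_option autoImplicit false

namespace Fermat.Agent.S14lib

open Fermat.Agent.FrobLib Fermat.Agent.S13lib
open scoped Pointwise

theorem smul_mem_of_smul_eq (Q : Ideal ZBar) (σ : GQ) (h : σ • Q = Q) (b : ZBar) :
    σ • b ∈ Q ↔ b ∈ Q := by
  constructor
  · intro hb
    have h1 : σ • b ∈ σ • Q := by rwa [h]
    exact (Ideal.smul_mem_pointwise_smul_iff).mp h1
  · intro hb
    have h1 : σ • b ∈ σ • Q := (Ideal.smul_mem_pointwise_smul_iff).mpr hb
    rwa [h] at h1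

theorem map_mem_valuationSubringOfPrime_of_smul_eq (Q : Ideal ZBar) [Q.IsPrime] (σ : GQ)
    (h : σ • Q = Q) {x : AlgebraicClosure ℚ} (hx : x ∈ valuationSubringOfPrime Q) :
    σ x ∈ valuationSubringOfPrime Q := by
  obtain ⟨a, s, hs, hxs⟩ := (mem_valuationSubringOfPrime_iff Q x).mp hx
  refine (mem_valuationSubringOfPrime_iff Q _).mpr
    ⟨σ • a, σ • s, fun hmem => hs ((smul_mem_of_smul_eq Q σ h s).mp hmem), ?_⟩
  rw [coe_zbar_smul, coe_zbar_smul, ← map_mul, hxs]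

/-- An automorphism stabilising the prime `Q` of `ℤ̄` lies in the decomposition group of the
valuation subring `(ℤ̄)_Q`. -/
theorem mem_decompositionSubgroup_of_smul_eq (Q : Ideal ZBar) [Q.IsPrime] (σ : GQ)
    (h : σ • Q = Q) : σ ∈ (valuationSubringOfPrime Q).decompositionSubgroup ℚ := by
  have h' : σ⁻¹ • Q = Q := by
    conv_lhs => rw [← h]
    rw [inv_smul_smul]
  rw [MulAction.mem_stabilizer_iff]
  ext x
  rw [ValuationSubring.mem_pointwise_smul_iff_inv_smul_mem]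
  constructor
  · intro hx
    have := map_mem_valuationSubringOfPrime_of_smul_eq Q σ h hx
    simpa using this
  · intro hx
    exact map_mem_valuationSubringOfPrime_of_smul_eq Q σ⁻¹ h' hx

/-- **Decomposition groups lift.** Let `K ⊆ ℚ̄`, `Q` a prime of `ℤ̄` and `τ` an automorphism of `K`
which stabilises `Q ∩ K`.  Then `τ` is the restriction of an element of the decomposition group
of `(ℤ̄)_Q`. -/
theorem exists_decomp_lift_of_prime (K : IntermediateField ℚ (AlgebraicClosure ℚ))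
    [FiniteDimensional ℚ K]
    (Q : Ideal ZBar) [Q.IsPrime] (τ : K ≃ₐ[ℚ] K)
    (hτ : ∀ x : K, IsIntegral ℤ x →
      ((∃ c ∈ Q, ((τ x : K) : AlgebraicClosure ℚ) = (c : AlgebraicClosure ℚ)) ↔
        ∃ c ∈ Q, (x : AlgebraicClosure ℚ) = (c : AlgebraicClosure ℚ))) :
    ∃ σ ∈ (valuationSubringOfPrime Q).decompositionSubgroup ℚ,
      ∀ x : K, σ (x : AlgebraicClosure ℚ) = ((τ x : K) : AlgebraicClosure ℚ) := by
  classical
  have hgal := isGalois_QBar
  have halg := isAlgebraic_QBar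
  let _ : TopologicalSpace ZBar := ⊥
  have : DiscreteTopology ZBar := ⟨rfl⟩
  have hcont := zbar_continuousSMul
  set H : Subgroup (AlgebraicClosure ℚ ≃ₐ[ℚ] AlgebraicClosure ℚ) := K.fixingSubgroup with hH
  have hHc : CompactSpace H := isCompact_iff_compactSpace.mp K.fixingSubgroup_isClosed.isCompact
  have hinv : Algebra.IsInvariant (FixedPoints.subalgebra ℤ ZBar H) ZBar H :=
    il_isInvariant_fixed H
  have hfixK : ∀ (g : AlgebraicClosure ℚ ≃ₐ[ℚ] AlgebraicClosure ℚ), g ∈ H → ∀ x : K,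
      g (x : AlgebraicClosure ℚ) = x := by
    intro g hg x
    exact (IntermediateField.mem_fixingSubgroup_iff K g).mp hg x x.2
  set σ₀ : AlgebraicClosure ℚ ≃ₐ[ℚ] AlgebraicClosure ℚ := τ.liftNormal (AlgebraicClosure ℚ)
    with hσ₀
  have hσ₀K : ∀ x : K, σ₀ (x : AlgebraicClosure ℚ) = ((τ x : K) : AlgebraicClosure ℚ) :=
    fun x => AlgEquiv.liftNormal_commutes τ (AlgebraicClosure ℚ) x
  -- the primes `σ₀⁻¹ • Q` and `Q` have the same contraction
  have hiff : ∀ b : ZBar, (∀ g : H, g • b = b) → (σ₀ • b ∈ Q ↔ b ∈ Q) := by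
    intro b hb
    obtain ⟨k, hk, hki⟩ := il_exists_of_fixed K b hb
    have h1 := hτ k hki
    constructor
    · intro hbQ
      obtain ⟨c, hc, hcb⟩ := h1.mp ⟨σ₀ • b, hbQ, by rw [coe_zbar_smul, ← hk, hσ₀K]⟩
      have : b = c := Subtype.ext (by rw [← hk, hcb])
      rw [this]
      exact hc
    · intro hbQ
      obtain ⟨c, hc, hcb⟩ := h1.mpr ⟨b, hbQ, hk⟩
      have : σ₀ • b = c := Subtype.ext (by rw [coe_zbar_smul, ← hk, hσ₀K, hcb])
      rw [this]
      exact hc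
  have hunder : (σ₀⁻¹ • Q).under (FixedPoints.subalgebra ℤ ZBar H)
      = Q.under (FixedPoints.subalgebra ℤ ZBar H) := by
    ext ⟨a, ha⟩
    rw [Ideal.under_def, Ideal.under_def, Ideal.mem_comap, Ideal.mem_comap]
    change a ∈ σ₀⁻¹ • Q ↔ a ∈ Q
    rw [Ideal.mem_pointwise_smul_iff_inv_smul_mem, inv_inv]
    exact hiff a ha
  have hσQprime : (σ₀⁻¹ • Q).IsPrime := by
    rw [Ideal.pointwise_smul_eq_comap]
    exact Ideal.comap_isPrime _ _
  obtain ⟨ρ₁, hρ₁⟩ := Algebra.IsInvariant.exists_smul_of_under_eq_of_profinite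
    (A := FixedPoints.subalgebra ℤ ZBar H) (G := H) Q (σ₀⁻¹ • Q) hunder.symm
  -- `σ₀⁻¹ • Q = ρ₁ • Q`, so `σ₀ * ρ₁` stabilises `Q`
  set σ₁ : AlgebraicClosure ℚ ≃ₐ[ℚ] AlgebraicClosure ℚ := σ₀ * (ρ₁ : _) with hσ₁
  have hσ₁Q : σ₁ • Q = Q := by
    have h2 : ((ρ₁ : H) : AlgebraicClosure ℚ ≃ₐ[ℚ] AlgebraicClosure ℚ) • Q = σ₀⁻¹ • Q := hρ₁.symm
    rw [hσ₁, mul_smul, h2, smul_inv_smul]
  refine ⟨σ₁, mem_decompositionSubgroup_of_smul_eq Q σ₁ hσ₁Q, ?_⟩
  intro x
  rw [hσ₁, AlgEquiv.mul_apply, hfixK ρ₁ ρ₁.2 x, hσ₀K x]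

end Fermat.Agent.S14lib
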