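import Mathlib
import Fermat.Agent.S14lib.WiringField
import Fermat.Agent.S14lib.WiringLift

/-!
# S14 (item 77), piece W: bridge from `ℚ̄` to the finite level `ℚ(ζ, a)/ℚ(ζ)`

* `toZBar F`: the integers of `F ⊆ ℚ̄` as algebraic integers; `exists_zbar_prime_over`.
* `inertia_trivial_Lfield`: the inertia groups of `ℚ(ζ, a)/ℚ(ζ)` are trivial (`a` a Kummer root).
* `stabilizer_trivial_Lfield`: the decomposition groups over `p` are trivial.
-/

set_option autoImplicit false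

namespace Fermat.Agent.S14lib

open NumberField Fermat.Agent.FrobLib Fermat.Agent.S13lib
open scoped Pointwise

/-- The integers of `F ⊆ ℚ̄`, as algebraic integers. -/
noncomputable def toZBar (F : IntermediateField ℚ (AlgebraicClosure ℚ)) : 𝓞 F →+* ZBar where
  toFun x := ⟨((x : F) : AlgebraicClosure ℚ),
    (RingOfIntegers.isIntegral_coe x).map (IsScalarTower.toAlgHom ℤ F (AlgebraicClosure ℚ))⟩
  map_one' := Subtype.ext (by simp)
  map_mul' x y := Subtype.ext (by simp)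
  map_zero' := Subtype.ext (by simp)
  map_add' x y := Subtype.ext (by simp)

@[simp] theorem coe_toZBar (F : IntermediateField ℚ (AlgebraicClosure ℚ)) (x : 𝓞 F) :
    ((toZBar F x : ZBar) : AlgebraicClosure ℚ) = ((x : F) : AlgebraicClosure ℚ) := rfl

theorem toZBar_injective (F : IntermediateField ℚ (AlgebraicClosure ℚ)) :
    Function.Injective (toZBar F) := by
  intro x y h
  have := congrArg Subtype.val h
  simp only [coe_toZBar] at this
  exact RingOfIntegers.ext (Subtype.ext this)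

/-- Lying over: every prime of `𝓞 F` is the contraction of a prime of `ℤ̄`. -/
theorem exists_zbar_prime_over (F : IntermediateField ℚ (AlgebraicClosure ℚ))
    (P : Ideal (𝓞 F)) [P.IsPrime] :
    ∃ Q : Ideal ZBar, Q.IsPrime ∧ Q.comap (toZBar F) = P := by
  letI : Algebra (𝓞 F) ZBar := (toZBar F).toAlgebra
  haveI : Algebra.IsIntegral (𝓞 F) ZBar := by
    refine ⟨fun b => ?_⟩
    have hb : IsIntegral ℤ b := Algebra.IsIntegral.isIntegral b
    exact hb.tower_top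
  obtain ⟨Q, -, hQ, hQP⟩ := Ideal.exists_ideal_over_prime_of_isIntegral P (⊥ : Ideal ZBar) (by
    intro x hx
    rw [Ideal.mem_comap, Ideal.mem_bot] at hx
    have : x = 0 := toZBar_injective F (by rw [map_zero]; exact hx)
    rw [this]
    exact P.zero_mem)
  exact ⟨Q, hQ, hQP⟩

/-- An automorphism fixing `ζ` and `a` fixes `ℚ(ζ, a)` pointwise. -/
theorem apply_eq_of_mem_Lfield {ζ a : AlgebraicClosure ℚ} (σ : GQ) (hζ : σ ζ = ζ) (ha : σ a = a)
    {x : AlgebraicClosure ℚ} (hx : x ∈ Lfield ζ a) : σ x = x := by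
  have hle : Lfield ζ a ≤ IntermediateField.fixedField (Subgroup.zpowers σ) := by
    unfold Lfield
    rw [IntermediateField.adjoin_le_iff]
    intro y hy
    rw [SetLike.mem_coe, IntermediateField.mem_fixedField_iff]
    intro g hg
    obtain ⟨n, rfl⟩ := Subgroup.mem_zpowers_iff.mp hg
    have hy' : σ y = y := by
      rcases hy with rfl | hy
      · exact hζ
      · rw [Set.mem_singleton_iff] at hy
        rw [hy]; exact ha
    have hfix : σ ∈ MulAction.stabilizer GQ y := hy'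
    have := (MulAction.stabilizer GQ y).zpow_mem hfix n
    exact this
  have := (IntermediateField.mem_fixedField_iff _ x).mp (hle hx) σ (Subgroup.mem_zpowers σ)
  exact this

/-- A nonzero prime of the integers of a number field `F ⊆ ℚ̄` contains a rational prime. -/
theorem exists_prime_mem_of_ne_bot (F : IntermediateField ℚ (AlgebraicClosure ℚ)) [NumberField F]
    (P : Ideal (𝓞 F)) [P.IsPrime] (hP : P ≠ ⊥) : ∃ ℓ : ℕ, ℓ.Prime ∧ (ℓ : 𝓞 F) ∈ P := by
  have hn : ((Ideal.absNorm P : ℕ) : 𝓞 F) ∈ P := Ideal.absNorm_mem P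
  have hn0 : Ideal.absNorm P ≠ 0 := by
    rw [Ne, Ideal.absNorm_eq_zero_iff]
    exact hP
  obtain ⟨ℓ, hℓ⟩ := CharP.exists (𝓞 F ⧸ P)
  have hdvd : ℓ ∣ Ideal.absNorm P := by
    rw [← CharP.cast_eq_zero_iff (𝓞 F ⧸ P) ℓ]
    have := Ideal.Quotient.eq_zero_iff_mem.mpr hn
    simpa using this
  have hℓ0 : ℓ ≠ 0 := by
    rintro rfl
    exact hn0 (Nat.eq_zero_of_zero_dvd hdvd)
  refine ⟨ℓ, (CharP.char_is_prime_or_zero (𝓞 F ⧸ P) ℓ).resolve_right hℓ0, ?_⟩
  rw [← Ideal.Quotient.eq_zero_iff_mem]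
  have := CharP.cast_eq_zero (𝓞 F ⧸ P) ℓ
  simpa using this

theorem mem_decomposition_of_mem_inertiaSubgroupIn {A : ValuationSubring (AlgebraicClosure ℚ)}
    {σ : GQ} (h : σ ∈ A.inertiaSubgroupIn ℚ) : σ ∈ A.decompositionSubgroup ℚ := by
  obtain ⟨g, -, rfl⟩ := h
  exact g.2

section bridge

variable {p : ℕ} [hp : Fact p.Prime] {ζ : AlgebraicClosure ℚ}

/-- `τ ∈ Gal(ℚ(ζ, a)/ℚ(ζ))` is trivial as soon as it is the restriction of some `σ` with
`κ σ = 0`. -/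
theorem eq_one_of_lift (hζ : IsPrimitiveRoot ζ p) {c : KummerCocycle p ζ}
    {a : AlgebraicClosure ℚ} (ha : IsKummerRoot c a)
    (τ : Lfield ζ a ≃ₐ[IntermediateField.adjoin ℚ {ζ}] Lfield ζ a) (σ : GQ)
    (hσ : ∀ x : Lfield ζ a, σ (x : AlgebraicClosure ℚ) = ((τ x : Lfield ζ a) : AlgebraicClosure ℚ))
    (hκ : σ ζ = ζ → c.κ σ = 0) : τ = 1 := by
  have hσζ : σ ζ = ζ := by
    have h1 := hσ (zetaL ζ a)
    rw [← algebraMap_zetaK, τ.commutes, algebraMap_zetaK] at h1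
    exact h1
  have hσa : σ a = a := by
    rw [ha σ hσζ, hκ hσζ]
    simp
  ext x
  rw [← hσ x]
  exact apply_eq_of_mem_Lfield σ hσζ hσa x.2

/-- The inertia groups of `ℚ(ζ, a)/ℚ(ζ)` are trivial. -/
theorem inertia_trivial_Lfield (hζ : IsPrimitiveRoot ζ p) {c : KummerCocycle p ζ}
    {a : AlgebraicClosure ℚ} (ha : IsKummerRoot c a)
    (Q : Ideal (𝓞 (Lfield ζ a))) [Q.IsPrime] (hQ : Q ≠ ⊥)
    (τ : Lfield ζ a ≃ₐ[IntermediateField.adjoin ℚ {ζ}] Lfield ζ a)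
    (hτ : ∀ x : 𝓞 (Lfield ζ a), τ • x - x ∈ Q) : τ = 1 := by
  obtain ⟨Qb, hQb, hQbQ⟩ := exists_zbar_prime_over (Lfield ζ a) Q
  have h1 : ∀ x : Lfield ζ a, IsIntegral ℤ x → ∃ c ∈ Qb,
      (((τ.restrictScalars ℚ) x : Lfield ζ a) : AlgebraicClosure ℚ) - (x : AlgebraicClosure ℚ)
        = (c : AlgebraicClosure ℚ) := by
    intro x hx
    refine ⟨toZBar (Lfield ζ a) (τ • (⟨x, hx⟩ : 𝓞 (Lfield ζ a)) - (⟨x, hx⟩ : 𝓞 (Lfield ζ a))),
      ?_, ?_⟩
    · rw [← Ideal.mem_comap, hQbQ]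
      exact hτ _
    · rw [coe_toZBar]
      rfl
  obtain ⟨σ, hσI, hσ⟩ := exists_inertia_lift_of_prime (Lfield ζ a) Qb (τ.restrictScalars ℚ) h1
  obtain ⟨ℓ, hℓ, hℓQ⟩ := exists_prime_mem_of_ne_bot (Lfield ζ a) Q hQ
  have hℓQb : (ℓ : ZBar) ∈ Qb := by
    have : (ℓ : 𝓞 (Lfield ζ a)) ∈ Qb.comap (toZBar (Lfield ζ a)) := by rw [hQbQ]; exact hℓQ
    rw [Ideal.mem_comap, map_natCast] at this
    exact this
  have hA := liesOverPrime_valuationSubringOfPrime Qb ℓ hℓQb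
  refine eq_one_of_lift hζ ha τ σ hσ fun hσζ => ?_
  by_cases hℓp : ℓ = p
  · subst hℓp
    exact c.split _ hA σ (mem_decomposition_of_mem_inertiaSubgroupIn hσI) hσζ
  · exact c.unram ℓ hℓ hℓp _ hA σ hσI hσζ

/-- The decomposition groups of `ℚ(ζ, a)/ℚ(ζ)` at the primes over `p` are trivial. -/
theorem stabilizer_trivial_Lfield (hζ : IsPrimitiveRoot ζ p) {c : KummerCocycle p ζ}
    {a : AlgebraicClosure ℚ} (ha : IsKummerRoot c a)
    (Qb : Ideal ZBar) [Qb.IsPrime] (hpQ : (p : ZBar) ∈ Qb)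
    (τ : Lfield ζ a ≃ₐ[IntermediateField.adjoin ℚ {ζ}] Lfield ζ a)
    (hτ : τ • (Qb.comap (toZBar (Lfield ζ a))) = Qb.comap (toZBar (Lfield ζ a))) : τ = 1 := by
  have hmem : ∀ x : 𝓞 (Lfield ζ a), (∃ c ∈ Qb, (((x : Lfield ζ a)) : AlgebraicClosure ℚ)
      = (c : AlgebraicClosure ℚ)) ↔ x ∈ Qb.comap (toZBar (Lfield ζ a)) := by
    intro x
    rw [Ideal.mem_comap]
    constructor
    · rintro ⟨c, hc, hxc⟩
      have : toZBar (Lfield ζ a) x = c := Subtype.ext (by rw [coe_toZBar, hxc])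
      rw [this]; exact hc
    · intro hx
      exact ⟨_, hx, rfl⟩
  have hsm : ∀ x : 𝓞 (Lfield ζ a), τ • x ∈ Qb.comap (toZBar (Lfield ζ a)) ↔
      x ∈ Qb.comap (toZBar (Lfield ζ a)) := by
    intro x
    constructor
    · intro hx
      have h1 : τ • x ∈ τ • (Qb.comap (toZBar (Lfield ζ a))) := by rwa [hτ]
      exact (Ideal.smul_mem_pointwise_smul_iff).mp h1
    · intro hx
      have h1 : τ • x ∈ τ • (Qb.comap (toZBar (Lfield ζ a))) :=
        (Ideal.smul_mem_pointwise_smul_iff).mpr hx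
      rwa [hτ] at h1
  have h1 : ∀ x : Lfield ζ a, IsIntegral ℤ x →
      ((∃ c ∈ Qb, (((τ.restrictScalars ℚ) x : Lfield ζ a) : AlgebraicClosure ℚ)
        = (c : AlgebraicClosure ℚ)) ↔
        ∃ c ∈ Qb, (x : AlgebraicClosure ℚ) = (c : AlgebraicClosure ℚ)) := by
    intro x hx
    have e1 := hmem (τ • (⟨x, hx⟩ : 𝓞 (Lfield ζ a)))
    have e2 := hmem (⟨x, hx⟩ : 𝓞 (Lfield ζ a))
    exact e1.trans ((hsm _).trans e2.symm)
  obtain ⟨σ, hσD, hσ⟩ := exists_decomp_lift_of_prime (Lfield ζ a) Qb (τ.restrictScalars ℚ) h1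
  have hA := liesOverPrime_valuationSubringOfPrime Qb p hpQ
  exact eq_one_of_lift hζ ha τ σ hσ fun hσζ => c.split _ hA σ hσD hσζ

end bridge

end Fermat.Agent.S14lib
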