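import Mathlib

/-!
# S14 (item 77), piece W4a: a prime with trivial decomposition group

`NOTES/S14_W_signatures.lean.txt` (sub-architect helper4).  `L/K` Galois number fields, `ϖ ∈ 𝓞 K` a
prime element, `Q` a prime of `𝓞 L` over `(ϖ)` with trivial stabilizer: then `e = f = 1`
(`Ideal.card_stabilizer_eq`), so `𝓞 K → 𝓞 L / Q^n` is onto and `Q^n ∩ 𝓞 K = ϖ^n 𝓞 K`; hence
`a ^ p = α ∈ 𝓞 K` with `a ∈ 𝓞 L` nonzero gives `α = ϖ^{pm} (y^p + ϖ³ t)`, `ϖ ∤ y`.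
-/

set_option autoImplicit false
set_option linter.style.haveILetI false

namespace Fermat.Agent.S14lib

open NumberField
open scoped Pointwise

section Abstract

variable {R S : Type*} [CommRing R] [CommRing S] [IsDedekindDomain S] [Algebra R S]
  (ϖ : R) (Q : Ideal S) [hQp : Q.IsPrime]

/-- Lemma A: `ϖ x ∈ Q^{n+1} ⇒ x ∈ Q^n` when `v_Q(ϖ) = 1`. -/
lemma ws_mem_pow_of_mul_mem (hQ0 : Q ≠ ⊥) (h2 : algebraMap R S ϖ ∈ Q)
    (h2' : algebraMap R S ϖ ∉ Q ^ 2) (n : ℕ) (x : S)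
    (hx : algebraMap R S ϖ * x ∈ Q ^ (n + 1)) : x ∈ Q ^ n := by
  have hQprime : Prime Q := Ideal.prime_of_isPrime hQ0 hQp
  have hdvd : Q ∣ Ideal.span {algebraMap R S ϖ} := by
    rw [Ideal.dvd_span_singleton]; exact h2
  obtain ⟨J, hJ⟩ := hdvd
  have hJ' : ¬ Q ∣ J := by
    rintro ⟨J', rfl⟩
    apply h2'
    rw [← Ideal.dvd_span_singleton, hJ, pow_two, ← mul_assoc]
    exact Dvd.intro _ rfl
  have h1 : Q ^ (n + 1) ∣ Ideal.span {algebraMap R S ϖ * x} := by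
    rw [Ideal.dvd_span_singleton]; exact hx
  rw [← Ideal.span_singleton_mul_span_singleton, hJ, pow_succ', mul_assoc] at h1
  have h3 : Q ^ n ∣ J * Ideal.span {x} := (mul_dvd_mul_iff_left hQprime.ne_zero).mp h1
  have h4 := hQprime.pow_dvd_of_dvd_mul_left n hJ' h3
  rwa [Ideal.dvd_span_singleton] at h4

/-- `ϖ^n ∉ Q^{n+1}`. -/
lemma ws_pow_not_mem (hQ0 : Q ≠ ⊥) (h2 : algebraMap R S ϖ ∈ Q)
    (h2' : algebraMap R S ϖ ∉ Q ^ 2) (n : ℕ) :
    algebraMap R S ϖ ^ n ∉ Q ^ (n + 1) := by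
  induction n with
  | zero =>
    simp only [pow_zero, zero_add, pow_one]
    exact fun h => hQp.ne_top ((Ideal.eq_top_iff_one Q).mpr h)
  | succ n ih =>
    intro h
    apply ih
    apply ws_mem_pow_of_mul_mem ϖ Q hQ0 h2 h2' (n + 1)
    rwa [← pow_succ']

/-- Lemma B: `Q^n ∩ R = ϖ^n R`. -/
lemma ws_dvd_of_mem_pow (hQ0 : Q ≠ ⊥) (h1 : ∀ y : R, algebraMap R S y ∈ Q → ϖ ∣ y)
    (h2 : algebraMap R S ϖ ∈ Q) (h2' : algebraMap R S ϖ ∉ Q ^ 2) (n : ℕ) (y : R)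
    (hy : algebraMap R S y ∈ Q ^ n) : ϖ ^ n ∣ y := by
  induction n generalizing y with
  | zero => simp
  | succ n ih =>
    have hyQ : algebraMap R S y ∈ Q := Ideal.pow_le_self (Nat.succ_ne_zero n) hy
    obtain ⟨z, rfl⟩ := h1 y hyQ
    rw [map_mul] at hy
    have hz := ws_mem_pow_of_mul_mem ϖ Q hQ0 h2 h2' n _ hy
    obtain ⟨w, rfl⟩ := ih z hz
    exact ⟨w, by ring⟩

/-- Lemma C: `R → S / Q^n` is onto. -/
lemma ws_exists_approx (hQ0 : Q ≠ ⊥)
    (h2 : algebraMap R S ϖ ∈ Q) (h2' : algebraMap R S ϖ ∉ Q ^ 2)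
    (h3 : ∀ x : S, ∃ y : R, x - algebraMap R S y ∈ Q) (n : ℕ) (x : S) :
    ∃ y : R, x - algebraMap R S y ∈ Q ^ n := by
  induction n with
  | zero => exact ⟨0, by simp⟩
  | succ n ih =>
    obtain ⟨y, hy⟩ := ih
    have hmem : algebraMap R S ϖ ^ n ∈ Q ^ n := Ideal.pow_mem_pow h2 n
    obtain ⟨d, e, he, hde⟩ := Ideal.exists_mul_add_mem_pow_succ hQ0 (algebraMap R S ϖ ^ n)
      (x - algebraMap R S y) hmem (ws_pow_not_mem ϖ Q hQ0 h2 h2' n) hy
    obtain ⟨d0, hd0⟩ := h3 d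
    refine ⟨y + ϖ ^ n * d0, ?_⟩
    have : x - algebraMap R S (y + ϖ ^ n * d0) =
        algebraMap R S ϖ ^ n * (d - algebraMap R S d0) + e := by
      rw [map_add, map_mul, map_pow]
      linear_combination -hde
    rw [this]
    refine Ideal.add_mem _ ?_ he
    rw [pow_succ]
    exact Ideal.mul_mem_mul hmem hd0

/-- The abstract form of W4a. -/
lemma ws_abstract (hQ0 : Q ≠ ⊥) (h1 : ∀ y : R, algebraMap R S y ∈ Q → ϖ ∣ y)
    (h2 : algebraMap R S ϖ ∈ Q) (h2' : algebraMap R S ϖ ∉ Q ^ 2)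
    (h3 : ∀ x : S, ∃ y : R, x - algebraMap R S y ∈ Q)
    (p : ℕ) (α : R) (a : S) (ha0 : a ≠ 0) (ha : a ^ p = algebraMap R S α) :
    ∃ (m : ℕ) (y t : R), ¬ ϖ ∣ y ∧ α = ϖ ^ (p * m) * (y ^ p + ϖ ^ 3 * t) := by
  classical
  -- the valuation of `a`
  have hex : ∃ n : ℕ, a ∉ Q ^ (n + 1) := by
    by_contra hcon
    push Not at hcon
    have hinf := Ideal.iInf_pow_eq_bot_of_isDomain Q hQp.ne_top
    apply ha0
    have : a ∈ ⨅ i, Q ^ i := by
      rw [Ideal.mem_iInf]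
      intro i
      cases i with
      | zero => simp
      | succ i => exact hcon i
    rw [hinf] at this
    exact this
  set m := Nat.find hex with hm
  have hm1 : a ∉ Q ^ (m + 1) := Nat.find_spec hex
  have hm2 : a ∈ Q ^ m := by
    rcases Nat.eq_zero_or_pos m with h0 | hpos
    · rw [h0]; simp
    · have := Nat.find_min hex (m := m - 1) (by omega)
      rw [not_not] at this
      rwa [Nat.sub_add_cancel hpos] at this
  obtain ⟨y0, hy0⟩ := ws_exists_approx ϖ Q hQ0 h2 h2' h3 (m + 3) a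
  have hy0m : algebraMap R S y0 ∈ Q ^ m := by
    have h := Ideal.pow_le_pow_right (I := Q) (Nat.le_add_right m 3) hy0
    have : algebraMap R S y0 = a - (a - algebraMap R S y0) := by ring
    rw [this]
    exact Ideal.sub_mem _ hm2 h
  obtain ⟨y, rfl⟩ := ws_dvd_of_mem_pow ϖ Q hQ0 h1 h2 h2' m y0 hy0m
  have hy : ¬ ϖ ∣ y := by
    rintro ⟨z, rfl⟩
    apply hm1
    have h := Ideal.pow_le_pow_right (I := Q) (show m + 1 ≤ m + 3 by omega) hy0
    have h' : algebraMap R S (ϖ ^ m * (ϖ * z)) ∈ Q ^ (m + 1) := by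
      rw [map_mul, map_mul, map_pow, ← mul_assoc, ← pow_succ]
      exact Ideal.mul_mem_right _ _ (Ideal.pow_mem_pow h2 _)
    have : a = (a - algebraMap R S (ϖ ^ m * (ϖ * z))) + algebraMap R S (ϖ ^ m * (ϖ * z)) := by
      ring
    rw [this]
    exact Ideal.add_mem _ h h'
  -- the difference of `p`-th powers
  have hdiff : a ^ p - algebraMap R S (ϖ ^ m * y) ^ p ∈ Q ^ (p * m + 3) := by
    rcases Nat.eq_zero_or_pos p with hp0 | hppos
    · subst hp0; simp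
    have hgeom := (Commute.all a (algebraMap R S (ϖ ^ m * y))).geom_sum₂_mul p
    rw [← hgeom]
    have hsum : ∑ i ∈ Finset.range p, a ^ i * algebraMap R S (ϖ ^ m * y) ^ (p - 1 - i) ∈
        Q ^ ((p - 1) * m) := by
      refine Ideal.sum_mem _ (fun i hi => ?_)
      rw [Finset.mem_range] at hi
      have h1' : a ^ i ∈ Q ^ (m * i) := by
        rw [pow_mul]; exact Ideal.pow_mem_pow hm2 i
      have h2'' : algebraMap R S (ϖ ^ m * y) ^ (p - 1 - i) ∈ Q ^ (m * (p - 1 - i)) := by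
        rw [pow_mul]; exact Ideal.pow_mem_pow hy0m _
      have := Ideal.mul_mem_mul h1' h2''
      rw [← pow_add] at this
      have he : m * i + m * (p - 1 - i) = (p - 1) * m := by
        rw [← mul_add, mul_comm]
        congr 1
        omega
      rwa [he] at this
    have := Ideal.mul_mem_mul hsum hy0
    rw [← pow_add] at this
    have he : (p - 1) * m + (m + 3) = p * m + 3 := by
      have : p = (p - 1) + 1 := by omega
      conv_rhs => rw [this]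
      ring
    rwa [he] at this
  rw [ha, ← map_pow, ← map_sub] at hdiff
  obtain ⟨t, ht⟩ := ws_dvd_of_mem_pow ϖ Q hQ0 h1 h2 h2' _ _ hdiff
  refine ⟨m, y, t, hy, ?_⟩
  have : α = (ϖ ^ m * y) ^ p + ϖ ^ (p * m + 3) * t := by rw [← ht]; ring
  rw [this]
  ring

end Abstract

/-- **W4a.** If the prime `Q` of `L` over the principal prime `(ϖ)` of `K` has trivial decomposition
group (`L/K` Galois), and `a ^ p = α` with `a ∈ 𝓞 L` nonzero, `α ∈ 𝓞 K`, then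
`α = ϖ^{pm} (y^p + ϖ³ t)` with `ϖ ∤ y`. -/
theorem exists_eq_pow_mul_of_stabilizer_eq_bot (K L : Type) [Field K] [Field L] [NumberField K]
    [NumberField L] [Algebra K L] [IsGalois K L] (p : ℕ) (_hp : p.Prime) (ϖ : 𝓞 K) (hϖ : Prime ϖ)
    (Q : Ideal (𝓞 L)) [Q.IsPrime] (hQ : algebraMap (𝓞 K) (𝓞 L) ϖ ∈ Q)
    (hD : ∀ τ : L ≃ₐ[K] L, τ • Q = Q → τ = 1)
    (α : 𝓞 K) (a : 𝓞 L) (ha0 : a ≠ 0) (ha : a ^ p = algebraMap (𝓞 K) (𝓞 L) α) :
    ∃ (m : ℕ) (y t : 𝓞 K), ¬ ϖ ∣ y ∧ α = ϖ ^ (p * m) * (y ^ p + ϖ ^ 3 * t) := by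
  classical
  -- the prime `q = (ϖ)` of `𝓞 K`
  set q : Ideal (𝓞 K) := Ideal.span {ϖ} with hq
  have hq0 : q ≠ ⊥ := by
    rw [hq, Ne, Ideal.span_singleton_eq_bot]; exact hϖ.ne_zero
  haveI hqp : q.IsPrime := (Ideal.span_singleton_prime hϖ.ne_zero).mpr hϖ
  haveI hqm : q.IsMaximal := Ring.DimensionLEOne.maximalOfPrime hq0 hqp
  have hle : q ≤ Q.under (𝓞 K) := by
    rw [hq, Ideal.span_le, Set.singleton_subset_iff]
    exact hQ
  have hunder : q = Q.under (𝓞 K) :=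
    hqm.eq_of_le (Ideal.IsPrime.ne_top inferInstance) hle
  haveI hlies : Q.LiesOver q := ⟨hunder⟩
  have hinj : Function.Injective (algebraMap (𝓞 K) (𝓞 L)) :=
    FaithfulSMul.algebraMap_injective _ _
  have hQ0 : Q ≠ ⊥ := by
    intro h
    rw [h, Ideal.mem_bot] at hQ
    exact hϖ.ne_zero (hinj (by rw [hQ, map_zero]))
  haveI hQm : Q.IsMaximal := Ring.DimensionLEOne.maximalOfPrime hQ0 inferInstance
  -- `e f = 1`
  have hstab : Nat.card (MulAction.stabilizer (L ≃ₐ[K] L) Q) = 1 := by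
    rw [Nat.card_eq_one_iff_unique]
    refine ⟨⟨fun x y => ?_⟩, ⟨1⟩⟩
    apply Subtype.ext
    rw [hD x.1 x.2, hD y.1 y.2]
  have hef := Ideal.card_stabilizer_eq (G := L ≃ₐ[K] L) q Q
  rw [hstab, Ideal.ramificationIdxIn_eq_ramificationIdx q Q (L ≃ₐ[K] L),
    Ideal.inertiaDegIn_eq_inertiaDeg q Q (L ≃ₐ[K] L)] at hef
  have he : Q.ramificationIdx (𝓞 K) = 1 := Nat.eq_one_of_mul_eq_one_right hef.symm
  have hf : Q.inertiaDeg (𝓞 K) = 1 := Nat.eq_one_of_mul_eq_one_left hef.symm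
  -- `h1`
  have h1 : ∀ y : 𝓞 K, algebraMap (𝓞 K) (𝓞 L) y ∈ Q → ϖ ∣ y := by
    intro y hy
    have : y ∈ q := by rw [hunder]; exact hy
    rwa [hq, Ideal.mem_span_singleton] at this
  -- `h2'`
  have h2' : algebraMap (𝓞 K) (𝓞 L) ϖ ∉ Q ^ 2 := by
    intro hmem
    have he' : q.ramificationIdx' Q = 1 := by
      rw [Ideal.ramificationIdx'_eq_ramificationIdx q Q hq0]; exact he
    have hmap : q.map (algebraMap (𝓞 K) (𝓞 L)) ≤ Q := Ideal.map_le_iff_le_comap.mpr hle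
    have := (Ideal.ramificationIdx'_ne_one_iff hmap).not.mp (by simpa using he')
    apply this
    rw [hq, Ideal.map_span, Set.image_singleton, Ideal.span_le, Set.singleton_subset_iff]
    exact hmem
  -- `h3`
  have h3 : ∀ x : 𝓞 L, ∃ y : 𝓞 K, x - algebraMap (𝓞 K) (𝓞 L) y ∈ Q := by
    intro x
    have hfin : Module.finrank (𝓞 K ⧸ q) (𝓞 L ⧸ Q) = 1 := by
      rw [← Ideal.inertiaDeg_eq_of_isMaximal q Q]; exact hf
    letI : Field (𝓞 K ⧸ q) := Ideal.Quotient.field q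
    obtain ⟨c, hc⟩ := (finrank_eq_one_iff_of_nonzero' (1 : 𝓞 L ⧸ Q) one_ne_zero).mp hfin
      (Ideal.Quotient.mk Q x)
    obtain ⟨y, rfl⟩ := Ideal.Quotient.mk_surjective c
    refine ⟨y, ?_⟩
    rw [← Ideal.Quotient.eq, ← hc, Algebra.smul_def, mul_one]
    rfl
  exact ws_abstract ϖ Q hQ0 h1 hQ h2' h3 p α a ha0 ha

end Fermat.Agent.S14lib
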