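import Mathlib
import Fermat.Agent.S14lib.WiringBridge
import Fermat.Agent.S14lib.WiringSplit

/-!
# S14 (item 77), piece W4: `α = a ^ p` is locally a `p`-th power at `π = ζ - 1`
-/

set_option autoImplicit false

namespace Fermat.Agent.S14lib

open NumberField Fermat.Agent.FrobLib
open scoped Pointwise

variable {p : ℕ} [hp : Fact p.Prime]

theorem toZBar_algebraMap_Lfield (ζ a : AlgebraicClosure ℚ)
    (x : 𝓞 (IntermediateField.adjoin ℚ {ζ})) :
    toZBar (Lfield ζ a) (algebraMap (𝓞 (IntermediateField.adjoin ℚ {ζ})) (𝓞 (Lfield ζ a)) x)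
      = toZBar (IntermediateField.adjoin ℚ {ζ}) x := by
  apply Subtype.ext
  rw [coe_toZBar, coe_toZBar]
  have : ((algebraMap (𝓞 (IntermediateField.adjoin ℚ {ζ})) (𝓞 (Lfield ζ a)) x : 𝓞 (Lfield ζ a)) :
      Lfield ζ a) = algebraMap (IntermediateField.adjoin ℚ {ζ}) (Lfield ζ a)
        (x : IntermediateField.adjoin ℚ {ζ}) := rfl
  rw [this, coe_algebraMap_Lfield]

/-- **W4.** -/
theorem IsKummerRoot.isLocalPthPower (h3 : 3 ≤ p) {ζ : AlgebraicClosure ℚ}
    (hζ : IsPrimitiveRoot ζ p)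
    {c : KummerCocycle p ζ} {a : AlgebraicClosure ℚ} (ha : IsKummerRoot c a) (ha0 : a ≠ 0)
    (hai : IsIntegral ℤ a)
    (α : IntermediateField.adjoin ℚ {ζ}) (hα : (α : AlgebraicClosure ℚ) = a ^ p) :
    IsLocalPthPower (isPrimitiveRoot_zetaK hζ) α := by
  haveI : NeZero p := ⟨hp.out.ne_zero⟩
  haveI := isGalois_Lfield hζ ha0 α hα
  haveI := isCyclotomicExtension_adjoin_simple hζ
  set hζK := isPrimitiveRoot_zetaK hζ with hζK_def
  -- the prime element `ϖ`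
  set ϖ : 𝓞 (IntermediateField.adjoin ℚ {ζ}) := hζK.toInteger - 1 with hϖ_def
  have hϖ : Prime ϖ := hζK.zeta_sub_one_prime'
  haveI hP : (Ideal.span {ϖ}).IsPrime := (Ideal.span_singleton_prime hϖ.ne_zero).mpr hϖ
  obtain ⟨Qb, hQb, hQbP⟩ := exists_zbar_prime_over (IntermediateField.adjoin ℚ {ζ}) (Ideal.span {ϖ})
  have hϖQb : toZBar (IntermediateField.adjoin ℚ {ζ}) ϖ ∈ Qb := by
    rw [← Ideal.mem_comap, hQbP]
    exact Ideal.mem_span_singleton_self ϖ
  have hpQb : (p : ZBar) ∈ Qb := by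
    have h1 : (p : 𝓞 (IntermediateField.adjoin ℚ {ζ})) ∈ Ideal.span {ϖ} :=
      Ideal.mem_span_singleton.mpr hζK.toInteger_sub_one_dvd_prime'
    rw [← hQbP, Ideal.mem_comap, map_natCast] at h1
    exact h1
  haveI hQL : (Qb.comap (toZBar (Lfield ζ a))).IsPrime := Ideal.comap_isPrime _ _
  have hQ : algebraMap (𝓞 (IntermediateField.adjoin ℚ {ζ})) (𝓞 (Lfield ζ a)) ϖ ∈
      Qb.comap (toZBar (Lfield ζ a)) := by
    rw [Ideal.mem_comap, toZBar_algebraMap_Lfield]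
    exact hϖQb
  -- integral models of `a` and `α`
  have haLi : IsIntegral ℤ (rootL ζ a) :=
    (isIntegral_algebraMap_iff (algebraMap (Lfield ζ a) (AlgebraicClosure ℚ)).injective).mp hai
  have hαi : IsIntegral ℤ α := by
    have : IsIntegral ℤ ((algebraMap (IntermediateField.adjoin ℚ {ζ}) (AlgebraicClosure ℚ)) α) := by
      change IsIntegral ℤ (α : AlgebraicClosure ℚ)
      rw [hα]
      exact hai.pow p
    exact (isIntegral_algebraMap_iff
      (algebraMap (IntermediateField.adjoin ℚ {ζ}) (AlgebraicClosure ℚ)).injective).mp this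
  set aO : 𝓞 (Lfield ζ a) := ⟨rootL ζ a, haLi⟩ with haO
  set αO : 𝓞 (IntermediateField.adjoin ℚ {ζ}) := ⟨α, hαi⟩ with hαO
  have haO0 : aO ≠ 0 := by
    intro h
    have := congrArg (fun x : 𝓞 (Lfield ζ a) => ((x : Lfield ζ a) : AlgebraicClosure ℚ)) h
    simp only [haO] at this
    exact ha0 this
  have haOp : aO ^ p = algebraMap (𝓞 (IntermediateField.adjoin ℚ {ζ})) (𝓞 (Lfield ζ a)) αO := by
    apply toZBar_injective
    rw [toZBar_algebraMap_Lfield]
    apply Subtype.ext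
    rw [map_pow]
    change a ^ p = (α : AlgebraicClosure ℚ)
    exact hα.symm
  obtain ⟨m, y, t, hy, hαeq⟩ := exists_eq_pow_mul_of_stabilizer_eq_bot
    (IntermediateField.adjoin ℚ {ζ}) (Lfield ζ a) p hp.out ϖ hϖ (Qb.comap (toZBar (Lfield ζ a))) hQ
    (fun τ hτ => stabilizer_trivial_Lfield hζ ha Qb hpQb τ hτ) αO aO haO0 haOp
  -- conclusion
  refine ⟨((ϖ : 𝓞 (IntermediateField.adjoin ℚ {ζ})) : IntermediateField.adjoin ℚ {ζ}) ^ m,
    y ^ p + ϖ ^ 3 * t, 1, y, ?_, ?_, ?_, ?_, ?_⟩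
  · apply pow_ne_zero
    intro h
    exact hϖ.ne_zero (RingOfIntegers.coe_eq_zero_iff.mp h)
  · intro hdvd
    have h1 : ϖ ∣ y ^ p := by
      have h2 : ϖ ∣ ϖ ^ 3 * t := Dvd.dvd.mul_right (dvd_pow_self ϖ (by norm_num)) t
      exact (dvd_add_left h2).mp hdvd
    exact hy (hϖ.dvd_of_dvd_pow h1)
  · intro hdvd
    exact hϖ.not_unit (isUnit_of_dvd_one hdvd)
  · have h1 : (α : IntermediateField.adjoin ℚ {ζ}) = ((αO : 𝓞 (IntermediateField.adjoin ℚ {ζ})) :
        IntermediateField.adjoin ℚ {ζ}) := rfl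
    rw [h1, hαeq]
    push_cast
    ring
  · exact ⟨t, by ring⟩

end Fermat.Agent.S14lib
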