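import Mathlib
import Fermat.Agent.S14lib.Defs

/-!
# S14 (item 77), piece W3a: unramified ⇒ the ideal `(α)` is a `p`-th power

`L/K` Galois extension of number fields, all inertia groups trivial, `a ∈ L`, `a ^ p = α ∈ K^×`.
Then for every prime `v` of `K` and a prime `w` of `L` over it, `e(w|v) = 1`, so
`v(α) = w(α) = w(a)^p`; hence `p ∣ count_v (α)` for all `v` and `(α) = (∏ v^{count_v(α)/p})^p`.
-/

set_option autoImplicit false

namespace Fermat.Agent.S14lib

open NumberField IsDedekindDomain WithZero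
open scoped Pointwise nonZeroDivisors

section General

variable {R : Type*} [CommRing R] [IsDedekindDomain R] {K : Type*} [Field K] [Algebra R K]
  [IsFractionRing R K]

/-- The count of a principal fractional ideal is minus the log of the valuation of a generator. -/
lemma wu_count_spanSingleton (v : HeightOneSpectrum R) {x : K} (hx : x ≠ 0) :
    FractionalIdeal.count K v (FractionalIdeal.spanSingleton R⁰ x) = - log (v.valuation K x) := by
  classical
  obtain ⟨b, d, hd, rfl⟩ := IsFractionRing.div_surjective (A := R) x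
  have hd0 : d ≠ 0 := nonZeroDivisors.ne_zero hd
  have hb0 : b ≠ 0 := by
    rintro rfl
    simp at hx
  have hI : FractionalIdeal.spanSingleton R⁰ (algebraMap R K b / algebraMap R K d) ≠ 0 := by
    rw [Ne, FractionalIdeal.spanSingleton_eq_zero_iff]
    exact hx
  have h : FractionalIdeal.spanSingleton R⁰ (algebraMap R K b / algebraMap R K d) =
      FractionalIdeal.spanSingleton R⁰ ((algebraMap R K) d)⁻¹ *
        ((Ideal.span {b} : Ideal R) : FractionalIdeal R⁰ K) := by
    rw [FractionalIdeal.coeIdeal_span_singleton, FractionalIdeal.spanSingleton_mul_spanSingleton,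
      div_eq_inv_mul]
  rw [FractionalIdeal.count_well_defined K v hI h, map_div₀, v.valuation_of_algebraMap,
    v.valuation_of_algebraMap, v.intValuation_if_neg hb0, v.intValuation_if_neg hd0,
    log_div (by simp) (by simp), log_exp, log_exp]
  ring

/-- If all the counts of a nonzero fractional ideal are divisible by `p`, it is a `p`-th power. -/
lemma wu_exists_pow_of_dvd_count (p : ℕ) (I : FractionalIdeal R⁰ K) (hI : I ≠ 0)
    (h : ∀ v : HeightOneSpectrum R, (p : ℤ) ∣ FractionalIdeal.count K v I) :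
    ∃ J : FractionalIdeal R⁰ K, I = J ^ p := by
  classical
  refine ⟨∏ᶠ v : HeightOneSpectrum R,
    (v.asIdeal : FractionalIdeal R⁰ K) ^ (FractionalIdeal.count K v I / (p : ℤ)), ?_⟩
  have hfin : (Function.mulSupport fun v : HeightOneSpectrum R =>
      (v.asIdeal : FractionalIdeal R⁰ K) ^ (FractionalIdeal.count K v I / (p : ℤ))).Finite := by
    have hf := FractionalIdeal.finite_factors I
    rw [Filter.eventually_cofinite] at hf
    refine hf.subset ?_
    intro v hv
    simp only [Function.mem_mulSupport, ne_eq, Set.mem_ofPred_eq] at hv ⊢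
    intro h0
    apply hv
    rw [h0, Int.zero_ediv, zpow_zero]
  rw [finprod_pow hfin]
  conv_lhs => rw [← FractionalIdeal.finprod_heightOneSpectrum_factorization' K hI]
  refine finprod_congr fun v => ?_
  rw [← zpow_natCast, ← zpow_mul, Int.ediv_mul_cancel (h v)]

end General

section NF

variable (K L : Type) [Field K] [Field L] [NumberField K] [NumberField L] [Algebra K L]
  [IsGalois K L]

/-- Trivial inertia ⇒ ramification index one. -/
lemma wu_ramificationIdx_eq_one
    (hI : ∀ (Q : Ideal (𝓞 L)) [Q.IsPrime], Q ≠ ⊥ → ∀ τ : L ≃ₐ[K] L,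
      (∀ x : 𝓞 L, τ • x - x ∈ Q) → τ = 1)
    (v : HeightOneSpectrum (𝓞 K)) (w : HeightOneSpectrum (𝓞 L))
    [hvw : w.asIdeal.LiesOver v.asIdeal] :
    v.asIdeal.ramificationIdx' w.asIdeal = 1 := by
  have : IsGaloisGroup (L ≃ₐ[K] L) (𝓞 K) (𝓞 L) :=
    IsGaloisGroup.of_isFractionRing (L ≃ₐ[K] L) (𝓞 K) (𝓞 L) K L
  have := v.isPrime
  have := w.isPrime
  have hcard := Ideal.card_inertia_eq_ramificationIdxIn (G := L ≃ₐ[K] L) v.asIdeal w.asIdeal
  rw [Ideal.ramificationIdxIn_eq_ramificationIdx v.asIdeal w.asIdeal (L ≃ₐ[K] L)] at hcard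
  rw [Ideal.ramificationIdx'_eq_ramificationIdx v.asIdeal w.asIdeal v.ne_bot, ← hcard]
  have hbot : w.asIdeal.inertia (L ≃ₐ[K] L) = ⊥ := by
    rw [Subgroup.eq_bot_iff_forall]
    intro τ hτ
    exact hI w.asIdeal w.ne_bot τ (fun x => hτ x)
  rw [hbot]
  simp

omit [NumberField L] [IsGalois K L] in
/-- Every prime of `K` has a prime of `L` over it. -/
lemma wu_exists_liesOver (v : HeightOneSpectrum (𝓞 K)) :
    ∃ w : HeightOneSpectrum (𝓞 L), w.asIdeal.LiesOver v.asIdeal := by
  have := v.isMaximal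
  obtain ⟨Q, hQ, hQv⟩ := Ideal.exists_maximal_ideal_liesOver_of_isIntegral (S := 𝓞 L) v.asIdeal
  refine ⟨⟨Q, hQ.isPrime, ?_⟩, hQv⟩
  intro h0
  have h1 : v.asIdeal = Q.under (𝓞 K) := hQv.over
  rw [h0] at h1
  apply v.ne_bot
  rw [h1]
  exact Ideal.under_bot (𝓞 K) (𝓞 L)

/-- **W3a.** If `L/K` is a Galois extension of number fields which is unramified at every prime
(all inertia groups trivial) and `a ^ p = α ∈ K` with `a ∈ L`, then `(α)` is a `p`-th power. -/
theorem isPthPowerIdeal_of_inertia_eq_bot (p : ℕ) (hp : p.Prime) (α : K) (hα : α ≠ 0)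
    (a : L) (ha : a ^ p = algebraMap K L α)
    (hI : ∀ (Q : Ideal (𝓞 L)) [Q.IsPrime], Q ≠ ⊥ → ∀ τ : L ≃ₐ[K] L,
      (∀ x : 𝓞 L, τ • x - x ∈ Q) → τ = 1) :
    IsPthPowerIdeal p α := by
  have ha0 : a ≠ 0 := by
    rintro rfl
    rw [zero_pow hp.ne_zero] at ha
    exact hα ((map_eq_zero_iff _ (algebraMap K L).injective).mp ha.symm)
  have hI0 : FractionalIdeal.spanSingleton (𝓞 K)⁰ α ≠ 0 := by
    rw [Ne, FractionalIdeal.spanSingleton_eq_zero_iff]
    exact hα
  obtain ⟨J, hJ⟩ := wu_exists_pow_of_dvd_count (R := 𝓞 K) (K := K) p _ hI0 (by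
    intro v
    obtain ⟨w, hw⟩ := wu_exists_liesOver K L v
    have he := wu_ramificationIdx_eq_one K L hI v w
    have hval := HeightOneSpectrum.valuation_liesOver L v w α
    rw [he, pow_one, ← ha, map_pow] at hval
    rw [wu_count_spanSingleton v hα, hval, log_pow]
    exact Dvd.dvd.neg_right ⟨log (w.valuation L a), by simp⟩)
  exact ⟨J, hJ⟩

end NF

end Fermat.Agent.S14lib
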