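import Mathlib
import Fermat.Agent.S14lib.WiringBridge
import Fermat.Agent.S14lib.WiringUnram

/-!
# S14 (item 77), piece W3: `(α)` is a `p`-th power (`α = a ^ p`, `a` a Kummer root)
-/

set_option autoImplicit false

namespace Fermat.Agent.S14lib

open NumberField Fermat.Agent.FrobLib
open scoped Pointwise

variable {p : ℕ} [hp : Fact p.Prime]

/-- **W3.** -/
theorem IsKummerRoot.isPthPowerIdeal {ζ : AlgebraicClosure ℚ} (hζ : IsPrimitiveRoot ζ p)
    {c : KummerCocycle p ζ} {a : AlgebraicClosure ℚ} (ha : IsKummerRoot c a) (ha0 : a ≠ 0)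
    (α : IntermediateField.adjoin ℚ {ζ}) (hα : (α : AlgebraicClosure ℚ) = a ^ p) :
    IsPthPowerIdeal p α := by
  haveI : NeZero p := ⟨hp.out.ne_zero⟩
  haveI := isGalois_Lfield hζ ha0 α hα
  have hα0 : α ≠ 0 := by
    intro h
    rw [h] at hα
    exact ha0 (pow_eq_zero_iff (NeZero.ne p) |>.mp hα.symm)
  have haL : rootL ζ a ^ p = algebraMap (IntermediateField.adjoin ℚ {ζ}) (Lfield ζ a) α := by
    apply Subtype.ext
    rw [coe_algebraMap_Lfield, hα]
    rfl
  exact isPthPowerIdeal_of_inertia_eq_bot (K := IntermediateField.adjoin ℚ {ζ})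
    (L := Lfield ζ a) p hp.out α hα0 (rootL ζ a) haL
    (fun Q _ hQ τ hτ => inertia_trivial_Lfield hζ ha Q hQ τ hτ)

end Fermat.Agent.S14lib
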