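import Mathlib
import Fermat.Agent.S14lib.WiringDefs

/-!
# S14 (item 77), piece W1: the Kummer cocycle of a non-split admissible extension

`exists_kummerCocycle` (exact signature of `NOTES/S14_W_signatures.lean.txt`).

`V ⊇ C = 𝔽_p e`, `v₀ ∉ C`; `σ v₀ = χ(σ) v₀ + κ(σ) e` defines `κ`, a cocycle:
`κ(στ) = χ(τ) κ(σ) + κ(τ)`.  If `κ` vanished on `G_K = ker χ` it would be a coboundary and `V` would
split globally.
-/

set_option autoImplicit false
set_option linter.style.haveILetI false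

namespace Fermat.Agent.S14lib

open Fermat.Agent.FrobLib ExtCitation

variable {p : ℕ} [hp : Fact p.Prime]

/-! ### The cyclotomic exponent -/

theorem wc_apply_zeta {ζ : AlgebraicClosure ℚ} (hζ : IsPrimitiveRoot ζ p) (σ : GQ) :
    σ ζ = ζ ^ cycloExp p σ := by
  haveI : NeZero p := ⟨hp.out.ne_zero⟩
  have hu : (hζ.isUnit hp.out.ne_zero).unit ∈ rootsOfUnity p (AlgebraicClosure ℚ) := by
    rw [mem_rootsOfUnity]
    ext
    simp [hζ.pow_eq_one]
  have h := modularCyclotomicCharacter.spec (AlgebraicClosure ℚ) (card_rootsOfUnity_eq_self p)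
    (σ : AlgebraicClosure ℚ ≃+* AlgebraicClosure ℚ) hu
  simpa [cycloExp] using h

theorem wc_cast_eq_of_apply {ζ : AlgebraicClosure ℚ} (hζ : IsPrimitiveRoot ζ p) (σ : GQ) (n : ℕ)
    (h : σ ζ = ζ ^ n) : (cycloExp p σ : ZMod p) = (n : ZMod p) := by
  have h1 : ζ ^ cycloExp p σ = ζ ^ n := by rw [← wc_apply_zeta hζ σ, h]
  rw [ZMod.natCast_eq_natCast_iff]
  have hfin : IsOfFinOrder ζ := isOfFinOrder_iff_pow_eq_one.mpr ⟨p, hp.out.pos, hζ.pow_eq_one⟩
  have h2 := hfin.pow_eq_pow_iff_modEq.mp h1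
  rwa [← hζ.eq_orderOf] at h2

theorem wc_apply_of_cast_eq {ζ : AlgebraicClosure ℚ} (hζ : IsPrimitiveRoot ζ p) (σ : GQ) (n : ℕ)
    (h : (cycloExp p σ : ZMod p) = (n : ZMod p)) : σ ζ = ζ ^ n := by
  rw [wc_apply_zeta hζ σ]
  rw [ZMod.natCast_eq_natCast_iff] at h
  have hfin : IsOfFinOrder ζ := isOfFinOrder_iff_pow_eq_one.mpr ⟨p, hp.out.pos, hζ.pow_eq_one⟩
  apply hfin.pow_eq_pow_iff_modEq.mpr
  rwa [← hζ.eq_orderOf]

theorem wc_cast_one_iff {ζ : AlgebraicClosure ℚ} (hζ : IsPrimitiveRoot ζ p) (σ : GQ) :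
    (cycloExp p σ : ZMod p) = 1 ↔ σ ζ = ζ := by
  constructor
  · intro h
    have := wc_apply_of_cast_eq hζ σ 1 (by simpa using h)
    simpa using this
  · intro h
    have := wc_cast_eq_of_apply hζ σ 1 (by simpa using h)
    simpa using this

theorem wc_cast_mul {ζ : AlgebraicClosure ℚ} (hζ : IsPrimitiveRoot ζ p) (σ τ : GQ) :
    (cycloExp p (σ * τ) : ZMod p) = (cycloExp p σ : ZMod p) * (cycloExp p τ : ZMod p) := by
  rw [← Nat.cast_mul]
  apply wc_cast_eq_of_apply hζ
  rw [AlgEquiv.mul_apply, wc_apply_zeta hζ τ, map_pow, wc_apply_zeta hζ σ, ← pow_mul]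

theorem wc_cast_one {ζ : AlgebraicClosure ℚ} (hζ : IsPrimitiveRoot ζ p) :
    (cycloExp p (1 : GQ) : ZMod p) = 1 :=
  (wc_cast_one_iff hζ 1).mpr rfl

/-- Some automorphism moves `ζ` (`p ≥ 3`). -/
theorem wc_exists_ne (h3 : 3 ≤ p) {ζ : AlgebraicClosure ℚ} (hζ : IsPrimitiveRoot ζ p) :
    ∃ σ : GQ, σ ζ ≠ ζ := by
  by_contra hcon
  have hcon : ∀ σ : GQ, σ ζ = ζ := fun σ => by
    by_contra h
    exact hcon ⟨σ, h⟩
  haveI hgal : IsGalois ℚ (AlgebraicClosure ℚ) := Fermat.Agent.FrobLib.isGalois_QBar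
  have hmem : ζ ∈ IntermediateField.fixedField
      (⊤ : Subgroup (AlgebraicClosure ℚ ≃ₐ[ℚ] AlgebraicClosure ℚ)) := by
    rw [IntermediateField.mem_fixedField_iff]
    intro σ _
    exact hcon σ
  have hbot : IntermediateField.fixedField
      (⊤ : Subgroup (AlgebraicClosure ℚ ≃ₐ[ℚ] AlgebraicClosure ℚ)) = ⊥ := by
    have h1 := InfiniteGalois.fixedField_fixingSubgroup
      (⊥ : IntermediateField ℚ (AlgebraicClosure ℚ))
    rwa [IntermediateField.fixingSubgroup_bot] at h1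
  rw [hbot, IntermediateField.mem_bot] at hmem
  obtain ⟨q, hq⟩ := hmem
  have hqp : q ^ p = 1 := by
    apply (algebraMap ℚ (AlgebraicClosure ℚ)).injective
    rw [map_pow, hq, hζ.pow_eq_one, map_one]
  have habs : |q| = 1 := by
    have h1 : |q| ^ p = 1 := by rw [← abs_pow, hqp, abs_one]
    exact (pow_eq_one_iff_of_nonneg (abs_nonneg q) hp.out.ne_zero).mp h1
  have hq2 : q ^ 2 = 1 := by
    rw [← sq_abs, habs, one_pow]
  have hζ2 : ζ ^ 2 = 1 := by
    rw [← hq, ← map_pow, hq2, map_one]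
  have := Nat.le_of_dvd (by norm_num) (hζ.dvd_of_pow_eq_one 2 hζ2)
  omega

/-! ### Linear algebra of an admissible extension -/

section lin

variable {V : Type} [AddCommGroup V] [Module (ZMod p) V]

theorem wc_finrank_of_card {W : Type} [AddCommGroup W] [Module (ZMod p) W] {n : ℕ}
    (h : Nat.card W = p ^ n) : Module.finrank (ZMod p) W = n ∧ Module.Finite (ZMod p) W := by
  haveI : Finite W := Nat.finite_of_card_ne_zero (h ▸ pow_ne_zero n hp.out.ne_zero)
  haveI : Module.Finite (ZMod p) W := Module.Finite.of_finite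
  refine ⟨?_, inferInstance⟩
  have h1 := Module.natCard_eq_pow_finrank (K := ZMod p) (V := W)
  rw [h, Nat.card_zmod] at h1
  exact (Nat.pow_right_injective hp.out.two_le h1).symm

/-- A generator of the line `C`. -/
theorem wc_exists_gen (C : Submodule (ZMod p) V) (hC : Nat.card C = p) :
    ∃ e : V, e ∈ C ∧ e ≠ 0 ∧ ∀ x ∈ C, ∃ a : ZMod p, a • e = x := by
  obtain ⟨hfr, hfin⟩ := wc_finrank_of_card (W := C) (n := 1) (by rw [hC, pow_one])
  haveI := hfin
  obtain ⟨e, he0, he⟩ := finrank_eq_one_iff'.mp hfr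
  refine ⟨e.1, e.2, fun h => he0 (Subtype.ext h), fun x hx => ?_⟩
  obtain ⟨a, ha⟩ := he ⟨x, hx⟩
  exact ⟨a, congrArg Subtype.val ha⟩

theorem wc_exists_not_mem (C : Submodule (ZMod p) V) (hC : Nat.card C = p)
    (hV : Nat.card V = p ^ 2) : ∃ v0 : V, v0 ∉ C := by
  by_contra hcon
  have htop : C = ⊤ := by
    rw [eq_top_iff]
    intro v _
    by_contra h
    exact hcon ⟨v, h⟩
  have h1 : Nat.card C = Nat.card V := by
    rw [htop]
    exact Nat.card_congr (Submodule.topEquiv (R := ZMod p) (M := V)).toEquiv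
  rw [hC, hV] at h1
  have h2 : p ^ 1 = p ^ 2 := by rw [pow_one]; exact h1
  have := Nat.pow_right_injective hp.out.two_le h2
  omega

/-- A line through a vector outside the line `C` is a complement of `C`. -/
theorem wc_isCompl_span (C : Submodule (ZMod p) V) (hC : Nat.card C = p)
    (hV : Nat.card V = p ^ 2) (v : V) (hv : v ∉ C) :
    IsCompl C (Submodule.span (ZMod p) {v}) := by
  obtain ⟨hfrV, hfinV⟩ := wc_finrank_of_card (W := V) (n := 2) hV
  obtain ⟨hfrC, hfinC⟩ := wc_finrank_of_card (W := C) (n := 1) (by rw [hC, pow_one])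
  haveI := hfinV
  have hv0 : v ≠ 0 := fun h => hv (h ▸ C.zero_mem)
  have hdisj : Disjoint C (Submodule.span (ZMod p) {v}) := by
    rw [Submodule.disjoint_def]
    intro x hxC hx
    obtain ⟨a, rfl⟩ := Submodule.mem_span_singleton.mp hx
    by_cases ha : a = 0
    · rw [ha, zero_smul]
    · exfalso
      apply hv
      have := C.smul_mem a⁻¹ hxC
      rwa [smul_smul, inv_mul_cancel₀ ha, one_smul] at this
  refine ⟨hdisj, ?_⟩
  rw [codisjoint_iff]
  apply Submodule.eq_top_of_disjoint _ _ ?_ hdisj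
  rw [hfrC, finrank_span_singleton hv0, hfrV]

end lin

/-! ### The cocycle -/

/-- **W1.** A non-split admissible extension gives a Kummer cocycle. -/
theorem exists_kummerCocycle (h3 : 3 ≤ p)
    (V : Type) [AddCommGroup V] [Module (ZMod p) V]
    [DistribMulAction (AlgebraicClosure ℚ ≃ₐ[ℚ] AlgebraicClosure ℚ) V]
    [SMulCommClass (AlgebraicClosure ℚ ≃ₐ[ℚ] AlgebraicClosure ℚ) (ZMod p) V]
    (C : Submodule (ZMod p) V) (hadm : ExtCitation.IsAdmissibleExtensionCts p V C)
    (hns : ¬ ExtCitation.SplitsGlobally C)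
    (ζ : AlgebraicClosure ℚ) (hζ : IsPrimitiveRoot ζ p) :
    Nonempty (KummerCocycle p ζ) := by
  classical
  obtain ⟨e, heC, he0, hgen⟩ := wc_exists_gen C hadm.card_sub
  obtain ⟨v0, hv0⟩ := wc_exists_not_mem C hadm.card_sub hadm.card_total
  -- the character and the cocycle
  set χ : GQ → ZMod p := fun σ => (cycloExp p σ : ZMod p) with hχ
  have hχmul : ∀ σ τ : GQ, χ (σ * τ) = χ σ * χ τ := fun σ τ => wc_cast_mul hζ σ τ
  have hχone : χ 1 = 1 := wc_cast_one hζ
  have hχfix : ∀ σ : GQ, χ σ = 1 ↔ σ ζ = ζ := fun σ => wc_cast_one_iff hζ σ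
  have hex : ∀ σ : GQ, ∃ a : ZMod p, a • e = σ • v0 - χ σ • v0 :=
    fun σ => hgen _ (hadm.cyclo_quot σ v0)
  choose κ hκ using hex
  have hbasic : ∀ σ : GQ, σ • v0 = χ σ • v0 + κ σ • e := fun σ => by rw [hκ]; abel
  have hfix : ∀ σ : GQ, σ • e = e := fun σ => hadm.fixed_sub σ e heC
  have hinj : ∀ a b : ZMod p, a • e = b • e → a = b := fun a b h =>
    smul_left_injective (ZMod p) he0 h
  have hv0e : ∀ a b : ZMod p, a • v0 = b • e → a = 0 := by
    intro a b h
    by_contra ha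
    apply hv0
    have h1 : v0 = (a⁻¹ * b) • e := by
      rw [mul_smul, ← h, smul_smul, inv_mul_cancel₀ ha, one_smul]
    rw [h1]
    exact C.smul_mem _ heC
  have hcoc : ∀ σ τ : GQ, κ (σ * τ) = χ τ * κ σ + κ τ := by
    intro σ τ
    apply hinj
    have h1 : (σ * τ) • v0 = χ (σ * τ) • v0 + κ (σ * τ) • e := hbasic _
    have h2 : (σ * τ) • v0 = χ (σ * τ) • v0 + (χ τ * κ σ + κ τ) • e := by
      rw [mul_smul, hbasic τ, smul_add, smul_comm σ (χ τ) v0, smul_comm σ (κ τ) e, hfix,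
        hbasic σ, hχmul]
      module
    exact add_left_cancel (h1.symm.trans h2)
  have hκone : κ 1 = 0 := by
    have h := hcoc 1 1
    rw [mul_one, hχone, one_mul] at h
    have : κ 1 + 0 = κ 1 + κ 1 := by rw [add_zero]; exact h
    exact (add_left_cancel this).symm
  -- `κ σ = 0` iff `σ` fixes `v0`, for `σ` fixing `ζ`
  have hκzero : ∀ σ : GQ, σ ζ = ζ → (κ σ = 0 ↔ σ • v0 = v0) := by
    intro σ hσ
    have h1 := hbasic σ
    rw [(hχfix σ).mpr hσ, one_smul] at h1
    constructor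
    · intro h
      rw [h1, h, zero_smul, add_zero]
    · intro h
      apply hinj
      rw [zero_smul]
      rw [h] at h1
      exact (add_left_cancel (a := v0) (by rw [add_zero]; exact h1)).symm
  -- a fixed `v0` forces `χ = 1`
  have hχ_of_fix : ∀ σ : GQ, σ • v0 = v0 → χ σ = 1 := by
    intro σ h
    have h1 := hbasic σ
    rw [h] at h1
    have h2 : (1 - χ σ) • v0 = κ σ • e := by
      rw [sub_smul, one_smul]
      nth_rewrite 1 [h1]
      abel
    have := hv0e _ _ h2
    exact (sub_eq_zero.mp this).symm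
  by_cases hne : ∃ τ : GQ, τ ζ = ζ ∧ κ τ ≠ 0
  · refine ⟨KummerCocycle.mk κ ?_ ?_ ?_ hne ?_ ?_⟩
    · intro σ τ hσ hτ
      rw [hcoc, (hχfix τ).mpr hτ, one_mul]
    · intro σ τ n hσ hτ
      have hχσ : χ σ = n := wc_cast_eq_of_apply hζ σ n hσ
      have hχτ : χ τ = 1 := (hχfix τ).mpr hτ
      have h1 : χ σ * κ σ⁻¹ + κ σ = 0 := by
        have := hcoc σ⁻¹ σ
        rw [inv_mul_cancel, hκone] at this
        exact this.symm
      have h2 : κ (σ⁻¹ * τ * σ) = χ σ * κ σ⁻¹ + (χ σ * κ τ + κ σ) := by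
        rw [mul_assoc, hcoc σ⁻¹ (τ * σ), hcoc τ σ, hχmul, hχτ, one_mul]
      rw [h2, ← hχσ]
      linear_combination h1
    · -- openness
      have hsub : {σ : GQ | ∀ v : V, σ • v = v} ⊆ {σ : GQ | σ ζ = ζ ∧ κ σ = 0} := by
        intro σ hσ
        have h1 : σ • v0 = v0 := hσ v0
        have h2 : σ ζ = ζ := (hχfix σ).mp (hχ_of_fix σ h1)
        exact ⟨h2, (hκzero σ h2).mpr h1⟩
      let S : Subgroup GQ :=
        { carrier := {σ : GQ | σ ζ = ζ ∧ κ σ = 0}
          mul_mem' := by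
            rintro σ τ ⟨hσ, hσ'⟩ ⟨hτ, hτ'⟩
            refine ⟨by rw [AlgEquiv.mul_apply, hτ, hσ], ?_⟩
            rw [hcoc, hσ', hτ', mul_zero, add_zero]
          one_mem' := ⟨rfl, hκone⟩
          inv_mem' := by
            rintro σ ⟨hσ, hσ'⟩
            have h1 : σ⁻¹ ζ = ζ := by
              have : σ⁻¹ (σ ζ) = ζ := by
                rw [← AlgEquiv.mul_apply, inv_mul_cancel, AlgEquiv.one_apply]
              rwa [hσ] at this
            refine ⟨h1, ?_⟩
            have h2 := hcoc σ σ⁻¹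
            rw [mul_inv_cancel, hκone, hσ', mul_zero, zero_add] at h2
            exact h2.symm }
      let N : Subgroup GQ :=
        { carrier := {σ : GQ | ∀ v : V, σ • v = v}
          mul_mem' := by
            intro σ τ hσ hτ v
            rw [mul_smul, hτ v, hσ v]
          one_mem' := fun v => one_smul _ v
          inv_mem' := by
            intro σ hσ v
            have := hσ v
            rw [← this, smul_smul, inv_mul_cancel, one_smul, this] }
      have hN : IsOpen (N : Set GQ) := hadm.open_kernel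
      have hle : N ≤ S := hsub
      exact Subgroup.isOpen_mono hle hN
    · intro ℓ hℓ hℓp A hA σ hσ hσζ
      exact (hκzero σ hσζ).mpr (hadm.unramified_outside ℓ hℓ hℓp A hA σ hσ v0)
    · intro A hA σ hσ hσζ
      obtain ⟨C', hstab, hcompl⟩ := hadm.locally_split A hA
      -- decompose `v0`
      obtain ⟨x, hx, x', hx', hsum⟩ : ∃ x ∈ C, ∃ x' ∈ C', x + x' = v0 := by
        have : v0 ∈ C ⊔ C' := by rw [hcompl.sup_eq_top]; exact Submodule.mem_top
        exact Submodule.mem_sup.mp this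
      apply (hκzero σ hσζ).mpr
      have h1 : σ • x = x := hadm.fixed_sub σ x hx
      have h2 : σ • x' ∈ C' := hstab σ hσ x' hx'
      have h3 : σ • v0 - v0 ∈ C := by
        have := hadm.cyclo_quot σ v0
        rwa [show ((cycloExp p σ : ZMod p)) = χ σ from rfl, (hχfix σ).mpr hσζ, one_smul] at this
      have h4 : σ • v0 - v0 = σ • x' - x' := by
        rw [← hsum, smul_add, h1]; abel
      have h5 : σ • x' - x' ∈ C' := C'.sub_mem h2 hx'
      have h6 : σ • v0 - v0 = 0 := by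
        have := (Submodule.disjoint_def.mp hcompl.disjoint) (σ • v0 - v0) h3 (h4 ▸ h5)
        exact this
      exact sub_eq_zero.mp h6
  · -- `κ` vanishes on `G_K`: the extension splits
    exfalso
    apply hns
    have hvan : ∀ τ : GQ, τ ζ = ζ → κ τ = 0 := by
      intro τ hτ
      by_contra h
      exact hne ⟨τ, hτ, h⟩
    obtain ⟨σ0, hσ0⟩ := wc_exists_ne h3 hζ
    have hχσ0 : χ σ0 - 1 ≠ 0 := by
      intro h
      exact hσ0 ((hχfix σ0).mp (sub_eq_zero.mp h))
    have hχinv : ∀ σ : GQ, χ σ⁻¹ * χ σ = 1 := fun σ => by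
      rw [← hχmul, inv_mul_cancel, hχone]
    have hcomm : ∀ σ : GQ, κ σ * (χ σ0 - 1) = κ σ0 * (χ σ - 1) := by
      intro σ
      set ρ : GQ := (σ0 * σ)⁻¹ * (σ * σ0) with hρ
      have hχρ : χ ρ = 1 := by
        rw [hρ, hχmul, hχmul σ σ0, mul_comm (χ σ) (χ σ0), ← hχmul σ0 σ, hχinv]
      have hκρ : κ ρ = 0 := hvan ρ ((hχfix ρ).mp hχρ)
      have h1 : σ * σ0 = (σ0 * σ) * ρ := by
        rw [hρ, mul_inv_cancel_left]
      have h2 : κ (σ * σ0) = κ (σ0 * σ) := by
        rw [h1, hcoc, hχρ, hκρ, one_mul, add_zero]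
      rw [hcoc σ σ0, hcoc σ0 σ] at h2
      linear_combination h2
    set t : ZMod p := κ σ0 / (χ σ0 - 1) with ht
    have hκt : ∀ σ : GQ, κ σ = (χ σ - 1) * t := by
      intro σ
      rw [ht]
      field_simp
      rw [mul_comm (χ σ - 1)]
      exact hcomm σ
    set v0' : V := v0 + t • e with hv0'
    have hv0'C : v0' ∉ C := by
      intro h
      apply hv0
      have := C.sub_mem h (C.smul_mem t heC)
      rwa [hv0', add_sub_cancel_right] at this
    have heig : ∀ σ : GQ, σ • v0' = χ σ • v0' := by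
      intro σ
      rw [hv0', smul_add, smul_comm σ t e, hfix, hbasic σ, hκt σ]
      module
    refine ⟨Submodule.span (ZMod p) {v0'}, ?_,
      wc_isCompl_span C hadm.card_sub hadm.card_total v0' hv0'C⟩
    intro σ x hx
    obtain ⟨a, rfl⟩ := Submodule.mem_span_singleton.mp hx
    rw [smul_comm σ a v0', heig σ, smul_smul]
    exact Submodule.smul_mem _ _ (Submodule.mem_span_singleton_self v0')

end Fermat.Agent.S14lib
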