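import Mathlib
import Fermat.Agent.S14lib.WiringDefs

/-!
# S14 (item 77), piece W2b: algebraic properties of `α = a ^ p`, `a` a Kummer root

* `IsKummerRoot.pow_mem`: `a ^ p ∈ ℚ(ζ)`;
* `IsKummerRoot.isOmegaSq`: `α` lies in the `ω²`-eigenspace of `K^× / K^{×p}`;
* `IsKummerRoot.not_pow`: `α` is not a `p`-th power in `ℚ(ζ)`.
-/

set_option autoImplicit false

namespace Fermat.Agent.S14lib

open NumberField Fermat.Agent.FrobLib
open scoped Pointwise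

variable {p : ℕ} [hp : Fact p.Prime]

/-- An element of `ℚ̄` fixed by every automorphism fixing `ζ` lies in `ℚ(ζ)`. -/
theorem mem_adjoin_of_fixed {ζ x : AlgebraicClosure ℚ} (h : ∀ σ : GQ, σ ζ = ζ → σ x = x) :
    x ∈ IntermediateField.adjoin ℚ {ζ} := by
  have hgal := isGalois_QBar
  rw [← InfiniteGalois.fixedField_fixingSubgroup (IntermediateField.adjoin ℚ {ζ}),
    IntermediateField.mem_fixedField_iff]
  intro σ hσ
  refine h σ ?_
  exact (IntermediateField.mem_fixingSubgroup_iff _ σ).mp hσ ζ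
    (IntermediateField.mem_adjoin_simple_self ℚ ζ)

/-- An automorphism fixing `ζ` fixes `ℚ(ζ)` pointwise. -/
theorem apply_eq_of_mem_adjoin {ζ : AlgebraicClosure ℚ} (σ : GQ) (hσ : σ ζ = ζ)
    {x : AlgebraicClosure ℚ} (hx : x ∈ IntermediateField.adjoin ℚ {ζ}) : σ x = x := by
  have hle : IntermediateField.adjoin ℚ {ζ} ≤ IntermediateField.fixedField (Subgroup.zpowers σ) := by
    rw [IntermediateField.adjoin_le_iff]
    intro y hy
    rw [Set.mem_singleton_iff] at hy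
    rw [SetLike.mem_coe, IntermediateField.mem_fixedField_iff]
    intro g hg
    obtain ⟨n, rfl⟩ := Subgroup.mem_zpowers_iff.mp hg
    have hfix : σ ∈ MulAction.stabilizer GQ y := by rw [hy]; exact hσ
    exact (MulAction.stabilizer GQ y).zpow_mem hfix n
  exact (IntermediateField.mem_fixedField_iff _ x).mp (hle hx) σ (Subgroup.mem_zpowers σ)

theorem zeta_pow_eq_of_natCast_eq {ζ : AlgebraicClosure ℚ} (hζ : IsPrimitiveRoot ζ p) {m n : ℕ}
    (h : (m : ZMod p) = (n : ZMod p)) : ζ ^ m = ζ ^ n := by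
  have key : ∀ k : ℕ, ζ ^ k = ζ ^ (k % p) := by
    intro k
    conv_lhs => rw [← Nat.div_add_mod k p, pow_add, pow_mul, hζ.pow_eq_one, one_pow, one_mul]
  rw [key m, key n, (ZMod.natCast_eq_natCast_iff' m n p).mp h]

theorem natCast_mul_val_eq {n : ℕ} {x y : ZMod p} (h : x = (n : ZMod p) * y) :
    ((n * x.val : ℕ) : ZMod p) = ((y.val * n ^ 2 : ℕ) : ZMod p) := by
  haveI : NeZero p := ⟨hp.out.ne_zero⟩
  push_cast
  rw [ZMod.natCast_zmod_val, ZMod.natCast_zmod_val, h]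
  ring

/-- **W2b-1.** `a ^ p ∈ ℚ(ζ)`. -/
theorem IsKummerRoot.pow_mem {ζ : AlgebraicClosure ℚ} (hζ : IsPrimitiveRoot ζ p)
    {c : KummerCocycle p ζ} {a : AlgebraicClosure ℚ} (ha : IsKummerRoot c a) :
    a ^ p ∈ IntermediateField.adjoin ℚ {ζ} := by
  apply mem_adjoin_of_fixed
  intro σ hσ
  rw [map_pow, ha σ hσ, mul_pow, ← pow_mul, mul_comm (c.κ σ).val p, pow_mul, hζ.pow_eq_one,
    one_pow, one_mul]

/-- **W2b-3.** `α = a ^ p` is not a `p`-th power in `ℚ(ζ)`. -/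
theorem IsKummerRoot.not_pow {ζ : AlgebraicClosure ℚ} (hζ : IsPrimitiveRoot ζ p)
    {c : KummerCocycle p ζ} {a : AlgebraicClosure ℚ} (ha : IsKummerRoot c a) (ha0 : a ≠ 0)
    (α : IntermediateField.adjoin ℚ {ζ}) (hα : (α : AlgebraicClosure ℚ) = a ^ p) :
    ¬ ∃ β : IntermediateField.adjoin ℚ {ζ}, α = β ^ p := by
  haveI : NeZero p := ⟨hp.out.ne_zero⟩
  rintro ⟨β, hβ⟩
  obtain ⟨τ, hτζ, hτκ⟩ := c.ne_zero
  have hβp : (β : AlgebraicClosure ℚ) ^ p = a ^ p := by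
    rw [← hα, hβ]
    rfl
  have hβ0 : (β : AlgebraicClosure ℚ) ≠ 0 := by
    intro h
    rw [h, zero_pow hp.out.ne_zero] at hβp
    exact ha0 (pow_eq_zero_iff hp.out.ne_zero |>.mp hβp.symm)
  -- `a / β` is a `p`-th root of unity, hence a power of `ζ`
  have hu : (a / (β : AlgebraicClosure ℚ)) ^ p = 1 := by
    rw [div_pow, hβp, div_self (pow_ne_zero p ha0)]
  obtain ⟨j, -, hj⟩ := hζ.eq_pow_of_pow_eq_one hu
  have haβ : a = ζ ^ j * β := by
    rw [hj]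
    field_simp
  have hτβ : τ (β : AlgebraicClosure ℚ) = β := apply_eq_of_mem_adjoin τ hτζ β.2
  have hτa : τ a = a := by
    rw [haβ, map_mul, map_pow, hτζ, hτβ]
  have h1 := ha τ hτζ
  rw [hτa] at h1
  have h2 : ζ ^ (c.κ τ).val = 1 := by
    have h3 : (1 : AlgebraicClosure ℚ) * a = ζ ^ (c.κ τ).val * a := by rw [one_mul]; exact h1
    exact (mul_right_cancel₀ ha0 h3).symm
  have h4 : p ∣ (c.κ τ).val := (hζ.pow_eq_one_iff_dvd _).mp h2
  have h5 : (c.κ τ).val < p := ZMod.val_lt _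
  have h6 : (c.κ τ).val = 0 := Nat.eq_zero_of_dvd_of_lt h4 h5
  exact hτκ ((ZMod.val_eq_zero _).mp h6)

/-- **W2b-2.** `α = a ^ p` lies in the `ω²`-eigenspace. -/
theorem IsKummerRoot.isOmegaSq {ζ : AlgebraicClosure ℚ} (hζ : IsPrimitiveRoot ζ p)
    {c : KummerCocycle p ζ} {a : AlgebraicClosure ℚ} (ha : IsKummerRoot c a) (ha0 : a ≠ 0)
    (α : IntermediateField.adjoin ℚ {ζ}) (hα : (α : AlgebraicClosure ℚ) = a ^ p) :
    IsOmegaSq (isPrimitiveRoot_zetaK hζ) α := by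
  haveI : NeZero p := ⟨hp.out.ne_zero⟩
  have hnormal : Normal ℚ (AlgebraicClosure ℚ) := isGalois_QBar.to_normal
  intro σ
  set n : ℕ := (omg (isPrimitiveRoot_zetaK hζ) σ).val with hn
  have hσζK : σ (zetaK ζ) = zetaK ζ ^ n := by
    rw [hn]
    unfold omg
    exact ((isPrimitiveRoot_zetaK hζ).autToPow_spec ℚ σ).symm
  set σ' : GQ := σ.liftNormal (AlgebraicClosure ℚ) with hσ'
  have hσ'K : ∀ x : IntermediateField.adjoin ℚ {ζ},
      σ' (x : AlgebraicClosure ℚ) = ((σ x : IntermediateField.adjoin ℚ {ζ}) : AlgebraicClosure ℚ) :=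
    fun x => AlgEquiv.liftNormal_commutes σ (AlgebraicClosure ℚ) x
  have hσ'ζ : σ' ζ = ζ ^ n := by
    have := hσ'K (zetaK ζ)
    rw [hσζK] at this
    exact this
  -- the element `γ = σ' a / a ^ (n ^ 2)` is fixed by `G_K`
  have hfix : ∀ τ : GQ, τ ζ = ζ → τ (σ' a / a ^ (n ^ 2)) = σ' a / a ^ (n ^ 2) := by
    intro τ hτ
    -- `ρ = σ'⁻¹ τ σ'` fixes `ζ`
    have hρζ : (σ'⁻¹ * τ * σ') ζ = ζ := by
      rw [AlgEquiv.mul_apply, AlgEquiv.mul_apply, hσ'ζ, map_pow, hτ, ← hσ'ζ]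
      change σ'.symm (σ' ζ) = ζ
      exact σ'.symm_apply_apply ζ
    have hρa := ha _ hρζ
    have hκ := c.conj σ' τ n hσ'ζ hτ
    have h1 : τ (σ' a) = σ' ((σ'⁻¹ * τ * σ') a) := by
      rw [AlgEquiv.mul_apply, AlgEquiv.mul_apply]
      change τ (σ' a) = σ' (σ'.symm (τ (σ' a)))
      rw [σ'.apply_symm_apply]
    have h2 : τ (σ' a) = ζ ^ (n * (c.κ (σ'⁻¹ * τ * σ')).val) * σ' a := by
      rw [h1, hρa, map_mul, map_pow, hσ'ζ, ← pow_mul]
    have h3 : τ (a ^ (n ^ 2)) = ζ ^ ((c.κ τ).val * n ^ 2) * a ^ (n ^ 2) := by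
      rw [map_pow, ha τ hτ, mul_pow, ← pow_mul]
    have h4 : ζ ^ (n * (c.κ (σ'⁻¹ * τ * σ')).val) = ζ ^ ((c.κ τ).val * n ^ 2) := by
      exact zeta_pow_eq_of_natCast_eq hζ (natCast_mul_val_eq hκ)
    rw [map_div₀, h2, h3, h4]
    have hz : ζ ^ ((c.κ τ).val * n ^ 2) ≠ 0 := pow_ne_zero _ (hζ.ne_zero (NeZero.ne p))
    field_simp
  have hγmem := mem_adjoin_of_fixed hfix
  refine ⟨⟨σ' a / a ^ (n ^ 2), hγmem⟩, ?_, ?_⟩
  · intro h
    have h1 := congrArg Subtype.val h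
    simp only [ZeroMemClass.coe_zero, div_eq_zero_iff] at h1
    rcases h1 with h1 | h1
    · exact ha0 ((map_eq_zero_iff σ' σ'.injective).mp h1)
    · exact pow_ne_zero _ ha0 h1
  · apply Subtype.ext
    rw [← hσ'K α, hα]
    change σ' (a ^ p) = ((α : AlgebraicClosure ℚ)) ^ omgSq (isPrimitiveRoot_zetaK hζ) σ *
      (σ' a / a ^ (n ^ 2)) ^ p
    rw [hα, map_pow]
    have : omgSq (isPrimitiveRoot_zetaK hζ) σ = n ^ 2 := rfl
    rw [this, div_pow, ← pow_mul, ← pow_mul, mul_comm p (n ^ 2), mul_comm (n ^ 2) p,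
      mul_div_cancel₀ _ (pow_ne_zero _ ha0)]

end Fermat.Agent.S14lib
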