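/-
Item 77 (S14), piece W2a (helper27; sub-architect helper4, architect helper26):
the Lagrange resolvent.  A Kummer cocycle `κ` has a Kummer generator `a ∈ ℚ̄`, `a ≠ 0`, integral:
`τ a = ζ ^ κ(τ) · a` for every `τ` fixing `ζ`.
-/
import Mathlib
import Fermat.Agent.S14lib.WiringDefs

set_option autoImplicit false

namespace Fermat.Agent.S14lib

open Fermat.Agent.FrobLib

variable {p : ℕ} [hp : Fact p.Prime]

section Subgroups

/-- `G_K = {σ | σ ζ = ζ}` -/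
def wrGK (ζ : AlgebraicClosure ℚ) : Subgroup GQ where
  carrier := {σ | σ ζ = ζ}
  mul_mem' := fun {a b} ha hb => by
    show (a * b) ζ = ζ
    rw [AlgEquiv.mul_apply, hb, ha]
  one_mem' := rfl
  inv_mem' := fun {a} ha => by
    show a⁻¹ ζ = ζ
    have h : a⁻¹ (a ζ) = ζ := by
      rw [← AlgEquiv.mul_apply, inv_mul_cancel, AlgEquiv.one_apply]
    rw [ha] at h
    exact h

theorem mem_wrGK {ζ : AlgebraicClosure ℚ} (σ : GQ) : σ ∈ wrGK ζ ↔ σ ζ = ζ := Iff.rfl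

variable {ζ : AlgebraicClosure ℚ} (c : KummerCocycle p ζ)

theorem KummerCocycle.wr_kappa_one : c.κ 1 = 0 := by
  have h := c.hom 1 1 rfl rfl
  rw [mul_one] at h
  simpa using h

/-- `κ` as a homomorphism on `G_K` -/
def KummerCocycle.wrHom : wrGK ζ →* Multiplicative (ZMod p) where
  toFun σ := Multiplicative.ofAdd (c.κ σ.1)
  map_one' := by
    show Multiplicative.ofAdd (c.κ 1) = 1
    rw [c.wr_kappa_one]
    rfl
  map_mul' := fun σ τ => by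
    show Multiplicative.ofAdd (c.κ (σ.1 * τ.1)) = _
    rw [c.hom σ.1 τ.1 σ.2 τ.2]
    rfl

theorem KummerCocycle.wrHom_apply (σ : wrGK ζ) :
    c.wrHom σ = Multiplicative.ofAdd (c.κ σ.1) := rfl

theorem KummerCocycle.wrHom_eq_one_iff (σ : wrGK ζ) : c.wrHom σ = 1 ↔ c.κ σ.1 = 0 := by
  rw [c.wrHom_apply]
  exact ofAdd_eq_one

/-- `N = {σ | σ ζ = ζ ∧ κ σ = 0}` -/
noncomputable def KummerCocycle.wrN : Subgroup GQ := (c.wrHom.ker).map (wrGK ζ).subtype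

theorem KummerCocycle.mem_wrN (σ : GQ) : σ ∈ c.wrN ↔ σ ζ = ζ ∧ c.κ σ = 0 := by
  unfold KummerCocycle.wrN
  rw [Subgroup.mem_map]
  constructor
  · rintro ⟨τ, hτ, rfl⟩
    exact ⟨τ.2, (c.wrHom_eq_one_iff τ).mp (MonoidHom.mem_ker.mp hτ)⟩
  · rintro ⟨h1, h2⟩
    exact ⟨⟨σ, h1⟩, MonoidHom.mem_ker.mpr ((c.wrHom_eq_one_iff _).mpr h2), rfl⟩

theorem KummerCocycle.wrN_isOpen : IsOpen (c.wrN : Set GQ) := by
  have h : (c.wrN : Set GQ) = {σ : GQ | σ ζ = ζ ∧ c.κ σ = 0} := by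
    ext σ
    exact c.mem_wrN σ
  rw [h]
  exact c.isOpen_ker

theorem KummerCocycle.wrN_isClosed : IsClosed (c.wrN : Set GQ) :=
  Subgroup.isClosed_of_isOpen _ c.wrN_isOpen

/-- there is `τ₀ ∈ G_K` with `κ τ₀ = 1` -/
theorem KummerCocycle.exists_kappa_eq_one : ∃ τ0 : wrGK ζ, c.κ τ0.1 = 1 := by
  obtain ⟨τ, hτ, hne⟩ := c.ne_zero
  refine ⟨(⟨τ, hτ⟩ : wrGK ζ) ^ ((c.κ τ)⁻¹).val, ?_⟩
  have h : c.wrHom ((⟨τ, hτ⟩ : wrGK ζ) ^ ((c.κ τ)⁻¹).val)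
      = Multiplicative.ofAdd (1 : ZMod p) := by
    rw [map_pow, c.wrHom_apply, ← ofAdd_nsmul, nsmul_eq_mul, ZMod.natCast_zmod_val,
      inv_mul_cancel₀ hne]
  rw [c.wrHom_apply] at h
  exact Multiplicative.ofAdd.injective h

end Subgroups

section Resolvent

variable {ζ : AlgebraicClosure ℚ} (c : KummerCocycle p ζ)

/-- the fixed field of `N` -/
noncomputable def KummerCocycle.wrF : IntermediateField ℚ (AlgebraicClosure ℚ) :=
  IntermediateField.fixedField c.wrN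

theorem KummerCocycle.mem_wrF (x : AlgebraicClosure ℚ) :
    x ∈ c.wrF ↔ ∀ σ : GQ, σ ζ = ζ → c.κ σ = 0 → σ x = x := by
  unfold KummerCocycle.wrF
  rw [IntermediateField.mem_fixedField_iff]
  constructor
  · intro h σ h1 h2
    exact h σ ((c.mem_wrN σ).mpr ⟨h1, h2⟩)
  · intro h σ hσ
    obtain ⟨h1, h2⟩ := (c.mem_wrN σ).mp hσ
    exact h σ h1 h2

/-- Galois correspondence: an automorphism fixing `F` pointwise lies in `N` (`N` is closed) -/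
theorem KummerCocycle.mem_wrN_of_fixing (σ : GQ) (h : ∀ x ∈ c.wrF, σ x = x) :
    σ ζ = ζ ∧ c.κ σ = 0 := by
  rw [← c.mem_wrN]
  have : IsGalois ℚ (AlgebraicClosure ℚ) := isGalois_QBar
  have key := InfiniteGalois.fixingSubgroup_fixedField
    (k := ℚ) (K := AlgebraicClosure ℚ) (⟨c.wrN, c.wrN_isClosed⟩ : ClosedSubgroup GQ)
  have hmem : σ ∈ (IntermediateField.fixedField
      ((⟨c.wrN, c.wrN_isClosed⟩ : ClosedSubgroup GQ) : Subgroup GQ)).fixingSubgroup := by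
    rw [IntermediateField.mem_fixingSubgroup_iff]
    intro x hx
    exact h x hx
  rw [key] at hmem
  exact hmem

/-- the value of `κ` on `(τ₀^m)⁻¹ τ τ₀^n` -/
theorem KummerCocycle.wr_kappa_conj (τ0 τ : wrGK ζ) (h0 : c.κ τ0.1 = 1) (m n : ℕ) :
    c.κ ((τ0.1 ^ m)⁻¹ * τ.1 * τ0.1 ^ n) = -(m : ZMod p) + c.κ τ.1 + n := by
  have h : c.wrHom ((τ0 ^ m)⁻¹ * τ * τ0 ^ n)
      = Multiplicative.ofAdd (-(m : ZMod p) + c.κ τ.1 + n) := by
    rw [map_mul, map_mul, map_inv, map_pow, map_pow, c.wrHom_apply, c.wrHom_apply, h0,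
      ← ofAdd_nsmul, ← ofAdd_nsmul, ← ofAdd_neg, ← ofAdd_add, ← ofAdd_add, nsmul_eq_mul,
      nsmul_eq_mul, mul_one, mul_one]
  rw [c.wrHom_apply] at h
  exact Multiplicative.ofAdd.injective h

/-- Claim A: `τ (τ₀^n x) = τ₀^(n + κ τ) x` for `x ∈ F` -/
theorem KummerCocycle.wr_apply_pow (τ0 τ : wrGK ζ) (h0 : c.κ τ0.1 = 1) (n : ℕ)
    (x : AlgebraicClosure ℚ) (hx : x ∈ c.wrF) :
    τ.1 ((τ0.1 ^ n) x) = (τ0.1 ^ (n + (c.κ τ.1).val)) x := by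
  have hκ := c.wr_kappa_conj τ0 τ h0 (n + (c.κ τ.1).val) n
  have hz : c.κ ((τ0.1 ^ (n + (c.κ τ.1).val))⁻¹ * τ.1 * τ0.1 ^ n) = 0 := by
    rw [hκ]
    push_cast
    rw [ZMod.natCast_zmod_val]
    ring
  have hG : ((τ0 ^ (n + (c.κ τ.1).val))⁻¹ * τ * τ0 ^ n : wrGK ζ).1 ζ = ζ :=
    ((τ0 ^ (n + (c.κ τ.1).val))⁻¹ * τ * τ0 ^ n : wrGK ζ).2
  have hfix := (c.mem_wrF x).mp hx _ hG hz
  have h2 : (τ0.1 ^ (n + (c.κ τ.1).val))
      (((τ0.1 ^ (n + (c.κ τ.1).val))⁻¹ * τ.1 * τ0.1 ^ n) x)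
      = τ.1 ((τ0.1 ^ n) x) := by
    rw [← AlgEquiv.mul_apply, ← AlgEquiv.mul_apply]
    congr 1
    group
  rw [← h2]
  congr 1

/-- the embeddings `τ₀^k` of `F` into `ℚ̄` -/
noncomputable def KummerCocycle.wrEmb (T : GQ) (k : ℕ) : c.wrF →* AlgebraicClosure ℚ where
  toFun x := (T ^ k) x.1
  map_one' := by simp
  map_mul' := fun x y => by simp

theorem KummerCocycle.wrEmb_apply (T : GQ) (k : ℕ) (x : c.wrF) :
    c.wrEmb T k x = (T ^ k) x.1 := rfl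

theorem KummerCocycle.wrEmb_injective (τ0 : wrGK ζ) (h0 : c.κ τ0.1 = 1) :
    Function.Injective (fun k : ZMod p => c.wrEmb τ0.1 k.val) := by
  intro k l hkl
  have hfix : ∀ x ∈ c.wrF, ((τ0.1 ^ l.val)⁻¹ * 1 * τ0.1 ^ k.val) x = x := by
    intro x hx
    have h1 : (τ0.1 ^ k.val) x = (τ0.1 ^ l.val) x := by
      have := congrArg (fun f : c.wrF →* AlgebraicClosure ℚ => f ⟨x, hx⟩) hkl
      exact this
    rw [mul_one, AlgEquiv.mul_apply, h1, ← AlgEquiv.mul_apply, inv_mul_cancel,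
      AlgEquiv.one_apply]
  have h2 := (c.mem_wrN_of_fixing _ hfix).2
  have h3 := c.wr_kappa_conj τ0 1 h0 l.val k.val
  rw [show ((1 : wrGK ζ) : GQ) = 1 from rfl, c.wr_kappa_one, h2, add_zero,
    ZMod.natCast_zmod_val, ZMod.natCast_zmod_val] at h3
  have h4 : k = l := by linear_combination -h3
  exact h4

/-- the Lagrange resolvent -/
noncomputable def wrRes (p : ℕ) [NeZero p] (ζ : AlgebraicClosure ℚ) (T : GQ)
    (x : AlgebraicClosure ℚ) : AlgebraicClosure ℚ :=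
  ∑ k : ZMod p, (ζ⁻¹) ^ k.val * (T ^ k.val) x

theorem KummerCocycle.exists_wrRes_ne_zero (τ0 : wrGK ζ) (h0 : c.κ τ0.1 = 1) :
    ∃ x ∈ c.wrF, wrRes p ζ τ0.1 x ≠ 0 := by
  by_contra hcon
  push Not at hcon
  have hli := (linearIndependent_monoidHom c.wrF (AlgebraicClosure ℚ)).comp _
    (c.wrEmb_injective τ0 h0)
  rw [Fintype.linearIndependent_iff] at hli
  have hsum : ∑ k : ZMod p, ((ζ⁻¹) ^ k.val : AlgebraicClosure ℚ) •
      (((fun f => f : (c.wrF →* AlgebraicClosure ℚ) → c.wrF → AlgebraicClosure ℚ) ∘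
        fun k : ZMod p => c.wrEmb τ0.1 k.val) k) = 0 := by
    funext x
    rw [Finset.sum_apply]
    simp only [Pi.smul_apply, Function.comp_apply, smul_eq_mul, Pi.zero_apply]
    exact hcon x.1 x.2
  have h1 := hli _ hsum 0
  rw [ZMod.val_zero, pow_zero] at h1
  exact one_ne_zero h1

theorem KummerCocycle.wr_pow_p_apply (τ0 : wrGK ζ) (h0 : c.κ τ0.1 = 1)
    (x : AlgebraicClosure ℚ) (hx : x ∈ c.wrF) : (τ0.1 ^ p) x = x := by
  have h3 := c.wr_kappa_conj τ0 1 h0 0 p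
  rw [show ((1 : wrGK ζ) : GQ) = 1 from rfl, c.wr_kappa_one, pow_zero, inv_one, one_mul, one_mul,
    Nat.cast_zero, neg_zero, zero_add, zero_add, ZMod.natCast_self] at h3
  exact (c.mem_wrF x).mp hx _ (τ0 ^ p : wrGK ζ).2 h3

theorem KummerCocycle.wr_periodic (hζ : IsPrimitiveRoot ζ p) (τ0 : wrGK ζ)
    (h0 : c.κ τ0.1 = 1) (x : AlgebraicClosure ℚ) (hx : x ∈ c.wrF) :
    Function.Periodic (fun n : ℕ => (ζ⁻¹) ^ n * (τ0.1 ^ n) x) p := by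
  intro n
  show (ζ⁻¹) ^ (n + p) * (τ0.1 ^ (n + p)) x = (ζ⁻¹) ^ n * (τ0.1 ^ n) x
  rw [pow_add, pow_add, AlgEquiv.mul_apply, c.wr_pow_p_apply τ0 h0 x hx, inv_pow ζ p,
    hζ.pow_eq_one, inv_one, mul_one]

/-- the resolvent of an element of `F` is a Kummer generator -/
theorem KummerCocycle.wrRes_isKummerRoot (hζ : IsPrimitiveRoot ζ p) (τ0 : wrGK ζ)
    (h0 : c.κ τ0.1 = 1) (x : AlgebraicClosure ℚ) (hx : x ∈ c.wrF) :
    IsKummerRoot c (wrRes p ζ τ0.1 x) := by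
  intro τ hτ
  have hζ0 : ζ ≠ 0 := hζ.ne_zero hp.out.ne_zero
  have hper := c.wr_periodic hζ τ0 h0 x hx
  unfold wrRes
  rw [map_sum, Finset.mul_sum]
  have hstep : ∀ k : ZMod p, τ ((ζ⁻¹) ^ k.val * (τ0.1 ^ k.val) x)
      = ζ ^ (c.κ τ).val * ((ζ⁻¹) ^ (k + c.κ τ).val * (τ0.1 ^ (k + c.κ τ).val) x) := by
    intro k
    have h1 : τ ((τ0.1 ^ k.val) x) = (τ0.1 ^ (k.val + (c.κ τ).val)) x :=
      c.wr_apply_pow τ0 ⟨τ, hτ⟩ h0 k.val x hx
    have h2 : (ζ⁻¹) ^ (k + c.κ τ).val * (τ0.1 ^ (k + c.κ τ).val) x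
        = (ζ⁻¹) ^ (k.val + (c.κ τ).val) * (τ0.1 ^ (k.val + (c.κ τ).val)) x := by
      have h := hper.map_mod_nat (k.val + (c.κ τ).val)
      rw [← ZMod.val_add] at h
      exact h
    rw [h2, map_mul, map_pow, map_inv₀, hτ, h1, inv_pow, inv_pow]
    field_simp
    rw [pow_add]
    ring
  rw [Finset.sum_congr rfl (fun k _ => hstep k)]
  exact Fintype.sum_equiv (Equiv.addRight (c.κ τ)) _ _ (fun k => rfl)

end Resolvent

/-- **W2a (Lagrange resolvent).** -/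
theorem KummerCocycle.exists_root {ζ : AlgebraicClosure ℚ} (hζ : IsPrimitiveRoot ζ p)
    (c : KummerCocycle p ζ) :
    ∃ a : AlgebraicClosure ℚ, a ≠ 0 ∧ IsIntegral ℤ a ∧ IsKummerRoot c a := by
  obtain ⟨τ0, h0⟩ := c.exists_kappa_eq_one
  obtain ⟨x, hx, hne⟩ := c.exists_wrRes_ne_zero τ0 h0
  have hroot := c.wrRes_isKummerRoot hζ τ0 h0 x hx
  have halgQ : IsAlgebraic ℚ (wrRes p ζ τ0.1 x) :=
    (AlgebraicClosure.isAlgebraic ℚ).isAlgebraic _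
  have halg : IsAlgebraic ℤ (wrRes p ζ τ0.1 x) :=
    (IsFractionRing.isAlgebraic_iff ℤ ℚ (AlgebraicClosure ℚ)).mpr halgQ
  obtain ⟨d, hd0, hd⟩ := halg.exists_integral_multiple
  refine ⟨d • wrRes p ζ τ0.1 x, ?_, hd, ?_⟩
  · rw [zsmul_eq_mul]
    exact mul_ne_zero (Int.cast_ne_zero.mpr hd0) hne
  · intro τ hτ
    rw [zsmul_eq_mul, map_mul, map_intCast, hroot τ hτ]
    ring

end Fermat.Agent.S14lib
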