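import Mathlib
import Fermat.Agent.S14lib.WiringCocycle
import Fermat.Agent.S14lib.WiringRoot
import Fermat.Agent.S14lib.WiringOmega
import Fermat.Agent.S14lib.WiringBridgeUnram
import Fermat.Agent.S14lib.WiringBridgeSplit

/-!
# S14 (item 77), piece W: `exists_kummer_datum`

A non-split admissible extension `V` gives a Kummer generator `α ∈ K = ℚ(ζ_p)` of an everywhere
unramified, `π`-split cyclic extension of `K` in the `ω²`-eigenspace which is not a `p`-th power.
Assembly of W1 (`exists_kummerCocycle`), W2a (`KummerCocycle.exists_root`), W2b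
(`IsKummerRoot.pow_mem/isOmegaSq/not_pow`), W3 (`IsKummerRoot.isPthPowerIdeal`) and W4
(`IsKummerRoot.isLocalPthPower`).
-/

set_option autoImplicit false

namespace Fermat.Agent.S14lib

open NumberField Fermat.Agent.FrobLib
open scoped Pointwise

variable {p : ℕ} [hp : Fact p.Prime]

/-- **W.** A non-split admissible extension gives a Kummer generator `α` of an everywhere
unramified, `π`-split cyclic extension of `ℚ(ζ_p)` in the `ω²`-eigenspace, not a `p`-th power. -/
theorem exists_kummer_datum (h3 : 3 ≤ p)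
    (V : Type) [AddCommGroup V] [Module (ZMod p) V]
    [DistribMulAction (AlgebraicClosure ℚ ≃ₐ[ℚ] AlgebraicClosure ℚ) V]
    [SMulCommClass (AlgebraicClosure ℚ ≃ₐ[ℚ] AlgebraicClosure ℚ) (ZMod p) V]
    (C : Submodule (ZMod p) V) (hadm : ExtCitation.IsAdmissibleExtensionCts p V C)
    (hns : ¬ ExtCitation.SplitsGlobally C) :
    ∃ (K : Type) (_ : Field K) (_ : NumberField K) (_ : IsCyclotomicExtension {p} ℚ K)
      (ζ : K) (hζ : IsPrimitiveRoot ζ p) (α : K),
      α ≠ 0 ∧ IsOmegaSq hζ α ∧ IsPthPowerIdeal p α ∧ IsLocalPthPower hζ α ∧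
        ¬ ∃ β : K, α = β ^ p := by
  haveI : NeZero p := ⟨hp.out.ne_zero⟩
  obtain ⟨ζ, hζ⟩ := exists_primitiveRoot_QBar p
  obtain ⟨c⟩ := exists_kummerCocycle h3 V C hadm hns ζ hζ
  obtain ⟨a, ha0, hai, ha⟩ := c.exists_root hζ
  refine ⟨IntermediateField.adjoin ℚ {ζ}, inferInstance, inferInstance,
    isCyclotomicExtension_adjoin_simple hζ, zetaK ζ,
    isPrimitiveRoot_zetaK hζ, ⟨a ^ p, ha.pow_mem hζ⟩, ?_, ?_, ?_, ?_, ?_⟩
  · intro h
    have := congrArg Subtype.val h
    exact ha0 (pow_eq_zero_iff (hp.out.ne_zero) |>.mp this)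
  · exact ha.isOmegaSq hζ ha0 _ rfl
  · exact ha.isPthPowerIdeal hζ ha0 _ rfl
  · exact ha.isLocalPthPower h3 hζ ha0 hai _ rfl
  · exact ha.not_pow hζ ha0 _ rfl

end Fermat.Agent.S14lib
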