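import Mathlib
import Fermat.Agent.S14lib.ThaineEps

set_option autoImplicit false
set_option synthInstance.maxHeartbeats 400000
set_option linter.style.haveILetI false
set_option linter.unusedSectionVars false
set_option linter.deprecated false

noncomputable section

namespace Fermat.Agent.S14lib

open NumberField Polynomial IntermediateField UniqueFactorizationMonoid
open scoped Pointwise

/-- an `ℓ`-th root of unity is `≡ 1` modulo a prime containing `ℓ` -/
lemma tt_sub_one_mem {R : Type*} [CommRing R] (ℓ : ℕ) [hℓ : Fact ℓ.Prime] (Q : Ideal R)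
    [hQ : Q.IsPrime] (h : (ℓ : R) ∈ Q) {y : R} (hy : y ^ ℓ = 1) : y - 1 ∈ Q := by
  haveI : Nontrivial (R ⧸ Q) := Ideal.Quotient.nontrivial_iff.mpr hQ.ne_top
  haveI : CharP (R ⧸ Q) ℓ := by
    rw [CharP.charP_iff_prime_eq_zero hℓ.out]
    rw [← map_natCast (Ideal.Quotient.mk Q), Ideal.Quotient.eq_zero_iff_mem]
    exact h
  have h1 : (Ideal.Quotient.mk Q y - 1) ^ ℓ = 0 := by
    rw [sub_pow_char, ← map_pow, hy, map_one, one_pow, sub_self]
  have h2 : Ideal.Quotient.mk Q y - 1 = 0 := pow_eq_zero_iff (hℓ.out.ne_zero) |>.mp h1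
  rw [← Ideal.Quotient.eq_zero_iff_mem, map_sub, map_one]
  exact h2

variable {p : ℕ} [hp : Fact p.Prime]
variable {K : Type*} [Field K] [NumberField K] [IsCyclotomicExtension {p} ℚ K]
variable {ζ : K} (hζ : IsPrimitiveRoot ζ p)
variable (ℓ : ℕ) [hℓ : Fact ℓ.Prime]

/-- T2c: the Galois group acts trivially modulo the primes over `ℓ` (`𝓞 L = ℤ[ζ_p ζ_ℓ]`,
`ζ_ℓ ≡ 1`) -/
theorem th_smul_sub_mem (hℓp : ℓ % p = 1) (Q : Ideal (𝓞 (CyclotomicField ℓ K)))
    [Q.IsPrime] (h : (ℓ : 𝓞 (CyclotomicField ℓ K)) ∈ Q)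
    (σ : CyclotomicField ℓ K ≃ₐ[K] CyclotomicField ℓ K) (x : 𝓞 (CyclotomicField ℓ K)) :
    σ • x - x ∈ Q := by
  haveI : NeZero p := ⟨hp.out.ne_zero⟩
  have hζ := IsCyclotomicExtension.zeta_spec p ℚ K
  haveI : NeZero (p * ℓ) := ⟨Nat.mul_ne_zero hp.out.ne_zero hℓ.out.ne_zero⟩
  haveI hcyc : IsCyclotomicExtension {p * ℓ} ℚ (CyclotomicField ℓ K) :=
    th_isCyclotomicExtension hζ ℓ hℓp
  have hθ := th_isPrimitiveRoot_mul hζ ℓ hℓp
  have htop := IsCyclotomicExtension.Rat.adjoin_singleton_eq_top hθ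
  have hx : x ∈ Algebra.adjoin ℤ ({hθ.toInteger} : Set (𝓞 (CyclotomicField ℓ K))) := by
    rw [htop]
    trivial
  -- the root of unity `ζ_ℓ` and its conjugate are `≡ 1`
  have hpow : thZetaInt K ℓ ^ ℓ = 1 := by
    apply RingOfIntegers.ext
    show algebraMap (𝓞 (CyclotomicField ℓ K)) (CyclotomicField ℓ K) (thZetaInt K ℓ ^ ℓ)
      = algebraMap (𝓞 (CyclotomicField ℓ K)) (CyclotomicField ℓ K) 1
    rw [map_pow, map_one]
    exact (thZeta_spec (K := K) ℓ).pow_eq_one
  have h1 : thZetaInt K ℓ - 1 ∈ Q := by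
    apply tt_sub_one_mem ℓ Q h
    exact hpow
  have h2 : σ • thZetaInt K ℓ - 1 ∈ Q := by
    apply tt_sub_one_mem ℓ Q h
    rw [← smul_pow']
    rw [hpow, smul_one]
  have hθeq : hθ.toInteger
      = algebraMap (𝓞 K) (𝓞 (CyclotomicField ℓ K)) hζ.toInteger * thZetaInt K ℓ := by
    apply RingOfIntegers.ext
    rfl
  have hfix : σ • (algebraMap (𝓞 K) (𝓞 (CyclotomicField ℓ K)) hζ.toInteger)
      = algebraMap (𝓞 K) (𝓞 (CyclotomicField ℓ K)) hζ.toInteger := by
    apply RingOfIntegers.ext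
    show σ (algebraMap K (CyclotomicField ℓ K) (IsCyclotomicExtension.zeta p ℚ K)) = _
    exact σ.commutes _
  induction hx using Algebra.adjoin_induction with
  | mem y hy =>
    rw [Set.mem_singleton_iff] at hy
    rw [hy, hθeq, smul_mul', hfix, ← mul_sub]
    apply Ideal.mul_mem_left
    have : σ • thZetaInt K ℓ - thZetaInt K ℓ
        = (σ • thZetaInt K ℓ - 1) - (thZetaInt K ℓ - 1) := by ring
    rw [this]
    exact Q.sub_mem h2 h1
  | algebraMap n =>
    have : σ • (algebraMap ℤ (𝓞 (CyclotomicField ℓ K)) n) = algebraMap ℤ _ n := by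
      apply RingOfIntegers.ext
      show σ ((algebraMap ℤ (𝓞 (CyclotomicField ℓ K)) n : 𝓞 (CyclotomicField ℓ K)) :
        CyclotomicField ℓ K) = _
      simp
    rw [this, sub_self]
    exact Q.zero_mem
  | add a b _ _ ha hb =>
    have : σ • (a + b) - (a + b) = (σ • a - a) + (σ • b - b) := by
      rw [smul_add]; ring
    rw [this]
    exact Q.add_mem ha hb
  | mul a b _ _ ha hb =>
    have : σ • (a * b) - a * b = (σ • a) * (σ • b - b) + (σ • a - a) * b := by
      rw [smul_mul']; ring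
    rw [this]
    exact Q.add_mem (Q.mul_mem_left _ hb) (Q.mul_mem_right _ ha)

end Fermat.Agent.S14lib

end
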